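import Fermat.Agent.TW.FreeH
import Fermat.Agent.KumG.Adic
import Fermat.Prelude.Thm_IsAdicComplete_of_module_finite

/-!
# The Galois representation on the lattice of level `Γ`
-/

set_option autoImplicit false
set_option linter.unusedSectionVars false
set_option linter.style.haveILetI false

open Matrix.SpecialLinearGroup
open scoped MatrixGroups TensorProduct
open IsLocalRing
open Fermat.Agent.KumG Fermat.Agent.GalRep Fermat.Agent.Places Fermat.Agent.Cheb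

namespace Fermat.Agent.TW

noncomputable section

section lim

variable {O : Type} [CommRing O] [IsLocalRing O] [IsNoetherianRing O]
  {X : Type} [AddCommGroup X] [Module O X] [Module.Finite O X]

/-- submodules are closed -/
theorem mem_of_forall_sup (P : Submodule O X) {x : X}
    (h : ∀ n : ℕ, x ∈ P ⊔ (maximalIdeal O) ^ n • (⊤ : Submodule O X)) : x ∈ P := by
  rw [← Submodule.Quotient.mk_eq_zero]
  refine IsHausdorff.haus' (I := maximalIdeal O) _ fun n => ?_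
  rw [SModEq.zero]
  obtain ⟨a, ha, b, hb, hab⟩ := Submodule.mem_sup.1 (h n)
  have h1 : (Submodule.Quotient.mk x : X ⧸ P) = P.mkQ b := by
    rw [← hab, Submodule.Quotient.mk_add, (Submodule.Quotient.mk_eq_zero P).2 ha, zero_add]
    rfl
  rw [h1]
  exact map_mem_smul_top _ _ hb

theorem eq_of_forall_pow {p : ℕ} (hpO : (p : O) ∈ maximalIdeal O) {x y : X}
    (h : ∀ n : ℕ, ∃ z, x = y + (p ^ n : O) • z) : x = y := by
  rw [← sub_eq_zero, ← Submodule.mem_bot O]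
  refine mem_of_forall_sup _ fun n => ?_
  obtain ⟨z, hz⟩ := h n
  rw [hz, add_sub_cancel_left]
  exact Submodule.mem_sup_right (Submodule.smul_mem_smul (Ideal.pow_mem_pow hpO n) trivial)

/-- limits of `p`-adic Cauchy sequences -/
theorem exists_lim_seq [IsAdicComplete (maximalIdeal O) O] {p : ℕ}
    (hpO : (p : O) ∈ maximalIdeal O) (y : ℕ → X)
    (hy : ∀ n, ∃ z, y (n + 1) = y n + (p ^ n : O) • z) : ∃ x, ∀ n, ∃ z, x = y n + (p ^ n : O) • z := by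
  haveI : IsAdicComplete (maximalIdeal O) X := IsAdicComplete.of_module_finite _ _
  have h1 : ∀ n k, ∃ z, y (n + k) = y n + (p ^ n : O) • z := by
    intro n k
    induction k with
    | zero => exact ⟨0, by simp⟩
    | succ k ih =>
      obtain ⟨z, hz⟩ := ih
      obtain ⟨w, hw⟩ := hy (n + k)
      refine ⟨z + (p ^ k : O) • w, ?_⟩
      rw [← add_assoc, hw, hz, smul_add, smul_smul, ← pow_add, add_assoc]
  have hsm : ∀ (n : ℕ) (z : X), (p ^ n : O) • z ∈ (maximalIdeal O) ^ n • (⊤ : Submodule O X) :=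
    fun n z => Submodule.smul_mem_smul (Ideal.pow_mem_pow hpO n) trivial
  obtain ⟨x, hx⟩ := IsPrecomplete.prec' (I := maximalIdeal O) y (by
    intro m n hmn
    obtain ⟨k, rfl⟩ := Nat.exists_eq_add_of_le hmn
    obtain ⟨z, hz⟩ := h1 m k
    rw [SModEq.comm, SModEq.sub_mem, hz, add_sub_cancel_left]
    exact hsm m z)
  refine ⟨x, fun n => ?_⟩
  have h2 : x - y n ∈ LinearMap.range (LinearMap.lsmul O X (p ^ n : O)) := by
    refine mem_of_forall_sup _ fun k => ?_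
    have h3 : x - y n = (y (n + k) - y n) + (x - y (n + k)) := by abel
    rw [h3]
    refine Submodule.add_mem_sup ?_ ?_
    · obtain ⟨z, hz⟩ := h1 n k
      exact ⟨z, by rw [hz, add_sub_cancel_left]; rfl⟩
    · have h4 := (hx (n + k)).symm
      rw [SModEq.sub_mem] at h4
      refine Submodule.smul_mono_left (Ideal.pow_le_pow_right (Nat.le_add_left k n)) h4
  obtain ⟨z, hz⟩ := h2
  exact ⟨z, by rw [← sub_eq_iff_eq_add', ← hz]; rfl⟩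

/-- limits of compatible families of endomorphisms -/
theorem exists_lim_end [IsAdicComplete (maximalIdeal O) O] {p : ℕ}
    (hpO : (p : O) ∈ maximalIdeal O) {L : Type} [AddCommGroup L] [Module.Finite ℤ L]
    (r : ℕ → L → L) (hadd : ∀ n x y, ∃ z, r n (x + y) = r n x + r n y + ((p : ℤ) ^ n) • z)
    (hr : ∀ n x, ∃ z, r (n + 1) x = r n x + ((p : ℤ) ^ n) • z) :
    ∃ F : O ⊗[ℤ] L →ₗ[O] O ⊗[ℤ] L, ∀ n x, ∃ z, F (1 ⊗ₜ x) = 1 ⊗ₜ (r n x) + (p ^ n : O) • z := by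
  have hsm : ∀ (n : ℕ) (z : L), (1 : O) ⊗ₜ[ℤ] (((p : ℤ) ^ n) • z) =
      (p ^ n : O) • ((1 : O) ⊗ₜ[ℤ] z) := by
    intro n z
    rw [TensorProduct.tmul_smul, ← Int.cast_smul_eq_zsmul O]
    push_cast
    rfl
  have h1 : ∀ x : L, ∃ y : O ⊗[ℤ] L, ∀ n, ∃ z, y = (1 : O) ⊗ₜ[ℤ] (r n x) + (p ^ n : O) • z := by
    intro x
    refine exists_lim_seq hpO (fun n => (1 : O) ⊗ₜ[ℤ] (r n x)) fun n => ?_
    obtain ⟨z, hz⟩ := hr n x
    exact ⟨(1 : O) ⊗ₜ[ℤ] z, by rw [hz, TensorProduct.tmul_add, hsm]⟩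
  choose f hf using h1
  let f' : L →+ O ⊗[ℤ] L := AddMonoidHom.mk' f (fun x y => by
    refine eq_of_forall_pow hpO fun n => ?_
    obtain ⟨z1, h1⟩ := hf (x + y) n
    obtain ⟨z2, h2⟩ := hf x n
    obtain ⟨z3, h3⟩ := hf y n
    obtain ⟨z4, h4⟩ := hadd n x y
    refine ⟨z1 - z2 - z3 + (1 : O) ⊗ₜ[ℤ] z4, ?_⟩
    rw [h1, h2, h3, h4, TensorProduct.tmul_add, TensorProduct.tmul_add, hsm]
    module)
  refine ⟨LinearMap.liftBaseChange O f'.toIntLinearMap, fun n x => ?_⟩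
  obtain ⟨z, hz⟩ := hf x n
  refine ⟨z, ?_⟩
  rw [LinearMap.liftBaseChange_tmul, one_smul]
  exact hz

end lim

/-! ### approximation of operators -/

section apx

variable {O : Type} [CommRing O] {Γ Γ' Γ'' : Subgroup SL(2, ℤ)} [LvlG Γ] [LvlG Γ'] [LvlG Γ'']
  {m : ℕ} [NeZero m]

/-- `F` is congruent to `f` modulo `m` -/
def Apx (m : ℕ) [NeZero m] (F : O ⊗[ℤ] LZ Γ →ₗ[O] O ⊗[ℤ] LZ Γ') (f : XL Γ m → XL Γ' m) : Prop :=
  ∀ (φ : LZ Γ) (ψ : LZ Γ'), f (mkX φ) = mkX ψ → ∃ z, F (1 ⊗ₜ φ) = 1 ⊗ₜ ψ + (m : O) • z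

theorem one_tmul_smul {L : Type} [AddCommGroup L] (m : ℕ) (z : L) :
    (1 : O) ⊗ₜ[ℤ] (m • z) = (m : O) • ((1 : O) ⊗ₜ[ℤ] z) := by
  rw [TensorProduct.tmul_smul, Nat.cast_smul_eq_nsmul]

theorem exists_of_mkX {φ ψ : LZ Γ} (h : (mkX φ : XL Γ m) = mkX ψ) : ∃ χ : LZ Γ, φ = ψ + m • χ := by
  rw [mkX_eq_iff, ← sub_eq_zero, ← redI_sub, redI_eq_zero] at h
  obtain ⟨χ, hχ⟩ := h
  exact ⟨χ, by rw [← hχ]; abel⟩

theorem Apx.comp {F : O ⊗[ℤ] LZ Γ →ₗ[O] O ⊗[ℤ] LZ Γ'} {F' : O ⊗[ℤ] LZ Γ' →ₗ[O] O ⊗[ℤ] LZ Γ''}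
    {f : XL Γ m → XL Γ' m} {f' : XL Γ' m → XL Γ'' m} (h' : Apx m F' f') (h : Apx m F f) :
    Apx m (F' ∘ₗ F) (f' ∘ f) := by
  intro φ ψ e
  obtain ⟨χ, hχ⟩ := mkX_surjective (f (mkX φ))
  obtain ⟨z, hz⟩ := h φ χ hχ.symm
  obtain ⟨w, hw⟩ := h' χ ψ (by rw [hχ]; exact e)
  refine ⟨w + F' z, ?_⟩
  rw [LinearMap.comp_apply, hz, map_add, map_smul, hw, smul_add, add_assoc]

theorem Apx.add {F G : O ⊗[ℤ] LZ Γ →ₗ[O] O ⊗[ℤ] LZ Γ'} {f g : XL Γ m → XL Γ' m}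
    (hf : Apx m F f) (hg : Apx m G g) : Apx m (F + G) (fun x => f x + g x) := by
  intro φ ψ e
  obtain ⟨χ, hχ⟩ := mkX_surjective (f (mkX φ))
  obtain ⟨z, hz⟩ := hf φ χ hχ.symm
  obtain ⟨w, hw⟩ := hg φ (ψ - χ) (by
    rw [map_sub, hχ, ← e]
    exact (add_sub_cancel_left _ _).symm)
  refine ⟨z + w, ?_⟩
  rw [LinearMap.add_apply, hz, hw, TensorProduct.tmul_sub]
  module

theorem Apx.neg {F : O ⊗[ℤ] LZ Γ →ₗ[O] O ⊗[ℤ] LZ Γ'} {f : XL Γ m → XL Γ' m}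
    (hf : Apx m F f) : Apx m (-F) (fun x => - f x) := by
  intro φ ψ e
  obtain ⟨w, hw⟩ := hf φ (-ψ) (by rw [map_neg, ← e, neg_neg])
  refine ⟨-w, ?_⟩
  rw [LinearMap.neg_apply, hw, TensorProduct.tmul_neg]
  module

theorem Apx.sub {F G : O ⊗[ℤ] LZ Γ →ₗ[O] O ⊗[ℤ] LZ Γ'} {f g : XL Γ m → XL Γ' m}
    (hf : Apx m F f) (hg : Apx m G g) : Apx m (F - G) (fun x => f x - g x) := by
  rw [sub_eq_add_neg]
  have h := hf.add hg.neg
  simpa only [sub_eq_add_neg] using h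

theorem Apx.nsmul {F : O ⊗[ℤ] LZ Γ →ₗ[O] O ⊗[ℤ] LZ Γ'} {f : XL Γ m → XL Γ' m}
    (hf : Apx m F f) (c : ℕ) : Apx m ((c : O) • F) (fun x => c • f x) := by
  intro φ ψ e
  obtain ⟨χ, hχ⟩ := mkX_surjective (f (mkX φ))
  obtain ⟨z, hz⟩ := hf φ χ hχ.symm
  have e' : (mkX ψ : XL Γ' m) = mkX (c • χ) := by rw [map_nsmul, hχ, ← e]
  obtain ⟨ω, hω⟩ := exists_of_mkX e'
  refine ⟨(c : O) • z - (1 : O) ⊗ₜ[ℤ] ω, ?_⟩
  rw [LinearMap.smul_apply, hz, hω, TensorProduct.tmul_add, one_tmul_smul, one_tmul_smul]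
  module

theorem Apx.base (T : LZ Γ →ₗ[ℤ] LZ Γ') {f : XL Γ m → XL Γ' m}
    (hf : ∀ φ, f (mkX φ) = mkX (T φ)) : Apx m (T.baseChange O) f := by
  intro φ ψ e
  rw [hf] at e
  obtain ⟨χ, hχ⟩ := exists_of_mkX e
  refine ⟨(1 : O) ⊗ₜ[ℤ] χ, ?_⟩
  rw [LinearMap.baseChange_tmul, hχ, TensorProduct.tmul_add, one_tmul_smul]

theorem Apx.id : Apx (O := O) (Γ := Γ) m LinearMap.id id := by
  intro φ ψ e
  obtain ⟨χ, hχ⟩ := exists_of_mkX e
  refine ⟨(1 : O) ⊗ₜ[ℤ] χ, ?_⟩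
  rw [LinearMap.id_apply, hχ, TensorProduct.tmul_add, one_tmul_smul]

variable {p : ℕ} [hp : Fact p.Prime] [IsLocalRing O] [IsNoetherianRing O]
  [Module.Finite ℤ (LZ Γ')]

theorem Apx.ext (hpO : (p : O) ∈ maximalIdeal O) {F G : O ⊗[ℤ] LZ Γ →ₗ[O] O ⊗[ℤ] LZ Γ'}
    (h : ∀ n, ∃ f g : XL Γ (p ^ n) → XL Γ' (p ^ n), Apx (p ^ n) F f ∧ Apx (p ^ n) G g ∧
      ∀ x, f x = g x) : F = G := by
  refine LinearMap.ext fun x => bc_ext O (f := F) (g := G) (fun φ => ?_) x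
  refine eq_of_forall_pow hpO fun n => ?_
  obtain ⟨f, g, hf, hg, hfg⟩ := h n
  obtain ⟨χ, hχ⟩ := mkX_surjective (f (mkX φ))
  obtain ⟨z, hz⟩ := hf φ χ hχ.symm
  obtain ⟨w, hw⟩ := hg φ χ (by rw [hχ, hfg])
  refine ⟨z - w, ?_⟩
  rw [hz, hw]
  push_cast
  module

theorem Apx.ext' (hpO : (p : O) ∈ maximalIdeal O) {F G : O ⊗[ℤ] LZ Γ →ₗ[O] O ⊗[ℤ] LZ Γ'}
    {f g : ∀ n, XL Γ (p ^ n) → XL Γ' (p ^ n)} (hf : ∀ n, Apx (p ^ n) F (f n))
    (hg : ∀ n, Apx (p ^ n) G (g n)) (h : ∀ n x, f n x = g n x) : F = G :=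
  Apx.ext hpO fun n => ⟨f n, g n, hf n, hg n, h n⟩

end apx

/-! ### compatibility of the Galois actions -/

section compat

variable {Γ : Subgroup SL(2, ℤ)} [LvlG Γ] [RatG Γ] {K : Type} [Field K] [Algebra ℚ K]
  [IsAlgClosed K] [CharZero K] (ι : K →+* ℂ)

theorem cls_of_dvd {m M : ℕ} [NeZero m] [NeZero M] (h : m ∣ M) {x : FG Γ K} (hx : Good M x)
    {φ : LZ Γ} (hφ : cls ι M x = mkX φ) : cls ι m x = mkX φ := by
  obtain ⟨ψ, hψ⟩ := hx.exists_mk ι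
  rw [cls_eq ι hx hψ, mkX_eq_iff] at hφ
  rw [hφ] at hψ
  have h1 := hψ.reduce h
  rw [redZ_redI] at h1
  exact cls_eq ι (hx.of_dvd (Nat.mul_dvd_mul_right h _)) h1

theorem rhoF_of_dvd {m M : ℕ} [NeZero m] [NeZero M] (h : m ∣ M) (σ : K ≃ₐ[ℚ] K) {φ ψ : LZ Γ}
    (hφ : rhoF ι M σ (mkX φ) = mkX ψ) : rhoF ι m σ (mkX φ) = mkX ψ := by
  obtain ⟨x, hx, hx'⟩ := exists_cls_eq' (K := K) ι (mkX φ : XL Γ M)
  rw [← hx', rhoF_cls ι σ hx] at hφ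
  rw [← cls_of_dvd ι h hx hx', rhoF_cls ι σ (hx.of_dvd (Nat.mul_dvd_mul_right h _))]
  exact cls_of_dvd ι h (KD.gal σ hx) hφ

end compat

/-! ### the Galois representation -/

section rho

variable {O : Type} [CommRing O] [IsLocalRing O] [IsNoetherianRing O]
  [IsAdicComplete (maximalIdeal O) O] {p : ℕ} [hp : Fact p.Prime]
  {Γ : Subgroup SL(2, ℤ)} [LvlG Γ] [RatG Γ] [Module.Finite ℤ (LZ Γ)]
  (ι : AlgebraicClosure ℚ →+* ℂ)

theorem exists_rhoO (hpO : (p : O) ∈ maximalIdeal O) (σ : GQ) :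
    ∃ F : O ⊗[ℤ] LZ Γ →ₗ[O] O ⊗[ℤ] LZ Γ, ∀ n, Apx (p ^ n) F (rhoF ι (p ^ n) σ) := by
  choose r hr using fun (n : ℕ) (φ : LZ Γ) => mkX_surjective (rhoF ι (p ^ n) σ (mkX φ))
  have key : ∀ (n : ℕ) (a b : LZ Γ), (mkX a : XL Γ (p ^ n)) = mkX b →
      ∃ z, a = b + ((p : ℤ) ^ n) • z := by
    intro n a b h
    obtain ⟨z, hz⟩ := exists_of_mkX h
    refine ⟨z, ?_⟩
    rw [hz, ← natCast_zsmul]
    push_cast
    rfl
  obtain ⟨F, hF⟩ := exists_lim_end hpO r (fun n x y => key n _ _ (by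
    rw [hr, map_add, map_add, hr, hr, rhoF_add])) (fun n x => key n _ _ (by
    rw [hr]
    exact (rhoF_of_dvd ι (pow_dvd_pow p (Nat.le_succ n)) σ (hr (n + 1) x).symm).symm))
  refine ⟨F, fun n φ ψ h => ?_⟩
  obtain ⟨z, hz⟩ := hF n φ
  obtain ⟨w, hw⟩ := exists_of_mkX ((hr n φ).trans h)
  refine ⟨z + (1 : O) ⊗ₜ[ℤ] w, ?_⟩
  rw [hz, hw, TensorProduct.tmul_add, one_tmul_smul]
  push_cast
  module

/-- The Galois representation on the lattice. -/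
def rhoO (hpO : (p : O) ∈ maximalIdeal O) : GQ →* Module.End O (O ⊗[ℤ] LZ Γ) where
  toFun σ := (exists_rhoO ι hpO σ).choose
  map_one' := Apx.ext' hpO (exists_rhoO ι hpO 1).choose_spec (fun n => Apx.id) fun n x =>
    rhoF_one ι x
  map_mul' σ τ := Apx.ext' hpO (exists_rhoO ι hpO (σ * τ)).choose_spec
    (fun n => ((exists_rhoO ι hpO σ).choose_spec n).comp ((exists_rhoO ι hpO τ).choose_spec n))
    fun n x => rhoF_mul ι σ τ x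

theorem apx_rhoO (hpO : (p : O) ∈ maximalIdeal O) (σ : GQ) (n : ℕ) :
    Apx (p ^ n) (rhoO (Γ := Γ) ι hpO σ) (rhoF ι (p ^ n) σ) :=
  (exists_rhoO ι hpO σ).choose_spec n

end rho

end

end Fermat.Agent.TW
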