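import Fermat.Agent.TW.YH

/-!
# The auxiliary prime
-/

set_option autoImplicit false
set_option linter.unusedSectionVars false
set_option linter.style.haveILetI false

open IsLocalRing
open Fermat.Agent.GalRep Fermat.Agent.Places Fermat.Agent.Cheb

namespace Fermat.Agent.TW

noncomputable section

theorem t_pow_eq_two {G k : Type*} [Group G] [CommRing k] {t D : G → k} (h : IsPseudoRep t D) {τ : G}
    (ht : t τ = 2) (hD : D τ = 1) (n : ℕ) : t (τ ^ n) = 2 := by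
  induction n using Nat.strong_induction_on with
  | _ n ih =>
    rcases n with _ | _ | n
    · rw [pow_zero, h.t_one]
    · rw [zero_add, pow_one, ht]
    · have h1 := h.rel (τ ^ (n + 1)) τ
      rw [← pow_succ, hD, one_mul, ih (n + 1) (by omega), ht] at h1
      have h2 : τ ^ (n + 1) * τ⁻¹ = τ ^ n := by rw [pow_succ, mul_inv_cancel_right]
      rw [h2, ih n (by omega)] at h1
      linear_combination h1

theorem exists_aux {k : Type*} [CommRing k] {p : ℕ} [NeZero p] (hpk : (p : k) = 0) {t D : GQ → k}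
    (hps : IsPseudoRep t D) (htc : IsLocConst t) {S₀ : Set ℕ}
    (hD : ∀ l : ℕ, l.Prime → l ∉ S₀ → ∀ A : ValuationSubring (AlgebraicClosure ℚ),
      A.LiesOverPrime l → ∀ τ : GQ, A.IsFrobeniusAt τ l → D τ = (l : k))
    (hcom : ∃ σ τ, t (σ * τ * σ⁻¹ * τ⁻¹) ≠ 2) (N : ℕ) [NeZero N] {S : Set ℕ} (hS : S.Finite)
    (hSS : S₀ ⊆ S) :
    ∃ l : ℕ, l.Prime ∧ l ∉ S ∧ (N : ℤ) ∣ (l : ℤ) - 1 ∧ (l : k) = 1 ∧
      ∃ A : ValuationSubring (AlgebraicClosure ℚ), A.LiesOverPrime l ∧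
        ∃ τ : GQ, A.IsFrobeniusAt τ l ∧ t τ ≠ 2 := by
  obtain ⟨a, b, hab⟩ := hcom
  set g : GQ := a * b * a⁻¹ * b⁻¹ with hg
  haveI : NeZero (N * p) := ⟨mul_ne_zero (NeZero.ne N) (NeZero.ne p)⟩
  obtain ⟨L₁, hL₁, h1⟩ := htc
  obtain ⟨L₂, hL₂, h2⟩ := exists_level_cyc (N * p)
  haveI := hL₁
  haveI := hL₂
  have hfin : {q : ℕ | q ∣ N * p}.Finite :=
    (Set.finite_Iic (N * p)).subset fun q hq => Nat.le_of_dvd (NeZero.pos _) hq
  obtain ⟨l, hl, hlS, A, hA, τ, hτ, n, m, h3, h4⟩ := exists_isFrobeniusAt_pow_mem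
    (S ∪ {q : ℕ | q ∣ N * p}) (hS.union hfin) (L₁ ⊔ L₂).fixingSubgroup
    (IntermediateField.fixingSubgroup_isOpen (L₁ ⊔ L₂)) g
  have hlS' : l ∉ S := fun h => hlS (Or.inl h)
  have hlN : ¬ l ∣ N * p := fun h => hlS (Or.inr h)
  have hcg : cyc (N * p) g = 1 := by
    have h5 : ∀ x : GQ, cyc (N * p) x * cyc (N * p) x⁻¹ = 1 := fun x => by
      rw [← map_mul, mul_inv_cancel, map_one]
    rw [hg, map_mul, map_mul, map_mul]
    linear_combination cyc (N * p) b * cyc (N * p) b⁻¹ * h5 a + h5 b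
  have hcτ : cyc (N * p) τ = 1 := by
    have h5 := h2 _ fun x hx => h4 ⟨x, (le_sup_right : L₂ ≤ L₁ ⊔ L₂) hx⟩
    rw [map_mul, map_pow, hcg, one_pow, mul_one] at h5
    have h6 : cyc (N * p) τ * cyc (N * p) τ⁻¹ = 1 := by
      rw [← map_mul, mul_inv_cancel, map_one]
    rwa [h5, mul_one] at h6
  have hcop : Nat.Coprime l (N * p) := (Nat.Prime.coprime_iff_not_dvd hl).2 hlN
  have h5 : (N * p : ℕ) ∣ l - 1 := by
    have h6 := cyc_frobenius hcop hA hτ
    rw [hcτ, eq_comm, ← Nat.cast_one, ZMod.natCast_eq_natCast_iff] at h6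
    exact (Nat.modEq_iff_dvd' hl.one_le).1 h6.symm
  have hl1 : (l : k) = 1 := by
    obtain ⟨c, hc⟩ := h5
    have h6 : l = N * p * c + 1 := by have := hl.one_le; omega
    rw [h6]
    push_cast
    rw [hpk]
    ring
  refine ⟨l, hl, hlS', ?_, hl1, A, hA, τ, hτ, fun ht => ?_⟩
  · obtain ⟨c, hc⟩ := h5
    refine ⟨p * c, ?_⟩
    have h6 : l = N * p * c + 1 := by have := hl.one_le; omega
    rw [h6]
    push_cast
    ring
  · apply hab
    have hDτ : D τ = 1 := by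
      rw [hD l hl (fun h => hlS' (hSS h)) A hA τ hτ, hl1]
    have h6 := t_pow_eq_two hps ht hDτ n
    have h7 := h1 _ (fun x hx => h3 ⟨x, (le_sup_left : L₁ ≤ L₁ ⊔ L₂) hx⟩) g
    rw [mul_inv_cancel_left] at h7
    rw [← h7, h6]

end

end Fermat.Agent.TW
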