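import Fermat.Agent.TW.GD
import Fermat.Agent.TW.AuxP

/-!
# The Taylor–Wiles levels
-/

set_option autoImplicit false
set_option linter.unusedSectionVars false
set_option linter.style.haveILetI false

open IsLocalRing
open scoped TensorProduct
open Fermat.Agent.KumG Fermat.Agent.GalRep Fermat.Agent.Places Fermat.Agent.Cheb

namespace Fermat.Agent.TW

noncomputable section

set_option genInjectivity false in
set_option genSizeOf false in
/-- **The data at a Taylor–Wiles level.** -/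
structure TWLev {O : Type} [CommRing O] [IsLocalRing O] [IsNoetherianRing O]
    [IsAdicComplete (maximalIdeal O) O] {p : ℕ} [hp : Fact p.Prime]
    (hpO : (p : O) ∈ maximalIdeal O) (ι : AlgebraicClosure ℚ →+* ℂ) [Invertible (2 : O)]
    {t : GQ → ResidueField O} {g₀ k₀ : GQ} (hgk : HG.IrrAt t g₀ k₀) {N : ℕ} [NeZero N]
    {S : Set ℕ} (hNS : ∀ l, l.Prime → l ∣ N → l ∈ S) (θ : TS O S →ₐ[O] ResidueField O)
    {r : ℕ} (v : Fin r → ℕ) (A : Fin r → ValuationSubring (AlgebraicClosure ℚ)) (n B : ℕ) where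
  hvN : ∀ i, v i ∣ N
  c : Fin r → ℕ
  m : Fin r → ℕ
  hmc : ∀ i, v i - 1 = p ^ m i * c i
  hc : ∀ i, ¬ p ∣ c i
  hm : ∀ i, n ≤ m i
  [hH : Fact ((-1 : (ZMod N)ˣ) ∈ HQ hvN c)]
  hΔ : IsPGroup p (DG N (HQ hvN c))
  e : TS O S
  he : θ e = 1
  heH : IsLoc (phiH O (HQ hvN c) hNS) θ e
  [nt : Nontrivial (YH (HQ hvN c) hNS e)]
  [fr : Module.Free O (YH (HQ hvN c) hNS e)]
  hg : HG hpO S t (psiY (HQ hvN c) hNS e) (thetaD θ N) (rhoY hpO ι (HQ hvN c) hNS e)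
  L : ∀ i, LocW p (v i) (A i) (hg.R hgk)
  hL : ∀ i, (L i).η (L i).σ₀ - 1 ∈ maximalIdeal hg.TT
  d : ℕ
  hd : 0 < d
  hdB : 2 * d ≤ B
  E : hg.MQ ≃ₗ[O] (Fin d → GR O fun i => p ^ m i)
  f : hg.TT →ₐ[O] Matrix (Fin d) (Fin d) (GR O fun i => p ^ m i)
  hE : ∀ a m, E (a • m) = (f a).mulVec (E m)
  hf : ∀ i, f ((L i).η (L i).σ₀) = Matrix.scalar (Fin d) (GR.δ O (fun i => p ^ m i) i)

theorem isLoc_congr {O : Type} [CommRing O] [IsLocalRing O] [IsNoetherianRing O]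
    {S : Set ℕ} {θ : TS O S →ₐ[O] ResidueField O} {e : TS O S} {N N' : ℕ} [NeZero N] [NeZero N']
    (h : N = N') (hNS : ∀ l, l.Prime → l ∣ N → l ∈ S) (hNS' : ∀ l, l.Prime → l ∣ N' → l ∈ S)
    (he : IsLoc (phiG O hNS) θ e) : IsLoc (phiG O hNS') θ e ∧
      Module.finrank O (part (phiG O hNS) e) = Module.finrank O (part (phiG O hNS') e) := by
  subst h
  exact ⟨he, rfl⟩

/-- **Existence of the Taylor–Wiles levels.** -/
theorem exists_TWLev {O : Type} [CommRing O] [IsDomain O] [IsDiscreteValuationRing O]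
    [IsAdicComplete (maximalIdeal O) O] [CharZero O] {p : ℕ} [hp : Fact p.Prime]
    (hpO : (p : O) ∈ maximalIdeal O) (hp2 : p ≠ 2) (ι : AlgebraicClosure ℚ →+* ℂ)
    [Invertible (2 : O)] {t D : GQ → ResidueField O} {g₀ k₀ : GQ} (hgk : HG.IrrAt t g₀ k₀)
    {N₀ : ℕ} [NeZero N₀] (hN₀ : 3 ≤ N₀) {S₀ : Set ℕ} (hS₀ : S₀.Finite) (hpS₀ : p ∈ S₀)
    (hNS₀ : ∀ l, l.Prime → l ∣ N₀ → l ∈ S₀) {tl : ℕ → ResidueField O}
    (ht : IsPseudoRep t D) (htc : IsLocConst t)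
    (hfrob : ∀ l : ℕ, l.Prime → l ∉ S₀ → ∀ A : ValuationSubring (AlgebraicClosure ℚ),
      A.LiesOverPrime l → ∀ τ : GQ, A.IsFrobeniusAt τ l → t τ = tl l ∧ D τ = l)
    (hocc : ∀ s : TS O S₀, phiG O hNS₀ s = 0 → thS tl S₀ s = 0)
    (hcom : ∃ σ τ, t (σ * τ * σ⁻¹ * τ⁻¹) ≠ 2)
    {r n : ℕ} (hn : 1 ≤ n) {v : Fin r → ℕ} {A : Fin r → ValuationSubring (AlgebraicClosure ℚ)}
    {Φ : Fin r → GQ} (hinj : Function.Injective v) (hvS : ∀ i, v i ∉ S₀)
    (hvn : ∀ i, p ^ n ∣ v i - 1) (hv : ∀ i, TWp p t (v i) (A i) (Φ i))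
    {N : ℕ} [NeZero N] (hN : N = N₀ * ∏ i, v i) {S : Set ℕ} (hSS : S = S₀ ∪ Set.range v)
    (hNS : ∀ l, l.Prime → l ∣ N → l ∈ S) :
    Nonempty (TWLev hpO ι hgk hNS (thS tl S) v A n (2 ^ r * Module.finrank O (XG O N₀))) := by
  classical
  have hS₀S : S₀ ⊆ S := by rw [hSS]; exact Set.subset_union_left
  have hS : S.Finite := by rw [hSS]; exact hS₀.union (Set.finite_range v)
  have hpS : p ∈ S := hS₀S hpS₀
  have hvN₀ : ∀ i, ¬ v i ∣ N₀ := fun i h => hvS i (hNS₀ _ (hv i).prime h)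
  -- the numerical data
  have hfac : ∀ i, ∃ m c : ℕ, v i - 1 = p ^ m * c ∧ ¬ p ∣ c := by
    intro i
    have h2 := (hv i).prime.two_le
    obtain ⟨m, c, hc, hm⟩ := Nat.exists_eq_pow_mul_and_not_dvd (n := v i - 1) (by omega) p
      hp.out.ne_one
    exact ⟨m, c, hm, hc⟩
  choose m c hmc hc using hfac
  have hm : ∀ i, n ≤ m i := by
    intro i
    have h1 := hvn i
    rw [hmc] at h1
    have h2 : Nat.Coprime (p ^ n) (c i) :=
      Nat.Coprime.pow_left n ((Nat.Prime.coprime_iff_not_dvd hp.out).2 (hc i))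
    exact (Nat.pow_dvd_pow_iff_le_right hp.out.one_lt).1 (h2.dvd_of_dvd_mul_right h1)
  have hw : TWN p N₀ v N m c := ⟨hp.out, hp2, fun i => (hv i).prime, hinj, hvN₀, hN, hmc, hc,
    fun i => hn.trans (hm i)⟩
  haveI hH : Fact ((-1 : (ZMod N)ˣ) ∈ HQ hw.dvd c) := ⟨hw.neg_one_mem⟩
  have hΔ : IsPGroup p (DG N (HQ hw.dvd c)) := hw.isPGroup
  -- the idempotent
  have hNN0 : ∀ s, NN N₀ v s ≠ 0 := fun s => mul_ne_zero (NeZero.ne N₀)
    (Finset.prod_ne_zero_iff.2 fun i _ => (hv i).prime.ne_zero)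
  haveI : ∀ s, NeZero (NN N₀ v s) := fun s => ⟨hNN0 s⟩
  have hNNS : ∀ s, ∀ l, l.Prime → l ∣ NN N₀ v s → l ∈ S := by
    intro s l hl hls
    refine hNS l hl (hls.trans ?_)
    rw [hN]
    exact mul_dvd_mul_left _ (Finset.prod_dvd_prod_of_subset _ _ _ (Finset.subset_univ s))
  obtain ⟨e, he, heG', heH⟩ := exists_e (r := r) (N₀ := N₀) (v := v) (H := HQ hw.dvd c) hNNS hNS
    (thS tl S)
  have hNN : NN N₀ v Finset.univ = N := hN.symm
  obtain ⟨heG, hrk⟩ := isLoc_congr hNN (hNNS _) hNS (heG' Finset.univ)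
  -- Frobenius
  have hfrobS : ∀ l : IS S, ∀ A : ValuationSubring (AlgebraicClosure ℚ),
      A.LiesOverPrime (l : ℕ) → ∀ τ : GQ, A.IsFrobeniusAt τ (l : ℕ) →
        t τ = thS tl S (MvPolynomial.X l) ∧ D τ = (l : ℕ) := by
    intro l A hA τ hτ
    rw [thS_X]
    exact hfrob l l.2.1 (fun h => l.2.2 (hS₀S h)) A hA τ hτ
  -- ranks
  have h0 := finrank_pos_of_occ hS₀S (N' := NN N₀ v ∅)
    (by rw [NN, Finset.prod_empty, mul_one]) hNS₀ (hNNS ∅) tl hocc he (heG' ∅)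
  have hrk2 := finrank_NN hpO hS hpS ι ht htc hfrobS hinj hvN₀ hv hNNS heG' Finset.univ
  rw [hrk, Finset.card_univ, Fintype.card_fin] at hrk2
  -- the auxiliary prime
  obtain ⟨l, hl, hlS, hlN, hl1, B, hB, τ, hτ, htτ⟩ := exists_aux (k := ResidueField O) (p := p)
    (by rw [← map_natCast (residue O)]; exact (IsLocalRing.residue_eq_zero_iff _).2 hpO)
    ht htc (S₀ := S₀) (fun l hl hlS A hA τ hτ => (hfrob l hl hlS A hA τ hτ).2) hcom N hS hS₀S
  have hi : thS tl S (eisP O ⟨l, hl, hlS⟩) ≠ 0 := by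
    rw [eisP, map_sub, thS_X, ← MvPolynomial.algebraMap_eq, AlgHom.commutes, map_natCast,
      Nat.cast_add, Nat.cast_one]
    change tl l - ((l : ResidueField O) + 1) ≠ 0
    rw [hl1, ← (hfrob l hl (fun h => hlS (hS₀S h)) B hB τ hτ).1]
    intro h
    apply htτ
    linear_combination h
  -- the basis
  haveI : Module.Free O (part (phiG O hNS) e) := free_part heG.idem
  let b₀ := Module.finBasis O (part (phiG O hNS) e)
  obtain ⟨b, hb⟩ := exists_bY (H := HQ hw.dvd c) hpO hp2 hΔ heG heH hi hlN b₀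
  haveI fr : Module.Free O (YH (HQ hw.dvd c) hNS e) :=
    free_part (isLoc_phiD hpO hp2 hΔ heH).idem
  haveI : Nonempty (Fin (Module.finrank O (part (phiG O hNS) e))) := by
    rw [← Fin.pos_iff_nonempty, hrk2]
    exact Nat.mul_pos (pow_pos two_pos r) h0.1
  haveI nt : Nontrivial (YH (HQ hw.dvd c) hNS e) := b.repr.toEquiv.nontrivial
  have hg := hg_YH hpO ι (H := HQ hw.dvd c) hS hpS hp2 hΔ heH ht htc hfrobS
  have hreg : ∀ y : YH (HQ hw.dvd c) hNS e, (p : O) • y = 0 → y = 0 := by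
    intro y hy
    haveI : Module.IsTorsionFree O (YH (HQ hw.dvd c) hNS e) := inferInstance
    exact (smul_eq_zero.1 hy).resolve_left (Nat.cast_ne_zero.2 hp.out.ne_zero)
  choose L hL using fun i => hg.exists_locW hgk (hv i) hreg
  -- the generators
  obtain ⟨d, h1, h2, h3, h4⟩ := hw.exists_gen
  have hP : ∀ i, ∃ k, p ^ m i = p ^ k := fun i => ⟨m i, rfl⟩
  have hgp : ∀ i, (L i).η (L i).σ₀ ^ p ^ m i = 1 := fun i => (L i).ord (m i) (c i) (hmc i) (hc i)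
  let g : GR O (fun i => p ^ m i) →ₐ[O] hg.TT := GR.lift (fun i => (L i).η (L i).σ₀) hgp
  have hgδ : ∀ i, g (GR.δ O (fun i => p ^ m i) i) = (L i).η (L i).σ₀ := fun i => GR.lift_δ _ _ i
  have hgen : Subgroup.closure (Set.range fun i =>
      (QuotientGroup.mk (d i) : DG N (HQ hw.dvd c))) = ⊤ := by
    rw [eq_top_iff]
    rintro δ -
    obtain ⟨x, rfl⟩ := QuotientGroup.mk_surjective δ
    obtain ⟨a, ha⟩ := hw.gen_all h2 h3 x
    rw [ha]
    have h5 : (QuotientGroup.mk (∏ j, d j ^ a j) : DG N (HQ hw.dvd c)) =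
        QuotientGroup.mk' (HQ hw.dvd c) (∏ j, d j ^ a j) := rfl
    rw [h5]
    have h6 : ∏ j, d j ^ a j ∈ (Subgroup.closure (Set.range fun i =>
        (QuotientGroup.mk (d i) : DG N (HQ hw.dvd c)))).comap (QuotientGroup.mk' (HQ hw.dvd c)) :=
      Subgroup.prod_mem _ fun i _ => Subgroup.pow_mem _ (by
        have h7 : (QuotientGroup.mk (d i) : DG N (HQ hw.dvd c)) ∈
            Subgroup.closure (Set.range fun i => (QuotientGroup.mk (d i) : DG N (HQ hw.dvd c))) :=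
          Subgroup.subset_closure ⟨i, rfl⟩
        exact h7) _
    exact h6
  have hbij := bijective_D (O := O) (B := BB (psiY (HQ hw.dvd c) hNS e)) (TT := hg.TT)
    (P := fun i => p ^ m i) hpO hP g (dlB hNS e) b hb
    (fun i => QuotientGroup.mk (d i)) hgen (hw.card_ge h2 h4) (fun i y => by
      obtain ⟨z, hz⟩ := exists_DG hpO ι hw hgk hg hS hpS hN₀ h1 h3 h4 b hb i (hv i).hA (hv i).ne
        (L i) y
      refine ⟨z, ?_⟩
      rw [hz, hgδ, sub_smul, sub_smul, one_smul, one_smul, hg.incB_smul])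
  haveI := GR.isLocalRing (O := O) (P := fun i => p ^ m i) hpO hP
  obtain ⟨d', E, f, hd', hE, hf⟩ := exists_matrix g (hg.EE hgk) _ hbij
  rw [Fintype.card_fin] at hd'
  refine ⟨{ hvN := hw.dvd, c := c, m := m, hmc := hmc, hc := hc, hm := hm, hΔ := hΔ, e := e,
            he := he, heH := heH, hg := hg, L := L, hL := hL, d := d', hd := ?_, hdB := ?_, E := E,
            f := f, hE := hE, hf := fun i => ?_ }⟩
  · have := Nat.mul_pos (pow_pos two_pos r) h0.1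
    omega
  · rw [hd', hrk2]
    exact Nat.mul_le_mul_left _ h0.2
  · rw [← hgδ, hf]

end

end Fermat.Agent.TW
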