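import Fermat.Agent.Flat.Tame
import Fermat.Agent.GalRep.BGM

/-!
# The structure of tame inertia in finite quotients
-/

set_option autoImplicit false
set_option linter.unusedSectionVars false
set_option linter.style.haveILetI false

noncomputable section

namespace Fermat.Agent.TW

open Fermat.Agent.Places Fermat.Agent.RedMod Fermat.Agent.FlatRam Fermat.Agent.Flat
  Fermat.Agent.GalRep

local notation "Ω" => AlgebraicClosure ℚ

variable {A : ValuationSubring (AlgebraicClosure ℚ)} {v : ℕ} [hv : Fact v.Prime]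

theorem map_ne' {σ : GQ} {x : Ω} (hx : x ≠ 0) : σ x ≠ 0 := by rwa [ne_eq, _root_.map_eq_zero]

/-- elements with trivial tame character are fixed to leading order -/
theorem gt_of_th (hA : A.LiesOverPrime v) {σ : GQ} (hσ : σ ∈ A.inertiaSubgroupIn ℚ) {x : Ω}
    (hx : x ≠ 0) (h : th A σ x = 1) : (rval A v hA).Gt ((rval A v hA).w x) (σ x - x) := by
  have h1 : σ x / x ∈ A := (pres_of_mem hσ).div_mem hA hx
  have h2 : (rval A v hA).Gt 0 (σ x / x - 1) := by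
    rw [rval_gt_zero_iff]
    exact (rs_eq_iff h1 A.one_mem).1 (by rw [rs_one]; exact h)
  have h3 : σ x - x = x * (σ x / x - 1) := by field_simp
  rw [h3]
  rcases h2 with h2 | h2
  · left; rw [h2, mul_zero]
  · rcases eq_or_ne (σ x / x - 1) 0 with h4 | h4
    · left; rw [h4, mul_zero]
    · right
      rw [RVal.w_mul hx h4]
      linarith

theorem sum_ne_zero (hA : A.LiesOverPrime v) {ι : Type*} (s : Finset ι) (g : ι → GQ) {x : Ω}
    (hx : x ≠ 0) (hg : ∀ i ∈ s, g i ∈ A.inertiaSubgroupIn ℚ ∧ th A (g i) x = 1)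
    (hs : ¬ v ∣ s.card) : (∑ i ∈ s, g i x) ≠ 0 ∧
      (rval A v hA).w (∑ i ∈ s, g i x) = (rval A v hA).w x := by
  have hs0 : ((s.card : ℕ) : Ω) ≠ 0 := Nat.cast_ne_zero.2 (by rintro h; exact hs (h ▸ dvd_zero v))
  have hw : (rval A v hA).w ((s.card : ℕ) * x) = (rval A v hA).w x := by
    rw [RVal.w_mul hs0 hx, RVal.w_natCast hs, zero_add]
  have h1 : ∑ i ∈ s, g i x = (s.card : ℕ) * x + ∑ i ∈ s, (g i x - x) := by
    rw [Finset.sum_sub_distrib, Finset.sum_const, nsmul_eq_mul]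
    ring
  have h2 : (rval A v hA).Gt ((rval A v hA).w ((s.card : ℕ) * x)) (∑ i ∈ s, (g i x - x)) := by
    rw [hw]
    exact RVal.Gt.sum _ _ fun i hi => gt_of_th hA (hg i hi).1 hx (hg i hi).2
  obtain ⟨h3, h4⟩ := RVal.w_add_eq (mul_ne_zero hs0 hx) h2
  rw [h1]
  exact ⟨h3, by rw [h4, hw]⟩

section main

variable {M : Type*} [Monoid M] (f : GQ →* M)

/-- the kernel in inertia -/
def kerI (A : ValuationSubring (AlgebraicClosure ℚ)) : Subgroup GQ :=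
  A.inertiaSubgroupIn ℚ ⊓ f.toHomUnits.ker

theorem mem_kerI {σ : GQ} : σ ∈ kerI f A ↔ σ ∈ A.inertiaSubgroupIn ℚ ∧ f σ = 1 := by
  rw [kerI, Subgroup.mem_inf, MonoidHom.mem_ker, Units.ext_iff]
  rfl

variable {f} {p : ℕ} (hp : p.Prime) (hpv : p ≠ v)
  (hop : ∃ L : IntermediateField ℚ Ω, FiniteDimensional ℚ L ∧
    ∀ σ : GQ, (∀ x ∈ L, σ x = x) → f σ = 1)
  (hpp : ∀ σ ∈ A.inertiaSubgroupIn ℚ, ∃ k : ℕ, f σ ^ p ^ k = 1)

include hop in
theorem eq_one_of_fix {σ : GQ} (hσ : σ ∈ A.inertiaSubgroupIn ℚ)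
    (h : ∀ x : Ω, (∀ τ ∈ kerI f A, τ x = x) → σ x = x) : f σ = 1 := by
  obtain ⟨L, hL, hf⟩ := hop
  have hcl : IsClosed ((kerI f A : Subgroup GQ) : Set GQ) := by
    have h1 : IsClosed ((f.toHomUnits.ker : Subgroup GQ) : Set GQ) := by
      apply Subgroup.isClosed_of_isOpen
      refine Subgroup.isOpen_mono (H₁ := L.fixingSubgroup) ?_ L.fixingSubgroup_isOpen
      intro τ hτ
      rw [IntermediateField.mem_fixingSubgroup_iff] at hτ
      rw [MonoidHom.mem_ker, Units.ext_iff]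
      exact hf τ hτ
    exact (isClosed_inertia A).inter h1
  have h2 := InfiniteGalois.fixingSubgroup_fixedField (⟨kerI f A, hcl⟩ : ClosedSubgroup GQ)
  have h3 : (IntermediateField.fixedField (kerI f A)).fixingSubgroup = kerI f A := h2
  have h4 : σ ∈ kerI f A := by
    rw [← h3, IntermediateField.mem_fixingSubgroup_iff]
    intro x hx
    exact h x fun τ hτ => (IntermediateField.mem_fixedField_iff _ _).1 hx τ hτ
  exact ((mem_kerI f).1 h4).2

theorem conj_kerI {σ τ : GQ} (hσ : σ ∈ A.inertiaSubgroupIn ℚ) (hτ : τ ∈ kerI f A) :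
    σ⁻¹ * τ * σ ∈ kerI f A := by
  rw [mem_kerI] at hτ ⊢
  refine ⟨mul_mem (mul_mem (inv_mem hσ) hτ.1) hσ, ?_⟩
  rw [map_mul, map_mul, hτ.2, mul_one, ← map_mul, inv_mul_cancel, map_one]

theorem fix_of_conj {σ : GQ} (hσ : σ ∈ A.inertiaSubgroupIn ℚ) {x : Ω}
    (hx : ∀ τ ∈ kerI f A, τ x = x) (τ : GQ) (hτ : τ ∈ kerI f A) : τ (σ x) = σ x := by
  have h1 := hx _ (conj_kerI hσ hτ)
  have h2 : σ ((σ⁻¹ * τ * σ) x) = τ (σ x) := by
    change (σ * (σ⁻¹ * τ * σ)) x = (τ * σ) x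
    congr 1
    group
  rw [← h2, h1]

include hp hpv hop hpp in
/-- elements with trivial tame characters are in the kernel -/
theorem eq_one_of_th (hA : A.LiesOverPrime v) {σ : GQ} (hσ : σ ∈ A.inertiaSubgroupIn ℚ)
    (h : ∀ x : Ω, x ≠ 0 → (∀ τ ∈ kerI f A, τ x = x) → th A σ x = 1) : f σ = 1 := by
  obtain ⟨k, hk⟩ := hpp σ hσ
  refine eq_one_of_fix hop hσ fun x hx => ?_
  by_contra hne
  have hy0 : σ x - x ≠ 0 := sub_ne_zero.2 hne
  have hy : ∀ τ ∈ kerI f A, τ (σ x - x) = σ x - x := by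
    intro τ hτ
    rw [map_sub, fix_of_conj hσ hx τ hτ, hx τ hτ]
  have hth := h _ hy0 hy
  have h1 := (sum_ne_zero hA (Finset.range (p ^ k)) (fun i => σ ^ i) hy0 (fun i _ =>
    ⟨pow_mem hσ i, by rw [th_pow_left hA hy0 hσ, hth, one_pow]⟩) (by
      rw [Finset.card_range]
      intro hd
      exact hpv ((Nat.prime_dvd_prime_iff_eq hv.out hp).1 (hv.out.dvd_of_dvd_pow hd)).symm)).1
  apply h1
  have h2 : ∀ n : ℕ, ∑ i ∈ Finset.range n, (σ ^ i) (σ x - x) = (σ ^ n) x - x := by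
    intro n
    induction n with
    | zero => simp
    | succ n ih =>
      rw [Finset.sum_range_succ, ih, map_sub, pow_succ]
      change (σ ^ n) x - x + ((σ ^ n) (σ x) - (σ ^ n) x) = (σ ^ n) (σ x) - x
      ring
  rw [h2, hx (σ ^ p ^ k) ((mem_kerI f).2 ⟨pow_mem hσ _, by rw [map_pow, hk]⟩), sub_self]

include hop in
/-- the image of inertia is finite -/
theorem finite_image : (Set.range fun σ : GQ => f σ).Finite := by
  obtain ⟨L, hL, hf⟩ := hop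
  have h1 : f.toHomUnits.ker.FiniteIndex := by
    haveI := hL
    haveI : L.fixingSubgroup.FiniteIndex := ⟨by
      rw [← IntermediateField.finrank_eq_fixingSubgroup_index]
      exact Module.finrank_pos.ne'⟩
    refine Subgroup.finiteIndex_of_le (H := L.fixingSubgroup) fun τ hτ => ?_
    rw [IntermediateField.mem_fixingSubgroup_iff] at hτ
    rw [MonoidHom.mem_ker, Units.ext_iff]
    exact hf τ hτ
  have h2 : Finite f.toHomUnits.range := by
    haveI := h1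
    exact Finite.of_equiv _ (QuotientGroup.quotientKerEquivRange f.toHomUnits).toEquiv
  have h3 : (Set.range fun σ : GQ => f σ) = (fun u : Mˣ => (u : M)) '' (f.toHomUnits.range : Set Mˣ) := by
    ext m
    constructor
    · rintro ⟨σ, rfl⟩
      exact ⟨f.toHomUnits σ, ⟨σ, rfl⟩, rfl⟩
    · rintro ⟨_, ⟨σ, rfl⟩, rfl⟩
      exact ⟨σ, rfl⟩
  rw [h3]
  exact Set.Finite.image _ h2

include hp hpv hop hpp in
/-- integrality of valuations -/
theorem w_int_of_tame (hA : A.LiesOverPrime v) {x : Ω} (hx0 : x ≠ 0)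
    (hx : ∀ τ ∈ kerI f A, τ x = x) (hth : ∀ σ ∈ A.inertiaSubgroupIn ℚ, th A σ x = 1) :
    ∃ n : ℤ, (rval A v hA).w x = n := by
  classical
  -- the image of inertia is a finite `p`-group
  let F : A.inertiaSubgroupIn ℚ →* Mˣ := f.toHomUnits.comp (A.inertiaSubgroupIn ℚ).subtype
  have hfin : Finite F.range := by
    have h1 := finite_image hop
    have h2 : (F.range : Set Mˣ).Finite := by
      refine Set.Finite.of_finite_image (f := fun u : Mˣ => (u : M)) (h1.subset ?_)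
        Units.val_injective.injOn
      rintro _ ⟨_, ⟨σ, rfl⟩, rfl⟩
      exact ⟨σ, rfl⟩
    exact h2
  haveI := Fintype.ofFinite F.range
  have hpg : IsPGroup p F.range := by
    rintro ⟨_, ⟨σ, rfl⟩⟩
    obtain ⟨k, hk⟩ := hpp σ σ.2
    refine ⟨k, ?_⟩
    apply Subtype.ext
    apply Units.ext
    change f σ ^ p ^ k = 1
    exact hk
  have hcard : ¬ v ∣ Fintype.card F.range := by
    haveI : Fact p.Prime := ⟨hp⟩
    obtain ⟨n, hn⟩ := IsPGroup.iff_card.1 hpg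
    rw [← Nat.card_eq_fintype_card, hn]
    intro hd
    exact hpv ((Nat.prime_dvd_prime_iff_eq hv.out hp).1 (hv.out.dvd_of_dvd_pow hd)).symm
  choose r hr using fun c : F.range => c.2
  obtain ⟨h1, h2⟩ := sum_ne_zero hA (Finset.univ : Finset F.range) (fun c => (r c : GQ)) hx0
    (fun c _ => ⟨(r c).2, hth _ (r c).2⟩) (by rwa [Finset.card_univ])
  rw [← h2]
  have hK : (∑ c : F.range, (r c : GQ) x) ∈ K0 A := by
    rw [K0, IntermediateField.mem_fixedField_iff]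
    intro σ hσ
    rw [map_sum]
    refine Fintype.sum_equiv (Equiv.mulLeft (⟨F ⟨σ, hσ⟩, ⟨_, rfl⟩⟩ : F.range)) _ _ fun c => ?_
    rw [Equiv.coe_mulLeft]
    set c' : F.range := (⟨F ⟨σ, hσ⟩, ⟨_, rfl⟩⟩ : F.range) * c with hc'
    have h3 : ((r c' : GQ))⁻¹ * (σ * (r c : GQ)) ∈ kerI f A := by
      rw [mem_kerI]
      refine ⟨mul_mem (inv_mem (r c').2) (mul_mem hσ (r c).2), ?_⟩
      have e1 : F (r c') = F ⟨σ, hσ⟩ * F (r c) := by rw [hr, hr, hc']; rfl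
      have e2 : F ((r c')⁻¹ * (⟨σ, hσ⟩ * r c)) = 1 := by
        rw [map_mul, map_inv, map_mul, e1, inv_mul_cancel]
      exact congrArg Units.val e2
    have h4 := hx _ h3
    have h5 : (r c' : GQ) ((((r c' : GQ))⁻¹ * (σ * (r c : GQ))) x) = σ ((r c : GQ) x) := by
      change ((r c' : GQ) * (((r c' : GQ))⁻¹ * (σ * (r c : GQ)))) x = (σ * (r c : GQ)) x
      rw [mul_inv_cancel_left]
    rw [← h5, h4]
  exact (rval A v hA).w_int (⟨_, hK⟩ : K0 A) (fun h => h1 (congrArg Subtype.val h))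

include hp hpv hop hpp in
/-- **Tame inertia is cyclic.** -/
theorem exists_gen_tame (hA : A.LiesOverPrime v) :
    ∃ σ₀ ∈ A.inertiaSubgroupIn ℚ, ∀ σ ∈ A.inertiaSubgroupIn ℚ, ∃ n : ℕ, f σ = f σ₀ ^ n := by
  classical
  -- a uniform exponent
  obtain ⟨K, hK⟩ : ∃ K : ℕ, ∀ σ ∈ A.inertiaSubgroupIn ℚ, f σ ^ p ^ K = 1 := by
    have h1 : ((fun σ : GQ => f σ) '' (A.inertiaSubgroupIn ℚ : Set GQ)).Finite :=
      (finite_image hop).subset (by rintro _ ⟨σ, -, rfl⟩; exact ⟨σ, rfl⟩)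
    have h2 : ∀ m ∈ (fun σ : GQ => f σ) '' (A.inertiaSubgroupIn ℚ : Set GQ), ∃ k : ℕ,
        m ^ p ^ k = 1 := by
      rintro _ ⟨σ, hσ, rfl⟩
      exact hpp σ hσ
    choose! k hk using h2
    refine ⟨h1.toFinset.sup k, fun σ hσ => ?_⟩
    have h3 : f σ ∈ (fun σ : GQ => f σ) '' (A.inertiaSubgroupIn ℚ : Set GQ) := ⟨σ, hσ, rfl⟩
    have h4 : k (f σ) ≤ h1.toFinset.sup k := Finset.le_sup (h1.mem_toFinset.2 h3)
    obtain ⟨d, hd⟩ := Nat.exists_eq_add_of_le h4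
    rw [hd, pow_add, pow_mul, hk _ h3, one_pow]
  set m := p ^ K with hm
  have hm0 : m ≠ 0 := pow_ne_zero _ hp.ne_zero
  let E : Set Ω := {x | ∀ τ ∈ kerI f A, τ x = x}
  -- the value group
  have hval : ∀ x ∈ E, x ≠ 0 → ∃ n : ℤ, (m : ℚ) * (rval A v hA).w x = n := by
    intro x hx hx0
    rw [← RVal.w_pow hx0]
    refine w_int_of_tame hp hpv hop hpp hA (pow_ne_zero m hx0) (fun τ hτ => by
      rw [map_pow, hx τ hτ]) (fun σ hσ => ?_)
    rw [th_pow hA (pres_of_mem hσ) hx0, ← th_pow_left hA hx0 hσ, th,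
      hx (σ ^ m) ((mem_kerI f).2 ⟨pow_mem hσ _, by rw [map_pow, hK σ hσ]⟩), div_self hx0, rs_one]
  let S : AddSubgroup ℤ :=
    { carrier := {k | ∃ x ∈ E, x ≠ 0 ∧ (m : ℚ) * (rval A v hA).w x = k}
      add_mem' := by
        rintro a b ⟨x, hx, hx0, ha⟩ ⟨y, hy, hy0, hb⟩
        refine ⟨x * y, fun τ hτ => by rw [map_mul, hx τ hτ, hy τ hτ], mul_ne_zero hx0 hy0, ?_⟩
        rw [RVal.w_mul hx0 hy0, mul_add, ha, hb]
        push_cast; ring
      zero_mem' := ⟨1, fun τ _ => map_one τ, one_ne_zero, by rw [RVal.w_one]; simp⟩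
      neg_mem' := by
        rintro a ⟨x, hx, hx0, ha⟩
        refine ⟨x⁻¹, fun τ hτ => by rw [map_inv₀, hx τ hτ], inv_ne_zero hx0, ?_⟩
        rw [RVal.w_inv hx0, mul_neg, ha]
        push_cast; ring }
  obtain ⟨d, hd⟩ := Int.subgroup_cyclic S
  have hdS : d ∈ S := by rw [hd]; exact AddSubgroup.subset_closure rfl
  obtain ⟨x₀, hx₀, hx₀0, hwx₀⟩ := hdS
  have hdet : ∀ σ ∈ A.inertiaSubgroupIn ℚ, th A σ x₀ = 1 → f σ = 1 := by
    intro σ hσ hth
    refine eq_one_of_th hp hpv hop hpp hA hσ fun x hx0 hx => ?_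
    obtain ⟨n, hn⟩ := hval x hx hx0
    have hnS : n ∈ S := ⟨x, hx, hx0, hn⟩
    rw [hd, AddSubgroup.mem_closure_singleton] at hnS
    obtain ⟨j, hj⟩ := hnS
    have hw : (rval A v hA).w x = (rval A v hA).w (x₀ ^ j) := by
      rw [RVal.w_zpow hx₀0]
      have hmQ : (m : ℚ) ≠ 0 := Nat.cast_ne_zero.2 hm0
      apply mul_left_cancel₀ hmQ
      rw [hn, ← hj, mul_left_comm, hwx₀]
      push_cast
      rw [zsmul_eq_mul]
      push_cast
      ring
    rw [th_eq_of_w hA hσ hx0 (zpow_ne_zero j hx₀0) hw]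
    have hzp : ∀ j : ℕ, th A σ (x₀ ^ j) = 1 := fun j => by
      rw [th_pow hA (pres_of_mem hσ) hx₀0, hth, one_pow]
    have hinv : ∀ y : Ω, y ≠ 0 → th A σ y = 1 → th A σ y⁻¹ = 1 := by
      intro y hy hy1
      have := th_mul hA (pres_of_mem hσ) hy (inv_ne_zero hy)
      rw [mul_inv_cancel₀ hy, th_one, hy1, one_mul] at this
      exact this.symm
    obtain ⟨j, rfl | rfl⟩ := j.eq_nat_or_neg
    · rw [zpow_natCast]; exact hzp j
    · rw [zpow_neg, zpow_natCast]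
      exact hinv _ (pow_ne_zero _ hx₀0) (hzp j)
  have hfin : {t | ∃ σ ∈ A.inertiaSubgroupIn ℚ, th A σ x₀ = t}.Finite := by
    have hP : (Polynomial.X ^ m - 1 : Polynomial (kk A)) ≠ 0 :=
      Polynomial.X_pow_sub_C_ne_zero (Nat.pos_of_ne_zero hm0) 1
    refine Set.Finite.subset
      ((Polynomial.X ^ m - 1 : Polynomial (kk A)).roots.toFinset.finite_toSet) ?_
    rintro _ ⟨σ, hσ, rfl⟩
    rw [Finset.mem_coe, Multiset.mem_toFinset, Polynomial.mem_roots hP]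
    have : th A σ x₀ ^ m = 1 := by
      rw [← th_pow_left hA hx₀0 hσ, th,
        hx₀ (σ ^ m) ((mem_kerI f).2 ⟨pow_mem hσ _, by rw [map_pow, hK σ hσ]⟩), div_self hx₀0,
        rs_one]
    simp [this]
  obtain ⟨σ₀, hσ₀, hgen, -, -⟩ := exists_gen hA hx₀0 hfin
  refine ⟨σ₀, hσ₀, fun σ hσ => ?_⟩
  obtain ⟨n, hn⟩ := hgen σ hσ
  refine ⟨n, ?_⟩
  have hmem : σ * (σ₀ ^ n)⁻¹ ∈ A.inertiaSubgroupIn ℚ := mul_mem hσ (inv_mem (pow_mem hσ₀ n))
  have h1 : th A (σ * (σ₀ ^ n)⁻¹) x₀ = 1 := by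
    have h2 : th A ((σ * (σ₀ ^ n)⁻¹) * σ₀ ^ n) x₀ = _ :=
      th_comp hA hmem (pres_of_mem (pow_mem hσ₀ n)) hx₀0
    rw [inv_mul_cancel_right, hn, ← th_pow_left hA hx₀0 hσ₀] at h2
    have h3 : th A (σ₀ ^ n) x₀ ≠ 0 := th_ne_zero hA hx₀0 (pow_mem hσ₀ n)
    exact (mul_eq_right₀ h3).1 h2.symm
  have h2 := hdet _ hmem h1
  have h3 : f σ = f (σ * (σ₀ ^ n)⁻¹) * f (σ₀ ^ n) := by rw [← map_mul, inv_mul_cancel_right]
  rw [h3, h2, one_mul, map_pow]

include hp hpv hop hpp in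
/-- the action of Frobenius on tame inertia -/
theorem frob_tame (hA : A.LiesOverPrime v) {Φ : GQ} (hΦ : IsFr A v Φ) {σ : GQ}
    (hσ : σ ∈ A.inertiaSubgroupIn ℚ) : f (Φ * σ * Φ⁻¹) = f σ ^ v := by
  have hc := conj_mem_inertia hΦ.1 hσ
  have hmem : Φ * σ * Φ⁻¹ * (σ ^ v)⁻¹ ∈ A.inertiaSubgroupIn ℚ :=
    mul_mem hc (inv_mem (pow_mem hσ v))
  have h1 : f (Φ * σ * Φ⁻¹ * (σ ^ v)⁻¹) = 1 := by
    refine eq_one_of_th hp hpv hop hpp hA hmem fun x hx0 hx => ?_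
    have h2 : th A ((Φ * σ * Φ⁻¹ * (σ ^ v)⁻¹) * σ ^ v) x = _ :=
      th_comp hA hmem (pres_of_mem (pow_mem hσ v)) hx0
    rw [inv_mul_cancel_right, th_fr hA hΦ hσ hx0, ← th_pow_left hA hx0 hσ] at h2
    have h3 : th A (σ ^ v) x ≠ 0 := th_ne_zero hA hx0 (pow_mem hσ v)
    exact (mul_eq_right₀ h3).1 h2.symm
  have h3 : f (Φ * σ * Φ⁻¹) = f (Φ * σ * Φ⁻¹ * (σ ^ v)⁻¹) * f (σ ^ v) := by
    rw [← map_mul, inv_mul_cancel_right]
  rw [h3, h1, one_mul, map_pow]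

end main

end Fermat.Agent.TW
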