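import Fermat.Agent.TW.NoOcc

/-!
# Residual systems which do not occur, independence of the finite set
-/

set_option autoImplicit false
set_option linter.unusedSectionVars false
set_option linter.style.haveILetI false

open IsLocalRing
open scoped TensorProduct
open Fermat.Agent.KumG Fermat.Agent.GalRep Fermat.Agent.Places Fermat.Agent.Cheb
open Fermat.Agent.AL Fermat.Agent.ALCoh

namespace Fermat.Agent.TW

noncomputable section

variable {O : Type} [CommRing O] [IsDomain O] [IsLocalRing O] [IsNoetherianRing O]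
  [IsAdicComplete (maximalIdeal O) O] [CharZero O] [Module.Flat ℤ O] {p : ℕ} [hp : Fact p.Prime]
  (hpO : (p : O) ∈ maximalIdeal O)
  (ι : AlgebraicClosure ℚ →+* ℂ)
  {t D : GQ → ResidueField O} (ht : IsPseudoRep t D) (htc : IsLocConst t)

include hpO ι ht htc in
/-- non-occurrence does not depend on the finite set of excluded primes -/
theorem exists_no_enlarge {S₀ S : Set ℕ} (hS₀S : S₀ ⊆ S) (hS : S.Finite) (hpS₀ : p ∈ S₀)
    {tl : ℕ → ResidueField O}
    (hfrob : ∀ l : ℕ, l.Prime → l ∉ S₀ → ∀ A : ValuationSubring (AlgebraicClosure ℚ),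
      A.LiesOverPrime l → ∀ τ : GQ, A.IsFrobeniusAt τ l → t τ = tl l ∧ D τ = l)
    {N : ℕ} [NeZero N] (hNS₀ : ∀ l, l.Prime → l ∣ N → l ∈ S₀) (hNS : ∀ l, l.Prime → l ∣ N → l ∈ S)
    (hno : ∃ s : TS O S₀, phiG O hNS₀ s = 0 ∧ thS tl S₀ s ≠ 0) :
    ∃ s : TS O S, phiG O hNS s = 0 ∧ thS tl S s ≠ 0 := by
  haveI := charP_res hpO
  obtain ⟨e, he0, he1, he2, he3⟩ := exists_idem (fun _ : Unit => XG O N)
    (fun _ => phiG O hNS) (thS tl S)
  have he : IsLoc (phiG O hNS) (thS tl S) e := ⟨he1 (), fun a ha => by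
    obtain ⟨s', hs'⟩ := he2 a ha
    exact ⟨s', hs' ()⟩, fun a ha => by
    obtain ⟨n, hn⟩ := he3 a ha
    exact ⟨n, hn ()⟩⟩
  have hfrobS : ∀ l : IS S, ∀ A : ValuationSubring (AlgebraicClosure ℚ),
      A.LiesOverPrime (l : ℕ) → ∀ τ : GQ, A.IsFrobeniusAt τ (l : ℕ) →
        t τ = thS tl S (MvPolynomial.X l) ∧ D τ = (l : ℕ) := by
    intro l A hA τ hτ
    rw [thS_X]
    exact hfrob l l.2.1 (fun h => l.2.2 (hS₀S h)) A hA τ hτ
  obtain ⟨s, hs, hθ⟩ := hno
  refine ⟨e, ?_, by rw [he0]; exact one_ne_zero⟩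
  by_contra hne2
  obtain ⟨z, hz0, hz1, hz2⟩ := exists_eig_all hNS (k := ResidueField O)
    (by rw [IsLocalRing.ResidueField.algebraMap_eq]; exact IsLocalRing.residue_surjective)
    hS (hS₀S hpS₀) ι ht htc hfrobS he hne2
  have hz3 : ∀ l : IS S₀, (TG l.2.1 (l.not_dvd hNS₀)).baseChange (ResidueField O) z =
      thS tl S₀ (MvPolynomial.X l) • z := by
    intro l
    rw [thS_X]
    have hlp : l.1 ≠ p := fun h => l.2.2 (by rw [h]; exact hpS₀)
    obtain ⟨A, hA⟩ := exists_liesOverPrime (AlgebraicClosure ℚ) l.2.1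
    obtain ⟨Φ, hΦ⟩ := exists_isFrobeniusAt A l.2.1 hA
    have h1 := hz2 l.1 l.2.1 (l.not_dvd hNS₀) hlp A hA Φ hΦ
    rw [(hfrob l l.2.1 l.2.2 A hA Φ hΦ).1] at h1
    exact h1
  obtain ⟨x, hx⟩ := red_surjective (O := O) (k := ResidueField O) (L := KumG.LZ (GG N))
    (by rw [IsLocalRing.ResidueField.algebraMap_eq]; exact IsLocalRing.residue_surjective) z
  have h1 := red_phiG hNS₀ hz3 s x 1 (by rw [hx, one_smul])
  rw [hs, LinearMap.zero_apply, map_zero, mul_one] at h1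
  exact hz0 ((smul_eq_zero.1 h1.symm).resolve_left hθ)

end

end Fermat.Agent.TW
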