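import Fermat.Agent.TW.Ctrl3
import Fermat.Agent.TW.Final

/-!
# Residual systems which do not occur
-/

set_option autoImplicit false
set_option linter.unusedSectionVars false
set_option linter.style.haveILetI false

open IsLocalRing
open scoped TensorProduct
open Fermat.Agent.KumG Fermat.Agent.GalRep Fermat.Agent.Places Fermat.Agent.Cheb
open Fermat.Agent.AL Fermat.Agent.ALCoh

namespace Fermat.Agent.TW

noncomputable section

/-- the level subgroup contains the kernels -/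
theorem ker_le_HQ {r : ℕ} {v : Fin r → ℕ} {N : ℕ} [NeZero N] (hvN : ∀ i, v i ∣ N)
    (c : Fin r → ℕ) {N₁ : ℕ} (hN₁ : N₁ ∣ N) (hv₁ : ∀ i, v i ∣ N₁) :
    (ZMod.unitsMap hN₁).ker ≤ HQ hvN c := by
  intro x hx
  rw [mem_HQ]
  intro i
  rw [← unitsMap_comp' (hv₁ i) hN₁, MonoidHom.mem_ker.1 hx, map_one, one_pow]

/-- every `x ≡ 1` modulo all the `v i` is in the level subgroup -/
theorem mem_HQ_of {r : ℕ} {v : Fin r → ℕ} {N : ℕ} [NeZero N] (hvN : ∀ i, v i ∣ N)
    (c : Fin r → ℕ) {x : (ZMod N)ˣ} (hx : ∀ i, ZMod.unitsMap (hvN i) x = 1) : x ∈ HQ hvN c := by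
  rw [mem_HQ]
  intro i
  rw [hx, one_pow]

variable {O : Type} [CommRing O] [IsDomain O] [IsLocalRing O] [IsNoetherianRing O]
  [IsAdicComplete (maximalIdeal O) O] [CharZero O] [Module.Flat ℤ O] {p : ℕ} [hp : Fact p.Prime]
  (hpO : (p : O) ∈ maximalIdeal O) (hp2 : p ≠ 2)
  (ι : AlgebraicClosure ℚ →+* ℂ)
  {t D : GQ → ResidueField O} (ht : IsPseudoRep t D) (htc : IsLocConst t)

theorem part_eq_bot {T X k : Type} [CommRing T] [Algebra O T] [AddCommGroup X] [Module O X]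
    [Field k] [Algebra O k] {φ : T →ₐ[O] Module.End O X} {θ : T →ₐ[O] k} {e : T}
    (he : IsLoc φ θ e) {s : T} (hs : φ s = 0) (hθ : θ s ≠ 0) : φ e = 0 := by
  obtain ⟨s', hs'⟩ := he.unit s hθ
  rw [← hs', hs, mul_zero, zero_mul]

include hpO ι ht htc in
/-- **Raising the level at a prime does not create a residual system.** -/
theorem exists_no_mul {S : Set ℕ} {θ : TS O S →ₐ[O] ResidueField O} (hS : S.Finite) (hpS : p ∈ S)
    (hfrob : ∀ l : IS S, ∀ A : ValuationSubring (AlgebraicClosure ℚ),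
      A.LiesOverPrime (l : ℕ) → ∀ τ : GQ, A.IsFrobeniusAt τ (l : ℕ) →
        t τ = θ (MvPolynomial.X l) ∧ D τ = (l : ℕ))
    {M v N' : ℕ} [NeZero M] [NeZero N'] (hN' : N' = M * v) (hv : v.Prime) (hvp : v ≠ p)
    (hvM : ¬ v ∣ M) (hMS : ∀ l, l.Prime → l ∣ M → l ∈ S) (hN'S : ∀ l, l.Prime → l ∣ N' → l ∈ S)
    {A : ValuationSubring (AlgebraicClosure ℚ)} (hA : A.LiesOverPrime v) {Φ : GQ}
    (hΦ : A.IsFrobeniusAt Φ v) (htΦ : t Φ ^ 2 ≠ ((v : ResidueField O) + 1) ^ 2)
    (hno : ∃ s : TS O S, phiG O hMS s = 0 ∧ θ s ≠ 0) :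
    ∃ s : TS O S, phiG O hN'S s = 0 ∧ θ s ≠ 0 := by
  subst hN'
  haveI := charP_res hpO
  obtain ⟨s, hs, hθ⟩ := hno
  obtain ⟨e, he, h1, h2⟩ : ∃ e : TS O S, θ e = 1 ∧ IsLoc (phiG O hMS) θ e ∧
      IsLoc (phiG O hN'S) θ e := by
    obtain ⟨e, he0, he1, he2, he3⟩ := exists_idem (fun _ : Unit => XG O M × XG O (M * v))
      (fun _ => (LinearMap.prodMapAlgHom O (XG O M) (XG O (M * v))).comp
        ((phiG O hMS).prod (phiG O hN'S))) θ
    have key : ∀ (s : TS O S) (x : XG O M × XG O (M * v)),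
        ((LinearMap.prodMapAlgHom O (XG O M) (XG O (M * v))).comp
        ((phiG O hMS).prod (phiG O hN'S))) s x = (phiG O hMS s x.1, phiG O hN'S s x.2) :=
      fun s x => rfl
    have hmem1 : ∀ x : XG O M × XG O (M * v), x ∈ (maximalIdeal O) •
        (⊤ : Submodule O (XG O M × XG O (M * v))) → x.1 ∈ (maximalIdeal O) •
        (⊤ : Submodule O (XG O M)) := fun x hx => map_mem_smul_top _ (LinearMap.fst O _ _) hx
    have hmem2 : ∀ x : XG O M × XG O (M * v), x ∈ (maximalIdeal O) •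
        (⊤ : Submodule O (XG O M × XG O (M * v))) → x.2 ∈ (maximalIdeal O) •
        (⊤ : Submodule O (XG O (M * v))) := fun x hx => map_mem_smul_top _ (LinearMap.snd O _ _) hx
    refine ⟨e, he0, ⟨?_, fun a ha => ?_, fun a ha => ?_⟩, ⟨?_, fun a ha => ?_, fun a ha => ?_⟩⟩
    · refine LinearMap.ext fun x => ?_
      exact congrArg Prod.fst (LinearMap.congr_fun (he1 ()) (x, 0))
    · obtain ⟨s', hs'⟩ := he2 a ha
      refine ⟨s', LinearMap.ext fun x => ?_⟩
      exact congrArg Prod.fst (LinearMap.congr_fun (hs' ()) (x, 0))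
    · obtain ⟨n, hn⟩ := he3 a ha
      exact ⟨n, fun x => hmem1 _ (hn () (x, 0))⟩
    · refine LinearMap.ext fun x => ?_
      exact congrArg Prod.snd (LinearMap.congr_fun (he1 ()) (0, x))
    · obtain ⟨s', hs'⟩ := he2 a ha
      refine ⟨s', LinearMap.ext fun x => ?_⟩
      exact congrArg Prod.snd (LinearMap.congr_fun (hs' ()) (0, x))
    · obtain ⟨n, hn⟩ := he3 a ha
      exact ⟨n, fun x => hmem2 _ (hn () (0, x))⟩
  have h0 : phiG O hMS e = 0 := part_eq_bot h1 hs hθ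
  haveI hss : Subsingleton (part (phiG O hMS) e) := by
    refine ⟨fun a b => Subtype.ext ?_⟩
    obtain ⟨x, hx⟩ := a.2
    obtain ⟨y, hy⟩ := b.2
    rw [← hx, ← hy, h0, LinearMap.zero_apply, LinearMap.zero_apply]
  obtain ⟨B, hB⟩ := exists_WS (dvd_mul_left v M) (by
    rw [Nat.mul_div_cancel _ hv.pos]
    exact (Nat.Prime.coprime_iff_not_dvd hv).2 hvM)
  have h3 := injective_betaV hv hB hvM hMS hN'S (k := ResidueField O)
    (by rw [IsLocalRing.ResidueField.algebraMap_eq]; exact IsLocalRing.residue_surjective)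
    hS hpS ι ht htc hfrob hvp hA hΦ htΦ h1 h2 (fun y => ⟨0, Subsingleton.elim _ _⟩)
  refine ⟨e, LinearMap.ext fun x => ?_, by rw [he]; exact one_ne_zero⟩
  have h4 : toPart (phiG O hN'S) e x = 0 := h3 (Subsingleton.elim _ _)
  exact congrArg Subtype.val h4

/-- polynomials acting on a residual eigenvector -/
theorem red_phiG {S : Set ℕ} {M : ℕ} [NeZero M] (hMS : ∀ l, l.Prime → l ∣ M → l ∈ S)
    {θ : TS O S →ₐ[O] ResidueField O} {z : ResidueField O ⊗[ℤ] KumG.LZ (GG M)}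
    (hz : ∀ l : IS S, (TG l.2.1 (l.not_dvd hMS)).baseChange (ResidueField O) z =
      θ (MvPolynomial.X l) • z) (a : TS O S) :
    ∀ (x : XG O M) (c : ResidueField O), red O (ResidueField O) (KumG.LZ (GG M)) x = c • z →
      red O (ResidueField O) (KumG.LZ (GG M)) (phiG O hMS a x) = (θ a * c) • z := by
  induction a using MvPolynomial.induction_on with
  | C r =>
    intro x c hx
    rw [← MvPolynomial.algebraMap_eq, AlgHom.commutes, AlgHom.commutes,
      Module.algebraMap_end_apply, red_smul, hx, smul_smul]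
  | add p q hp hq =>
    intro x c hx
    rw [map_add, map_add, LinearMap.add_apply, map_add, hp x c hx, hq x c hx, ← add_smul, add_mul]
  | mul_X p i hp =>
    intro x c hx
    rw [map_mul, map_mul, Module.End.mul_apply, phiG_X]
    have h1 : red O (ResidueField O) (KumG.LZ (GG M))
        ((TG i.2.1 (i.not_dvd hMS)).baseChange O x) = (c * θ (MvPolynomial.X i)) • z := by
      rw [red_baseChange, hx, map_smul]
      refine (congrArg (fun w => c • w) (hz i)).trans ?_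
      change c • (θ (MvPolynomial.X i) • z) = _
      rw [smul_smul]
    rw [hp _ _ h1]
    congr 1
    ring

include hpO hp2 ι ht htc in
/-- **The Taylor–Wiles levels do not create a residual system.** -/
theorem exists_no_TW {S₀ : Set ℕ} (hS₀ : S₀.Finite) (hpS₀ : p ∈ S₀) {tl : ℕ → ResidueField O}
    (hfrob : ∀ l : ℕ, l.Prime → l ∉ S₀ → ∀ A : ValuationSubring (AlgebraicClosure ℚ),
      A.LiesOverPrime l → ∀ τ : GQ, A.IsFrobeniusAt τ l → t τ = tl l ∧ D τ = l)
    (hcom : ∃ σ τ, t (σ * τ * σ⁻¹ * τ⁻¹) ≠ 2)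
    {N₁ : ℕ} [NeZero N₁] (hN₁S₀ : ∀ l, l.Prime → l ∣ N₁ → l ∈ S₀)
    (hno : ∃ s : TS O S₀, phiG O hN₁S₀ s = 0 ∧ thS tl S₀ s ≠ 0)
    {r : ℕ} {v : Fin r → ℕ} {A : Fin r → ValuationSubring (AlgebraicClosure ℚ)}
    {Φ : Fin r → GQ} (hinj : Function.Injective v) (hvS : ∀ i, v i ∉ S₀)
    (hv : ∀ i, TWp p t (v i) (A i) (Φ i))
    {N : ℕ} [NeZero N] (hN : N = N₁ * ∏ i, v i) {S : Set ℕ} (hSS : S = S₀ ∪ Set.range v)
    (hNS : ∀ l, l.Prime → l ∣ N → l ∈ S) (H : Subgroup (ZMod N)ˣ)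
    [hH : Fact ((-1 : (ZMod N)ˣ) ∈ H)] (hΔ : IsPGroup p (DG N H)) :
    ∃ s : TS O S, phiH O H hNS s = 0 ∧ thS tl S s ≠ 0 := by
  classical
  have hS₀S : S₀ ⊆ S := by rw [hSS]; exact Set.subset_union_left
  have hS : S.Finite := by rw [hSS]; exact hS₀.union (Set.finite_range v)
  have hpS : p ∈ S := hS₀S hpS₀
  have hvN₁ : ∀ i, ¬ v i ∣ N₁ := fun i h => hvS i (hN₁S₀ _ (hv i).prime h)
  have hNN0 : ∀ s, NN N₁ v s ≠ 0 := fun s => mul_ne_zero (NeZero.ne N₁)
    (Finset.prod_ne_zero_iff.2 fun i _ => (hv i).prime.ne_zero)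
  haveI : ∀ s, NeZero (NN N₁ v s) := fun s => ⟨hNN0 s⟩
  have hNNS : ∀ s, ∀ l, l.Prime → l ∣ NN N₁ v s → l ∈ S := by
    intro s l hl hls
    refine hNS l hl (hls.trans ?_)
    rw [hN]
    exact mul_dvd_mul_left _ (Finset.prod_dvd_prod_of_subset _ _ _ (Finset.subset_univ s))
  obtain ⟨e, he, heG', heH⟩ := exists_e (r := r) (N₀ := N₁) (v := v) (H := H) hNNS hNS
    (thS tl S)
  have hNN : NN N₁ v Finset.univ = N := hN.symm
  obtain ⟨heG, hrk⟩ := isLoc_congr hNN (hNNS _) hNS (heG' Finset.univ)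
  have hfrobS : ∀ l : IS S, ∀ A : ValuationSubring (AlgebraicClosure ℚ),
      A.LiesOverPrime (l : ℕ) → ∀ τ : GQ, A.IsFrobeniusAt τ (l : ℕ) →
        t τ = thS tl S (MvPolynomial.X l) ∧ D τ = (l : ℕ) := by
    intro l A hA τ hτ
    rw [thS_X]
    exact hfrob l l.2.1 (fun h => l.2.2 (hS₀S h)) A hA τ hτ
  -- the localisation vanishes at the bottom level
  have h0 : Module.finrank O (part (phiG O (hNNS ∅)) e) = 0 := by
    have hNN0' : NN N₁ v ∅ = N₁ := by rw [NN, Finset.prod_empty, mul_one]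
    have hN₁S : ∀ l, l.Prime → l ∣ N₁ → l ∈ S := fun l hl h => hS₀S (hN₁S₀ l hl h)
    obtain ⟨he1, hrk1⟩ := isLoc_congr hNN0' (hNNS ∅) hN₁S (heG' ∅)
    rw [hrk1]
    obtain ⟨s, hs, hθ⟩ := hno
    by_contra hne
    have hne' : ¬ phiG O hN₁S e = 0 := by
      intro h
      apply hne
      haveI hss : Subsingleton (part (phiG O hN₁S) e) := by
        refine ⟨fun a b => Subtype.ext ?_⟩
        obtain ⟨x, hx⟩ := a.2
        obtain ⟨y, hy⟩ := b.2
        rw [← hx, ← hy, h, LinearMap.zero_apply, LinearMap.zero_apply]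
      exact Module.finrank_zero_of_subsingleton
    apply hne'
    by_contra hne2
    haveI := charP_res hpO
    obtain ⟨z, hz0, hz1, hz2⟩ := exists_eig_all hN₁S (k := ResidueField O)
      (by rw [IsLocalRing.ResidueField.algebraMap_eq]; exact IsLocalRing.residue_surjective)
      hS hpS ι ht htc hfrobS he1 hne2
    have hz3 : ∀ l : IS S₀, (TG l.2.1 (l.not_dvd hN₁S₀)).baseChange (ResidueField O) z =
        thS tl S₀ (MvPolynomial.X l) • z := by
      intro l
      rw [thS_X]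
      by_cases hlS : l.1 ∈ S
      · rw [hSS] at hlS
        obtain ⟨i, hi⟩ := hlS.resolve_left l.2.2
        have hlp : l.1 ≠ p := fun h => l.2.2 (by rw [h]; exact hpS₀)
        have h1 := hz2 l.1 l.2.1 (l.not_dvd hN₁S₀) hlp (A i) (by rw [← hi]; exact (hv i).hA) (Φ i)
          (by rw [← hi]; exact (hv i).hΦ)
        refine h1.trans ?_
        rw [← hi, ← (hfrob (v i) (hv i).prime (hvS i) (A i) (hv i).hA (Φ i) (hv i).hΦ).1]
      · have h1 := hz1 ⟨l.1, l.2.1, hlS⟩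
        rw [thS_X] at h1
        exact h1
    obtain ⟨x, hx⟩ := red_surjective (O := O) (k := ResidueField O) (L := KumG.LZ (GG N₁))
      (by rw [IsLocalRing.ResidueField.algebraMap_eq]; exact IsLocalRing.residue_surjective) z
    have h1 := red_phiG hN₁S₀ hz3 s x 1 (by rw [hx, one_smul])
    rw [hs, LinearMap.zero_apply, map_zero, mul_one] at h1
    exact hz0 ((smul_eq_zero.1 h1.symm).resolve_left hθ)
  have hrk2 := finrank_NN hpO hS hpS ι ht htc hfrobS hinj hvN₁ hv hNNS heG' Finset.univ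
  rw [hrk, h0, mul_zero] at hrk2
  -- the auxiliary prime
  obtain ⟨l, hl, hlS, hlN, hl1, B, hB, τ, hτ, htτ⟩ := exists_aux (k := ResidueField O) (p := p)
    (by rw [← map_natCast (residue O)]; exact (IsLocalRing.residue_eq_zero_iff _).2 hpO)
    ht htc (S₀ := S₀) (fun l hl hlS A hA τ hτ => (hfrob l hl hlS A hA τ hτ).2) hcom N hS hS₀S
  have hi : thS tl S (eisP O ⟨l, hl, hlS⟩) ≠ 0 := by
    rw [eisP, map_sub, thS_X, ← MvPolynomial.algebraMap_eq, AlgHom.commutes, map_natCast,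
      Nat.cast_add, Nat.cast_one]
    change tl l - ((l : ResidueField O) + 1) ≠ 0
    rw [hl1, ← (hfrob l hl (fun h => hlS (hS₀S h)) B hB τ hτ).1]
    intro h
    apply htτ
    linear_combination h
  haveI : Module.Free O (part (phiG O hNS) e) := free_part heG.idem
  let b₀ := Module.finBasis O (part (phiG O hNS) e)
  obtain ⟨b, hb⟩ := exists_bY (H := H) hpO hp2 hΔ heG heH hi hlN b₀
  haveI : IsEmpty (Fin (Module.finrank O (part (phiG O hNS) e)) × DG N H) := by
    rw [hrk2]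
    infer_instance
  haveI hss : Subsingleton (YH H hNS e) := b.repr.toEquiv.subsingleton
  refine ⟨e, LinearMap.ext fun x => ?_, by rw [he]; exact one_ne_zero⟩
  have h4 : toPart (phiD O H hNS) (incD O S N e) x = 0 := Subsingleton.elim (α := YH H hNS e) _ _
  have h5 := congrArg Subtype.val h4
  rw [toPart_coe, phiD_incD] at h5
  exact h5

end

end Fermat.Agent.TW
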