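import Fermat.Agent.TW.C3

/-!
# The groups of diamond operators at Taylor–Wiles primes
-/

set_option autoImplicit false
set_option linter.unusedSectionVars false
set_option linter.style.haveILetI false

namespace Fermat.Agent.TW

open IsLocalRing
open Fermat.Agent.KumG Fermat.Agent.GalRep

noncomputable section

/-! ### Chinese remainders -/

theorem crt_surj {v M N : ℕ} [NeZero N] (hN : N = v * M) (hcop : v.Coprime M) (hv : v ∣ N)
    (hM : M ∣ N) (g : (ZMod v)ˣ) : ∃ d : (ZMod N)ˣ, ZMod.unitsMap hv d = g ∧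
      ZMod.unitsMap hM d = 1 := by
  haveI : NeZero v := ⟨fun h => NeZero.ne N (by rw [hN, h, zero_mul])⟩
  haveI : NeZero M := ⟨fun h => NeZero.ne N (by rw [hN, h, mul_zero])⟩
  obtain ⟨x, hx1, hx2⟩ := Nat.chineseRemainder hcop (g : ZMod v).val 1
  have h1 : (x : ZMod v) = g := by
    rw [← ZMod.natCast_zmod_val (g : ZMod v), ZMod.natCast_eq_natCast_iff]
    exact hx1
  have h2 : (x : ZMod M) = 1 := by
    rw [← Nat.cast_one, ZMod.natCast_eq_natCast_iff]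
    exact hx2
  have h3 : x.Coprime N := by
    rw [hN]
    refine Nat.Coprime.mul_right ?_ ?_
    · rw [← ZMod.isUnit_iff_coprime, h1]
      exact g.isUnit
    · rw [← ZMod.isUnit_iff_coprime, h2]
      exact isUnit_one
  refine ⟨ZMod.unitOfCoprime x h3, Units.ext ?_, Units.ext ?_⟩
  · change ZMod.castHom hv (ZMod v) ((ZMod.unitOfCoprime x h3 : (ZMod N)ˣ) : ZMod N) = _
    rw [ZMod.coe_unitOfCoprime, map_natCast, h1]
  · change ZMod.castHom hM (ZMod M) ((ZMod.unitOfCoprime x h3 : (ZMod N)ˣ) : ZMod N) = _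
    rw [ZMod.coe_unitOfCoprime, map_natCast, h2]
    rfl

theorem crt_inj {v M N : ℕ} [NeZero N] (hN : N = v * M) (hcop : v.Coprime M) (hv : v ∣ N)
    (hM : M ∣ N) {x y : (ZMod N)ˣ} (h1 : ZMod.unitsMap hv x = ZMod.unitsMap hv y)
    (h2 : ZMod.unitsMap hM x = ZMod.unitsMap hM y) : x = y := by
  have h3 : ZMod.castHom hv (ZMod v) (x : ZMod N) = ZMod.castHom hv (ZMod v) (y : ZMod N) :=
    congrArg Units.val h1
  have h4 : ZMod.castHom hM (ZMod M) (x : ZMod N) = ZMod.castHom hM (ZMod M) (y : ZMod N) :=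
    congrArg Units.val h2
  rw [← ZMod.natCast_zmod_val (x : ZMod N), ← ZMod.natCast_zmod_val (y : ZMod N), map_natCast,
    map_natCast, ZMod.natCast_eq_natCast_iff] at h3 h4
  apply Units.ext
  rw [← ZMod.natCast_zmod_val (x : ZMod N), ← ZMod.natCast_zmod_val (y : ZMod N),
    ZMod.natCast_eq_natCast_iff]
  have h5 := (Nat.modEq_and_modEq_iff_modEq_mul hcop).1 ⟨h3, h4⟩
  rwa [← hN] at h5

theorem unitsMap_comp' {a b c : ℕ} (hab : a ∣ b) (hbc : b ∣ c) (hac : a ∣ c) (x : (ZMod c)ˣ) :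
    ZMod.unitsMap hab (ZMod.unitsMap hbc x) = ZMod.unitsMap hac x := by
  have := ZMod.unitsMap_comp hab hbc
  exact DFunLike.congr_fun this x

/-! ### The group -/

section grp

variable {r : ℕ} {v : Fin r → ℕ} {N : ℕ} [NeZero N] (hvN : ∀ i, v i ∣ N) (c : Fin r → ℕ)

/-- the subgroup defining the level -/
def HQ : Subgroup (ZMod N)ˣ := ⨅ i, ((powMonoidHom (c i)).comp (ZMod.unitsMap (hvN i))).ker

theorem mem_HQ {d : (ZMod N)ˣ} : d ∈ HQ hvN c ↔ ∀ i, ZMod.unitsMap (hvN i) d ^ c i = 1 := by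
  rw [HQ, Subgroup.mem_iInf]
  rfl

/-- numerical data at the primes -/
structure TWN (p : ℕ) (N₀ : ℕ) {r : ℕ} (v : Fin r → ℕ) (N : ℕ) (m c : Fin r → ℕ) : Prop where
  pp : p.Prime
  p2 : p ≠ 2
  prime : ∀ i, (v i).Prime
  inj : Function.Injective v
  ndvd : ∀ i, ¬ v i ∣ N₀
  eq : N = N₀ * ∏ i, v i
  sub : ∀ i, v i - 1 = p ^ m i * c i
  hc : ∀ i, ¬ p ∣ c i
  hm : ∀ i, 1 ≤ m i

namespace TWN

variable {p N₀ : ℕ} {m : Fin r → ℕ} {c} (h : TWN p N₀ v N m c)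

include h

theorem dvd (i : Fin r) : v i ∣ N := by
  rw [h.eq]
  exact dvd_mul_of_dvd_right (Finset.dvd_prod_of_mem v (Finset.mem_univ i)) _

/-- the prime-to-`v i` part -/
theorem exists_M (i : Fin r) : ∃ M, N = v i * M ∧ (v i).Coprime M ∧ (∀ j, j ≠ i → v j ∣ M) ∧
    N₀ ∣ M := by
  refine ⟨N₀ * ∏ j ∈ Finset.univ.erase i, v j, ?_, ?_, ?_, dvd_mul_right _ _⟩
  · rw [h.eq, ← Finset.mul_prod_erase Finset.univ v (Finset.mem_univ i)]
    ring
  · refine Nat.Coprime.mul_right ((Nat.Prime.coprime_iff_not_dvd (h.prime i)).2 (h.ndvd i)) ?_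
    refine Nat.Coprime.prod_right fun j hj => ?_
    refine (Nat.coprime_primes (h.prime i) (h.prime j)).2 fun he => ?_
    exact (Finset.ne_of_mem_erase hj) (h.inj he).symm
  · intro j hj
    exact dvd_mul_of_dvd_right (Finset.dvd_prod_of_mem v
      (Finset.mem_erase.2 ⟨hj, Finset.mem_univ j⟩)) _

theorem ne_two (i : Fin r) : v i ≠ 2 := by
  intro h2
  have h1 := h.sub i
  rw [h2] at h1
  have h3 : p ∣ 1 := by
    have h4 : p ∣ p ^ m i * c i := dvd_mul_of_dvd_left (dvd_pow_self p (by have := h.hm i; omega)) _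
    rwa [← h1] at h4
  exact h.pp.one_lt.ne' (Nat.dvd_one.1 h3)

theorem even_c (i : Fin r) : Even (c i) := by
  have h1 : Even (v i - 1) := by
    have h2 := (h.prime i).eq_two_or_odd'.resolve_left (h.ne_two i)
    have h3 := (h.prime i).one_le
    rw [Nat.even_sub h3]
    exact ⟨fun h4 => absurd h4 (Nat.not_even_iff_odd.2 h2), fun h4 => absurd h4 (by decide)⟩
  rw [h.sub, Nat.even_mul] at h1
  refine h1.resolve_left fun h2 => ?_
  have h3 : Odd (p ^ m i) := (h.pp.odd_of_ne_two h.p2).pow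
  exact (Nat.not_even_iff_odd.2 h3) h2

theorem neg_one_mem : (-1 : (ZMod N)ˣ) ∈ HQ h.dvd c := by
  rw [mem_HQ]
  intro i
  have h1 : ZMod.unitsMap (h.dvd i) (-1) = -1 := Units.ext (by
    change ZMod.castHom (h.dvd i) (ZMod (v i)) (-1) = -1
    rw [map_neg, map_one])
  rw [h1, (h.even_c i).neg_one_pow]

/-- the generators -/
theorem exists_gen : ∃ d : Fin r → (ZMod N)ˣ,
    (∀ i M (hM : M ∣ N), N = v i * M → ZMod.unitsMap hM (d i) = 1) ∧
    (∀ i j, j ≠ i → ZMod.unitsMap (h.dvd j) (d i) = 1) ∧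
    (∀ i, ∀ y : (ZMod (v i))ˣ, ∃ n : ℕ, y = ZMod.unitsMap (h.dvd i) (d i) ^ n) ∧
    ∀ i, orderOf (ZMod.unitsMap (h.dvd i) (d i)) = v i - 1 := by
  have key : ∀ i, ∃ d : (ZMod N)ˣ, (∀ M (hM : M ∣ N), N = v i * M → ZMod.unitsMap hM d = 1) ∧
      (∀ j, j ≠ i → ZMod.unitsMap (h.dvd j) d = 1) ∧
      (∀ y : (ZMod (v i))ˣ, ∃ n : ℕ, y = ZMod.unitsMap (h.dvd i) d ^ n) ∧
      orderOf (ZMod.unitsMap (h.dvd i) d) = v i - 1 := by
    intro i
    haveI : Fact (v i).Prime := ⟨h.prime i⟩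
    obtain ⟨g, hg⟩ := IsCyclic.exists_generator (α := (ZMod (v i))ˣ)
    obtain ⟨M, hNM, hcop, hdvd, -⟩ := h.exists_M i
    have hMN : M ∣ N := ⟨v i, by rw [hNM, mul_comm]⟩
    obtain ⟨d, hd1, hd2⟩ := crt_surj hNM hcop (h.dvd i) hMN g
    refine ⟨d, fun M' hM' hNM' => ?_, fun j hj => ?_, fun y => ?_, ?_⟩
    · have : M' = M := Nat.eq_of_mul_eq_mul_left (h.prime i).pos (hNM'.symm.trans hNM)
      subst this
      exact hd2
    · rw [← unitsMap_comp' (hdvd j hj) hMN, hd2, map_one]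
    · obtain ⟨n, hn⟩ := (mem_powers_iff_mem_zpowers (x := g)).2 (hg y)
      exact ⟨n, by rw [hd1]; exact hn.symm⟩
    · rw [hd1, orderOf_eq_card_of_forall_mem_zpowers hg, Nat.card_eq_fintype_card,
        ZMod.card_units]
  choose d hd using key
  exact ⟨d, fun i => (hd i).1, fun i => (hd i).2.1, fun i => (hd i).2.2.1, fun i => (hd i).2.2.2⟩

theorem isPGroup : IsPGroup p (DG N (HQ h.dvd c)) := by
  intro x
  obtain ⟨d, rfl⟩ := QuotientGroup.mk_surjective x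
  refine ⟨∑ j, m j, ?_⟩
  rw [← QuotientGroup.mk_pow, QuotientGroup.eq_one_iff, mem_HQ]
  intro i
  haveI : Fact (v i).Prime := ⟨h.prime i⟩
  obtain ⟨a, ha⟩ := Nat.exists_eq_add_of_le
    (Finset.single_le_sum (fun j _ => Nat.zero_le (m j)) (Finset.mem_univ i))
  rw [map_pow, ← pow_mul, ha, pow_add, mul_right_comm, ← h.sub, pow_mul, ZMod.units_pow_card_sub_one_eq_one,
    one_pow]

variable {d : Fin r → (ZMod N)ˣ}
  (h1 : ∀ i M (hM : M ∣ N), N = v i * M → ZMod.unitsMap hM (d i) = 1)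
  (h2 : ∀ i j, j ≠ i → ZMod.unitsMap (h.dvd j) (d i) = 1)
  (h3 : ∀ i, ∀ y : (ZMod (v i))ˣ, ∃ n : ℕ, y = ZMod.unitsMap (h.dvd i) (d i) ^ n)
  (h4 : ∀ i, orderOf (ZMod.unitsMap (h.dvd i) (d i)) = v i - 1)

include h1 h3 in
/-- the inertia at `v i` is generated by `d i` -/
theorem gen_V (i : Fin r) {M : ℕ} (hM : M ∣ N) (hNM : N = v i * M) (hcop : (v i).Coprime M)
    {x : (ZMod N)ˣ} (hx : ZMod.unitsMap hM x = 1) : ∃ n : ℕ, x = d i ^ n := by
  obtain ⟨n, hn⟩ := h3 i (ZMod.unitsMap (h.dvd i) x)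
  refine ⟨n, crt_inj hNM hcop (h.dvd i) hM ?_ ?_⟩
  · rw [hn, map_pow]
  · rw [hx, map_pow, h1 i M hM hNM, one_pow]

include h2 in
theorem unitsMap_prod (a : Fin r → ℕ) (i : Fin r) :
    ZMod.unitsMap (h.dvd i) (∏ j, d j ^ a j) = ZMod.unitsMap (h.dvd i) (d i) ^ a i := by
  rw [map_prod, Finset.prod_eq_single i]
  · rw [map_pow]
  · intro j _ hj
    rw [map_pow, h2 j i (Ne.symm hj), one_pow]
  · intro hi
    exact absurd (Finset.mem_univ i) hi

include h2 h3 in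
/-- the `d i` generate -/
theorem gen_all (x : (ZMod N)ˣ) : ∃ a : Fin r → ℕ,
    (QuotientGroup.mk x : DG N (HQ h.dvd c)) = QuotientGroup.mk (∏ j, d j ^ a j) := by
  choose a ha using fun i => h3 i (ZMod.unitsMap (h.dvd i) x)
  refine ⟨a, ?_⟩
  rw [QuotientGroup.eq, mem_HQ]
  intro i
  rw [map_mul, map_inv, h.unitsMap_prod h2, ← ha, inv_mul_cancel, one_pow]

include h2 h4 in
theorem pow_eq_one (i : Fin r) : (QuotientGroup.mk (d i) : DG N (HQ h.dvd c)) ^ p ^ m i = 1 := by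
  rw [← QuotientGroup.mk_pow, QuotientGroup.eq_one_iff, mem_HQ]
  intro j
  by_cases hj : j = i
  · subst hj
    rw [map_pow, ← pow_mul, ← h.sub, ← h4, pow_orderOf_eq_one]
  · rw [map_pow, h2 i j hj, one_pow, one_pow]

include h2 h4 in
theorem card_ge : ∏ i, p ^ m i ≤ Fintype.card (DG N (HQ h.dvd c)) := by
  have h5 : Function.Injective (fun a : ∀ i, Fin (p ^ m i) =>
      (QuotientGroup.mk (∏ j, d j ^ (a j : ℕ)) : DG N (HQ h.dvd c))) := by
    intro a b hab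
    rw [QuotientGroup.eq, mem_HQ] at hab
    funext i
    have h6 := hab i
    rw [map_mul, map_inv, h.unitsMap_prod h2, h.unitsMap_prod h2, mul_pow, inv_pow,
      inv_mul_eq_one, ← pow_mul, ← pow_mul, pow_eq_pow_iff_modEq, h4, h.sub] at h6
    have hc0 : c i ≠ 0 := fun h0 => h.hc i (by rw [h0]; exact dvd_zero p)
    have h7 : (a i : ℕ) ≡ b i [MOD p ^ m i] :=
      Nat.ModEq.mul_right_cancel' hc0 h6
    exact Fin.ext (Nat.ModEq.eq_of_lt_of_lt h7 (a i).2 (b i).2)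
  have h6 := Fintype.card_le_of_injective _ h5
  rwa [Fintype.card_pi, Finset.prod_congr rfl fun i _ => Fintype.card_fin (p ^ m i)] at h6

end TWN

/-! ### Characters -/

theorem exists_char {p v : ℕ} (hp : p.Prime) [hv : Fact v.Prime] (hpv : p ∣ v - 1)
    {O : Type*} [CommRing O] {ζ : Oˣ} (hζ : ζ ^ p = 1) {g : (ZMod v)ˣ}
    (hg : ∀ y : (ZMod v)ˣ, ∃ n : ℕ, y = g ^ n) (ho : orderOf g = v - 1) :
    ∃ ψ : (ZMod v)ˣ →* Oˣ, ψ g = ζ ∧ ∀ u, ψ u ^ p = 1 := by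
  have h1 : ∀ x, x ∈ Subgroup.zpowers g := fun y => by
    obtain ⟨n, rfl⟩ := hg y
    exact ⟨n, zpow_natCast g n⟩
  have h2 : orderOf ζ ∣ orderOf g := by
    rw [ho]
    exact (orderOf_dvd_of_pow_eq_one hζ).trans hpv
  refine ⟨monoidHomOfForallMemZpowers h1 h2, monoidHomOfForallMemZpowers_apply_gen h1 h2, ?_⟩
  intro u
  obtain ⟨n, rfl⟩ := hg u
  rw [map_pow, monoidHomOfForallMemZpowers_apply_gen, ← pow_mul, mul_comm, pow_mul, hζ, one_pow]

/-- a character of the group of diamond operators -/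
def chiQ (i : Fin r) {O : Type*} [CommRing O] (ψ : (ZMod (v i))ˣ →* Oˣ)
    (hψ : ∀ u, u ^ c i = 1 → ψ u = 1) : DG N (HQ hvN c) →* Oˣ :=
  QuotientGroup.lift (HQ hvN c) ((powMonoidHom 2).comp (ψ.comp (ZMod.unitsMap (hvN i)))) (by
    intro d hd
    rw [MonoidHom.mem_ker, MonoidHom.comp_apply, MonoidHom.comp_apply,
      hψ _ ((mem_HQ hvN c).1 hd i), map_one])

theorem chiQ_mk (i : Fin r) {O : Type*} [CommRing O] (ψ : (ZMod (v i))ˣ →* Oˣ)
    (hψ : ∀ u, u ^ c i = 1 → ψ u = 1) (d : (ZMod N)ˣ) :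
    chiQ hvN c i ψ hψ (QuotientGroup.mk d) = ψ (ZMod.unitsMap (hvN i) d) ^ 2 := rfl

end grp

end

end Fermat.Agent.TW
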