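import Mathlib
import Fermat.Prelude.Thm_IsLocalRing_isAdicComplete_of_module_finite

/-!
# Truncated group rings
-/

set_option autoImplicit false
set_option linter.unusedSectionVars false
set_option linter.style.haveILetI false

namespace Fermat.Agent.TW

open IsLocalRing

noncomputable section

variable (O : Type) [CommRing O] {r : ℕ} (P : Fin r → ℕ)

/-- the ideal of relations -/
def GRI : Ideal (MvPolynomial (Fin r) O) :=
  Ideal.span (Set.range fun i => MvPolynomial.X i ^ P i - 1)

/-- the group ring of a product of cyclic groups of orders `P i` -/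
def GR : Type := MvPolynomial (Fin r) O ⧸ GRI O P

namespace GR

instance : CommRing (GR O P) := inferInstanceAs (CommRing (MvPolynomial (Fin r) O ⧸ GRI O P))

instance : Algebra O (GR O P) := inferInstanceAs (Algebra O (MvPolynomial (Fin r) O ⧸ GRI O P))

/-- the projection -/
def mk : MvPolynomial (Fin r) O →ₐ[O] GR O P := Ideal.Quotient.mkₐ O (GRI O P)

theorem mk_surjective : Function.Surjective (mk O P) := Ideal.Quotient.mk_surjective

theorem mk_eq_zero {f : MvPolynomial (Fin r) O} : mk O P f = 0 ↔ f ∈ GRI O P :=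
  Ideal.Quotient.eq_zero_iff_mem

variable {O P}

variable (O P) in
/-- the generators -/
def δ (i : Fin r) : GR O P := mk O P (MvPolynomial.X i)

theorem δ_pow (i : Fin r) : δ O P i ^ P i = 1 := by
  rw [δ, ← map_pow, ← map_one (mk O P), ← sub_eq_zero, ← map_sub, mk_eq_zero]
  exact Ideal.subset_span ⟨i, rfl⟩

/-- the universal property -/
def lift {B : Type*} [CommRing B] [Algebra O B] (u : Fin r → B) (hu : ∀ i, u i ^ P i = 1) :
    GR O P →ₐ[O] B :=
  Ideal.Quotient.liftₐ (GRI O P) (MvPolynomial.aeval u) (by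
    intro a ha
    have h : GRI O P ≤ RingHom.ker (MvPolynomial.aeval (R := O) u) := by
      rw [GRI, Ideal.span_le]
      rintro _ ⟨i, rfl⟩
      rw [SetLike.mem_coe, RingHom.mem_ker, map_sub, map_pow, MvPolynomial.aeval_X, hu, map_one,
        sub_self]
    exact h ha)

theorem lift_mk {B : Type*} [CommRing B] [Algebra O B] (u : Fin r → B) (hu : ∀ i, u i ^ P i = 1)
    (f : MvPolynomial (Fin r) O) : lift u hu (mk O P f) = MvPolynomial.aeval u f := rfl

theorem lift_δ {B : Type*} [CommRing B] [Algebra O B] (u : Fin r → B) (hu : ∀ i, u i ^ P i = 1)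
    (i : Fin r) : lift u hu (δ O P i) = u i := by
  rw [δ, lift_mk, MvPolynomial.aeval_X]

/-- the monomials spanning the group ring -/
def mon (a : ∀ i, Fin (P i)) : GR O P := ∏ i, δ O P i ^ (a i : ℕ)

theorem span_mon (hP : ∀ i, 0 < P i) :
    Submodule.span O (Set.range (mon (O := O) (P := P))) = ⊤ := by
  rw [eq_top_iff]
  rintro x -
  obtain ⟨f, rfl⟩ := mk_surjective O P x
  induction f using MvPolynomial.induction_on' with
  | monomial u a =>
    rw [MvPolynomial.monomial_eq, map_mul, ← MvPolynomial.algebraMap_eq, AlgHom.commutes,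
      ← Algebra.smul_def]
    refine Submodule.smul_mem _ _ (Submodule.subset_span ⟨fun i => ⟨u i % P i,
      Nat.mod_lt _ (hP i)⟩, ?_⟩)
    rw [mon, Finsupp.prod_fintype _ _ (fun i => pow_zero _), map_prod]
    refine Finset.prod_congr rfl fun i _ => ?_
    rw [map_pow]
    change δ O P i ^ (u i % P i) = δ O P i ^ u i
    conv_rhs => rw [← Nat.div_add_mod (u i) (P i), pow_add, pow_mul, δ_pow, one_pow, one_mul]
  | add p q hp hq => rw [map_add]; exact Submodule.add_mem _ hp hq

theorem finite (hP : ∀ i, 0 < P i) : Module.Finite O (GR O P) := by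
  classical
  exact ⟨⟨Finset.univ.image (mon (O := O) (P := P)), by
    rw [Finset.coe_image, Finset.coe_univ, Set.image_univ, span_mon hP]⟩⟩

/-- the augmentation to any quotient -/
def aug (k : Type*) [CommRing k] [Algebra O k] : GR O P →ₐ[O] k :=
  lift (fun _ => 1) fun _ => one_pow _

theorem aug_δ (k : Type*) [CommRing k] [Algebra O k] (i : Fin r) : aug k (δ O P i) = 1 :=
  lift_δ _ _ i

/-- the augmentation ideal -/
theorem sub_aug_mem (x : GR O P) :
    x - algebraMap O (GR O P) (aug O x) ∈ Ideal.span (Set.range fun i => δ O P i - 1) := by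
  obtain ⟨f, rfl⟩ := mk_surjective O P x
  induction f using MvPolynomial.induction_on with
  | C a =>
    rw [← MvPolynomial.algebraMap_eq, AlgHom.commutes, AlgHom.commutes, Algebra.algebraMap_self,
      RingHom.id_apply, sub_self]
    exact Ideal.zero_mem _
  | add p q hp hq =>
    have h1 : mk O P (p + q) - algebraMap O (GR O P) (aug O (mk O P (p + q))) =
      (mk O P p - algebraMap O (GR O P) (aug O (mk O P p))) +
      (mk O P q - algebraMap O (GR O P) (aug O (mk O P q))) := by
      rw [map_add, map_add, map_add]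
      ring
    rw [h1]
    exact Ideal.add_mem _ hp hq
  | mul_X p i hp =>
    have h1 : mk O P (p * MvPolynomial.X i) -
        algebraMap O (GR O P) (aug O (mk O P (p * MvPolynomial.X i))) =
      (mk O P p - algebraMap O (GR O P) (aug O (mk O P p))) + mk O P p * (δ O P i - 1) := by
      rw [map_mul, map_mul]
      have h2 : aug O (mk O P (MvPolynomial.X i)) = 1 := aug_δ O i
      rw [h2, mul_one]
      change mk O P p * δ O P i - _ = _
      ring
    rw [h1]
    exact Ideal.add_mem _ hp (Ideal.mul_mem_left _ _ (Ideal.subset_span ⟨i, rfl⟩))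

section loc

variable [IsLocalRing O] {p : ℕ} [hp : Fact p.Prime] (hpO : (p : O) ∈ maximalIdeal O)
  (hP : ∀ i, ∃ m, P i = p ^ m)

include hpO hP in
theorem δ_sub_one_pow (i : Fin r) :
    (δ O P i - 1) ^ P i ∈ (maximalIdeal O).map (algebraMap O (GR O P)) := by
  obtain ⟨m, hm⟩ := hP i
  have h2 : ((p : ℕ) : GR O P) ∈ (maximalIdeal O).map (algebraMap O (GR O P)) := by
    have := Ideal.mem_map_of_mem (algebraMap O (GR O P)) hpO
    rwa [map_natCast] at this
  obtain ⟨y, hy⟩ := Commute.exists_add_pow_prime_pow_eq hp.out (Commute.all (δ O P i) (-1)) m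
  rw [← hm, ← sub_eq_add_neg, δ_pow] at hy
  have h3 : (1 : GR O P) + (-1) ^ P i ∈ (maximalIdeal O).map (algebraMap O (GR O P)) := by
    rcases hp.out.eq_two_or_odd' with rfl | hodd
    · rcases Nat.eq_zero_or_pos m with h0 | h0
      · rw [hm, h0, pow_zero, pow_one, add_neg_cancel]
        exact Ideal.zero_mem _
      · have h4 : Even (P i) := by
          rw [hm]
          exact (Nat.even_pow' (by omega)).2 even_two
        rw [h4.neg_one_pow]
        have h5 : (1 : GR O P) + 1 = ((2 : ℕ) : GR O P) := by norm_num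
        rw [h5]
        exact h2
    · have h4 : Odd (P i) := by
        rw [hm]
        exact hodd.pow
      rw [h4.neg_one_pow, add_neg_cancel]
      exact Ideal.zero_mem _
  rw [hy]
  refine Ideal.add_mem _ h3 ?_
  rw [mul_assoc, mul_assoc]
  exact Ideal.mul_mem_right _ _ h2

include hpO hP in
theorem isUnit_of_aug {s : GR O P} (hs : aug (ResidueField O) s ≠ 0) : IsUnit s := by
  haveI : Module.Finite O (GR O P) := finite fun i => by
    obtain ⟨m, hm⟩ := hP i
    rw [hm]
    exact pow_pos hp.out.pos m
  set J := (maximalIdeal O).map (algebraMap O (GR O P)) with hJ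
  -- the augmentation ideal is nilpotent modulo `J`
  have h1 : ∀ x ∈ Ideal.span (Set.range fun i => δ O P i - 1), ∃ n, x ^ n ∈ J := by
    intro x hx
    have h2 : Ideal.span (Set.range fun i => δ O P i - 1) ≤ J.radical := by
      rw [Ideal.span_le]
      rintro _ ⟨i, rfl⟩
      exact ⟨P i, δ_sub_one_pow hpO hP i⟩
    exact h2 hx
  obtain ⟨n, hn⟩ := h1 _ (sub_aug_mem s)
  set a := aug O s with ha
  have h2 : IsUnit a := by
    by_contra hna
    apply hs
    have h3 : aug (ResidueField O) s = residue O a := by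
      have h4 : (aug (ResidueField O) : GR O P →ₐ[O] _) =
          (Algebra.ofId O (ResidueField O)).comp (aug O) := by
        refine Ideal.Quotient.algHom_ext _ (MvPolynomial.algHom_ext fun i => ?_)
        change aug (ResidueField O) (δ O P i) = (Algebra.ofId O (ResidueField O)) (aug O (δ O P i))
        rw [aug_δ, aug_δ, map_one]
      rw [h4]
      rfl
    rw [h3]
    exact (IsLocalRing.residue_eq_zero_iff a).2 ((IsLocalRing.mem_maximalIdeal _).2 hna)
  set w := algebraMap O (GR O P) a with hw
  have h3 : IsUnit w := h2.map _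
  -- `s` divides `w ^ n` modulo `J`
  obtain ⟨q, hq⟩ : s ∣ w ^ n - (w - s) ^ n := by
    have := sub_dvd_pow_sub_pow w (w - s) n
    rwa [sub_sub_cancel] at this
  have h4 : (w - s) ^ n ∈ J := by
    rw [← neg_sub, neg_pow]
    exact Ideal.mul_mem_left _ _ hn
  -- Nakayama
  have h5 : (⊤ : Submodule O (GR O P)) ≤ (Ideal.span {s}).restrictScalars O := by
    refine Submodule.le_of_le_smul_of_le_jacobson_bot (I := maximalIdeal O)
      Module.Finite.fg_top (IsLocalRing.maximalIdeal_le_jacobson _) ?_
    rintro x -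
    obtain ⟨z, hz⟩ := (h3.pow n).exists_left_inv
    have h6 : x = s * (q * z * x) + (w - s) ^ n * (z * x) := by
      have h7 : w ^ n * (z * x) = x := by rw [← mul_assoc, mul_comm (w ^ n), hz, one_mul]
      linear_combination (z * x) * hq - h7
    rw [h6]
    refine Submodule.add_mem_sup ?_ ?_
    · exact Ideal.mul_mem_right _ _ (Ideal.mem_span_singleton_self s)
    · rw [Ideal.smul_top_eq_map]
      exact Ideal.mul_mem_right _ _ h4
  have h6 : (1 : GR O P) ∈ Ideal.span {s} := h5 trivial
  rw [Ideal.mem_span_singleton] at h6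
  exact isUnit_of_dvd_one h6

include hpO hP in
theorem isLocalRing : IsLocalRing (GR O P) := by
  haveI : Nontrivial (GR O P) := (aug (O := O) (P := P) (ResidueField O)).toRingHom.domain_nontrivial
  refine IsLocalRing.of_nonunits_add fun a b ha hb hab => ?_
  have h1 : ∀ {s : GR O P}, s ∈ nonunits (GR O P) → aug (ResidueField O) s = 0 := fun {s} hs => by
    by_contra h
    exact hs (isUnit_of_aug hpO hP h)
  have h2 : aug (ResidueField O) (a + b) ≠ 0 := by
    have := hab.map (aug (O := O) (P := P) (ResidueField O))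
    exact this.ne_zero
  exact h2 (by rw [map_add, h1 ha, h1 hb, add_zero])

include hpO hP in
theorem mem_maximalIdeal [IsLocalRing (GR O P)] {s : GR O P} :
    s ∈ maximalIdeal (GR O P) ↔ aug (ResidueField O) s = 0 := by
  constructor
  · intro h
    by_contra hne
    exact (IsLocalRing.mem_maximalIdeal _).1 h (isUnit_of_aug hpO hP hne)
  · intro h
    rw [IsLocalRing.mem_maximalIdeal]
    intro hu
    have := hu.map (aug (O := O) (P := P) (ResidueField O))
    rw [h] at this
    exact not_isUnit_zero this

include hpO hP in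
theorem isLocalHom [IsLocalRing (GR O P)] : IsLocalHom (algebraMap O (GR O P)) where
  map_nonunit a ha := by
    have := ha.map (aug (O := O) (P := P) (ResidueField O))
    rw [AlgHom.commutes] at this
    by_contra hna
    have h2 : algebraMap O (ResidueField O) a = 0 :=
      (IsLocalRing.residue_eq_zero_iff a).2 ((IsLocalRing.mem_maximalIdeal _).2 hna)
    rw [h2] at this
    exact not_isUnit_zero this

theorem isNoetherianRing [IsNoetherianRing O] : IsNoetherianRing (GR O P) :=
  inferInstanceAs (IsNoetherianRing (MvPolynomial (Fin r) O ⧸ GRI O P))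

include hpO hP in
theorem δ1 [IsLocalRing (GR O P)] (i : Fin r) : δ O P i - 1 ∈ maximalIdeal (GR O P) := by
  rw [mem_maximalIdeal hpO hP, map_sub, aug_δ, map_one, sub_self]

include hpO hP in
theorem resD [IsLocalRing (GR O P)] (t : GR O P) :
    ∃ a : O, t - algebraMap O (GR O P) a ∈ maximalIdeal (GR O P) := by
  refine ⟨aug O t, ?_⟩
  have h1 : Ideal.span (Set.range fun i => δ O P i - 1) ≤ maximalIdeal (GR O P) := by
    rw [Ideal.span_le]
    rintro _ ⟨i, rfl⟩
    exact δ1 hpO hP i
  exact h1 (sub_aug_mem t)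

include hpO hP in
theorem genD [IsLocalRing (GR O P)] :
    maximalIdeal (GR O P) ≤ (maximalIdeal O).map (algebraMap O (GR O P)) ⊔
      Ideal.span (Set.range fun i => δ O P i - 1) ⊔ maximalIdeal (GR O P) ^ 2 := by
  intro t ht
  refine Ideal.mem_sup_left ?_
  have h1 := sub_aug_mem t
  have h2 : algebraMap O (GR O P) (aug O t) ∈ maximalIdeal (GR O P) := by
    have h3 : Ideal.span (Set.range fun i => δ O P i - 1) ≤ maximalIdeal (GR O P) := by
      rw [Ideal.span_le]
      rintro _ ⟨i, rfl⟩
      exact δ1 hpO hP i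
    have h4 := Ideal.sub_mem _ ht (h3 h1)
    rwa [sub_sub_cancel] at h4
  haveI := isLocalHom hpO hP
  have h3 : aug O t ∈ maximalIdeal O := by
    rw [IsLocalRing.mem_maximalIdeal] at h2 ⊢
    exact fun hu => h2 (hu.map _)
  have h4 : t = algebraMap O (GR O P) (aug O t) + (t - algebraMap O (GR O P) (aug O t)) := by ring
  rw [h4]
  exact Submodule.add_mem_sup (Ideal.mem_map_of_mem _ h3) h1

theorem univ {n : ℕ} (hn : ∀ i, ∃ m, P i = p ^ m ∧ n ≤ m) (B : Type) [CommRing B] [Algebra O B]
    (u : Fin r → B) (hu : ∀ i, u i ^ p ^ n = 1) : ∃ h : GR O P →ₐ[O] B, ∀ i, h (δ O P i) = u i := by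
  refine ⟨lift u fun i => ?_, fun i => lift_δ _ _ i⟩
  obtain ⟨m, hm, hnm⟩ := hn i
  obtain ⟨c, rfl⟩ := Nat.exists_eq_add_of_le hnm
  rw [hm, pow_add, pow_mul, hu, one_pow]

end loc

end GR

end

end Fermat.Agent.TW
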