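import Fermat.Agent.TW.Rank
import Fermat.Agent.TW.GrpH
import Fermat.Agent.TW.GrpRing

/-!
# The basis of the localised lattice over the group ring
-/

set_option autoImplicit false
set_option linter.unusedSectionVars false
set_option linter.style.haveILetI false

open IsLocalRing
open scoped TensorProduct
open Fermat.Agent.KumG Fermat.Agent.GalRep Fermat.Agent.Places Fermat.Agent.Cheb

namespace Fermat.Agent.TW

noncomputable section

variable {O : Type} [CommRing O] [IsLocalRing O] [IsNoetherianRing O]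
  [IsAdicComplete (maximalIdeal O) O] {p : ℕ} [hp : Fact p.Prime]
  (hpO : (p : O) ∈ maximalIdeal O) {S : Set ℕ} {θ : TS O S →ₐ[O] ResidueField O} {e : TS O S}

section bas

variable {N : ℕ} [NeZero N] {H : Subgroup (ZMod N)ˣ}
  [hH : Fact ((-1 : (ZMod N)ˣ) ∈ H)] {hNS : ∀ l, l.Prime → l ∣ N → l ∈ S}

theorem part_eq : part (phiH O H hNS) e = part (phiD O H hNS) (incD O S N e) := by
  rw [part, part, phiD_incD]

include hpO in
theorem exists_bY (hp2 : p ≠ 2) (hΔ : IsPGroup p (DG N H)) (heG : IsLoc (phiG O hNS) θ e)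
    (heH : IsLoc (phiH O H hNS) θ e) {i : IS S} (hi : θ (eisP O i) ≠ 0)
    (hiN : (N : ℤ) ∣ (i.1 : ℤ) - 1)
    {κ : Type} (b : Module.Basis κ O (part (phiG O hNS) e)) :
    ∃ B : Module.Basis (κ × DG N H) O (YH H hNS e),
      ∀ i δ, B (i, δ) = dlB hNS e δ • B (i, 1) := by
  haveI := charP_res hpO
  have hsurj := surjective_trO (H := H) (p := p) hp2 heG hi
  choose y hy using fun i => hsurj (b i)
  obtain ⟨B, hB⟩ := free_H hp2 hΔ heG heH hi hiN b y hy
  let E : part (phiH O H hNS) e ≃ₗ[O] YH H hNS e := LinearEquiv.ofEq _ _ part_eq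
  refine ⟨B.map E, fun i δ => ?_⟩
  apply Subtype.ext
  rw [dlB_smul, Module.Basis.map_apply, Module.Basis.map_apply]
  have h1 : ∀ z, ((E z : YH H hNS e) : XH O N H) = z := fun z => rfl
  rw [h1, h1, hB, hB, map_one]
  rfl

end bas

/-! ### The common idempotent -/

section idem

variable (O) in
/-- the modules of all levels -/
def XF {r : ℕ} (N₀ : ℕ) (v : Fin r → ℕ) [∀ s, NeZero (NN N₀ v s)] (N : ℕ) [NeZero N]
    (H : Subgroup (ZMod N)ˣ) [hH : Fact ((-1 : (ZMod N)ˣ) ∈ H)] :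
    Finset (Fin r) ⊕ Unit → Type
  | Sum.inl s => XG O (NN N₀ v s)
  | Sum.inr _ => XH O N H

variable {r : ℕ} {N₀ : ℕ} {v : Fin r → ℕ} [∀ s, NeZero (NN N₀ v s)] {N : ℕ} [NeZero N]
  {H : Subgroup (ZMod N)ˣ} [hH : Fact ((-1 : (ZMod N)ˣ) ∈ H)]

instance (i : Finset (Fin r) ⊕ Unit) : AddCommGroup (XF O N₀ v N H i) :=
  match i with
  | Sum.inl s => inferInstanceAs (AddCommGroup (XG O (NN N₀ v s)))
  | Sum.inr _ => inferInstanceAs (AddCommGroup (XH O N H))

instance (i : Finset (Fin r) ⊕ Unit) : Module O (XF O N₀ v N H i) :=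
  match i with
  | Sum.inl s => inferInstanceAs (Module O (XG O (NN N₀ v s)))
  | Sum.inr _ => inferInstanceAs (Module O (XH O N H))

instance (i : Finset (Fin r) ⊕ Unit) : Module.Finite O (XF O N₀ v N H i) :=
  match i with
  | Sum.inl s => inferInstanceAs (Module.Finite O (XG O (NN N₀ v s)))
  | Sum.inr _ => inferInstanceAs (Module.Finite O (XH O N H))

theorem exists_e (hNS : ∀ s, ∀ l, l.Prime → l ∣ NN N₀ v s → l ∈ S)
    (hNS' : ∀ l, l.Prime → l ∣ N → l ∈ S) (θ : TS O S →ₐ[O] ResidueField O) :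
    ∃ e : TS O S, θ e = 1 ∧ (∀ s, IsLoc (phiG O (hNS s)) θ e) ∧ IsLoc (phiH O H hNS') θ e := by
  let φ : ∀ i : Finset (Fin r) ⊕ Unit, TS O S →ₐ[O] Module.End O (XF O N₀ v N H i) := fun i =>
    match i with
    | Sum.inl s => phiG O (hNS s)
    | Sum.inr _ => phiH O H hNS'
  obtain ⟨e, he0, he1, he2, he3⟩ := exists_idem (XF O N₀ v N H) φ θ
  refine ⟨e, he0, fun s => ⟨he1 (Sum.inl s), fun a ha => ?_, fun a ha => ?_⟩,
    he1 (Sum.inr ()), fun a ha => ?_, fun a ha => ?_⟩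
  · obtain ⟨s', hs'⟩ := he2 a ha
    exact ⟨s', hs' (Sum.inl s)⟩
  · obtain ⟨n, hn⟩ := he3 a ha
    exact ⟨n, hn (Sum.inl s)⟩
  · obtain ⟨s', hs'⟩ := he2 a ha
    exact ⟨s', hs' (Sum.inr ())⟩
  · obtain ⟨n, hn⟩ := he3 a ha
    exact ⟨n, hn (Sum.inr ())⟩

end idem

/-! ### Non-triviality -/

section nt

/-- the residual characters -/
def thS (tl : ℕ → ResidueField O) (S : Set ℕ) : TS O S →ₐ[O] ResidueField O :=
  MvPolynomial.aeval fun l : IS S => tl l

theorem thS_X (tl : ℕ → ResidueField O) (S : Set ℕ) (l : IS S) :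
    thS tl S (MvPolynomial.X l) = tl l := MvPolynomial.aeval_X _ _

theorem phiG_eq_zero_of_subset {S₀ : Set ℕ} (hSS : S₀ ⊆ S) {N : ℕ} [NeZero N]
    (hNS₀ : ∀ l, l.Prime → l ∣ N → l ∈ S₀) (hNS : ∀ l, l.Prime → l ∣ N → l ∈ S)
    (tl : ℕ → ResidueField O) (hocc : ∀ s : TS O S₀, phiG O hNS₀ s = 0 → thS tl S₀ s = 0)
    (s : TS O S) (hs : phiG O hNS s = 0) : thS tl S s = 0 := by
  let f : IS S → IS S₀ := fun l => ⟨l.1, l.2.1, fun h => l.2.2 (hSS h)⟩
  have h1 : ∀ s : TS O S, phiG O hNS₀ (MvPolynomial.rename f s) = phiG O hNS s := by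
    intro s
    have h : (phiG O hNS₀).comp (MvPolynomial.rename f) = phiG O hNS := by
      refine MvPolynomial.algHom_ext fun i => ?_
      rw [AlgHom.comp_apply, MvPolynomial.rename_X, phiG_X, phiG_X]
    exact congrArg (fun g : TS O S →ₐ[O] Module.End O (XG O N) => g s) h
  have h2 : ∀ s : TS O S, thS tl S₀ (MvPolynomial.rename f s) = thS tl S s := by
    intro s
    have h : (thS tl S₀).comp (MvPolynomial.rename f) = thS tl S := by
      refine MvPolynomial.algHom_ext fun i => ?_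
      rw [AlgHom.comp_apply, MvPolynomial.rename_X, thS_X, thS_X]
    exact congrArg (fun g : TS O S →ₐ[O] ResidueField O => g s) h
  rw [← h2]
  exact hocc _ (by rw [h1, hs])

theorem finrank_pos_of_occ [IsDomain O] {S₀ : Set ℕ} (hSS : S₀ ⊆ S) {N₀ N' : ℕ} [NeZero N₀] [NeZero N']
    (hN' : N' = N₀) (hNS₀ : ∀ l, l.Prime → l ∣ N₀ → l ∈ S₀) (hNS : ∀ l, l.Prime → l ∣ N' → l ∈ S)
    (tl : ℕ → ResidueField O) (hocc : ∀ s : TS O S₀, phiG O hNS₀ s = 0 → thS tl S₀ s = 0)
    {e : TS O S} (he : thS tl S e = 1) (heG : IsLoc (phiG O hNS) (thS tl S) e) :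
    0 < Module.finrank O (part (phiG O hNS) e) ∧
      Module.finrank O (part (phiG O hNS) e) ≤ Module.finrank O (XG O N₀) := by
  subst hN'
  haveI : Module.Free O (part (phiG O hNS) e) := free_part heG.idem
  refine ⟨?_, ?_⟩
  · have hne : Nontrivial (part (phiG O hNS) e) := by
      by_contra hne
      rw [not_nontrivial_iff_subsingleton] at hne
      have h1 : phiG O hNS e = 0 := by
        refine LinearMap.ext fun x => ?_
        have h2 : toPart (phiG O hNS) e x = 0 := Subsingleton.elim _ _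
        exact congrArg Subtype.val h2
      have h2 := phiG_eq_zero_of_subset hSS hNS₀ hNS tl hocc e h1
      rw [he] at h2
      exact one_ne_zero h2
    exact Module.finrank_pos
  · exact Submodule.finrank_le _

end nt

end

end Fermat.Agent.TW
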