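import Fermat.Agent.TW.HL

/-!
# The trace relation on the lattice of level `Γ_H(N)`
-/

set_option autoImplicit false
set_option linter.unusedSectionVars false
set_option linter.style.haveILetI false

open Matrix.SpecialLinearGroup
open scoped MatrixGroups TensorProduct
open IsLocalRing
open Fermat.Agent.KumG Fermat.Agent.GalRep Fermat.Agent.Places Fermat.Agent.Cheb

namespace Fermat.Agent.TW

noncomputable section

section apx

variable {O : Type} [CommRing O] {Γ Γ' : Subgroup SL(2, ℤ)} [LvlG Γ] [LvlG Γ']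
  {m : ℕ} [NeZero m] [Module.Finite ℤ (LZ Γ)] [Module.Free ℤ (LZ Γ)]

theorem exists_end_of_forall {F G : O ⊗[ℤ] LZ Γ →ₗ[O] O ⊗[ℤ] LZ Γ'} {c : O}
    (h : ∀ φ : LZ Γ, ∃ z, F (1 ⊗ₜ φ) = G (1 ⊗ₜ φ) + c • z) :
    ∃ E : O ⊗[ℤ] LZ Γ →ₗ[O] O ⊗[ℤ] LZ Γ', F = G + c • E := by
  let b := Module.Free.chooseBasis ℤ (LZ Γ)
  choose z hz using fun i => h (b i)
  refine ⟨(Module.Basis.baseChange O b).constr O z, ?_⟩
  refine (Module.Basis.baseChange O b).ext fun i => ?_
  rw [LinearMap.add_apply, LinearMap.smul_apply, Module.Basis.constr_basis,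
    Module.Basis.baseChange_apply]
  exact hz i

theorem Apx.exists_end {F G : O ⊗[ℤ] LZ Γ →ₗ[O] O ⊗[ℤ] LZ Γ'} {f g : XL Γ m → XL Γ' m}
    (hf : Apx m F f) (hg : Apx m G g) (h : ∀ x, f x = g x) :
    ∃ E : O ⊗[ℤ] LZ Γ →ₗ[O] O ⊗[ℤ] LZ Γ', F = G + (m : O) • E := by
  refine exists_end_of_forall fun φ => ?_
  obtain ⟨χ, hχ⟩ := mkX_surjective (f (mkX φ))
  obtain ⟨z, hz⟩ := hf φ χ hχ.symm
  obtain ⟨w, hw⟩ := hg φ χ (by rw [hχ, h])
  refine ⟨z - w, ?_⟩
  rw [hz, hw]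
  module

end apx

section gal

variable {O : Type} [CommRing O] [IsLocalRing O] [IsNoetherianRing O]
  [IsAdicComplete (maximalIdeal O) O] {p : ℕ} [hp : Fact p.Prime]
  (hpO : (p : O) ∈ maximalIdeal O)

variable {N : ℕ} [NeZero N] {H : Subgroup (ZMod N)ˣ}
  [hH : Fact ((-1 : (ZMod N)ˣ) ∈ H)] {S : Set ℕ} (hNS : ∀ l, l.Prime → l ∣ N → l ∈ S)
  (ι : AlgebraicClosure ℚ →+* ℂ) (hS : S.Finite) (hpS : p ∈ S)

/-- continuity -/
theorem rhoN_cont (n : ℕ) : ∃ L : IntermediateField ℚ (AlgebraicClosure ℚ),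
    FiniteDimensional ℚ L ∧ ∀ σ : GQ, (∀ x ∈ L, σ x = x) →
      ∃ E : Module.End O (XH O N H), rhoN hpO ι N H σ = 1 + (p ^ n : O) • E := by
  obtain ⟨L, hL, h⟩ := exists_level_rhoF (Γ := GH N H) (m := p ^ n) ι
  refine ⟨L, hL, fun σ hσ => ?_⟩
  obtain ⟨E, hE⟩ := (apx_rhoO (Γ := GH N H) ι hpO σ n).exists_end (Apx.id (O := O)) (h σ hσ)
  refine ⟨E, ?_⟩
  rw [rhoN, hE]
  push_cast
  rfl

include hS hpS in
/-- the trace relation -/
theorem rhoN_rel (g : GQ) : ∃ s : TD O S N,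
    rhoN hpO ι N H g + cycO hpO g • ((DH N H (cycU N g)).baseChange O ∘ₗ rhoN hpO ι N H g⁻¹) =
      phiD O H hNS s := by
  have hcl := mem_of_forall_sup (O := O) (X := Module.End O (XH O N H))
    (LinearMap.range (phiD O H hNS).toLinearMap)
    (x := rhoN hpO ι N H g + cycO hpO g • ((DH N H (cycU N g)).baseChange O ∘ₗ
      rhoN hpO ι N H g⁻¹)) ?_
  · obtain ⟨s, hs⟩ := hcl
    exact ⟨s, hs.symm⟩
  intro n
  obtain ⟨M, _, t, ⟨c, hM⟩, -, -, -, -, h5⟩ := exists_pseudoRep_level (p := p)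
    (Cov.hasGoodRedH N H) ι hS hpS hNS n
  subst hM
  obtain ⟨r, -, hr⟩ := h5 g
  obtain ⟨s, hs⟩ := exists_phiD_eq O H hNS r
  obtain ⟨w, hw⟩ := cycO_spec (O := O) hpO g (n + c)
  have a1 := (apx_rhoO (O := O) (Γ := GH N H) ι hpO g (n + c)).add
    (((apx_gen (O := O) (DH N H (cycU N g)) (p ^ (n + c))).comp
      (apx_rhoO (Γ := GH N H) ι hpO g⁻¹ (n + c))).nsmul (cyc (p ^ (n + c)) g).val)
  have a2 := apx_gen (O := O) (N := N) (H := H) (TR.val N H S r) (p ^ (n + c))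
  obtain ⟨E, hE⟩ := a1.exists_end a2 fun ξ => hr ξ
  rw [← hs] at hE
  set W : Module.End O (XH O N H) := (DH N H (cycU N g)).baseChange O ∘ₗ rhoN hpO ι N H g⁻¹
    with hW
  have e1 : rhoN hpO ι N H g + cycO hpO g • W =
      phiD O H hNS s + (p ^ (n + c) : O) • (E + w • W) := by
    have e2 : rhoN hpO ι N H g + (((cyc (p ^ (n + c)) g).val : ℕ) : O) • W =
        phiD O H hNS s + ((p ^ (n + c) : ℕ) : O) • E := hE
    rw [hw, add_smul, ← add_assoc, e2]
    push_cast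
    module
  rw [e1]
  refine Submodule.add_mem_sup ⟨s, rfl⟩ ?_
  refine Submodule.smul_mono_left (Ideal.pow_le_pow_right (Nat.le_add_right n c)) ?_
  exact Submodule.smul_mem_smul (Ideal.pow_mem_pow hpO _) trivial

/-! ### the twisted representation -/

/-- the inverse square root of the diamond character -/
def twd (N : ℕ) [NeZero N] (H : Subgroup (ZMod N)ˣ) : GQ →* DG N H where
  toFun g := (QuotientGroup.mk (cycU N g) : DG N H) ^ ((Fintype.card (DG N H) - 1) / 2)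
  map_one' := by rw [map_one, QuotientGroup.mk_one, one_pow]
  map_mul' a b := by
    rw [map_mul, QuotientGroup.mk_mul]
    letI : CommGroup (DG N H) := QuotientGroup.Quotient.commGroup H
    exact mul_pow (M := DG N H) _ _ _

theorem twd_apply (g : GQ) : twd N H g =
    (QuotientGroup.mk (cycU N g) : DG N H) ^ ((Fintype.card (DG N H) - 1) / 2) := rfl

theorem twd_mul_mk (hodd : Odd (Fintype.card (DG N H))) (g : GQ) :
    twd N H g * (QuotientGroup.mk (cycU N g) : DG N H) = (twd N H g)⁻¹ := by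
  rw [eq_inv_iff_mul_eq_one, twd_apply]
  set x : DG N H := QuotientGroup.mk (cycU N g)
  obtain ⟨k, hk⟩ := hodd
  rw [hk, Nat.add_sub_cancel, Nat.mul_div_cancel_left k two_pos, ← pow_succ, ← pow_add]
  have h1 : x ^ Fintype.card (DG N H) = 1 := pow_card_eq_one
  rw [hk] at h1
  rw [← h1]
  congr 1
  omega

theorem rhoN_DO (δ : DG N H) (σ : GQ) :
    rhoN (O := O) hpO ι N H σ * DO O N H δ = DO O N H δ * rhoN hpO ι N H σ := by
  refine LinearMap.ext fun x => ?_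
  rw [← QuotientGroup.out_eq' δ]
  exact rhoN_DH hpO ι δ.out σ x

/-- the twisted representation -/
def rhoT (N : ℕ) [NeZero N] (H : Subgroup (ZMod N)ˣ) [hH : Fact ((-1 : (ZMod N)ˣ) ∈ H)] :
    GQ →* Module.End O (XH O N H) where
  toFun g := DO O N H (twd N H g) * rhoN hpO ι N H g
  map_one' := by rw [map_one, map_one, map_one, one_mul]
  map_mul' a b := by
    rw [map_mul, map_mul, map_mul]
    have := rhoN_DO (O := O) (N := N) (H := H) hpO ι (twd N H b) a
    rw [mul_assoc, ← mul_assoc (DO O N H (twd N H b)), ← this]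
    simp only [mul_assoc]

theorem rhoT_apply (g : GQ) : rhoT (O := O) hpO ι N H g =
    DO O N H (twd N H g) * rhoN hpO ι N H g := rfl

theorem exists_phiD_DO (δ : DG N H) : ∃ s : TD O S N, phiD O H hNS s = DO O N H δ := by
  refine ⟨MvPolynomial.X (Sum.inr δ.out), ?_⟩
  rw [phiD_inr]
  conv_rhs => rw [← QuotientGroup.out_eq' δ]
  rfl

include hS hpS in
/-- the trace relation for the twisted representation -/
theorem rhoT_rel (hodd : Odd (Fintype.card (DG N H))) (g : GQ) : ∃ s : TD O S N,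
    rhoT (O := O) hpO ι N H g + cycO hpO g • rhoT (O := O) hpO ι N H g⁻¹ = phiD O H hNS s := by
  obtain ⟨s, hs⟩ := rhoN_rel (O := O) (N := N) (H := H) hpO hNS ι hS hpS g
  obtain ⟨r, hr⟩ := exists_phiD_DO (O := O) (H := H) hNS (twd N H g)
  refine ⟨r * s, ?_⟩
  rw [map_mul, hr, ← hs, mul_add, mul_smul_comm, rhoT_apply, rhoT_apply]
  congr 2
  rw [map_inv, ← twd_mul_mk hodd, map_mul, mul_assoc]
  rfl

theorem rhoT_phiD (σ : GQ) (s : TD O S N) (x : XH O N H) :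
    rhoT (O := O) hpO ι N H σ (phiD O H hNS s x) =
      phiD O H hNS s (rhoT (O := O) hpO ι N H σ x) := by
  obtain ⟨r, hr⟩ := exists_phiD_DO (O := O) (H := H) hNS (twd N H σ)
  rw [rhoT_apply, ← hr, Module.End.mul_apply, Module.End.mul_apply, rhoN_phiD]
  have h : phiD O H hNS r * phiD O H hNS s = phiD O H hNS s * phiD O H hNS r := by
    rw [← map_mul, ← map_mul, mul_comm]
  exact LinearMap.congr_fun h _

/-- continuity -/
theorem rhoT_cont (n : ℕ) : ∃ L : IntermediateField ℚ (AlgebraicClosure ℚ),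
    FiniteDimensional ℚ L ∧ ∀ σ : GQ, (∀ x ∈ L, σ x = x) →
      ∃ E : Module.End O (XH O N H), rhoT (O := O) hpO ι N H σ = 1 + (p ^ n : O) • E := by
  obtain ⟨L, hL, h⟩ := rhoN_cont (O := O) (N := N) (H := H) hpO ι n
  obtain ⟨L', hL', h'⟩ := exists_level_cycU N
  haveI := hL
  haveI := hL'
  refine ⟨L ⊔ L', inferInstance, fun σ hσ => ?_⟩
  obtain ⟨E, hE⟩ := h σ fun x hx => hσ x ((le_sup_left : L ≤ L ⊔ L') hx)
  have h2 := h' σ fun x hx => hσ x ((le_sup_right : L' ≤ L ⊔ L') hx)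
  refine ⟨E, ?_⟩
  rw [rhoT_apply, twd_apply, h2, QuotientGroup.mk_one, one_pow, map_one, one_mul, hE]

/-- inertia acts trivially at good primes -/
theorem rhoT_inertia {q : ℕ} (hq : q.Prime) (hqN : ¬ q ∣ N * p)
    {A : ValuationSubring (AlgebraicClosure ℚ)} (hA : A.LiesOverPrime q) {σ : GQ}
    (hσ : σ ∈ A.inertiaSubgroupIn ℚ) : rhoT (O := O) hpO ι N H σ = 1 := by
  have hqN' : ¬ q ∣ N := fun h => hqN (dvd_mul_of_dvd_left h p)
  rw [rhoT_apply, rhoN_inertia hpO ι hq hqN hA hσ, mul_one, twd_apply,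
    cycU_inertia ((Nat.Prime.coprime_iff_not_dvd hq).2 hqN') hA hσ, QuotientGroup.mk_one, one_pow,
    map_one]

/-- the Eichler–Shimura relation for the twisted representation -/
theorem rhoT_frob (hodd : Odd (Fintype.card (DG N H))) {l : ℕ} (hl : l.Prime) (hlN : ¬ l ∣ N)
    (hlp : l ≠ p) {A : ValuationSubring (AlgebraicClosure ℚ)}
    (hA : A.LiesOverPrime l) {τ : GQ} (hτ : A.IsFrobeniusAt τ l) :
    rhoT (O := O) hpO ι N H τ + (l : O) • rhoT (O := O) hpO ι N H τ⁻¹ =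
      DO O N H (twd N H τ) * (TH N H hl hlN).baseChange O := by
  have h := rhoN_frob (O := O) (H := H) hpO ι hl hlN hlp
    (cycU_frobenius ((Nat.Prime.coprime_iff_not_dvd hl).2 hlN) hA hτ) hA hτ
  rw [← h, mul_add, mul_smul_comm, rhoT_apply, rhoT_apply]
  congr 2
  rw [map_inv, ← twd_mul_mk hodd, map_mul, mul_assoc]
  rfl

end gal

end

end Fermat.Agent.TW
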