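import Fermat.Agent.TW.TQ4

/-!
# The localised lattice of level `Γ_H(N)` as a Galois module over the Hecke algebra
-/

set_option autoImplicit false
set_option linter.unusedSectionVars false
set_option linter.style.haveILetI false

open scoped TensorProduct
open IsLocalRing
open Fermat.Agent.KumG Fermat.Agent.GalRep Fermat.Agent.Places Fermat.Agent.Cheb

namespace Fermat.Agent.TW

noncomputable section

variable {O : Type} [CommRing O] [IsLocalRing O] [IsNoetherianRing O]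
  [IsAdicComplete (maximalIdeal O) O] {p : ℕ} [hp : Fact p.Prime]
  (hpO : (p : O) ∈ maximalIdeal O) {N : ℕ} [NeZero N] (ι : AlgebraicClosure ℚ →+* ℂ)

/-- the localised lattice -/
abbrev YH (H : Subgroup (ZMod N)ˣ) [hH : Fact ((-1 : (ZMod N)ˣ) ∈ H)] {S : Set ℕ}
    (hNS : ∀ l, l.Prime → l ∣ N → l ∈ S) (e : TS O S) : Type :=
  part (phiD O H hNS) (incD O S N e)

/-- the Hecke action on the localised lattice -/
abbrev psiY (H : Subgroup (ZMod N)ˣ) [hH : Fact ((-1 : (ZMod N)ˣ) ∈ H)] {S : Set ℕ}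
    (hNS : ∀ l, l.Prime → l ∣ N → l ∈ S) (e : TS O S) :
    TD O S N →ₐ[O] Module.End O (YH H hNS e) := actPart (phiD O H hNS) (incD O S N e)

/-- the Galois action on the localised lattice -/
abbrev rhoY (H : Subgroup (ZMod N)ˣ) [hH : Fact ((-1 : (ZMod N)ˣ) ∈ H)] {S : Set ℕ}
    (hNS : ∀ l, l.Prime → l ∣ N → l ∈ S) (e : TS O S) :
    GQ →* Module.End O (YH H hNS e) :=
  repPart (e := incD O S N e) (rhoT (O := O) hpO ι N H) (rhoT_phiD (O := O) hpO hNS ι)

variable {H : Subgroup (ZMod N)ˣ}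
  [hH : Fact ((-1 : (ZMod N)ˣ) ∈ H)] {S : Set ℕ} {hNS : ∀ l, l.Prime → l ∣ N → l ∈ S}
  (hS : S.Finite) (hpS : p ∈ S)

theorem odd_card (hp2 : p ≠ 2) (hΔ : IsPGroup p (DG N H)) : Odd (Fintype.card (DG N H)) := by
  obtain ⟨k, hk⟩ := hΔ.exists_card_eq
  rw [Nat.card_eq_fintype_card] at hk
  rw [hk]
  exact (hp.out.odd_of_ne_two hp2).pow

include hS hpS in
theorem hg_YH (hp2 : p ≠ 2) (hΔ : IsPGroup p (DG N H)) {θ : TS O S →ₐ[O] ResidueField O}
    {e : TS O S} (heH : IsLoc (phiH O H hNS) θ e) [Nontrivial (YH H hNS e)]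
    {t D : GQ → ResidueField O} (ht : IsPseudoRep t D) (htc : IsLocConst t)
    (hfrob : ∀ l : IS S, ∀ A : ValuationSubring (AlgebraicClosure ℚ),
      A.LiesOverPrime (l : ℕ) → ∀ τ : GQ, A.IsFrobeniusAt τ (l : ℕ) →
        t τ = θ (MvPolynomial.X l) ∧ D τ = (l : ℕ)) :
    haveI : Module.Free O (YH H hNS e) := free_part (isLoc_phiD hpO hp2 hΔ heH).idem
    HG hpO S t (psiY H hNS e) (thetaD θ N) (rhoY hpO ι H hNS e) := by
  have hloc := isLoc_phiD hpO hp2 hΔ heH
  haveI : Module.Free O (YH H hNS e) := free_part hloc.idem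
  have hodd := odd_card hp2 hΔ
  refine ⟨hS, ?_, ?_, ?_, ?_, ?_, ?_, ⟨D, ht, ?_⟩, htc⟩
  · intro σ s y
    exact Subtype.ext (rhoT_phiD (O := O) (H := H) hpO hNS ι σ s (y : XH O N H))
  · intro g
    obtain ⟨s, hs⟩ := rhoT_rel (O := O) (H := H) hpO hNS ι hS hpS hodd g
    refine ⟨s, LinearMap.ext fun y => Subtype.ext ?_⟩
    exact LinearMap.congr_fun hs (y : XH O N H)
  · intro n
    obtain ⟨L, hL, h⟩ := rhoT_cont (O := O) (N := N) (H := H) hpO ι n
    refine ⟨L, hL, fun σ hσ => ?_⟩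
    obtain ⟨E, hE⟩ := h σ hσ
    refine ⟨toPart (phiD O H hNS) (incD O S N e) ∘ₗ E ∘ₗ (Submodule.subtype _),
      LinearMap.ext fun y => Subtype.ext ?_⟩
    have h1 := LinearMap.congr_fun hE (y : XH O N H)
    have h2 : (rhoY hpO ι H hNS e σ y : XH O N H) = rhoT (O := O) hpO ι N H σ y := rfl
    have h3 := (mem_part hloc.idem).1 (rhoY hpO ι H hNS e σ y).2
    rw [h2, h1] at h3
    rw [h2, h1]
    have h4 := (mem_part hloc.idem).1 y.2
    rw [LinearMap.add_apply, map_add, Module.End.one_apply, h4] at h3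
    rw [LinearMap.add_apply, Module.End.one_apply, ← h3, LinearMap.smul_apply, map_smul]
    rfl
  · intro s hs
    obtain ⟨n, hn⟩ := hloc.nil s hs
    refine ⟨n, fun x => ?_⟩
    rw [mem_smul_part hloc.idem, actPart_coe]
    have h1 := hn (x : XH O N H)
    rwa [map_mul, Module.End.mul_apply, (mem_part hloc.idem).1 x.2] at h1
  · intro s hs
    obtain ⟨s', hs'⟩ := hloc.unit s hs
    refine ⟨s', LinearMap.ext fun x => Subtype.ext ?_⟩
    have h1 := LinearMap.congr_fun hs' (x : XH O N H)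
    rw [Module.End.mul_apply, Module.End.mul_apply, (mem_part hloc.idem).1 x.2] at h1
    exact h1
  · intro l hl hlS A hA τ hτ
    have hlp : l ≠ p := by rintro rfl; exact hlS hpS
    have hlN : ¬ l ∣ N := fun h => hlS (hNS l hl h)
    refine ⟨cycO_frob hpO hl hlp hA hτ, ?_⟩
    have h1 := rhoT_frob (O := O) (H := H) hpO ι hodd hl hlN hlp hA hτ
    refine ⟨MvPolynomial.X (Sum.inr (twd N H τ).out) * MvPolynomial.X (Sum.inl ⟨l, hl, hlS⟩),
      LinearMap.ext fun y => Subtype.ext ?_, ?_⟩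
    · have h2 := LinearMap.congr_fun h1 (y : XH O N H)
      rw [actPart_coe, map_mul, phiD_inr, phiD_inl, ← DO_mk, QuotientGroup.out_eq']
      exact h2
    · rw [map_mul, thetaD_inr, thetaD_inl, one_mul]
      exact ((hfrob ⟨l, hl, hlS⟩ A hA τ hτ).1).symm
  · intro l hl hlS A hA τ hτ
    exact (hfrob ⟨l, hl, hlS⟩ A hA τ hτ).2

end

end Fermat.Agent.TW
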