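import Fermat.Agent.TW.Lat
import Fermat.Agent.Cov.GoodH

/-!
# The Hecke algebra and the Galois action on the lattice of level `Γ_H(N)`
-/

set_option autoImplicit false
set_option linter.unusedSectionVars false
set_option linter.style.haveILetI false

open Matrix.SpecialLinearGroup
open scoped MatrixGroups TensorProduct
open IsLocalRing
open Fermat.Agent.KumG Fermat.Agent.GalRep Fermat.Agent.Places Fermat.Agent.Cheb

namespace Fermat.Agent.TW

noncomputable section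

section hecke

variable (O : Type) [CommRing O] {N : ℕ} [NeZero N] (H : Subgroup (ZMod N)ˣ)
  [hH : Fact ((-1 : (ZMod N)ˣ) ∈ H)] {S : Set ℕ} (hNS : ∀ l, l.Prime → l ∣ N → l ∈ S)

/-- the universal Hecke algebra with diamond operators -/
abbrev TD (S : Set ℕ) (N : ℕ) : Type := MvPolynomial (IS S ⊕ (ZMod N)ˣ) O

/-- the generators -/
def genD : IS S ⊕ (ZMod N)ˣ → Module.End ℤ (KumG.LZ (GH N H))
  | Sum.inl i => TH N H i.2.1 (i.not_dvd hNS)
  | Sum.inr d => DH N H d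

theorem genD_comm (i j : IS S ⊕ (ZMod N)ˣ) : Commute (genD H hNS i) (genD H hNS j) := by
  rcases i with i | d <;> rcases j with j | e
  · exact TH_TH_comm (H := H) i.2.1 (i.not_dvd hNS) j.2.1 (j.not_dvd hNS)
  · exact (DH_TH_comm e i.2.1 (i.not_dvd hNS)).symm
  · exact DH_TH_comm d j.2.1 (j.not_dvd hNS)
  · exact DH_DH_comm d e

/-- the generators -/
def genO (i : IS S ⊕ (ZMod N)ˣ) : Module.End O (XH O N H) := (genD H hNS i).baseChange O

theorem genO_comm (i j : IS S ⊕ (ZMod N)ˣ) : Commute (genO O H hNS i) (genO O H hNS j) := by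
  have h := genD_comm H hNS i j
  rw [Commute, SemiconjBy] at h ⊢
  change LinearMap.baseChange O _ ∘ₗ LinearMap.baseChange O _ =
    LinearMap.baseChange O _ ∘ₗ LinearMap.baseChange O _
  rw [← LinearMap.baseChange_comp, ← LinearMap.baseChange_comp]
  exact congrArg _ h

/-- the Hecke action with diamond operators -/
def phiD : TD O S N →ₐ[O] Module.End O (XH O N H) := evC (genO O H hNS) (genO_comm O H hNS)

theorem phiD_inl (i : IS S) : phiD O H hNS (MvPolynomial.X (Sum.inl i)) =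
    (TH N H i.2.1 (i.not_dvd hNS)).baseChange O := evC_X _ _ _

theorem phiD_inr (d : (ZMod N)ˣ) : phiD O H hNS (MvPolynomial.X (Sum.inr d)) =
    (DH N H d).baseChange O := evC_X _ _ _

/-- the inclusion of the Hecke algebra without diamond operators -/
def incD (S : Set ℕ) (N : ℕ) : TS O S →ₐ[O] TD O S N := MvPolynomial.rename Sum.inl

theorem incD_X (i : IS S) : incD O S N (MvPolynomial.X i) = MvPolynomial.X (Sum.inl i) :=
  MvPolynomial.rename_X _ _

theorem phiD_incD (s : TS O S) : phiD O H hNS (incD O S N s) = phiH O H hNS s := by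
  have h : (phiD O H hNS).comp (incD O S N) = phiH O H hNS := by
    refine MvPolynomial.algHom_ext fun i => ?_
    rw [AlgHom.comp_apply, incD_X, phiD_inl, phiH_X]
  exact congrArg (fun f : TS O S →ₐ[O] Module.End O (XH O N H) => f s) h

theorem DO_mk (d : (ZMod N)ˣ) : DO O N H (QuotientGroup.mk d) = (DH N H d).baseChange O := rfl

/-- elements of the integral Hecke ring come from the universal Hecke algebra -/
theorem exists_phiD_eq (a : TR N H S) : ∃ s : TD O S N,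
    phiD O H hNS s = (TR.val N H S a).baseChange O := by
  induction a using TR.induction with
  | hT l hl hlN hlS => exact ⟨MvPolynomial.X (Sum.inl ⟨l, hl, hlS⟩), phiD_inl O H hNS ⟨l, hl, hlS⟩⟩
  | hD d => exact ⟨MvPolynomial.X (Sum.inr d), phiD_inr O H hNS d⟩
  | hint n =>
    refine ⟨(n : TD O S N), ?_⟩
    rw [map_intCast, map_intCast]
    refine LinearMap.ext fun x => bc_ext O (f := ((n : ℤ) : Module.End O (XH O N H)))
      (g := LinearMap.baseChange O _) (fun x => ?_) x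
    rw [LinearMap.baseChange_tmul, Module.End.intCast_apply, Module.End.intCast_apply,
      TensorProduct.tmul_smul]
  | hadd a b ha hb =>
    obtain ⟨s, hs⟩ := ha
    obtain ⟨s', hs'⟩ := hb
    exact ⟨s + s', by rw [map_add, map_add, hs, hs', LinearMap.baseChange_add]⟩
  | hmul a b ha hb =>
    obtain ⟨s, hs⟩ := ha
    obtain ⟨s', hs'⟩ := hb
    refine ⟨s * s', ?_⟩
    rw [map_mul, map_mul, hs, hs']
    exact (LinearMap.baseChange_comp _ _).symm

end hecke

section gal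

variable {O : Type} [CommRing O] [IsLocalRing O] [IsNoetherianRing O]
  [IsAdicComplete (maximalIdeal O) O] {p : ℕ} [hp : Fact p.Prime]
  (hpO : (p : O) ∈ maximalIdeal O)

include hpO in
/-- the `p`-adic cyclotomic character -/
theorem exists_cycO (g : GQ) : ∃ x : O, ∀ n, ∃ z : O, x = (((cyc (p ^ n) g).val : ℕ) : O) +
    (p ^ n : O) • z := by
  refine exists_lim_seq hpO _ fun n => ?_
  have h2 : (cyc (p ^ (n + 1)) g).val ≡ (cyc (p ^ n) g).val [MOD p ^ n] := by
    rw [← ZMod.natCast_eq_natCast_iff, ZMod.natCast_zmod_val,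
      ← castHom_cyc (pow_dvd_pow p (Nat.le_succ n)) g]
    simp [ZMod.natCast_val]
  obtain ⟨c, hc⟩ := (Nat.modEq_iff_dvd.mp h2.symm)
  refine ⟨(c : O), ?_⟩
  have h3 : (((cyc (p ^ (n + 1)) g).val : ℕ) : ℤ) = ((cyc (p ^ n) g).val : ℕ) + (p : ℤ) ^ n * c := by
    push_cast at hc ⊢
    linarith
  have h4 := congrArg (Int.cast : ℤ → O) h3
  push_cast at h4
  rw [smul_eq_mul]
  exact h4

/-- the `p`-adic cyclotomic character -/
def cycO : GQ →* O where
  toFun g := (exists_cycO hpO g).choose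
  map_one' := by
    refine eq_of_forall_pow hpO fun n => ?_
    obtain ⟨z, hz⟩ := (exists_cycO (O := O) hpO 1).choose_spec n
    have h1 : (((cyc (p ^ n) (1 : GQ)).val : ℕ) : O) - 1 ∈ Ideal.span {(p : O) ^ n} := by
      rw [map_one, ← Ideal.Quotient.eq, map_natCast, map_one]
      have : (((1 : ZMod (p ^ n)).val : ℕ) : O ⧸ Ideal.span {(p : O) ^ n}) = ((1 : ℕ) : _) := by
        refine natCast_eq_of_modEq (N := p ^ n) ?_ ?_
        · rw [← map_natCast (Ideal.Quotient.mk _), Ideal.Quotient.eq_zero_iff_mem,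
            Ideal.mem_span_singleton]
          push_cast
          exact dvd_rfl
        · rw [← ZMod.natCast_eq_natCast_iff, ZMod.natCast_zmod_val, Nat.cast_one]
      rw [this, Nat.cast_one]
    rw [Ideal.mem_span_singleton] at h1
    obtain ⟨w, hw⟩ := h1
    exact ⟨z + w, by rw [hz, smul_add, smul_eq_mul, smul_eq_mul, ← hw]; ring⟩
  map_mul' a b := by
    refine eq_of_forall_pow hpO fun n => ?_
    obtain ⟨z, hz⟩ := (exists_cycO (O := O) hpO (a * b)).choose_spec n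
    obtain ⟨x, hx⟩ := (exists_cycO (O := O) hpO a).choose_spec n
    obtain ⟨y, hy⟩ := (exists_cycO (O := O) hpO b).choose_spec n
    have h1 : (((cyc (p ^ n) (a * b)).val : ℕ) : O) - ((cyc (p ^ n) a).val : ℕ) *
        ((cyc (p ^ n) b).val : ℕ) ∈ Ideal.span {(p : O) ^ n} := by
      rw [← Ideal.Quotient.eq, map_mul (cyc (p ^ n)), map_natCast, map_mul, map_natCast,
        map_natCast, ← Nat.cast_mul]
      refine natCast_eq_of_modEq (N := p ^ n) ?_ ?_
      · rw [← map_natCast (Ideal.Quotient.mk _), Ideal.Quotient.eq_zero_iff_mem,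
          Ideal.mem_span_singleton]
        push_cast
        exact dvd_rfl
      · rw [← ZMod.natCast_eq_natCast_iff, ZMod.natCast_zmod_val, Nat.cast_mul,
          ZMod.natCast_zmod_val, ZMod.natCast_zmod_val]
    rw [Ideal.mem_span_singleton] at h1
    obtain ⟨w, hw⟩ := h1
    rw [smul_eq_mul] at hz hx hy
    refine ⟨z + w - (((cyc (p ^ n) a).val : ℕ) : O) * y - x * (((cyc (p ^ n) b).val : ℕ) : O) -
      (p ^ n : O) * x * y, ?_⟩
    rw [hz, hx, hy, smul_eq_mul]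
    linear_combination hw

theorem cycO_spec (g : GQ) (n : ℕ) : ∃ z : O, cycO hpO g = (((cyc (p ^ n) g).val : ℕ) : O) +
    (p ^ n : O) * z := by
  obtain ⟨z, hz⟩ := (exists_cycO (O := O) hpO g).choose_spec n
  exact ⟨z, by rw [smul_eq_mul] at hz; exact hz⟩

theorem cycO_eq {g : GQ} {b : ℕ} (h : ∀ n, cyc (p ^ n) g = b) : cycO hpO g = (b : O) := by
  refine eq_of_forall_pow hpO fun n => ?_
  obtain ⟨z, hz⟩ := cycO_spec (O := O) hpO g n
  have h1 : (cyc (p ^ n) g).val ≡ b [MOD p ^ n] := by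
    rw [← ZMod.natCast_eq_natCast_iff, ZMod.natCast_zmod_val, h n]
  obtain ⟨c, hc⟩ := (Nat.modEq_iff_dvd.mp h1.symm)
  have h3 : (((cyc (p ^ n) g).val : ℕ) : ℤ) = b + (p : ℤ) ^ n * c := by
    push_cast at hc ⊢
    linarith
  have h4 := congrArg (Int.cast : ℤ → O) h3
  push_cast at h4
  refine ⟨(c : O) + z, ?_⟩
  rw [hz, smul_eq_mul, h4]
  ring

theorem cycO_frob {ℓ : ℕ} (hℓ : ℓ.Prime) (hℓp : ℓ ≠ p) {A : ValuationSubring (AlgebraicClosure ℚ)}
    (hA : A.LiesOverPrime ℓ) {τ : GQ} (hτ : A.IsFrobeniusAt τ ℓ) : cycO hpO τ = (ℓ : O) :=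
  cycO_eq hpO fun _ => cyc_frobenius
    (Nat.Coprime.pow_right _ ((Nat.coprime_primes hℓ hp.out).mpr hℓp)) hA hτ

theorem cycO_inertia {ℓ : ℕ} (hℓ : ℓ.Prime) (hℓp : ℓ ≠ p)
    {A : ValuationSubring (AlgebraicClosure ℚ)}
    (hA : A.LiesOverPrime ℓ) {σ : GQ} (hσ : σ ∈ A.inertiaSubgroupIn ℚ) : cycO hpO σ = 1 := by
  have := cycO_eq (O := O) (b := 1) (g := σ) hpO fun n => by
    rw [cyc_inertia (Nat.Coprime.pow_right _ ((Nat.coprime_primes hℓ hp.out).mpr hℓp)) hA hσ,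
      Nat.cast_one]
  rw [this, Nat.cast_one]

theorem cycO_conj : cycO hpO complexConjugation = -1 := by
  refine eq_of_forall_pow hpO fun n => ?_
  obtain ⟨z, hz⟩ := cycO_spec (O := O) hpO complexConjugation n
  have h1 : (cyc (p ^ n) complexConjugation).val ≡ p ^ n - 1 [MOD p ^ n] := by
    rw [← ZMod.natCast_eq_natCast_iff, ZMod.natCast_zmod_val, cyc_complexConjugation,
      Nat.cast_sub (Nat.one_le_pow _ _ hp.out.pos)]
    simp
  obtain ⟨c, hc⟩ := (Nat.modEq_iff_dvd.mp h1.symm)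
  have h3 : (((cyc (p ^ n) complexConjugation).val : ℕ) : ℤ) = (p : ℤ) ^ n - 1 + (p : ℤ) ^ n * c := by
    rw [Nat.cast_sub (Nat.one_le_pow _ _ hp.out.pos)] at hc
    push_cast at hc ⊢
    linarith
  have h4 := congrArg (Int.cast : ℤ → O) h3
  push_cast at h4
  refine ⟨(c : O) + z + 1, ?_⟩
  rw [hz, smul_eq_mul, h4]
  ring

variable {N : ℕ} [NeZero N] {H : Subgroup (ZMod N)ˣ}
  [hH : Fact ((-1 : (ZMod N)ˣ) ∈ H)] {S : Set ℕ} (hNS : ∀ l, l.Prime → l ∣ N → l ∈ S)
  (ι : AlgebraicClosure ℚ →+* ℂ)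

/-- the Galois representation of level `Γ_H(N)` -/
abbrev rhoN (N : ℕ) [NeZero N] (H : Subgroup (ZMod N)ˣ) [hH : Fact ((-1 : (ZMod N)ˣ) ∈ H)] :
    GQ →* Module.End O (XH O N H) := rhoO ι hpO

theorem apx_gen (T : Module.End ℤ (KumG.LZ (GH N H))) (m : ℕ) [NeZero m] :
    Apx (O := O) m (T.baseChange O) (actE (GH N H) m T) := Apx.base T fun _ => rfl

theorem rhoN_base {T : Module.End ℤ (KumG.LZ (GH N H))} (hT : T ∈ galComm (GH N H) ι) (σ : GQ)
    (x : XH O N H) : rhoN hpO ι N H σ (T.baseChange O x) = T.baseChange O (rhoN hpO ι N H σ x) := by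
  have h : rhoN hpO ι N H σ ∘ₗ T.baseChange O = T.baseChange O ∘ₗ rhoN hpO ι N H σ :=
    Apx.ext' hpO (fun n => (apx_rhoO ι hpO σ n).comp (apx_gen T _))
      (fun n => (apx_gen T _).comp (apx_rhoO ι hpO σ n)) fun n ξ => hT (p ^ n) σ ξ
  exact LinearMap.congr_fun h x

theorem rhoN_DH (d : (ZMod N)ˣ) (σ : GQ) (x : XH O N H) :
    rhoN hpO ι N H σ ((DH N H d).baseChange O x) = (DH N H d).baseChange O (rhoN hpO ι N H σ x) :=
  rhoN_base hpO ι (DH_mem_galComm ι d) σ x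

theorem rhoN_phiD (σ : GQ) (s : TD O S N) (x : XH O N H) :
    rhoN hpO ι N H σ (phiD O H hNS s x) = phiD O H hNS s (rhoN hpO ι N H σ x) := by
  refine evC_comp (rhoN hpO ι N H σ) (fun i x => ?_) s x
  rcases i with i | d
  · exact rhoN_base hpO ι (TH_mem_galComm ι i.2.1 (i.not_dvd hNS)) σ x
  · exact rhoN_DH hpO ι d σ x

/-- inertia acts trivially at good primes -/
theorem rhoN_inertia {q : ℕ} (hq : q.Prime) (hqN : ¬ q ∣ N * p)
    {A : ValuationSubring (AlgebraicClosure ℚ)} (hA : A.LiesOverPrime q) {σ : GQ}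
    (hσ : σ ∈ A.inertiaSubgroupIn ℚ) : rhoN (O := O) hpO ι N H σ = 1 := by
  have hqN' : ¬ q ∣ N := fun h => hqN (dvd_mul_of_dvd_left h p)
  have hqp : q ≠ p := by rintro rfl; exact hqN (dvd_mul_left _ _)
  have hcop : ∀ n, ¬ q ∣ p ^ n := fun n h => hqp ((Nat.prime_dvd_prime_iff_eq hq hp.out).1
    (hq.dvd_of_dvd_pow h))
  exact Apx.ext' hpO (fun n => apx_rhoO ι hpO σ n) (fun n => Apx.id) fun n ξ =>
    rhoF_inertia ι (Cov.hasGoodRedH N H (p ^ n) q hq hqN' (hcop n) A hA) hσ ξ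

/-- the Eichler–Shimura relation -/
theorem rhoN_frob {l : ℕ} (hl : l.Prime) (hlN : ¬ l ∣ N) (hlp : l ≠ p) {d : (ZMod N)ˣ}
    (hd : (d : ZMod N) = l) {A : ValuationSubring (AlgebraicClosure ℚ)} (hA : A.LiesOverPrime l)
    {τ : GQ} (hτ : A.IsFrobeniusAt τ l) :
    rhoN (O := O) hpO ι N H τ + (l : O) • ((DH N H d).baseChange O ∘ₗ rhoN hpO ι N H τ⁻¹) =
      (TH N H hl hlN).baseChange O := by
  have hcop : ∀ n, ¬ l ∣ p ^ n := fun n h => hlp ((Nat.prime_dvd_prime_iff_eq hl hp.out).1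
    (hl.dvd_of_dvd_pow h))
  refine Apx.ext' hpO (fun n => (apx_rhoO ι hpO τ n).add
    (((apx_gen (DH N H d) _).comp (apx_rhoO ι hpO τ⁻¹ n)).nsmul l))
    (fun n => apx_gen (TH N H hl hlN) _) fun n ξ => ?_
  have h1 := rhoF_frobH ι (Cov.hasGoodRedH N H (p ^ n) l hl hlN (hcop n) A hA) hl hlN hd hA hτ
    (rhoF ι (p ^ n) τ⁻¹ ξ)
  have h2 : rhoF ι (p ^ n) τ (rhoF ι (p ^ n) τ⁻¹ ξ) = ξ := by
    rw [← rhoF_mul, mul_inv_cancel, rhoF_one]
  rw [h2] at h1
  change rhoF ι (p ^ n) τ ξ + l • (actE (GH N H) (p ^ n) (DH N H d)) (rhoF ι (p ^ n) τ⁻¹ ξ) =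
    (actE (GH N H) (p ^ n) (TH N H hl hlN)) ξ
  have h3 : rhoF ι (p ^ n) τ ξ - (actE (GH N H) (p ^ n) (TH N H hl hlN)) ξ +
      l • (actE (GH N H) (p ^ n) (DH N H d)) (rhoF ι (p ^ n) τ⁻¹ ξ) = 0 := h1
  rw [← sub_eq_zero, ← h3]
  abel

end gal

end

end Fermat.Agent.TW
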