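import Fermat.Agent.TW.Eis

/-!
# Restriction and transfer between `Γ₀(N)` and `Γ_H(N)` are bijective modulo Eisenstein, II
-/

set_option autoImplicit false
set_option linter.unusedSectionVars false

open Matrix.SpecialLinearGroup
open scoped MatrixGroups
open ModularGroup (S T)
open Fermat.Agent.AL Fermat.Agent.ALCoh Fermat.Agent.LevelRaise Fermat.Agent.KumG
open ModularCurve ModularCurve.Period

namespace Fermat.Agent.TW

noncomputable section

variable {N l : ℕ} {γ : SL(2, ℤ)} {H : Subgroup (ZMod N)ˣ} [NeZero N]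
  [hH : Fact ((-1 : (ZMod N)ˣ) ∈ H)]

theorem resH_apply (x : KumG.LZ (GG N)) (g : GH N H) :
    (resH N H x).1 (Additive.ofMul g) = x.1 (Additive.ofMul ⟨g, GH_le N H g.2⟩) :=
  famSub_apply (GH_le N H) x.1 g

theorem resH_injective : Function.Injective (resH N H) := by
  rw [injective_iff_map_eq_zero]
  intro x hx
  apply Subtype.ext
  refine AddMonoidHom.ext fun g => ?_
  obtain ⟨g, rfl⟩ := Additive.ofMul.surjective g
  haveI : (GH N H).FiniteIndex := inferInstance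
  have hm : (g : SL(2, ℤ)) ^ (GH N H).normalCore.index ∈ GH N H :=
    (GH N H).normalCore_le (Subgroup.pow_index_mem _ _)
  have h1 := congrArg (fun z : KumG.LZ (GH N H) => z.1 (Additive.ofMul ⟨_, hm⟩)) hx
  simp only [resH_apply] at h1
  have h2 : x.1 (Additive.ofMul (⟨(g : SL(2, ℤ)) ^ (GH N H).normalCore.index,
      GH_le N H hm⟩ : GG N)) = (GH N H).normalCore.index • x.1 (Additive.ofMul g) := by
    rw [← map_nsmul, ← ofMul_pow]
    rfl
  rw [h2] at h1
  have h3 : ((GH N H).normalCore.index : ℤ) ≠ 0 := by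
    exact_mod_cast Subgroup.FiniteIndex.index_ne_zero
  have h4 : ((GH N H).normalCore.index : ℤ) * x.1 (Additive.ofMul g) = 0 := by
    rw [← nsmul_eq_mul]; exact h1
  exact (mul_eq_zero.mp h4).resolve_left h3

theorem DQ_TH (δ : DG N H) (hl : l.Prime) (hlN : ¬ l ∣ N) (x : KumG.LZ (GH N H)) :
    DQ N H δ (TH N H hl hlN x) = TH N H hl hlN (DQ N H δ x) := by
  rw [← QuotientGroup.out_eq' δ, DQ_mk]
  exact LinearMap.congr_fun (DH_TH_comm δ.out hl hlN) x

theorem trH_TH (hl : l.Prime) (hlN : ¬ l ∣ N) (x : KumG.LZ (GH N H)) :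
    trH N H (TH N H hl hlN x) = TG hl hlN (trH N H x) := by
  apply resH_injective (H := H)
  rw [resH_trH, resH_TG, resH_trH, map_sum]
  exact Finset.sum_congr rfl fun δ _ => DQ_TH δ hl hlN x

theorem trH_tH (hl : l.Prime) (hlN : ¬ l ∣ N) (x : KumG.LZ (GH N H)) :
    trH N H (tH H hl hlN x) = tG hl hlN (trH N H x) := by
  rw [tG, tH, LinearMap.sub_apply, LinearMap.sub_apply, map_sub, trH_TH]
  simp

theorem DQ_resH (δ : DG N H) (x : KumG.LZ (GG N)) : DQ N H δ (resH N H x) = resH N H x := by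
  apply Subtype.ext
  refine AddMonoidHom.ext fun g => ?_
  obtain ⟨g, rfl⟩ := Additive.ofMul.surjective g
  rw [DQ_eq]
  change (fam_diaH H (rD_mem δ)).op ℤ (resH N H x).1 _ = _
  rw [fam_diaH_op_apply (rD_mem δ), resH_apply, resH_apply]
  have h1 : (⟨rD δ * g * (rD δ)⁻¹, GH_le N H (conj_mem_GH (rD_mem δ) g g.2)⟩ : GG N) =
      ⟨rD δ, rD_mem δ⟩ * ⟨g, GH_le N H g.2⟩ * ⟨rD δ, rD_mem δ⟩⁻¹ := Subtype.ext rfl
  rw [h1, ofMul_mul, ofMul_mul, ofMul_inv, map_add, map_add, map_neg]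
  abel

/-- transfer of a restriction -/
theorem trH_resH (x : KumG.LZ (GG N)) :
    trH N H (resH N H x) = (Fintype.card (DG N H) : ℤ) • x := by
  apply resH_injective (H := H)
  rw [resH_trH, Finset.sum_congr rfl fun δ _ => DQ_resH δ x]
  rw [Finset.sum_const, Finset.card_univ, map_zsmul, natCast_zsmul]

theorem trH_DQ (δ : DG N H) (x : KumG.LZ (GH N H)) : trH N H (DQ N H δ x) = trH N H x := by
  apply resH_injective (H := H)
  rw [resH_trH, resH_trH]
  have h1 : ∀ ε : DG N H, DQ N H ε (DQ N H δ x) = DQ N H (ε * δ) x := by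
    intro ε
    rw [map_mul]; rfl
  rw [Finset.sum_congr rfl fun ε _ => h1 ε]
  exact Equiv.sum_comp (Equiv.mulRight δ) (fun ε => DQ N H ε x)

/-! ### adjointness -/

/-- restriction and transfer are adjoint -/
theorem QP_resH (x : KumG.LZ (GG N)) (y : KumG.LZ (GH N H)) :
    LevelRaise.QP (resH N H x).1 y.1 = LevelRaise.QP x.1 (trH N H y).1 := by
  haveI : (GH N H).FiniteIndex := inferInstance
  have e1 : LevelRaise.QP (resH N H x).1 y.1 = PP (GH N H) (fnG x.1) (fnG y.1) := by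
    refine PP_congr (LvlG.neg_mem) (PH_fnG (resH N H x).2) (PH_fnG y.2)
      ((PH_fnG x.2).mono (GH_le N H)) (PH_fnG y.2) (fun g hg => ?_) (fun _ _ => rfl)
    rw [fnG_of_mem _ hg, fnG_of_mem _ (GH_le N H hg), resH_apply]
  rw [e1, LevelRaise.QP]
  refine PP_res_tr (GH_le N H) LvlG.neg_mem (fun δ : DG N H => rD δ) (fun δ => rD_mem δ)
    (fun δ δ' h => rD_inj δ δ' h) (fun g hg => rD_surj g hg) (PH_fnG x.2) (PH_fnG y.2)
    (PH_fnG (trH N H y).2) fun g hg => ?_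
  have h1 := (famTrH (N := N) (H := H)).tr_elt ⟨g, hg⟩
  refine ⟨famTrH.perm ⟨g, hg⟩, fun i => (famTrH.elt ⟨g, hg⟩ i : SL(2, ℤ)), fun i =>
    ⟨(famTrH.elt ⟨g, hg⟩ i).2, ?_⟩, ?_⟩
  · apply Subtype.ext
    exact h1 i
  · rw [fnG_of_mem _ hg]
    change (famTrH (N := N) (H := H)).op ℤ y.1 _ = _
    rw [Fam.op_apply_of_tr famTrH y.1 ⟨g, hg⟩ h1]
    exact Finset.sum_congr rfl fun i _ => (fnG_coe _ _).symm

theorem QL_tG (hl : l.Prime) (hlN : ¬ l ∣ N) (x y : KumG.LZ (GG N)) :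
    QL N (tG hl hlN x) y = QL N x (tG hl hlN y) := by
  have h1 : QL N (TG hl hlN x) y = QL N x (TG hl hlN y) := QP_T hl hlN x.2 y.2
  rw [tG, LinearMap.sub_apply, LinearMap.sub_apply, map_sub, map_sub, AddMonoidHom.sub_apply, h1]
  congr 1
  simp

/-- **(Z2)** the transfer is surjective modulo `p` up to the Eisenstein operators -/
theorem Z2 {p : ℕ} (hp : p.Prime) (hp2 : p ≠ 2) (hl : l.Prime) (hlN : ¬ l ∣ N)
    (x : KumG.LZ (GG N)) :
    ∃ (y : KumG.LZ (GH N H)) (z : KumG.LZ (GG N)), tG hl hlN x = trH N H y + (p : ℤ) • z := by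
  haveI : Fact p.Prime := ⟨hp⟩
  haveI : (GH N H).FiniteIndex := inferInstance
  haveI : Module.Finite ℤ (KumG.LZ (GG N)) := HeckeHom.finite_LZ N
  obtain ⟨_, ⟨y, rfl⟩, z, hz⟩ := exists_of_orth (p := p) (QL N)
    (fun v hv => QL_nondeg hp hp2 v hv) (trH N H).range.toAddSubgroup (tG hl hlN x) (by
      intro v hv
      have h1 : ∃ y, resH N H v = (p : ℤ) • y := by
        refine exists_smul_of_dvd' hp.ne_zero _ ?_
        refine QP_nondeg_left LvlG.neg_mem hp hp2 (resH N H v).2 fun ψ hψ => ?_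
        have h2 := hv (trH N H ⟨ψ, hψ⟩) ⟨_, rfl⟩
        rw [QL_apply] at h2
        have h3 := QP_resH (H := H) v ⟨ψ, hψ⟩
        rw [h3]
        exact h2
      obtain ⟨z, hz⟩ := Z1 hp hl hlN v h1
      rw [← QL_tG, hz]
      exact ⟨QL N z x, by simp⟩)
  exact ⟨y, z, hz⟩

/-- **(Z3)** invariants come from `Γ₀(N)` modulo `p` up to the square of an Eisenstein operator -/
theorem Z3 {p : ℕ} (hp : p.Prime) (hp2 : p ≠ 2) (hl : l.Prime) (hlN : ¬ l ∣ N)
    (hN : (N : ℤ) ∣ (l : ℤ) - 1) (f : KumG.LZ (GH N H))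
    (hf : ∀ δ : DG N H, ∃ y, DQ N H δ f - f = (p : ℤ) • y) :
    ∃ (x : KumG.LZ (GG N)) (z : KumG.LZ (GH N H)),
      tH H hl hlN (tH H hl hlN f) = resH N H x + (p : ℤ) • z := by
  obtain ⟨γ, hγ⟩ := exists_adp hl hlN
  have hF := hfam (H := H) hl hlN hγ
  have hcard : Fintype.card (Option (Fin l)) = l + 1 := by simp
  obtain ⟨G, hG⟩ := hF.exists_extension nm_GH (rd p f.1) (by
    intro g hg h h' e
    obtain ⟨δ, hδ⟩ := rD_surj (H := H) g hg
    obtain ⟨y, hy⟩ := hf δ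
    -- `g = k r`
    have e1 : (DQ N H δ f).1 (Additive.ofMul h) = f.1 (Additive.ofMul
        ⟨rD δ * h * (rD δ)⁻¹, conj_mem_GH (rD_mem δ) h h.2⟩) := by
      rw [DQ_eq]
      exact fam_diaH_op_apply (rD_mem δ) f.1 h
    have e2 : f.1 (Additive.ofMul h') = f.1 (Additive.ofMul
        ⟨rD δ * h * (rD δ)⁻¹, conj_mem_GH (rD_mem δ) h h.2⟩) := by
      have e3 : h' = ⟨g * (rD δ)⁻¹, hδ⟩ * ⟨rD δ * h * (rD δ)⁻¹, conj_mem_GH (rD_mem δ) h h.2⟩ *
          ⟨g * (rD δ)⁻¹, hδ⟩⁻¹ := by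
        apply Subtype.ext
        rw [Subgroup.coe_mul, Subgroup.coe_mul, Subgroup.coe_inv, e]
        group
      rw [e3, ofMul_mul, ofMul_mul, ofMul_inv, map_add, map_add, map_neg]
      abel
    rw [rd_apply, rd_apply, e2, ← e1]
    have e4 := congrArg (fun z : KumG.LZ (GH N H) => rd p z.1 (Additive.ofMul h)) hy
    have e5 : rd p (((p : ℤ) • y : KumG.LZ (GH N H))).1 = 0 := rd_smul_add p y.1
    simp only [e5] at e4
    have e6 : rd p ((DQ N H δ f - f : KumG.LZ (GH N H))).1 (Additive.ofMul h) =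
        (((DQ N H δ f).1 (Additive.ofMul h) : ℤ) : ZMod p) -
          ((f.1 (Additive.ofMul h) : ℤ) : ZMod p) := by
      rw [rd_apply, ← Int.cast_sub]
      rfl
    rw [e6] at e4
    exact sub_eq_zero.mp e4)
  obtain ⟨x, hx⟩ := exists_lift_eis hp hp2 hl hlN hN G
  refine ⟨x, ?_⟩
  have key : rd p (tH H hl hlN (tH H hl hlN f)).1 = rd p (resH N H x).1 := by
    refine AddMonoidHom.ext fun g => ?_
    obtain ⟨g, rfl⟩ := Additive.ofMul.surjective g
    have h1 : rd p (resH N H x).1 (Additive.ofMul g) =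
        rd p x.1 (Additive.ofMul ⟨g, GH_le N H g.2⟩) := by
      rw [rd_apply, rd_apply, resH_apply]
    rw [h1, hx, AddMonoidHom.sub_apply, AddMonoidHom.nsmul_apply, ← op_fam_rT0 hl hlN hγ]
    have h2 := hF.op_res (GH_le N H) G g
    rw [h2]
    have h3 : (famSub (GH_le N H)).op (ZMod p) G = rd p (tH H hl hlN f).1 := by
      refine AddMonoidHom.ext fun h => ?_
      obtain ⟨h, rfl⟩ := Additive.ofMul.surjective h
      rw [famSub_apply (GH_le N H), hG ⟨h, GH_le N H h.2⟩ h.2, tH_coe hl hlN hγ, hcard]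
      have h4 : rd p ((fam_rT H hl hlN hγ).op ℤ f.1 - (l + 1) • f.1) =
          (fam_rT H hl hlN hγ).op (ZMod p) (rd p f.1) - (l + 1) • rd p f.1 := by
        rw [← rd_op]
        refine AddMonoidHom.ext fun g => ?_
        simp [rd_apply]
      rw [h4]
      rfl
    rw [h3]
    have h5 : G (Additive.ofMul ⟨g, GH_le N H g.2⟩) = rd p (tH H hl hlN f).1 (Additive.ofMul g) := by
      rw [← h3, famSub_apply (GH_le N H)]
    rw [h5, tH_coe hl hlN hγ (tH H hl hlN f)]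
    have h6 : rd p ((fam_rT H hl hlN hγ).op ℤ (tH H hl hlN f).1 - (l + 1) • (tH H hl hlN f).1) =
        (fam_rT H hl hlN hγ).op (ZMod p) (rd p (tH H hl hlN f).1) -
          (l + 1) • rd p (tH H hl hlN f).1 := by
      rw [← rd_op]
      refine AddMonoidHom.ext fun g => ?_
      simp [rd_apply]
    rw [h6]
    rfl
  obtain ⟨z, hz⟩ := exists_of_rd_eq hp.ne_zero key
  exact ⟨z, hz⟩

end

end Fermat.Agent.TW
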