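import Fermat.Agent.TW.Lat
import Fermat.Agent.Cov.Tower

/-!
# Restriction to a smaller level is Galois equivariant
-/

set_option autoImplicit false
set_option linter.unusedSectionVars false
set_option linter.style.haveILetI false

open Matrix.SpecialLinearGroup
open scoped MatrixGroups TensorProduct
open IsLocalRing
open Fermat.Agent.KumG Fermat.Agent.GalRep Fermat.Agent.Places Fermat.Agent.Cheb Fermat.Agent.ALCoh

namespace Fermat.Agent.TW

noncomputable section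

section res

variable {Γ Γ' : Subgroup SL(2, ℤ)} [LvlG Γ] [LvlG Γ'] (h : Γ' ≤ Γ)

/-- restriction of homomorphisms -/
abbrev resL : LZ Γ →ₗ[ℤ] LZ Γ' := opLL (famSub h)

theorem resL_apply (φ : LZ Γ) (g : Γ') :
    (resL h φ).1 (Additive.ofMul g) = φ.1 (Additive.ofMul ⟨g, h g.2⟩) := famSub_apply h φ.1 g

theorem rep_mono {m : ℕ} [NeZero m] {x : LaurentSeries ℂ} {φ : Additive Γ →+ ZMod m}
    (hr : Rep Γ x φ) : Rep Γ' x ((famSub h).op (ZMod m) φ) := by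
  obtain ⟨k, u, g, hr⟩ := hr
  refine ⟨k, u, g, hr.hu, hr.u0, fun γ => ?_, hr.hg.mono h, hr.g0, hr.eq⟩
  rw [famSub_apply h φ γ]
  exact hr.hs ⟨γ, h γ.2⟩

theorem redI_resL {m : ℕ} [NeZero m] (φ : LZ Γ) :
    redI m (resL h φ) = (famSub h).op (ZMod m) (redI m φ) := by
  refine AddMonoidHom.ext fun g => ?_
  have h1 := resL_apply h φ (Additive.toMul g)
  have h2 := famSub_apply h (redI m φ) (Additive.toMul g)
  refine Eq.trans ?_ h2.symm
  exact congrArg (Int.castAddHom (ZMod m)) h1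

variable [RatG Γ] [RatG Γ'] {K : Type*} [Field K] [Algebra ℚ K] [IsAlgClosed K] [CharZero K]
  (j : K →+* ℂ) {m : ℕ} [NeZero m]

/-- the inclusion of function fields -/
def incF : FG Γ K →+* FG Γ' K where
  toFun x := ⟨x.1, Cov.FG_mono K h x.2⟩
  map_one' := rfl
  map_zero' := rfl
  map_mul' _ _ := rfl
  map_add' _ _ := rfl

theorem incF_eq (x : FG Γ K) : incF h x = (⟨x.1, Cov.FG_mono K h x.2⟩ : FG Γ' K) := rfl

theorem incF_aux (x : FG Γ K) :
    ((⟨x.1, Cov.FG_mono K h x.2⟩ : FG Γ' K) : LaurentSeries K) = x.1 := rfl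

theorem coe_incF (x : FG Γ K) :
    ((incF h x : FG Γ' K) : LaurentSeries K) = (x : LaurentSeries K) :=
  (congrArg Subtype.val (incF_eq h x)).trans (incF_aux h x)

theorem incF_gal (σ : K ≃ₐ[ℚ] K) (x : FG Γ K) : incF h (galK σ x) = galK σ (incF h x) := by
  apply Subtype.ext
  rw [coe_incF, coe_galK, coe_galK, coe_incF]

include j in
theorem good_inc {x : FG Γ K} (hx : KD (m * tb Γ * (6 * wd Γ' * tb Γ')) x) :
    Good m (incF h x) := by
  have h1 : 6 * wd Γ' * (m * tb Γ') ∣ m * tb Γ * (6 * wd Γ' * tb Γ') := ⟨tb Γ, by ring⟩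
  obtain ⟨φ, hφ, hr⟩ := (KD.of_dvd h1 hx).exists_rep j
  refine KD_of_rep j (φ := (famSub h).op _ φ) (isParabolicHom_op (famSub h) hφ) ?_
  rw [coe_incF]
  exact rep_mono h hr

theorem cls_inc {x : FG Γ K} (hx : KD (m * tb Γ * (6 * wd Γ' * tb Γ')) x) {φ : LZ Γ}
    (hφ : cls j m x = mkX φ) : cls j m (incF h x) = mkX (resL h φ) := by
  have hx' : Good m x := hx.of_dvd ⟨6 * wd Γ' * tb Γ', rfl⟩
  obtain ⟨ψ, hψ⟩ := hx'.exists_mk j
  rw [cls_eq j hx' hψ, mkX_eq_iff] at hφ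
  apply cls_eq j (good_inc h j hx)
  rw [redI_resL, ← hφ, coe_incF]
  exact rep_mono h hψ

/-- **Restriction is Galois equivariant** -/
theorem rhoF_resL (σ : K ≃ₐ[ℚ] K) {φ ψ : LZ Γ} (hφ : rhoF j m σ (mkX φ) = mkX ψ) :
    rhoF j m σ (mkX (resL h φ)) = mkX (resL h ψ) := by
  obtain ⟨x, hx, hx'⟩ := exists_cls_eq (K := K) j (mkX φ : XL Γ m) (6 * wd Γ' * tb Γ')
  have h1 := good_inc h j hx
  have h2 : Good m x := hx.of_dvd ⟨6 * wd Γ' * tb Γ', rfl⟩
  rw [← cls_inc h j hx hx', rhoF_cls j σ h1, ← incF_gal]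
  refine cls_inc h j (KD.gal σ hx) ?_
  rw [← rhoF_cls j σ h2, hx', hφ]

/-- restriction on classes -/
def resX (m : ℕ) [NeZero m] : XL Γ m → XL Γ' m := fun ξ => mkX (resL h (mkX_surjective ξ).choose)

theorem resX_mkX (φ : LZ Γ) : resX h m (mkX φ) = mkX (resL h φ) := by
  obtain ⟨χ, hχ⟩ := exists_of_mkX (mkX_surjective (mkX φ : XL Γ m)).choose_spec
  rw [resX, hχ, map_add, map_add, map_nsmul, map_nsmul, KumG.mkX_nsmul, add_zero]

theorem rhoF_resX (σ : K ≃ₐ[ℚ] K) (ξ : XL Γ m) :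
    rhoF j m σ (resX h m ξ) = resX h m (rhoF j m σ ξ) := by
  obtain ⟨φ, rfl⟩ := mkX_surjective ξ
  obtain ⟨ψ, hψ⟩ := mkX_surjective (rhoF j m σ (mkX φ))
  rw [resX_mkX, ← hψ, resX_mkX]
  exact rhoF_resL h j σ hψ.symm

end res

section lat

variable {O : Type} [CommRing O] [IsLocalRing O] [IsNoetherianRing O]
  [IsAdicComplete (maximalIdeal O) O] {p : ℕ} [hp : Fact p.Prime]
  {Γ Γ' : Subgroup SL(2, ℤ)} [LvlG Γ] [LvlG Γ'] [RatG Γ] [RatG Γ'] [Module.Finite ℤ (LZ Γ)]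
  [Module.Finite ℤ (LZ Γ')] (h : Γ' ≤ Γ) (ι : AlgebraicClosure ℚ →+* ℂ)

theorem apx_resL (m : ℕ) [NeZero m] : Apx (O := O) m ((resL h).baseChange O) (resX h m) :=
  Apx.base _ fun φ => resX_mkX h φ

theorem rhoO_res (hpO : (p : O) ∈ maximalIdeal O) (σ : GQ) (x : O ⊗[ℤ] LZ Γ) :
    rhoO ι hpO σ ((resL h).baseChange O x) = (resL h).baseChange O (rhoO ι hpO σ x) := by
  have h1 : rhoO ι hpO σ ∘ₗ (resL h).baseChange O = (resL h).baseChange O ∘ₗ rhoO ι hpO σ :=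
    Apx.ext' hpO (fun n => (apx_rhoO ι hpO σ n).comp (apx_resL h _))
      (fun n => (apx_resL h _).comp (apx_rhoO ι hpO σ n)) fun n ξ => rhoF_resX h ι σ ξ
  exact LinearMap.congr_fun h1 x

end lat

end

end Fermat.Agent.TW
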