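import Mathlib

/-!
# Linear identities from congruences
-/

set_option autoImplicit false
set_option linter.unusedSectionVars false
set_option linter.style.haveILetI false

namespace Fermat.Agent.TW

/-- Factorisation of linear maps of vector spaces. -/
theorem exists_comp_of_ker_le {K V W U : Type*} [Field K] [AddCommGroup V] [AddCommGroup W]
    [AddCommGroup U] [Module K V] [Module K W] [Module K U] (f : V →ₗ[K] W) (g : V →ₗ[K] U)
    (h : LinearMap.ker f ≤ LinearMap.ker g) : ∃ s : W →ₗ[K] U, s ∘ₗ f = g := by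
  obtain ⟨s, hs⟩ := LinearMap.exists_extend
    (((LinearMap.ker f).liftQ g h) ∘ₗ f.quotKerEquivRange.symm.toLinearMap)
  refine ⟨s, LinearMap.ext fun x => ?_⟩
  have h1 := LinearMap.congr_fun hs ⟨f x, LinearMap.mem_range_self f x⟩
  simp only [LinearMap.comp_apply, Submodule.subtype_apply] at h1
  rw [LinearMap.comp_apply, h1]
  have h2 : f.quotKerEquivRange.symm ⟨f x, LinearMap.mem_range_self f x⟩ =
      Submodule.Quotient.mk x := by
    rw [LinearEquiv.symm_apply_eq]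
    rfl
  erw [h2]
  rfl

theorem factor_mod_aux {A B V : Type*} [AddCommGroup A] [AddCommGroup B] [AddCommGroup V] {p : ℕ}
    [Fact p.Prime] [Module (ZMod p) A] [Module (ZMod p) B] [Module (ZMod p) V]
    (f : A →+ B) (g : A →+ V) (h : ∀ x, f x = 0 → g x = 0) :
    ∃ s : B →+ V, ∀ x, s (f x) = g x := by
  obtain ⟨s, hs⟩ := exists_comp_of_ker_le (f.toZModLinearMap p) (g.toZModLinearMap p)
    (fun x hx => h x hx)
  exact ⟨s.toAddMonoidHom, fun x => LinearMap.congr_fun hs x⟩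

/-- Factorisation modulo `p`. -/
theorem factor_mod {A B V : Type*} [AddCommGroup A] [AddCommGroup B] [AddCommGroup V] {p : ℕ}
    [Fact p.Prime] (hV : ∀ v : V, p • v = 0) (f : A →+ B) (g : A →+ V)
    (h : ∀ x, (∃ y, f x = p • y) → g x = 0) : ∃ s : B →+ V, ∀ x, s (f x) = g x := by
  let pA : AddSubgroup A := (nsmulAddMonoidHom p : A →+ A).range
  let pB : AddSubgroup B := (nsmulAddMonoidHom p : B →+ B).range
  have hA : ∀ x : A ⧸ pA, p • x = 0 := by
    intro x
    obtain ⟨x, rfl⟩ := QuotientAddGroup.mk_surjective x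
    rw [← QuotientAddGroup.mk_nsmul]
    exact (QuotientAddGroup.eq_zero_iff _).2 ⟨x, rfl⟩
  have hB : ∀ x : B ⧸ pB, p • x = 0 := by
    intro x
    obtain ⟨x, rfl⟩ := QuotientAddGroup.mk_surjective x
    rw [← QuotientAddGroup.mk_nsmul]
    exact (QuotientAddGroup.eq_zero_iff _).2 ⟨x, rfl⟩
  letI : Module (ZMod p) (A ⧸ pA) := AddCommGroup.zmodModule hA
  letI : Module (ZMod p) (B ⧸ pB) := AddCommGroup.zmodModule hB
  letI : Module (ZMod p) V := AddCommGroup.zmodModule hV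
  let f' : A ⧸ pA →+ B ⧸ pB := QuotientAddGroup.map pA pB f (by
    rintro _ ⟨x, rfl⟩
    exact ⟨f x, by simp⟩)
  let g' : A ⧸ pA →+ V := QuotientAddGroup.lift pA g (by
    rintro _ ⟨x, rfl⟩
    exact h _ ⟨f x, by simp⟩)
  obtain ⟨s, hs⟩ := factor_mod_aux (p := p) f' g' (by
    intro x hx
    obtain ⟨x, rfl⟩ := QuotientAddGroup.mk_surjective x
    have h1 : ((f x : B) : B ⧸ pB) = 0 := hx
    rw [QuotientAddGroup.eq_zero_iff] at h1
    obtain ⟨y, hy⟩ := h1
    exact h x ⟨y, hy.symm⟩)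
  exact ⟨s.comp (QuotientAddGroup.mk' pB), fun x => hs (x : A ⧸ pA)⟩

/-- Lifting through a linear map with large range. -/
theorem exists_lift_of_range_le {R A C D : Type*} [Ring R] [AddCommGroup A] [AddCommGroup C]
    [AddCommGroup D] [Module R A] [Module R C] [Module R D] [Module.Projective R A]
    (F : A →ₗ[R] C) (G : D →ₗ[R] C) (h : ∀ x, ∃ y, G y = F x) : ∃ u : A →ₗ[R] D, G ∘ₗ u = F := by
  obtain ⟨u, hu⟩ := Module.projective_lifting_property G.rangeRestrict
    (F.codRestrict (LinearMap.range G) fun x => h x) G.surjective_rangeRestrict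
  refine ⟨u, LinearMap.ext fun x => ?_⟩
  exact congrArg Subtype.val (LinearMap.congr_fun hu x)

variable {A B C : Type*} [AddCommGroup A] [AddCommGroup B] [AddCommGroup C] [Module.Free ℤ A]
  [Module.Free ℤ B] [Module.Free ℤ C] {p : ℕ}

/-- If `f x ∈ p B` implies `g x ∈ p C` then `g` factors through `f` modulo `p`. -/
theorem exists_id_left [Fact p.Prime] (f : A →ₗ[ℤ] B) (g : A →ₗ[ℤ] C)
    (h : ∀ x, (∃ y, f x = p • y) → ∃ z, g x = p • z) :
    ∃ (s : B →ₗ[ℤ] C) (y : A →ₗ[ℤ] C), g = s ∘ₗ f + (p : ℤ) • y := by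
  let pC : Submodule ℤ C := LinearMap.range ((p : ℤ) • (LinearMap.id : C →ₗ[ℤ] C))
  obtain ⟨s, hs⟩ := factor_mod (p := p) (V := C ⧸ pC) (by
    intro x
    obtain ⟨x, rfl⟩ := Submodule.Quotient.mk_surjective _ x
    rw [← Submodule.Quotient.mk_smul, Submodule.Quotient.mk_eq_zero]
    exact ⟨x, by simp⟩) f.toAddMonoidHom ((pC.mkQ ∘ₗ g).toAddMonoidHom) (by
    intro x hx
    obtain ⟨z, hz⟩ := h x hx
    change Submodule.Quotient.mk (g x) = 0
    rw [Submodule.Quotient.mk_eq_zero, hz]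
    exact ⟨z, by simp⟩)
  obtain ⟨s', hs'⟩ := Module.projective_lifting_property pC.mkQ s.toIntLinearMap pC.mkQ_surjective
  obtain ⟨y, hy⟩ := exists_lift_of_range_le (g - s' ∘ₗ f)
    ((p : ℤ) • (LinearMap.id : C →ₗ[ℤ] C)) (by
      intro x
      have h1 : pC.mkQ ((g - s' ∘ₗ f) x) = 0 := by
        rw [LinearMap.sub_apply, map_sub, LinearMap.comp_apply]
        have h2 := LinearMap.congr_fun hs' (f x)
        rw [LinearMap.comp_apply] at h2
        rw [h2, sub_eq_zero]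
        exact (hs x).symm
      rw [Submodule.mkQ_apply, Submodule.Quotient.mk_eq_zero] at h1
      exact h1)
  refine ⟨s', y, ?_⟩
  have h3 : (p : ℤ) • y = g - s' ∘ₗ f := by
    rw [← hy]
    ext x
    simp
  rw [h3]
  abel

omit [Module.Free ℤ B] [Module.Free ℤ C] in
/-- If the image of `g` is contained in the image of `f` modulo `p` then `g` lifts through `f`
modulo `p`. -/
theorem exists_id_right (f : B →ₗ[ℤ] C) (g : A →ₗ[ℤ] C)
    (h : ∀ x, ∃ y z, g x = f y + p • z) :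
    ∃ (s : A →ₗ[ℤ] B) (y : A →ₗ[ℤ] C), g = f ∘ₗ s + (p : ℤ) • y := by
  obtain ⟨u, hu⟩ := exists_lift_of_range_le g
    (f.coprod ((p : ℤ) • (LinearMap.id : C →ₗ[ℤ] C))) (by
      intro x
      obtain ⟨y, z, hyz⟩ := h x
      exact ⟨(y, z), by simp [hyz]⟩)
  refine ⟨LinearMap.fst ℤ B C ∘ₗ u, LinearMap.snd ℤ B C ∘ₗ u, ?_⟩
  rw [← hu]
  ext x
  simp

/-- Mixed version. -/
theorem exists_id_mixed [Fact p.Prime] {D : Type*} [AddCommGroup D] {κ : Type*} [Fintype κ]
    [DecidableEq κ] (f : κ → A →ₗ[ℤ] B) (r : D →ₗ[ℤ] C) (g : A →ₗ[ℤ] C)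
    (h : ∀ x, (∀ i, ∃ y, f i x = p • y) → ∃ y z, g x = r y + p • z) :
    ∃ (u : A →ₗ[ℤ] D) (w : κ → B →ₗ[ℤ] C) (y : A →ₗ[ℤ] C),
      g = r ∘ₗ u + ∑ i, w i ∘ₗ f i + (p : ℤ) • y := by
  let W : Submodule ℤ C := LinearMap.range (r.coprod ((p : ℤ) • (LinearMap.id : C →ₗ[ℤ] C)))
  have hW : ∀ x : C, x ∈ W ↔ ∃ y z, x = r y + p • z := by
    intro x
    constructor
    · rintro ⟨⟨y, z⟩, rfl⟩
      exact ⟨y, z, by simp⟩
    · rintro ⟨y, z, rfl⟩
      exact ⟨(y, z), by simp⟩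
  obtain ⟨s, hs⟩ := factor_mod (p := p) (V := C ⧸ W) (by
    intro x
    obtain ⟨x, rfl⟩ := Submodule.Quotient.mk_surjective _ x
    rw [← Submodule.Quotient.mk_smul, Submodule.Quotient.mk_eq_zero, hW]
    exact ⟨0, x, by simp⟩) (LinearMap.pi f : A →ₗ[ℤ] κ → B).toAddMonoidHom
    ((W.mkQ ∘ₗ g).toAddMonoidHom) (by
    rintro x ⟨y, hy⟩
    change Submodule.Quotient.mk (g x) = 0
    rw [Submodule.Quotient.mk_eq_zero, hW]
    exact h x fun i => ⟨y i, congrFun hy i⟩)
  obtain ⟨s', hs'⟩ := Module.projective_lifting_property W.mkQ s.toIntLinearMap W.mkQ_surjective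
  obtain ⟨u, y, huy⟩ := exists_id_right (p := p) r (g - s' ∘ₗ LinearMap.pi f) (by
      intro x
      have h1 : W.mkQ ((g - s' ∘ₗ LinearMap.pi f) x) = 0 := by
        rw [LinearMap.sub_apply, map_sub, LinearMap.comp_apply]
        have h2 := LinearMap.congr_fun hs' (LinearMap.pi f x)
        rw [LinearMap.comp_apply] at h2
        rw [h2, sub_eq_zero]
        exact (hs x).symm
      rw [Submodule.mkQ_apply, Submodule.Quotient.mk_eq_zero, hW] at h1
      exact h1)
  refine ⟨u, fun i => s' ∘ₗ LinearMap.single ℤ (fun _ => B) i, y, ?_⟩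
  have h3 : s' ∘ₗ LinearMap.pi f = ∑ i, (s' ∘ₗ LinearMap.single ℤ (fun _ => B) i) ∘ₗ f i := by
    ext x
    simp only [LinearMap.comp_apply, LinearMap.sum_apply]
    rw [← map_sum]
    congr 1
    ext i
    rw [Finset.sum_apply, Finset.sum_eq_single i]
    · simp
    · intro j _ hj
      rw [LinearMap.single_apply, Pi.single_eq_of_ne (Ne.symm hj)]
    · intro hi
      exact absurd (Finset.mem_univ i) hi
  rw [← h3, add_right_comm, ← huy]
  abel

end Fermat.Agent.TW
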