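import Mathlib

/-!
# Freeness criterion: modular representations of `p`-groups with enough norms
-/

set_option autoImplicit false
set_option linter.unusedSectionVars false
set_option linter.style.haveILetI false

namespace Fermat.Agent.TW

section fixed

variable {k V G : Type*} [Field k] {p : ℕ} [Fact p.Prime] [CharP k p] [AddCommGroup V]
  [Module k V] [Group G] [Finite G]

theorem exists_fixed_aux [Module (ZMod p) V] (hG : IsPGroup p G) (ρ : G →* Module.End k V)
    (w : V) (hw0 : w ≠ 0) (hp : ∀ x : V, p • x = 0) :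
    ∃ x ∈ Submodule.span (ZMod p) (Set.range fun g => ρ g w), x ≠ 0 ∧ ∀ g, ρ g x = x := by
  set S : Submodule (ZMod p) V := Submodule.span (ZMod p) (Set.range fun g => ρ g w) with hS
  haveI : Module.Finite (ZMod p) S :=
    Module.Finite.span_of_finite (ZMod p) (Set.finite_range fun g => ρ g w)
  haveI : Finite S := Module.finite_of_finite (ZMod p)
  have hlin : ∀ (g : G) (x : V), x ∈ S → ρ g x ∈ S := by
    intro g x hx
    have h1 : S ≤ S.comap (((ρ g).toAddMonoidHom).toZModLinearMap p) := by
      rw [hS, Submodule.span_le]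
      rintro _ ⟨h, rfl⟩
      simp only [Submodule.comap_coe, Set.mem_preimage, AddMonoidHom.coe_toZModLinearMap,
        LinearMap.toAddMonoidHom_coe, SetLike.mem_coe]
      refine Submodule.subset_span ⟨g * h, ?_⟩
      simp [map_mul]
    exact h1 hx
  letI : MulAction G S :=
    { smul := fun g x => ⟨ρ g x, hlin g x x.2⟩
      one_smul := fun x => Subtype.ext (by
        change ρ 1 (x : V) = x
        rw [map_one]; rfl)
      mul_smul := fun g h x => Subtype.ext (by
        change ρ (g * h) (x : V) = ρ g (ρ h x)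
        rw [map_mul]; rfl) }
  have h1 := hG.card_modEq_card_fixedPoints (α := S)
  have hwS : w ∈ S := Submodule.subset_span ⟨1, by simp⟩
  have h2 : p ∣ Nat.card S := by
    have h3 : addOrderOf (⟨w, hwS⟩ : S) = p := by
      refine addOrderOf_eq_prime ?_ ?_
      · exact Subtype.ext (hp w)
      · intro h
        exact hw0 (congrArg Subtype.val h)
    have h4 := addOrderOf_dvd_natCard (⟨w, hwS⟩ : S)
    rwa [h3] at h4
  have h3 : p ∣ Nat.card (MulAction.fixedPoints G S) := by
    rw [← Nat.modEq_zero_iff_dvd]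
    exact (h1.symm.trans ((Nat.modEq_zero_iff_dvd).2 h2))
  have h0 : (0 : S) ∈ MulAction.fixedPoints G S := by
    intro g
    exact Subtype.ext (map_zero (ρ g))
  haveI : Nonempty (MulAction.fixedPoints G S) := ⟨⟨0, h0⟩⟩
  have h4 : 1 < Nat.card (MulAction.fixedPoints G S) := by
    have h5 : 0 < Nat.card (MulAction.fixedPoints G S) := Nat.card_pos
    exact lt_of_lt_of_le (Fact.out : p.Prime).one_lt (Nat.le_of_dvd h5 h3)
  haveI : Nontrivial (MulAction.fixedPoints G S) := Finite.one_lt_card_iff_nontrivial.1 h4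
  obtain ⟨⟨x, hx⟩, hne'⟩ := exists_ne (⟨0, h0⟩ : MulAction.fixedPoints G S)
  refine ⟨x, x.2, ?_, ?_⟩
  · intro h
    apply hne'
    exact Subtype.ext (Subtype.ext h)
  · intro g
    exact congrArg Subtype.val (hx g)

/-- A `p`-group has a non-zero fixed vector in a non-zero stable subspace in characteristic `p`. -/
theorem exists_fixed (hG : IsPGroup p G) (ρ : G →* Module.End k V) (W : Submodule k V)
    (hW : ∀ g, ∀ x ∈ W, ρ g x ∈ W) (hne : W ≠ ⊥) : ∃ x ∈ W, x ≠ 0 ∧ ∀ g, ρ g x = x := by
  obtain ⟨w, hw, hw0⟩ := (Submodule.ne_bot_iff W).1 hne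
  have hp : ∀ x : V, p • x = 0 := fun x => by
    rw [← Nat.cast_smul_eq_nsmul k, CharP.cast_eq_zero, zero_smul]
  letI : Module (ZMod p) V := AddCommGroup.zmodModule hp
  obtain ⟨x, hx, hx0, hfix⟩ := exists_fixed_aux hG ρ w hw0 hp
  refine ⟨x, ?_, hx0, hfix⟩
  refine Submodule.span_induction (p := fun y _ => y ∈ W) ?_ W.zero_mem
    (fun x y _ _ => W.add_mem) ?_ hx
  · rintro _ ⟨g, rfl⟩
    exact hW g w hw
  · intro a x _ hx
    have h6 : a • x = (a.val : ℕ) • x := by
      conv_lhs => rw [← ZMod.natCast_zmod_val a]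
      rw [Nat.cast_smul_eq_nsmul]
    rw [h6]
    exact W.toAddSubmonoid.nsmul_mem hx _

end fixed

section free

variable {k V G : Type*} [Field k] {p : ℕ} [Fact p.Prime] [CharP k p] [AddCommGroup V]
  [Module k V] [Module.Finite k V] [Group G] [Fintype G]

/-- The fixed vectors. -/
def fixedV (ρ : G →* Module.End k V) : Submodule k V := ⨅ g, LinearMap.ker (ρ g - 1)

theorem mem_fixedV {ρ : G →* Module.End k V} {x : V} : x ∈ fixedV ρ ↔ ∀ g, ρ g x = x := by
  simp [fixedV, Submodule.mem_iInf, LinearMap.mem_ker, sub_eq_zero]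

/-- If all fixed vectors are norms then lifts of a basis of the space of fixed vectors are a basis
over the group algebra. -/
theorem free_of_norm (hG : IsPGroup p G) (ρ : G →* Module.End k V) {ι : Type*}
    (u : Module.Basis ι k (fixedV ρ)) (y : ι → V) (hy : ∀ i, ∑ g, ρ g (y i) = (u i : V)) :
    LinearIndependent k (fun x : ι × G => ρ x.2 (y x.1)) ∧
      Submodule.span k (Set.range (fun x : ι × G => ρ x.2 (y x.1))) = ⊤ := by
  classical
  haveI : Finite ι := Module.Finite.finite_basis u
  haveI : Fintype ι := Fintype.ofFinite ι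
  -- independence
  have hind : LinearIndependent k (fun x : ι × G => ρ x.2 (y x.1)) := by
    let Φ : (ι × G → k) →ₗ[k] V := Fintype.linearCombination k (fun x : ι × G => ρ x.2 (y x.1))
    have hΦ : ∀ c, Φ c = ∑ i, ∑ g, c (i, g) • ρ g (y i) := by
      intro c
      simp only [Φ, Fintype.linearCombination_apply, Fintype.sum_prod_type]
    let τ : G →* Module.End k (ι × G → k) :=
      { toFun := fun h => LinearMap.funLeft k k fun x : ι × G => (x.1, h⁻¹ * x.2)
        map_one' := by
          ext c x
          simp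
        map_mul' := fun a b => by
          refine LinearMap.ext fun c => funext fun x => ?_
          simp [LinearMap.funLeft_apply, mul_assoc] }
    have hτ : ∀ h c x, τ h c x = c (x.1, h⁻¹ * x.2) := fun h c x => rfl
    rw [Fintype.linearIndependent_iff]
    intro c hc
    by_contra hne
    push Not at hne
    obtain ⟨x₀, hx₀⟩ := hne
    have hker : LinearMap.ker Φ ≠ ⊥ := by
      intro hbot
      have : c ∈ LinearMap.ker Φ := by
        rw [LinearMap.mem_ker]
        exact hc
      rw [hbot, Submodule.mem_bot] at this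
      exact hx₀ (congrFun this x₀)
    have hst : ∀ h, ∀ c ∈ LinearMap.ker Φ, τ h c ∈ LinearMap.ker Φ := by
      intro h c hc
      rw [LinearMap.mem_ker] at hc ⊢
      have e1 : Φ (τ h c) = ρ h (Φ c) := by
        rw [hΦ, hΦ, map_sum]
        refine Finset.sum_congr rfl fun i _ => ?_
        rw [map_sum]
        refine Fintype.sum_equiv (Equiv.mulLeft h⁻¹) _ _ fun g => ?_
        simp only [hτ, Equiv.coe_mulLeft, map_smul]
        rw [← Module.End.mul_apply, ← map_mul, mul_inv_cancel_left]
      rw [e1, hc, map_zero]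
    obtain ⟨d, hd, hd0, hfix⟩ := exists_fixed hG τ (LinearMap.ker Φ) hst hker
    have hd1 : ∀ i g, d (i, g) = d (i, 1) := by
      intro i g
      have := congrFun (hfix g) (i, g)
      rw [hτ] at this
      simpa using this.symm
    have hd2 : ∑ i, d (i, 1) • (u i : V) = 0 := by
      rw [LinearMap.mem_ker, hΦ] at hd
      rw [← hd]
      refine Finset.sum_congr rfl fun i _ => ?_
      rw [← hy i, Finset.smul_sum]
      exact Finset.sum_congr rfl fun g _ => by rw [hd1 i g]
    have hd3 : ∀ i, d (i, 1) = 0 := by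
      have h3 := u.linearIndependent
      rw [Fintype.linearIndependent_iff] at h3
      exact h3 (fun i => d (i, 1)) (Subtype.ext (by simpa using hd2))
    apply hd0
    funext x
    rw [show x = (x.1, x.2) from rfl, hd1, hd3]
    rfl
  refine ⟨hind, ?_⟩
  -- dimension
  have hdim : Module.finrank k V ≤ Fintype.card (ι × G) := by
    obtain ⟨π, hπ⟩ := (fixedV ρ).exists_isCompl
    let pr : V →ₗ[k] fixedV ρ := Submodule.linearProjOfIsCompl _ _ hπ
    let Ψ : V →ₗ[k] (G → fixedV ρ) := LinearMap.pi fun g => pr ∘ₗ ρ g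
    have hinj : LinearMap.ker Ψ = ⊥ := by
      by_contra hne
      have hst : ∀ h, ∀ c ∈ LinearMap.ker Ψ, ρ h c ∈ LinearMap.ker Ψ := by
        intro h c hc
        rw [LinearMap.mem_ker] at hc ⊢
        funext g
        have := congrFun hc (g * h)
        simp only [Ψ, LinearMap.pi_apply, LinearMap.comp_apply, map_mul,
          Module.End.mul_apply] at this ⊢
        exact this
      obtain ⟨x, hx, hx0, hfix⟩ := exists_fixed hG ρ (LinearMap.ker Ψ) hst hne
      rw [LinearMap.mem_ker] at hx
      have h1 := congrFun hx 1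
      simp only [Ψ, LinearMap.pi_apply, LinearMap.comp_apply, map_one, Module.End.one_apply,
        Pi.zero_apply] at h1
      have h2 : pr x = ⟨x, mem_fixedV.2 hfix⟩ :=
        Submodule.linearProjOfIsCompl_apply_left hπ ⟨x, mem_fixedV.2 hfix⟩
      rw [h2] at h1
      exact hx0 (congrArg Subtype.val h1)
    have h1 := LinearMap.finrank_le_finrank_of_injective (LinearMap.ker_eq_bot.1 hinj)
    rw [Module.finrank_pi_fintype, Finset.sum_const, Finset.card_univ, smul_eq_mul,
      Module.finrank_eq_card_basis u] at h1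
    rw [Fintype.card_prod, mul_comm]
    exact h1
  refine Submodule.eq_top_of_finrank_eq (le_antisymm ?_ ?_)
  · exact Submodule.finrank_le _
  · rw [finrank_span_eq_card hind]
    exact hdim

end free

end Fermat.Agent.TW
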