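import Mathlib
import Fermat.Agent.TW.FreeNorm

/-!
# Freeness over the group ring, integral version
-/

set_option autoImplicit false
set_option linter.unusedSectionVars false
set_option linter.style.haveILetI false

namespace Fermat.Agent.TW

open IsLocalRing
open scoped TensorProduct

section red

variable {O : Type} [CommRing O] [IsLocalRing O] {M : Type} [AddCommGroup M] [Module O M]

theorem one_tmul_eq_zero {x : M} :
    (1 : ResidueField O) ⊗ₜ[O] x = 0 ↔ x ∈ (maximalIdeal O) • (⊤ : Submodule O M) := by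
  have h := LinearMap.ker_tensorProductMk (R := O) (Q := M) (I := maximalIdeal O)
  have h1 := SetLike.ext_iff.1 h x
  rw [LinearMap.mem_ker] at h1
  exact h1

theorem exists_one_tmul (z : ResidueField O ⊗[O] M) :
    ∃ x : M, z = (1 : ResidueField O) ⊗ₜ[O] x := by
  obtain ⟨x, hx⟩ := TensorProduct.mk_surjective O M (ResidueField O)
    IsLocalRing.residue_surjective z
  exact ⟨x, hx.symm⟩

end red

variable {O : Type} [CommRing O] [IsLocalRing O] {p : ℕ} [Fact p.Prime]
  [CharP (ResidueField O) p]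
  {H H₀ : Type} [AddCommGroup H] [Module O H] [Module.Finite O H] [Module.Free O H]
  [AddCommGroup H₀] [Module O H₀] [Module.Finite O H₀] [Module.Free O H₀]
  {Δ : Type} [Group Δ] [Fintype Δ]

/-- Freeness over the group ring of a `p`-group from congruences. -/
theorem free_of_norm_integral (hΔ : IsPGroup p Δ) (ρ : Δ →* Module.End O H)
    (tr : H →ₗ[O] H₀) (res : H₀ →ₗ[O] H) (h1 : ∀ x, res (tr x) = ∑ δ, ρ δ x)
    (h2 : ∀ x, res x ∈ (maximalIdeal O) • (⊤ : Submodule O H) →
      x ∈ (maximalIdeal O) • (⊤ : Submodule O H₀))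
    (h4 : ∀ x, (∀ δ, ρ δ x - x ∈ (maximalIdeal O) • (⊤ : Submodule O H)) →
      ∃ y, x - res y ∈ (maximalIdeal O) • (⊤ : Submodule O H))
    {κ : Type} (b : Module.Basis κ O H₀) (y : κ → H) (hy : ∀ i, tr (y i) = b i) :
    ∃ B : Module.Basis (κ × Δ) O H, ∀ i δ, B (i, δ) = ρ δ (y i) := by
  classical
  let k := ResidueField O
  let ρ' : Δ →* Module.End k (k ⊗[O] H) :=
    { toFun := fun δ => (ρ δ).baseChange k
      map_one' := by rw [map_one]; exact LinearMap.baseChange_id
      map_mul' := fun a b => by rw [map_mul]; exact LinearMap.baseChange_comp _ _ }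
  have hρ' : ∀ δ (x : H), ρ' δ ((1 : k) ⊗ₜ[O] x) = (1 : k) ⊗ₜ[O] (ρ δ x) := fun δ x => rfl
  have hfix : ∀ x : H₀, res x ∈ LinearMap.range (∑ δ, ρ δ) := by
    intro x
    have hx : x ∈ Submodule.span O (Set.range b) := by rw [b.span_eq]; trivial
    have hle : Submodule.span O (Set.range b) ≤ (LinearMap.range (∑ δ, ρ δ)).comap res := by
      rw [Submodule.span_le]
      rintro _ ⟨i, rfl⟩
      refine ⟨y i, ?_⟩
      rw [← hy i, h1, LinearMap.sum_apply]
    exact hle hx
  have hfix' : ∀ (x : H₀) (δ : Δ), ρ δ (res x) = res x := by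
    intro x δ
    obtain ⟨z, hz⟩ := hfix x
    rw [← hz, LinearMap.sum_apply, map_sum]
    refine Fintype.sum_equiv (Equiv.mulLeft δ) _ _ fun g => ?_
    rw [Equiv.coe_mulLeft, map_mul]
    rfl
  -- the isomorphism onto the fixed vectors
  let r : k ⊗[O] H₀ →ₗ[k] k ⊗[O] H := res.baseChange k
  have hr : ∀ x : H₀, r ((1 : k) ⊗ₜ[O] x) = (1 : k) ⊗ₜ[O] (res x) := fun x => rfl
  have hrf : ∀ z, r z ∈ fixedV ρ' := by
    intro z
    obtain ⟨x, rfl⟩ := exists_one_tmul z
    rw [mem_fixedV]
    intro δ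
    rw [hr, hρ', hfix']
  have hrinj : Function.Injective r := by
    rw [injective_iff_map_eq_zero]
    intro z hz
    obtain ⟨x, rfl⟩ := exists_one_tmul z
    rw [hr, one_tmul_eq_zero] at hz
    exact one_tmul_eq_zero.2 (h2 x hz)
  let R : k ⊗[O] H₀ →ₗ[k] fixedV ρ' := LinearMap.codRestrict _ r hrf
  have hR : Function.Bijective R := by
    constructor
    · intro x y hxy
      exact hrinj (congrArg Subtype.val hxy)
    · rintro ⟨z, hz⟩
      obtain ⟨x, rfl⟩ := exists_one_tmul z
      rw [mem_fixedV] at hz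
      obtain ⟨w, hw⟩ := h4 x (fun δ => by
        rw [← one_tmul_eq_zero, TensorProduct.tmul_sub, ← hρ', hz δ, sub_self])
      refine ⟨(1 : k) ⊗ₜ[O] w, Subtype.ext ?_⟩
      change (1 : k) ⊗ₜ[O] (res w) = (1 : k) ⊗ₜ[O] x
      rw [← one_tmul_eq_zero, TensorProduct.tmul_sub, sub_eq_zero] at hw
      exact hw.symm
  let u : Module.Basis κ k (fixedV ρ') :=
    (Module.Basis.baseChange k b).map (LinearEquiv.ofBijective R hR)
  have hu : ∀ i, (u i : k ⊗[O] H) = (1 : k) ⊗ₜ[O] (res (b i)) := by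
    intro i
    simp only [u, Module.Basis.map_apply, Module.Basis.baseChange_apply]
    rfl
  obtain ⟨hind, hspan⟩ := free_of_norm hΔ ρ' u (fun i => (1 : k) ⊗ₜ[O] (y i)) (fun i => by
    rw [hu, ← hy i, h1, TensorProduct.tmul_sum]
    rfl)
  have hbij : Function.Bijective (Finsupp.linearCombination k
      (TensorProduct.mk O k H 1 ∘ fun x : κ × Δ => ρ x.2 (y x.1))) := by
    constructor
    · exact hind
    · rw [← LinearMap.range_eq_top, Finsupp.range_linearCombination]
      exact hspan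
  have h5 := Module.IsLocalRing.linearCombination_bijective_of_flat
    (R := O) (M := H) (fun x : κ × Δ => ρ x.2 (y x.1)) hbij
  refine ⟨Module.Basis.mk h5.1 ?_, fun i δ => ?_⟩
  · rw [← Finsupp.range_linearCombination, LinearMap.range_eq_top.2 h5.2]
  · rw [Module.Basis.mk_apply]

end Fermat.Agent.TW
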