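import Mathlib
import Fermat.Prelude.Thm_Algebra_finite_maximalSpectrum_and_bijective_localization_of_module_finite

/-!
# Localisation of finite Hecke modules at a maximal ideal by idempotents
-/

set_option autoImplicit false
set_option linter.unusedSectionVars false
set_option linter.style.haveILetI false

namespace Fermat.Agent.TW

open IsLocalRing

section ring

variable {O : Type} [CommRing O] [IsLocalRing O] [IsNoetherianRing O]
  [IsAdicComplete (maximalIdeal O) O] (A : Type) [CommRing A] [Algebra O A] [Module.Finite O A]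

/-- The idempotent of a finite algebra over a complete local ring attached to a residual point. -/
theorem exists_idem_ring (θ : A →ₐ[O] ResidueField O) :
    ∃ e : A, e * e = e ∧ θ e = 1 ∧ (∀ s, θ s ≠ 0 → ∃ s', s' * s * e = e) ∧
      ∀ s, θ s = 0 → ∃ n : ℕ, s ^ n * e ∈ (maximalIdeal O).map (algebraMap O A) := by
  classical
  obtain ⟨-, hbij, hfin, -⟩ :=
    Algebra.finite_maximalSpectrum_and_bijective_localization_of_module_finite (𝒪 := O) A
  have hsurj : Function.Surjective θ := by
    intro x
    obtain ⟨a, rfl⟩ := IsLocalRing.residue_surjective x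
    exact ⟨algebraMap O A a, by rw [AlgHom.commutes]; rfl⟩
  have hmax : (RingHom.ker θ).IsMaximal := RingHom.ker_isMaximal_of_surjective θ.toRingHom hsurj
  let M : MaximalSpectrum A := ⟨RingHom.ker θ, hmax⟩
  let φ : A →+* ∀ I : MaximalSpectrum A, Localization.AtPrime I.asIdeal :=
    RingHom.pi fun I : MaximalSpectrum A => algebraMap A (Localization.AtPrime I.asIdeal)
  have hφ : Function.Bijective φ := hbij
  have hφa : ∀ a I, φ a I = algebraMap A (Localization.AtPrime I.asIdeal) a := fun a I => rfl
  obtain ⟨e, he⟩ := hφ.2 (Pi.single M 1)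
  have hee : e * e = e := by
    apply hφ.1
    rw [map_mul, he, ← Pi.single_mul, one_mul]
  have hθe : θ e = 1 := by
    have h1 : φ e M = 1 := by rw [he]; simp
    rw [hφa] at h1
    have h2 : algebraMap A (Localization.AtPrime M.asIdeal) (1 - e) = 0 := by
      rw [map_sub, h1, map_one, sub_self]
    have h3 : (1 - e) ∈ M.asIdeal := by
      by_contra hne
      have h4 := IsLocalization.map_units (Localization.AtPrime M.asIdeal)
        (⟨1 - e, hne⟩ : M.asIdeal.primeCompl)
      rw [h2] at h4
      exact not_isUnit_zero h4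
    have h5 : θ (1 - e) = 0 := h3
    rw [map_sub, map_one, sub_eq_zero] at h5
    exact h5.symm
  refine ⟨e, hee, hθe, ?_, ?_⟩
  · intro s hs
    have h4 : IsUnit (algebraMap A (Localization.AtPrime M.asIdeal) s) :=
      IsLocalization.map_units (Localization.AtPrime M.asIdeal)
        (⟨s, fun h => hs h⟩ : M.asIdeal.primeCompl)
    obtain ⟨u, hu⟩ := h4.exists_left_inv
    obtain ⟨s', hs'⟩ := hφ.2 (Pi.single M u)
    refine ⟨s', hφ.1 ?_⟩
    rw [map_mul, map_mul, hs', he]
    funext I
    by_cases hI : I = M
    · subst hI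
      simp only [Pi.mul_apply, Pi.single_eq_same, mul_one]
      rw [hφa, hu]
    · simp [Pi.single_eq_of_ne hI]
  · intro s hs
    haveI := hfin M
    set L := Localization.AtPrime M.asIdeal with hL
    -- the quotient of the local factor by the maximal ideal of `O` is artinian
    let J : Ideal L := (maximalIdeal O).map (algebraMap O L)
    have h1 : ∃ n : ℕ, (algebraMap A L s) ^ n ∈ J := by
      by_cases hJ : J = ⊤
      · exact ⟨0, by rw [hJ]; trivial⟩
      haveI : Nontrivial (L ⧸ J) := Ideal.Quotient.nontrivial_iff.2 hJ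
      letI : Algebra (O ⧸ maximalIdeal O) (L ⧸ J) :=
        Ideal.Quotient.algebraQuotientOfLEComap Ideal.le_comap_map
      haveI : IsScalarTower O (O ⧸ maximalIdeal O) (L ⧸ J) := IsScalarTower.of_algebraMap_eq
        fun x => rfl
      haveI : Module.Finite O (L ⧸ J) := Module.Finite.trans L _
      haveI : Module.Finite (O ⧸ maximalIdeal O) (L ⧸ J) :=
        Module.Finite.of_restrictScalars_finite O _ _
      letI : Field (O ⧸ maximalIdeal O) := Ideal.Quotient.field _
      haveI : IsArtinianRing (L ⧸ J) := IsArtinianRing.of_finite (O ⧸ maximalIdeal O) (L ⧸ J)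
      haveI : IsLocalRing (L ⧸ J) := IsLocalRing.of_surjective' (Ideal.Quotient.mk J)
        Ideal.Quotient.mk_surjective
      have h2 : Ideal.Quotient.mk J (algebraMap A L s) ∈ maximalIdeal (L ⧸ J) := by
        rw [mem_maximalIdeal, mem_nonunits_iff]
        intro hu
        have h3 : IsUnit (algebraMap A L s) := by
          obtain ⟨b, hb⟩ := hu.exists_right_inv
          obtain ⟨b', rfl⟩ := Ideal.Quotient.mk_surjective b
          rw [← map_mul, ← map_one (Ideal.Quotient.mk J), Ideal.Quotient.eq] at hb
          have h6 := (le_maximalIdeal hJ) hb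
          by_contra hnu
          have h7 : algebraMap A L s * b' ∈ maximalIdeal L :=
            Ideal.mul_mem_right _ _ ((mem_maximalIdeal _).2 hnu)
          have h8 : (1 : L) ∈ maximalIdeal L := by
            have := Ideal.sub_mem _ h7 h6
            simpa using this
          exact (Ideal.ne_top_iff_one _).1 (Ideal.IsMaximal.ne_top inferInstance) h8
        rw [IsLocalization.AtPrime.isUnit_to_map_iff L M.asIdeal] at h3
        exact h3 hs
      obtain ⟨n, hn⟩ := IsArtinianRing.isNilpotent_jacobson_bot (R := L ⧸ J)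
      refine ⟨n, ?_⟩
      rw [← Ideal.Quotient.eq_zero_iff_mem, map_pow]
      have h4 : (Ideal.Quotient.mk J (algebraMap A L s)) ^ n ∈ (Ideal.jacobson (⊥ : Ideal (L ⧸ J))) ^ n := by
        refine Ideal.pow_mem_pow ?_ n
        rw [IsLocalRing.jacobson_eq_maximalIdeal _ bot_ne_top]
        exact h2
      rw [hn] at h4
      exact h4
    obtain ⟨n, hn⟩ := h1
    refine ⟨n, ?_⟩
    -- lift
    have h5 : ∀ z ∈ J, ∀ w : A, φ w = Pi.single M z → w ∈ (maximalIdeal O).map (algebraMap O A) := by
      intro z hz
      refine Submodule.span_induction (p := fun z _ => ∀ w : A, φ w = Pi.single M z →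
        w ∈ (maximalIdeal O).map (algebraMap O A)) ?_ ?_ ?_ ?_ hz
      · rintro _ ⟨o, ho, rfl⟩ w hw
        have : w = algebraMap O A o * e := by
          apply hφ.1
          rw [hw, map_mul, he]
          funext I
          by_cases hI : I = M
          · subst hI
            simp only [Pi.mul_apply, Pi.single_eq_same, mul_one]
            rw [hφa]
            rfl
          · simp [Pi.single_eq_of_ne hI]
        rw [this]
        exact Ideal.mul_mem_right _ _ (Ideal.mem_map_of_mem _ ho)
      · intro w hw
        have : w = 0 := by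
          apply hφ.1
          rw [hw, map_zero, Pi.single_zero]
        rw [this]
        exact Ideal.zero_mem _
      · intro a b _ _ ha hb w hw
        obtain ⟨wa, hwa⟩ := hφ.2 (Pi.single M a)
        obtain ⟨wb, hwb⟩ := hφ.2 (Pi.single M b)
        have : w = wa + wb := by
          apply hφ.1
          rw [hw, map_add, hwa, hwb, Pi.single_add]
        rw [this]
        exact Ideal.add_mem _ (ha wa hwa) (hb wb hwb)
      · intro c a _ ha w hw
        obtain ⟨wa, hwa⟩ := hφ.2 (Pi.single M a)
        obtain ⟨wc, hwc⟩ := hφ.2 (Pi.single M c)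
        have : w = wc * wa := by
          apply hφ.1
          rw [hw, map_mul, hwa, hwc, ← Pi.single_mul, smul_eq_mul]
        rw [this]
        exact Ideal.mul_mem_left _ _ (ha wa hwa)
    refine h5 _ hn _ ?_
    rw [map_mul, map_pow, he]
    funext I
    by_cases hI : I = M
    · subst hI
      simp only [Pi.mul_apply, Pi.pow_apply, Pi.single_eq_same, mul_one]
      rw [hφa]
    · simp [Pi.single_eq_of_ne hI]

end ring

section family

variable {O : Type} [CommRing O] [IsLocalRing O] [IsNoetherianRing O]
  [IsAdicComplete (maximalIdeal O) O]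
variable {T : Type} [CommRing T] [Algebra O T] {ι : Type} [Finite ι] (X : ι → Type)
  [∀ i, AddCommGroup (X i)] [∀ i, Module O (X i)] [∀ i, Module.Finite O (X i)]

/-- A simultaneous idempotent for a finite family of finite Hecke modules. -/
theorem exists_idem (φ : ∀ i, T →ₐ[O] Module.End O (X i)) (θ : T →ₐ[O] ResidueField O) :
    ∃ e : T, θ e = 1 ∧ (∀ i, φ i e * φ i e = φ i e) ∧
      (∀ s, θ s ≠ 0 → ∃ s', ∀ i, φ i s' * φ i s * φ i e = φ i e) ∧
      ∀ s, θ s = 0 → ∃ n : ℕ, ∀ i x, φ i (s ^ n * e) x ∈
        (maximalIdeal O) • (⊤ : Submodule O (X i)) := by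
  classical
  let Ψ : T →ₐ[O] (ResidueField O × ∀ i, Module.End O (X i)) := θ.prod (AlgHom.pi φ)
  let J : Ideal T := RingHom.ker Ψ
  let L : (T ⧸ J) →ₗ[O] (ResidueField O × ∀ i, Module.End O (X i)) :=
    { toFun := fun x => RingHom.kerLift Ψ.toRingHom x
      map_add' := fun x y => map_add _ x y
      map_smul' := fun c x => by
        obtain ⟨x, rfl⟩ := Ideal.Quotient.mk_surjective x
        change RingHom.kerLift Ψ.toRingHom (Ideal.Quotient.mk J (c • x)) = _
        change Ψ (c • x) = c • Ψ x
        rw [map_smul] }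
  have hL : ∀ x, L (Ideal.Quotient.mk J x) = Ψ x := fun x => rfl
  have hLinj : Function.Injective L := RingHom.kerLift_injective Ψ.toRingHom
  haveI : Module.Finite O (T ⧸ J) := Module.Finite.of_injective L hLinj
  have hker : ∀ a : T, a ∈ J → θ a = 0 ∧ ∀ i, φ i a = 0 := by
    intro a ha
    have h1 : Ψ a = 0 := ha
    exact ⟨congrArg Prod.fst h1, fun i => congrFun (congrArg Prod.snd h1) i⟩
  let θ' : (T ⧸ J) →ₐ[O] ResidueField O := Ideal.Quotient.liftₐ J θ fun a ha => (hker a ha).1
  have hθ' : ∀ a, θ' (Ideal.Quotient.mk J a) = θ a := fun a => rfl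
  obtain ⟨e, he1, he2, he3, he4⟩ := exists_idem_ring (T ⧸ J) θ'
  obtain ⟨e, rfl⟩ := Ideal.Quotient.mk_surjective e
  have hφ : ∀ a b : T, Ideal.Quotient.mk J a = Ideal.Quotient.mk J b → ∀ i, φ i a = φ i b := by
    intro a b h i
    rw [Ideal.Quotient.eq] at h
    have := (hker _ h).2 i
    rwa [map_sub, sub_eq_zero] at this
  refine ⟨e, he2, ?_, ?_, ?_⟩
  · intro i
    rw [← map_mul]
    exact hφ _ _ (by rw [map_mul, he1]) i
  · intro s hs
    obtain ⟨s', hs'⟩ := he3 (Ideal.Quotient.mk J s) hs
    obtain ⟨s', rfl⟩ := Ideal.Quotient.mk_surjective s'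
    refine ⟨s', fun i => ?_⟩
    rw [← map_mul, ← map_mul]
    exact hφ _ _ (by rw [map_mul, map_mul, hs']) i
  · intro s hs
    obtain ⟨n, hn⟩ := he4 (Ideal.Quotient.mk J s) hs
    refine ⟨n, fun i x => ?_⟩
    rw [← map_pow, ← map_mul] at hn
    have h1 : ∀ z ∈ (maximalIdeal O).map (algebraMap O (T ⧸ J)), ∀ a : T,
        Ideal.Quotient.mk J a = z → φ i a x ∈ (maximalIdeal O) • (⊤ : Submodule O (X i)) := by
      intro z hz
      refine Submodule.span_induction (p := fun z _ => ∀ a : T, Ideal.Quotient.mk J a = z →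
        φ i a x ∈ (maximalIdeal O) • (⊤ : Submodule O (X i))) ?_ ?_ ?_ ?_ hz
      · rintro _ ⟨o, ho, rfl⟩ a ha
        have h2 : φ i a = φ i (algebraMap O T o) := hφ _ _ (by rw [ha]; rfl) i
        rw [h2, AlgHom.commutes]
        change o • x ∈ _
        exact Submodule.smul_mem_smul ho trivial
      · intro a ha
        have h2 : φ i a = φ i 0 := hφ _ _ (by rw [ha, map_zero]) i
        rw [h2, map_zero]
        exact Submodule.zero_mem _
      · intro y z _ _ hy hz a ha
        obtain ⟨b, rfl⟩ := Ideal.Quotient.mk_surjective y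
        obtain ⟨c, rfl⟩ := Ideal.Quotient.mk_surjective z
        have h2 : φ i a = φ i (b + c) := hφ _ _ (by rw [ha, map_add]) i
        rw [h2, map_add]
        exact Submodule.add_mem _ (hy b rfl) (hz c rfl)
      · intro y z _ hz a ha
        obtain ⟨b, rfl⟩ := Ideal.Quotient.mk_surjective y
        obtain ⟨c, rfl⟩ := Ideal.Quotient.mk_surjective z
        have h2 : φ i a = φ i (b * c) := hφ _ _ (by rw [ha, map_mul, smul_eq_mul]) i
        rw [h2, map_mul]
        change φ i b (φ i c x) ∈ _
        have h3 := hz c rfl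
        have h4 : (maximalIdeal O) • (⊤ : Submodule O (X i)) ≤
            ((maximalIdeal O) • (⊤ : Submodule O (X i))).comap (φ i b) := by
          rw [Submodule.smul_le]
          intro r hr n _
          rw [Submodule.mem_comap, map_smul]
          exact Submodule.smul_mem_smul hr trivial
        exact h4 h3
    exact h1 _ hn _ rfl

end family

end Fermat.Agent.TW
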