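import Mathlib
import Fermat.Agent.TW.FreeO
import Fermat.Agent.TW.Idem

/-!
# Abstract freeness theorem for localised Hecke modules
-/

set_option autoImplicit false
set_option linter.unusedSectionVars false
set_option linter.style.haveILetI false

namespace Fermat.Agent.TW

open IsLocalRing
open scoped TensorProduct

section evC

variable {R A I : Type} [CommRing R] [Ring A] [Algebra R A]

/-- evaluation of polynomials at a commuting family -/
noncomputable def evC (f : I → A) (hf : ∀ i j, Commute (f i) (f j)) : MvPolynomial I R →ₐ[R] A :=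
  letI : CommRing (Algebra.adjoin R (Set.range f)) := Algebra.adjoinCommRingOfComm R (by
    rintro _ ⟨i, rfl⟩ _ ⟨j, rfl⟩
    exact hf i j)
  (Algebra.adjoin R (Set.range f)).val.comp
    (MvPolynomial.aeval fun i => (⟨f i, Algebra.subset_adjoin ⟨i, rfl⟩⟩ :
      Algebra.adjoin R (Set.range f)))

theorem evC_X (f : I → A) (hf : ∀ i j, Commute (f i) (f j)) (i : I) :
    evC (R := R) f hf (MvPolynomial.X i) = f i := by
  letI : CommRing (Algebra.adjoin R (Set.range f)) := Algebra.adjoinCommRingOfComm R (by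
    rintro _ ⟨i, rfl⟩ _ ⟨j, rfl⟩
    exact hf i j)
  have h : (MvPolynomial.aeval (R := R) fun i => (⟨f i, Algebra.subset_adjoin ⟨i, rfl⟩⟩ :
      Algebra.adjoin R (Set.range f))) (MvPolynomial.X i) =
      ⟨f i, Algebra.subset_adjoin ⟨i, rfl⟩⟩ := MvPolynomial.aeval_X _ i
  exact congrArg Subtype.val h

theorem evC_C (f : I → A) (hf : ∀ i j, Commute (f i) (f j)) (r : R) :
    evC (R := R) f hf (MvPolynomial.C r) = algebraMap R A r :=
  (evC (R := R) f hf).commutes r

/-- Intertwining operators. -/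
theorem evC_comp {M M' : Type} [AddCommGroup M] [Module R M] [AddCommGroup M'] [Module R M']
    {f : I → Module.End R M} {hf : ∀ i j, Commute (f i) (f j)}
    {f' : I → Module.End R M'} {hf' : ∀ i j, Commute (f' i) (f' j)}
    (g : M →ₗ[R] M') (hg : ∀ i x, g (f i x) = f' i (g x)) (P : MvPolynomial I R) :
    ∀ x, g (evC f hf P x) = evC f' hf' P (g x) := by
  induction P using MvPolynomial.induction_on with
  | C r =>
    intro x
    rw [evC_C, evC_C]
    simp [Module.algebraMap_end_apply]
  | add P Q hP hQ =>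
    intro x
    rw [map_add, map_add, LinearMap.add_apply, LinearMap.add_apply, map_add, hP, hQ]
  | mul_X P i hP =>
    intro x
    rw [map_mul, map_mul, Module.End.mul_apply, Module.End.mul_apply, hP, evC_X, evC_X, hg]

end evC

section abs

variable {O : Type} [CommRing O] [IsLocalRing O]

theorem map_mem_smul_top {M M' : Type} [AddCommGroup M] [Module O M] [AddCommGroup M']
    [Module O M'] (I : Ideal O) (f : M →ₗ[O] M') {x : M} (hx : x ∈ I • (⊤ : Submodule O M)) :
    f x ∈ I • (⊤ : Submodule O M') := by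
  have h : I • (⊤ : Submodule O M) ≤ (I • (⊤ : Submodule O M')).comap f := by
    rw [Submodule.smul_le]
    intro r hr n _
    rw [Submodule.mem_comap, map_smul]
    exact Submodule.smul_mem_smul hr trivial
  exact h hx

variable {T : Type} [CommRing T] [Algebra O T]

section sub

variable {X : Type} [AddCommGroup X] [Module O X] (φ : T →ₐ[O] Module.End O X) (e : T)

/-- The part of a Hecke module cut out by an idempotent. -/
def part : Submodule O X := LinearMap.range (φ e)

variable {φ e}

theorem mem_part (he : φ e * φ e = φ e) {x : X} : x ∈ part φ e ↔ φ e x = x := by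
  constructor
  · rintro ⟨y, rfl⟩
    rw [← Module.End.mul_apply, he]
  · intro h
    exact ⟨x, h⟩

/-- The projection. -/
def toPart (φ : T →ₐ[O] Module.End O X) (e : T) : X →ₗ[O] part φ e := (φ e).rangeRestrict

theorem toPart_coe (x : X) : (toPart φ e x : X) = φ e x := rfl

theorem toPart_apply (he : φ e * φ e = φ e) (x : part φ e) : toPart φ e x = x :=
  Subtype.ext ((mem_part he).1 x.2)

theorem comm_part (s : T) (x : X) (hx : x ∈ part φ e) : φ s x ∈ part φ e := by
  obtain ⟨y, rfl⟩ := hx
  refine ⟨φ s y, ?_⟩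
  rw [← Module.End.mul_apply, ← Module.End.mul_apply, ← map_mul, ← map_mul, mul_comm]

theorem mem_smul_part (he : φ e * φ e = φ e) (I : Ideal O) (x : part φ e) :
    x ∈ I • (⊤ : Submodule O (part φ e)) ↔ (x : X) ∈ I • (⊤ : Submodule O X) := by
  constructor
  · intro h
    exact map_mem_smul_top I (part φ e).subtype h
  · intro h
    rw [← toPart_apply he x]
    exact map_mem_smul_top I (toPart φ e) h

theorem free_part [Module.Finite O X] [Module.Free O X] (he : φ e * φ e = φ e) :
    Module.Free O (part φ e) := by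
  haveI : Module.Projective O (part φ e) := Module.Projective.of_split (part φ e).subtype
    (toPart φ e) (LinearMap.ext fun x => toPart_apply he x)
  haveI : Module.Finite O (part φ e) := Module.Finite.range _
  exact Module.free_of_flat_of_isLocalRing

instance finite_part [Module.Finite O X] : Module.Finite O (part φ e) := Module.Finite.range _

/-- The action of the Hecke algebra on the part. -/
def actPart (φ : T →ₐ[O] Module.End O X) (e : T) : T →ₐ[O] Module.End O (part φ e) :=
  AlgHom.ofLinearMap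
    { toFun := fun s => (φ s).restrict fun x hx => comm_part s x hx
      map_add' := fun s s' => by
        ext x
        simp
      map_smul' := fun c s => by
        ext x
        simp }
    (by
      ext x
      simp)
    (fun s s' => by
      ext x
      simp)

theorem actPart_coe (s : T) (x : part φ e) : (actPart φ e s x : X) = φ s x := rfl

end sub

variable {X X₀ : Type} [AddCommGroup X] [Module O X] [AddCommGroup X₀] [Module O X₀]
  {φ : T →ₐ[O] Module.End O X} {φ₀ : T →ₐ[O] Module.End O X₀} {e : T}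

/-- Restriction of an intertwining operator. -/
def mapPart (g : X →ₗ[O] X₀) (hg : ∀ s x, g (φ s x) = φ₀ s (g x)) :
    part φ e →ₗ[O] part φ₀ e :=
  g.restrict (by
    rintro _ ⟨y, rfl⟩
    exact ⟨g y, (hg e y).symm⟩)

theorem mapPart_coe (g : X →ₗ[O] X₀) (hg : ∀ s x, g (φ s x) = φ₀ s (g x)) (x : part φ e) :
    (mapPart (e := e) g hg x : X₀) = g x := rfl

theorem mapPart_act (g : X →ₗ[O] X₀) (hg : ∀ s x, g (φ s x) = φ₀ s (g x)) (s : T)
    (x : part φ e) : mapPart (e := e) g hg (actPart φ e s x) = actPart φ₀ e s (mapPart g hg x) :=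
  Subtype.ext (hg s x)

/-- Restriction of a commuting group action. -/
def repPart {Δ : Type} [Group Δ] (ρ : Δ →* Module.End O X)
    (hρ : ∀ δ s x, ρ δ (φ s x) = φ s (ρ δ x)) : Δ →* Module.End O (part φ e) where
  toFun δ := mapPart (ρ δ) (hρ δ)
  map_one' := by
    ext x
    rw [mapPart_coe, map_one]
    rfl
  map_mul' a b := by
    ext x
    rw [mapPart_coe, map_mul]
    rfl

theorem repPart_coe {Δ : Type} [Group Δ] (ρ : Δ →* Module.End O X)
    (hρ : ∀ δ s x, ρ δ (φ s x) = φ s (ρ δ x)) (δ : Δ) (x : part φ e) :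
    (repPart (e := e) ρ hρ δ x : X) = ρ δ x := rfl

variable [Module.Finite O X] [Module.Free O X] [Module.Finite O X₀] [Module.Free O X₀]
  {p : ℕ} [Fact p.Prime] [CharP (ResidueField O) p]
  {Δ : Type} [Group Δ] [Fintype Δ]

omit [Module.Free O X₀] in
theorem surjective_part
    (he₀ : φ₀ e * φ₀ e = φ₀ e)
    {t : T} (ht₀ : ∃ s', φ₀ s' * φ₀ t * φ₀ e = φ₀ e)
    (tr : X →ₗ[O] X₀) (htr : ∀ s x, tr (φ s x) = φ₀ s (tr x))
    {π : O} (hπ : π ∈ maximalIdeal O)
    (i2 : ∃ (s : X₀ →ₗ[O] X) (y : X₀ →ₗ[O] X₀), φ₀ t = tr ∘ₗ s + π • y) :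
    Function.Surjective (mapPart (e := e) tr htr) := by
  obtain ⟨s, y, hsy⟩ := i2
  obtain ⟨s', hs'⟩ := ht₀
  have hx : ∀ x : part φ₀ e, x ∈ LinearMap.range (mapPart (e := e) tr htr) ⊔
      (maximalIdeal O) • (⊤ : Submodule O (part φ₀ e)) := by
    intro x
    have h1 : φ₀ s' (φ₀ t (x : X₀)) = x := by
      have h2 := (mem_part he₀).1 x.2
      have h3 := LinearMap.congr_fun hs' (x : X₀)
      rw [Module.End.mul_apply, Module.End.mul_apply, h2] at h3
      exact h3
    have h2 : (x : X₀) = tr (φ s' (s x)) + π • φ₀ s' (y x) := by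
      rw [htr, ← map_smul, ← map_add]
      rw [← LinearMap.comp_apply, ← LinearMap.smul_apply, ← LinearMap.add_apply, ← hsy, h1]
    have h3 : x = mapPart (e := e) tr htr (toPart φ e (φ s' (s x))) +
        π • toPart φ₀ e (φ₀ s' (y x)) := by
      apply Subtype.ext
      rw [Submodule.coe_add, Submodule.coe_smul, mapPart_coe, toPart_coe, toPart_coe, htr,
        ← map_smul, ← map_add, ← h2]
      exact ((mem_part he₀).1 x.2).symm
    rw [h3]
    exact Submodule.add_mem_sup (LinearMap.mem_range_self _ _)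
      (Submodule.smul_mem_smul hπ trivial)
  rw [← LinearMap.range_eq_top, ← top_le_iff]
  refine Submodule.le_of_le_smul_of_le_jacobson_bot Module.Finite.fg_top
    (maximalIdeal_le_jacobson _) fun x _ => hx x

/-- The abstract freeness theorem. -/
theorem free_abs (hΔ : IsPGroup p Δ) (he : φ e * φ e = φ e) (he₀ : φ₀ e * φ₀ e = φ₀ e)
    {t : T} (ht : ∃ s', φ s' * φ t * φ e = φ e) (ht₀ : ∃ s', φ₀ s' * φ₀ t * φ₀ e = φ₀ e)
    (ρ : Δ →* Module.End O X) (hρ : ∀ δ s x, ρ δ (φ s x) = φ s (ρ δ x))
    (tr : X →ₗ[O] X₀) (htr : ∀ s x, tr (φ s x) = φ₀ s (tr x))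
    (res : X₀ →ₗ[O] X) (hres : ∀ s x, res (φ₀ s x) = φ s (res x))
    (h1 : ∀ x, res (tr x) = ∑ δ, ρ δ x)
    {π : O} (hπ : π ∈ maximalIdeal O)
    (i1 : ∃ (s : X →ₗ[O] X₀) (y : X₀ →ₗ[O] X₀), φ₀ t = s ∘ₗ res + π • y)
    (i3 : ∃ (u : X →ₗ[O] X₀) (w : Δ → X →ₗ[O] X) (y : X →ₗ[O] X),
      φ t * φ t = res ∘ₗ u + ∑ δ, w δ ∘ₗ (ρ δ - 1) + π • y)
    {κ : Type} (b : Module.Basis κ O (part φ₀ e)) (y : κ → part φ e)
    (hy : ∀ i, mapPart tr htr (y i) = b i) :
    ∃ B : Module.Basis (κ × Δ) O (part φ e), ∀ i δ, B (i, δ) = repPart ρ hρ δ (y i) := by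
  haveI : Module.Free O (part φ e) := free_part he
  haveI : Module.Free O (part φ₀ e) := free_part he₀
  refine free_of_norm_integral (p := p) hΔ (repPart ρ hρ) (mapPart tr htr) (mapPart res hres)
    ?_ ?_ ?_ b y hy
  · intro x
    apply Subtype.ext
    rw [mapPart_coe, mapPart_coe, h1, Submodule.coe_sum]
    rfl
  · intro x hx
    rw [mem_smul_part he, mapPart_coe] at hx
    rw [mem_smul_part he₀]
    obtain ⟨s, y, hsy⟩ := i1
    obtain ⟨s', hs'⟩ := ht₀
    have h1 : φ₀ s' (φ₀ t (x : X₀)) = x := by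
      have h2 := (mem_part he₀).1 x.2
      have h3 := LinearMap.congr_fun hs' (x : X₀)
      rw [Module.End.mul_apply, Module.End.mul_apply, h2] at h3
      exact h3
    rw [← h1, hsy]
    refine map_mem_smul_top _ _ ?_
    rw [LinearMap.add_apply, LinearMap.comp_apply, LinearMap.smul_apply]
    exact Submodule.add_mem _ (map_mem_smul_top _ s hx) (Submodule.smul_mem_smul hπ trivial)
  · intro x hx
    obtain ⟨u, w, y, huw⟩ := i3
    obtain ⟨s', hs'⟩ := ht
    have h1 : ∀ z ∈ part φ e, φ s' (φ t z) = z := by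
      intro z hz
      have h2 := (mem_part he).1 hz
      have h3 := LinearMap.congr_fun hs' z
      rw [Module.End.mul_apply, Module.End.mul_apply, h2] at h3
      exact h3
    have h2 : φ s' (φ s' (φ t (φ t (x : X)))) = x := by
      rw [h1 _ (comm_part t _ x.2), h1 _ x.2]
    have h3 : (x : X) - res (φ₀ s' (φ₀ s' (u x))) ∈ maximalIdeal O • (⊤ : Submodule O X) := by
      have h4 := LinearMap.congr_fun huw (x : X)
      rw [Module.End.mul_apply] at h4
      have h6 : (x : X) - res (φ₀ s' (φ₀ s' (u x))) =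
          φ s' (φ s' (φ t (φ t (x : X)) - res (u x))) := by
        rw [map_sub, map_sub, h2, hres, hres]
      rw [h6, h4]
      refine map_mem_smul_top _ _ (map_mem_smul_top _ _ ?_)
      rw [LinearMap.add_apply, LinearMap.add_apply, LinearMap.comp_apply, LinearMap.smul_apply,
        LinearMap.sum_apply]
      have h5 : res (u ↑x) + ∑ d, (w d ∘ₗ (ρ d - 1)) (x : X) + π • y ↑x - res (u ↑x) =
          ∑ d, (w d ∘ₗ (ρ d - 1)) (x : X) + π • y ↑x := by abel
      rw [h5]
      refine Submodule.add_mem _ (Submodule.sum_mem _ fun δ _ => ?_)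
        (Submodule.smul_mem_smul hπ trivial)
      rw [LinearMap.comp_apply]
      refine map_mem_smul_top _ _ ?_
      exact (mem_smul_part he _ _).1 (hx δ)
    refine ⟨toPart φ₀ e (φ₀ s' (φ₀ s' (u x))), ?_⟩
    rw [mem_smul_part he]
    rw [Submodule.coe_sub, mapPart_coe, toPart_coe, hres]
    have h4 : (x : X) - φ e (res (φ₀ s' (φ₀ s' (u x)))) =
        φ e ((x : X) - res (φ₀ s' (φ₀ s' (u x)))) := by
      rw [map_sub, (mem_part he).1 x.2]
    rw [h4]
    exact map_mem_smul_top _ _ h3

end abs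

end Fermat.Agent.TW
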