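import Fermat.Agent.TW.Eis2
import Fermat.Agent.TW.FreeAbs
import Fermat.Agent.TW.Factor

/-!
# Freeness of the localised cohomology of level `Γ_H(N)` over the group ring of `(ℤ/N)^× / H`
-/

set_option autoImplicit false
set_option linter.unusedSectionVars false
set_option linter.style.haveILetI false

open Matrix.SpecialLinearGroup
open scoped MatrixGroups TensorProduct
open IsLocalRing
open Fermat.Agent.AL Fermat.Agent.ALCoh Fermat.Agent.LevelRaise Fermat.Agent.KumG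

namespace Fermat.Agent.TW

noncomputable section

/-! ### Identities over `ℤ` -/

section ids

variable {N l : ℕ} {H : Subgroup (ZMod N)ˣ} [NeZero N] [hH : Fact ((-1 : (ZMod N)ˣ) ∈ H)]
  {p : ℕ}

theorem id1 (hp : p.Prime) (hl : l.Prime) (hlN : ¬ l ∣ N) :
    ∃ (s : KumG.LZ (GH N H) →ₗ[ℤ] KumG.LZ (GG N)) (y : KumG.LZ (GG N) →ₗ[ℤ] KumG.LZ (GG N)),
      tG hl hlN = s ∘ₗ resH N H + (p : ℤ) • y := by
  haveI : Fact p.Prime := ⟨hp⟩
  refine exists_id_left (resH N H) (tG hl hlN) fun x hx => ?_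
  obtain ⟨y, hy⟩ := hx
  obtain ⟨z, hz⟩ := Z1 hp hl hlN x ⟨y, by rw [hy, natCast_zsmul]⟩
  exact ⟨z, by rw [hz, natCast_zsmul]⟩

theorem id2 (hp : p.Prime) (hp2 : p ≠ 2) (hl : l.Prime) (hlN : ¬ l ∣ N) :
    ∃ (s : KumG.LZ (GG N) →ₗ[ℤ] KumG.LZ (GH N H)) (y : KumG.LZ (GG N) →ₗ[ℤ] KumG.LZ (GG N)),
      tG hl hlN = trH N H ∘ₗ s + (p : ℤ) • y := by
  refine exists_id_right (trH N H) (tG hl hlN) fun x => ?_
  obtain ⟨y, z, hz⟩ := Z2 (H := H) hp hp2 hl hlN x
  exact ⟨y, z, by rw [hz, natCast_zsmul]⟩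

theorem id3 (hp : p.Prime) (hp2 : p ≠ 2) (hl : l.Prime) (hlN : ¬ l ∣ N)
    (hN : (N : ℤ) ∣ (l : ℤ) - 1) :
    ∃ (u : KumG.LZ (GH N H) →ₗ[ℤ] KumG.LZ (GG N))
      (w : DG N H → KumG.LZ (GH N H) →ₗ[ℤ] KumG.LZ (GH N H))
      (y : KumG.LZ (GH N H) →ₗ[ℤ] KumG.LZ (GH N H)),
      tH H hl hlN * tH H hl hlN = resH N H ∘ₗ u + ∑ δ, w δ ∘ₗ (DQ N H δ - 1) + (p : ℤ) • y := by
  classical
  haveI : Fact p.Prime := ⟨hp⟩
  refine exists_id_mixed (fun δ => DQ N H δ - 1) (resH N H) (tH H hl hlN * tH H hl hlN)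
    fun x hx => ?_
  obtain ⟨y, z, hz⟩ := Z3 (H := H) hp hp2 hl hlN hN x (fun δ => by
    obtain ⟨y, hy⟩ := hx δ
    exact ⟨y, by rw [natCast_zsmul]; exact hy⟩)
  exact ⟨y, z, by rw [Module.End.mul_apply, hz, natCast_zsmul]⟩

theorem TG_comm {l' : ℕ} (hl : l.Prime) (hlN : ¬ l ∣ N) (hl' : l'.Prime) (hlN' : ¬ l' ∣ N) :
    Commute (TG hl hlN) (TG hl' hlN') := by
  haveI : Fact ((-1 : (ZMod N)ˣ) ∈ (⊤ : Subgroup (ZMod N)ˣ)) := ⟨trivial⟩
  refine LinearMap.ext fun x => resH_injective (H := (⊤ : Subgroup (ZMod N)ˣ)) ?_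
  rw [Module.End.mul_apply, Module.End.mul_apply, resH_TG, resH_TG, resH_TG, resH_TG]
  exact LinearMap.congr_fun (TH_TH_comm hl hlN hl' hlN') _

end ids

/-! ### Extension of scalars -/

/-- primes outside a set -/
abbrev IS (S : Set ℕ) : Type := {l : ℕ // l.Prime ∧ l ∉ S}

theorem IS.not_dvd {S : Set ℕ} {N : ℕ} (hNS : ∀ l, l.Prime → l ∣ N → l ∈ S) (i : IS S) :
    ¬ i.1 ∣ N := fun h => i.2.2 (hNS i.1 i.2.1 h)

section O

variable (O : Type) [CommRing O] (N : ℕ) [NeZero N] (H : Subgroup (ZMod N)ˣ)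
  [hH : Fact ((-1 : (ZMod N)ˣ) ∈ H)] {S : Set ℕ}

/-- the lattice of level `Γ₀(N)` -/
abbrev XG : Type := O ⊗[ℤ] KumG.LZ (GG N)

/-- the lattice of level `Γ_H(N)` -/
abbrev XH : Type := O ⊗[ℤ] KumG.LZ (GH N H)

instance finiteXG : Module.Finite O (XG O N) := by
  haveI : (GG N).FiniteIndex := inferInstance
  infer_instance

instance freeXG : Module.Free O (XG O N) := by
  haveI : (GG N).FiniteIndex := inferInstance
  infer_instance

instance finiteXH : Module.Finite O (XH O N H) := by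
  haveI : (GH N H).FiniteIndex := inferInstance
  infer_instance

instance freeXH : Module.Free O (XH O N H) := by
  haveI : (GH N H).FiniteIndex := inferInstance
  infer_instance

/-- the universal Hecke algebra -/
abbrev TS (S : Set ℕ) : Type := MvPolynomial (IS S) O

variable {N} in
theorem commG (hNS : ∀ l, l.Prime → l ∣ N → l ∈ S) (i j : IS S) :
    Commute ((TG i.2.1 (i.not_dvd hNS)).baseChange O : Module.End O (XG O N))
      ((TG j.2.1 (j.not_dvd hNS)).baseChange O) := by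
  have h := TG_comm i.2.1 (i.not_dvd hNS) j.2.1 (j.not_dvd hNS)
  rw [Commute, SemiconjBy] at h ⊢
  change LinearMap.baseChange O _ ∘ₗ LinearMap.baseChange O _ =
    LinearMap.baseChange O _ ∘ₗ LinearMap.baseChange O _
  rw [← LinearMap.baseChange_comp, ← LinearMap.baseChange_comp]
  exact congrArg _ h

variable {N} in
theorem commH (hNS : ∀ l, l.Prime → l ∣ N → l ∈ S) (i j : IS S) :
    Commute ((TH N H i.2.1 (i.not_dvd hNS)).baseChange O : Module.End O (XH O N H))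
      ((TH N H j.2.1 (j.not_dvd hNS)).baseChange O) := by
  have h := TH_TH_comm (H := H) i.2.1 (i.not_dvd hNS) j.2.1 (j.not_dvd hNS)
  rw [Commute, SemiconjBy] at h ⊢
  change LinearMap.baseChange O _ ∘ₗ LinearMap.baseChange O _ =
    LinearMap.baseChange O _ ∘ₗ LinearMap.baseChange O _
  rw [← LinearMap.baseChange_comp, ← LinearMap.baseChange_comp]
  exact congrArg _ h

variable {N} in
/-- the Hecke action at level `Γ₀(N)` -/
def phiG (hNS : ∀ l, l.Prime → l ∣ N → l ∈ S) : TS O S →ₐ[O] Module.End O (XG O N) :=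
  evC (fun i : IS S => (TG i.2.1 (i.not_dvd hNS)).baseChange O) (commG O hNS)

variable {N} in
/-- the Hecke action at level `Γ_H(N)` -/
def phiH (hNS : ∀ l, l.Prime → l ∣ N → l ∈ S) : TS O S →ₐ[O] Module.End O (XH O N H) :=
  evC (fun i : IS S => (TH N H i.2.1 (i.not_dvd hNS)).baseChange O) (commH O H hNS)

variable {N} in
theorem phiG_X (hNS : ∀ l, l.Prime → l ∣ N → l ∈ S) (i : IS S) :
    phiG O hNS (MvPolynomial.X i) = (TG i.2.1 (i.not_dvd hNS)).baseChange O := evC_X _ _ _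

variable {N} in
theorem phiH_X (hNS : ∀ l, l.Prime → l ∣ N → l ∈ S) (i : IS S) :
    phiH O H hNS (MvPolynomial.X i) = (TH N H i.2.1 (i.not_dvd hNS)).baseChange O := evC_X _ _ _

/-- restriction -/
def resO : XG O N →ₗ[O] XH O N H := (resH N H).baseChange O

/-- transfer -/
def trO : XH O N H →ₗ[O] XG O N := (trH N H).baseChange O

/-- diamond operators -/
def DO : DG N H →* Module.End O (XH O N H) where
  toFun δ := (DQ N H δ).baseChange O
  map_one' := by rw [map_one]; exact LinearMap.baseChange_id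
  map_mul' a b := by rw [map_mul]; exact LinearMap.baseChange_comp _ _

variable {N H}

theorem bc_ext {M M' : Type} [AddCommGroup M] [AddCommGroup M'] [Module O M']
    {f g : O ⊗[ℤ] M →ₗ[O] M'} (h : ∀ x : M, f (1 ⊗ₜ x) = g (1 ⊗ₜ x)) (z : O ⊗[ℤ] M) : f z = g z := by
  induction z using TensorProduct.induction_on with
  | zero => rw [map_zero, map_zero]
  | tmul a x =>
    have h1 : (a ⊗ₜ[ℤ] x : O ⊗[ℤ] M) = a • (1 ⊗ₜ x) := by
      rw [TensorProduct.smul_tmul', smul_eq_mul, mul_one]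
    rw [h1, map_smul, map_smul, h]
  | add x y hx hy => rw [map_add, map_add, hx, hy]

theorem resO_phi (hNS : ∀ l, l.Prime → l ∣ N → l ∈ S) (s : TS O S) (x : XG O N) :
    resO O N H (phiG O hNS s x) = phiH O H hNS s (resO O N H x) := by
  refine evC_comp (resO O N H) (fun i x => ?_) s x
  refine bc_ext O (f := resO O N H ∘ₗ LinearMap.baseChange O _)
    (g := LinearMap.baseChange O _ ∘ₗ resO O N H) (fun x => ?_) x
  change (1 : O) ⊗ₜ[ℤ] (resH N H (TG _ _ x)) = (1 : O) ⊗ₜ[ℤ] (TH N H _ _ (resH N H x))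
  rw [resH_TG]

theorem trO_phi (hNS : ∀ l, l.Prime → l ∣ N → l ∈ S) (s : TS O S) (x : XH O N H) :
    trO O N H (phiH O H hNS s x) = phiG O hNS s (trO O N H x) := by
  refine evC_comp (trO O N H) (fun i x => ?_) s x
  refine bc_ext O (f := trO O N H ∘ₗ LinearMap.baseChange O _)
    (g := LinearMap.baseChange O _ ∘ₗ trO O N H) (fun x => ?_) x
  change (1 : O) ⊗ₜ[ℤ] (trH N H (TH N H _ _ x)) = (1 : O) ⊗ₜ[ℤ] (TG _ _ (trH N H x))
  rw [trH_TH]

theorem DO_phi (hNS : ∀ l, l.Prime → l ∣ N → l ∈ S) (δ : DG N H) (s : TS O S) (x : XH O N H) :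
    DO O N H δ (phiH O H hNS s x) = phiH O H hNS s (DO O N H δ x) := by
  refine evC_comp (DO O N H δ) (fun i x => ?_) s x
  refine bc_ext O (f := DO O N H δ ∘ₗ LinearMap.baseChange O _)
    (g := LinearMap.baseChange O _ ∘ₗ DO O N H δ) (fun x => ?_) x
  change (1 : O) ⊗ₜ[ℤ] (DQ N H δ (TH N H _ _ x)) = (1 : O) ⊗ₜ[ℤ] (TH N H _ _ (DQ N H δ x))
  rw [DQ_TH]

theorem resO_trO (x : XH O N H) : resO O N H (trO O N H x) = ∑ δ, DO O N H δ x := by
  have h := bc_ext O (f := resO O N H ∘ₗ trO O N H) (g := ∑ δ, DO O N H δ) (fun x => by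
    change (1 : O) ⊗ₜ[ℤ] (resH N H (trH N H x)) = _
    rw [resH_trH, TensorProduct.tmul_sum, LinearMap.sum_apply]
    rfl) x
  rw [LinearMap.sum_apply] at h
  exact h

theorem trO_DO (δ : DG N H) (x : XH O N H) : trO O N H (DO O N H δ x) = trO O N H x := by
  refine bc_ext O (f := trO O N H ∘ₗ DO O N H δ) (g := trO O N H) (fun x => ?_) x
  change (1 : O) ⊗ₜ[ℤ] (trH N H (DQ N H δ x)) = (1 : O) ⊗ₜ[ℤ] (trH N H x)
  rw [trH_DQ]

theorem trO_resO (x : XG O N) : trO O N H (resO O N H x) = Fintype.card (DG N H) • x := by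
  refine bc_ext O (f := trO O N H ∘ₗ resO O N H)
    (g := Fintype.card (DG N H) • LinearMap.id) (fun x => ?_) x
  change (1 : O) ⊗ₜ[ℤ] (trH N H (resH N H x)) = Fintype.card (DG N H) • ((1 : O) ⊗ₜ[ℤ] x)
  rw [trH_resH, TensorProduct.tmul_smul]
  exact natCast_zsmul _ _

/-- the Eisenstein polynomial -/
def eisP (i : IS S) : TS O S := MvPolynomial.X i - MvPolynomial.C ((i.1 + 1 : ℕ) : O)

theorem phiG_eisP (hNS : ∀ l, l.Prime → l ∣ N → l ∈ S) (i : IS S) :
    phiG O hNS (eisP O i) = (tG i.2.1 (i.not_dvd hNS)).baseChange O := by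
  rw [eisP, map_sub, phiG_X]
  have h1 : phiG O (N := N) hNS (MvPolynomial.C ((i.1 + 1 : ℕ) : O)) =
      ((i.1 + 1 : ℕ) : Module.End O (XG O N)) := by
    rw [map_natCast, map_natCast]
  rw [h1, tG, LinearMap.baseChange_sub]
  congr 1
  refine LinearMap.ext fun x => ?_
  refine bc_ext O (f := ((i.1 + 1 : ℕ) : Module.End O (XG O N)))
    (g := LinearMap.baseChange O _) (fun x => ?_) x
  rw [LinearMap.baseChange_tmul]
  change ((i.1 + 1 : ℕ) : Module.End O (XG O N)) _ = (1 : O) ⊗ₜ[ℤ] (((i.1 + 1 : ℕ) : ℤ) • x)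
  rw [Module.End.natCast_apply, natCast_zsmul, TensorProduct.tmul_smul]

theorem phiH_eisP (hNS : ∀ l, l.Prime → l ∣ N → l ∈ S) (i : IS S) :
    phiH O H hNS (eisP O i) = (tH H i.2.1 (i.not_dvd hNS)).baseChange O := by
  rw [eisP, map_sub, phiH_X]
  have h1 : phiH O (N := N) H hNS (MvPolynomial.C ((i.1 + 1 : ℕ) : O)) =
      ((i.1 + 1 : ℕ) : Module.End O (XH O N H)) := by
    rw [map_natCast, map_natCast]
  rw [h1, tH, LinearMap.baseChange_sub]
  congr 1
  refine LinearMap.ext fun x => ?_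
  refine bc_ext O (f := ((i.1 + 1 : ℕ) : Module.End O (XH O N H)))
    (g := LinearMap.baseChange O _) (fun x => ?_) x
  rw [LinearMap.baseChange_tmul]
  change ((i.1 + 1 : ℕ) : Module.End O (XH O N H)) _ = (1 : O) ⊗ₜ[ℤ] (((i.1 + 1 : ℕ) : ℤ) • x)
  rw [Module.End.natCast_apply, natCast_zsmul, TensorProduct.tmul_smul]

variable {O} [IsLocalRing O] [IsNoetherianRing O] [IsAdicComplete (maximalIdeal O) O]

/-- `e` is an idempotent defining the localisation of the Hecke module at the kernel of `θ`. -/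
structure IsLoc {T X k : Type} [CommRing T] [Algebra O T] [AddCommGroup X] [Module O X]
    [CommRing k] [Algebra O k]
    (φ : T →ₐ[O] Module.End O X) (θ : T →ₐ[O] k) (e : T) : Prop where
  idem : φ e * φ e = φ e
  unit : ∀ s, θ s ≠ 0 → ∃ s', φ s' * φ s * φ e = φ e
  nil : ∀ s, θ s = 0 → ∃ n : ℕ, ∀ x, φ (s ^ n * e) x ∈ (maximalIdeal O) • (⊤ : Submodule O X)

theorem natCast_mem {p : ℕ} [CharP (ResidueField O) p] : (p : O) ∈ maximalIdeal O := by
  rw [← IsLocalRing.residue_eq_zero_iff, map_natCast, CharP.cast_eq_zero]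

variable {p : ℕ} [Fact p.Prime] [CharP (ResidueField O) p]
  {θ : TS O S →ₐ[O] ResidueField O} {e : TS O S} {hNS : ∀ l, l.Prime → l ∣ N → l ∈ S}

theorem surjective_trO (hp2 : p ≠ 2) (heG : IsLoc (phiG O hNS) θ e)
    {i : IS S} (hi : θ (eisP O i) ≠ 0) :
    Function.Surjective (mapPart (e := e) (trO O N H) (trO_phi O hNS)) := by
  refine surjective_part heG.idem (heG.unit _ hi) _ _
    (natCast_mem (O := O) (p := p)) ?_
  obtain ⟨s, y, hsy⟩ := id2 (H := H) (Fact.out : p.Prime) hp2 i.2.1 (i.not_dvd hNS)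
  refine ⟨s.baseChange O, y.baseChange O, ?_⟩
  rw [phiG_eisP, hsy, LinearMap.baseChange_add, LinearMap.baseChange_comp]
  congr 1
  refine LinearMap.ext fun x => bc_ext O (f := LinearMap.baseChange O _)
    (g := (p : O) • LinearMap.baseChange O _) (fun x => ?_) x
  change (1 : O) ⊗ₜ[ℤ] ((p : ℤ) • y x) = (p : O) • ((1 : O) ⊗ₜ[ℤ] y x)
  rw [natCast_zsmul, TensorProduct.tmul_smul, Nat.cast_smul_eq_nsmul]

/-- **(E5)** The localisation of the cohomology of level `Γ_H(N)` at a non-Eisenstein maximal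
ideal is free over the group ring of `(ℤ/N)^× / H`. -/
theorem free_H (hp2 : p ≠ 2) (hΔ : IsPGroup p (DG N H)) (heG : IsLoc (phiG O hNS) θ e)
    (heH : IsLoc (phiH O H hNS) θ e) {i : IS S} (hi : θ (eisP O i) ≠ 0)
    (hiN : (N : ℤ) ∣ (i.1 : ℤ) - 1)
    {κ : Type} (b : Module.Basis κ O (part (phiG O hNS) e)) (y : κ → part (phiH O H hNS) e)
    (hy : ∀ i, mapPart (trO O N H) (trO_phi O hNS) (y i) = b i) :
    ∃ B : Module.Basis (κ × DG N H) O (part (phiH O H hNS) e),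
      ∀ i δ, B (i, δ) = repPart (DO O N H) (DO_phi O hNS) δ (y i) := by
  have hsm : ∀ {A B : Type} [AddCommGroup A] [AddCommGroup B] (y : A →ₗ[ℤ] B),
      LinearMap.baseChange O ((p : ℤ) • y) = (p : O) • LinearMap.baseChange O y := by
    intro A B _ _ y
    refine LinearMap.ext fun x => bc_ext O (f := LinearMap.baseChange O _)
      (g := (p : O) • LinearMap.baseChange O _) (fun x => ?_) x
    change (1 : O) ⊗ₜ[ℤ] ((p : ℤ) • y x) = (p : O) • ((1 : O) ⊗ₜ[ℤ] y x)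
    rw [natCast_zsmul, TensorProduct.tmul_smul, Nat.cast_smul_eq_nsmul]
  refine free_abs (p := p) hΔ heH.idem heG.idem (heH.unit _ hi) (heG.unit _ hi) (DO O N H)
    (DO_phi O hNS) (trO O N H) (trO_phi O hNS) (resO O N H) (resO_phi O hNS) (resO_trO O)
    (natCast_mem (O := O) (p := p)) ?_ ?_ b y hy
  · obtain ⟨s, y, hsy⟩ := id1 (H := H) (Fact.out : p.Prime) i.2.1 (i.not_dvd hNS)
    refine ⟨s.baseChange O, y.baseChange O, ?_⟩
    rw [phiG_eisP, hsy, LinearMap.baseChange_add, LinearMap.baseChange_comp, hsm]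
    rfl
  · obtain ⟨u, w, y, huw⟩ := id3 (H := H) (Fact.out : p.Prime) hp2 i.2.1 (i.not_dvd hNS) hiN
    refine ⟨u.baseChange O, fun δ => (w δ).baseChange O, y.baseChange O, ?_⟩
    have h1 : phiH O H hNS (eisP O i) * phiH O H hNS (eisP O i) =
        LinearMap.baseChange O (tH H i.2.1 (i.not_dvd hNS) * tH H i.2.1 (i.not_dvd hNS)) := by
      rw [phiH_eisP]
      exact (LinearMap.baseChange_comp _ _).symm
    rw [h1, huw, LinearMap.baseChange_add, LinearMap.baseChange_add, LinearMap.baseChange_comp,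
      hsm]
    congr 2
    refine LinearMap.ext fun x => bc_ext O (f := LinearMap.baseChange O _)
      (g := ∑ δ, LinearMap.baseChange O (w δ) ∘ₗ (DO O N H δ - 1)) (fun x => ?_) x
    rw [LinearMap.baseChange_tmul, LinearMap.sum_apply, LinearMap.sum_apply,
      TensorProduct.tmul_sum]
    refine Finset.sum_congr rfl fun δ _ => ?_
    have h2 : (DO O N H δ - 1) ((1 : O) ⊗ₜ[ℤ] x) = (1 : O) ⊗ₜ[ℤ] ((DQ N H δ - 1) x) := by
      rw [LinearMap.sub_apply, LinearMap.sub_apply, TensorProduct.tmul_sub]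
      rfl
    change (1 : O) ⊗ₜ[ℤ] (w δ ((DQ N H δ - 1) x)) =
      LinearMap.baseChange O (w δ) ((DO O N H δ - 1) ((1 : O) ⊗ₜ[ℤ] x))
    rw [h2]
    rfl

end O

end

end Fermat.Agent.TW
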