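import Mathlib

/-!
# Modules over a pseudo-representation (Boston–Lenstra–Ribet)
-/

set_option autoImplicit false
set_option linter.unusedSectionVars false
set_option linter.style.haveILetI false

namespace Fermat.Agent.TW

noncomputable section

section alg

variable {T : Type*} [CommRing T] {A : Type*} [Ring A] [Algebra T A] {G : Type*} [Group G]

/-- an algebra representation with an involution -/
structure IsQRep (ρ : G →* A) (D : G →* T) (t : G → T) : Prop where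
  rel : ∀ g, ρ g + D g • ρ g⁻¹ = t g • (1 : A)
  inj : ∀ a : T, a • (1 : A) = 0 → a = 0

variable {ρ : G →* A} {D : G →* T} {t : G → T} (h : IsQRep ρ D t)

include h

theorem IsQRep.t_conj (g k : G) : t (k * g * k⁻¹) = t g := by
  have hD : D (k * g * k⁻¹) = D g := by
    rw [map_mul, map_mul, mul_comm (D k), mul_assoc, ← map_mul, mul_inv_cancel, map_one, mul_one]
  have h1 := h.rel (k * g * k⁻¹)
  have h2 : (k * g * k⁻¹)⁻¹ = k * g⁻¹ * k⁻¹ := by group
  rw [h2, hD, map_mul, map_mul, map_mul, map_mul] at h1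
  have h3 : ρ k * (ρ g + D g • ρ g⁻¹) * ρ k⁻¹ = t (k * g * k⁻¹) • (1 : A) := by
    rw [← h1, mul_add, add_mul, mul_smul_comm, smul_mul_assoc]
  rw [h.rel g, mul_smul_comm, mul_one, smul_mul_assoc, ← map_mul, mul_inv_cancel, map_one] at h3
  have h4 : (t g - t (k * g * k⁻¹)) • (1 : A) = 0 := by rw [sub_smul, h3, sub_self]
  exact (sub_eq_zero.1 (h.inj _ h4)).symm

theorem IsQRep.t_comm (g k : G) : t (g * k) = t (k * g) := by
  have := h.t_conj (k * g) g
  rw [← this]
  congr 1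
  group

theorem IsQRep.t_one : t 1 = 2 := by
  have h1 := h.rel 1
  rw [inv_one, map_one, map_one, one_smul] at h1
  have h2 : (t 1 - 2) • (1 : A) = 0 := by
    rw [sub_smul, ← h1]
    rw [show (2 : T) • (1 : A) = 1 + 1 by rw [two_smul]]
    abel
  exact sub_eq_zero.1 (h.inj _ h2)

omit h

variable [Invertible (2 : T)] {c : G} (hc : c * c = 1) (hDc : D c = -1)

/-- projector -/
def E1 (ρ : G →* A) (c : G) : A := (⅟2 : T) • (1 + ρ c)

/-- projector -/
def E2 (ρ : G →* A) (c : G) : A := (⅟2 : T) • (1 - ρ c)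

/-- entry -/
def aa (t : G → T) (c : G) (g : G) : T := ⅟2 * (t g + t (c * g))

/-- entry -/
def ee (t : G → T) (c : G) (g : G) : T := ⅟2 * (t g - t (c * g))

/-- product of the entries off the diagonal -/
def bc (t : G → T) (c : G) (g k : G) : T := ⅟2 * (aa t c (g * k) - aa t c (g * c * k))

theorem half_add (x : A) : (⅟2 : T) • x + (⅟2 : T) • x = x := by
  rw [← add_smul, ← two_mul, mul_invOf_self, one_smul]

theorem E1_add_E2 : E1 (T := T) ρ c + E2 (T := T) ρ c = 1 := by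
  rw [E1, E2, ← smul_add]
  have : (1 : A) + ρ c + (1 - ρ c) = 1 + 1 := by abel
  rw [this, smul_add, half_add]

include hc in
theorem rho_cc : ρ c * ρ c = 1 := by rw [← map_mul, hc, map_one]

include hc in
theorem E1_mul_E1 : E1 (T := T) ρ c * E1 (T := T) ρ c = E1 (T := T) ρ c := by
  have h1 := rho_cc (ρ := ρ) hc
  rw [E1, smul_mul_smul_comm]
  have h2 : (1 + ρ c) * (1 + ρ c) = (2 : T) • (1 + ρ c) := by
    rw [two_smul, mul_add, add_mul, add_mul, h1]
    simp only [one_mul, mul_one]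
    abel
  rw [h2, smul_smul, mul_assoc, invOf_mul_self, mul_one]

include hc in
theorem E2_mul_E2 : E2 (T := T) ρ c * E2 (T := T) ρ c = E2 (T := T) ρ c := by
  have h1 := rho_cc (ρ := ρ) hc
  rw [E2, smul_mul_smul_comm]
  have h2 : (1 - ρ c) * (1 - ρ c) = (2 : T) • (1 - ρ c) := by
    rw [two_smul, mul_sub, sub_mul, sub_mul, h1]
    simp only [one_mul, mul_one]
    abel
  rw [h2, smul_smul, mul_assoc, invOf_mul_self, mul_one]

include hc in
theorem E1_mul_E2 : E1 (T := T) ρ c * E2 (T := T) ρ c = 0 := by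
  have h1 := rho_cc (ρ := ρ) hc
  rw [E1, E2, smul_mul_smul_comm]
  have h2 : (1 + ρ c) * (1 - ρ c) = 0 := by
    rw [mul_sub, add_mul, add_mul, h1]
    simp only [one_mul, mul_one]
    abel
  rw [h2, smul_zero]

include hc in
theorem E2_mul_E1 : E2 (T := T) ρ c * E1 (T := T) ρ c = 0 := by
  have h1 := rho_cc (ρ := ρ) hc
  rw [E1, E2, smul_mul_smul_comm]
  have h2 : (1 - ρ c) * (1 + ρ c) = 0 := by
    rw [mul_add, sub_mul, sub_mul, h1]
    simp only [one_mul, mul_one]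
    abel
  rw [h2, smul_zero]

include h hc hDc

theorem IsQRep.two_rel (g : G) : ρ c * ρ g - (D g • ρ g⁻¹) * ρ c = t (c * g) • (1 : A) := by
  have h1 := h.rel (c * g)
  have h2 : (c * g)⁻¹ = g⁻¹ * c := by
    rw [mul_inv_rev, inv_eq_of_mul_eq_one_right hc]
  rw [h2, map_mul, map_mul, map_mul, hDc] at h1
  rw [← h1, smul_mul_assoc]
  rw [neg_one_mul, neg_smul, sub_eq_add_neg]

theorem IsQRep.E1_mul (g : G) : E1 (T := T) ρ c * ρ g * E1 (T := T) ρ c =
    aa t c g • E1 (T := T) ρ c := by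
  have hcc := rho_cc (ρ := ρ) hc
  have h1 := h.rel g
  have h2 := h.two_rel hc hDc g
  obtain ⟨X', hX'⟩ : ∃ X', X' = D g • ρ g⁻¹ := ⟨_, rfl⟩
  rw [← hX'] at h1 h2
  have e : X' * ρ c * ρ c = X' := by rw [mul_assoc, hcc, mul_one]
  have h3 : (1 + ρ c) * ρ g * (1 + ρ c) = (t g + t (c * g)) • (1 + ρ c) := by
    have h4 : (t g + t (c * g)) • (1 + ρ c) = (t g • (1 : A)) * (1 + ρ c) +
        (t (c * g) • (1 : A)) * (1 + ρ c) := by
      rw [smul_mul_assoc, smul_mul_assoc, one_mul, add_smul]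
    rw [h4, ← h1, ← h2]
    have h5 : (ρ g + X') * (1 + ρ c) + (ρ c * ρ g - X' * ρ c) * (1 + ρ c) =
        (1 + ρ c) * ρ g * (1 + ρ c) + (X' - X' * ρ c * ρ c) := by noncomm_ring
    rw [h5, e, sub_self, add_zero]
  rw [E1, smul_mul_assoc, smul_mul_smul_comm, h3, aa, smul_smul, smul_smul]
  congr 1
  ring

theorem IsQRep.E2_mul (g : G) : E2 (T := T) ρ c * ρ g * E2 (T := T) ρ c =
    ee t c g • E2 (T := T) ρ c := by
  have hcc := rho_cc (ρ := ρ) hc
  have h1 := h.rel g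
  have h2 := h.two_rel hc hDc g
  obtain ⟨X', hX'⟩ : ∃ X', X' = D g • ρ g⁻¹ := ⟨_, rfl⟩
  rw [← hX'] at h1 h2
  have e : X' * ρ c * ρ c = X' := by rw [mul_assoc, hcc, mul_one]
  have h3 : (1 - ρ c) * ρ g * (1 - ρ c) = (t g - t (c * g)) • (1 - ρ c) := by
    have h4 : (t g - t (c * g)) • (1 - ρ c) = (t g • (1 : A)) * (1 - ρ c) -
        (t (c * g) • (1 : A)) * (1 - ρ c) := by
      rw [smul_mul_assoc, smul_mul_assoc, one_mul, sub_smul]
    rw [h4, ← h1, ← h2]
    have h5 : (ρ g + X') * (1 - ρ c) - (ρ c * ρ g - X' * ρ c) * (1 - ρ c) =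
        (1 - ρ c) * ρ g * (1 - ρ c) + (X' - X' * ρ c * ρ c) := by noncomm_ring
    rw [h5, e, sub_self, add_zero]
  rw [E2, smul_mul_assoc, smul_mul_smul_comm, h3, ee, smul_smul, smul_smul]
  congr 1
  ring

theorem IsQRep.E121 (g k : G) : E1 (T := T) ρ c * ρ g * E2 (T := T) ρ c * ρ k * E1 (T := T) ρ c =
    bc t c g k • E1 (T := T) ρ c := by
  have h1 : E1 (T := T) ρ c * ρ g * E2 (T := T) ρ c * ρ k * E1 (T := T) ρ c =
      (⅟2 : T) • (E1 (T := T) ρ c * ρ (g * k) * E1 (T := T) ρ c -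
        E1 (T := T) ρ c * ρ (g * c * k) * E1 (T := T) ρ c) := by
    conv_lhs => rw [E2]
    simp only [map_mul, mul_smul_comm, smul_mul_assoc]
    congr 1
    noncomm_ring
  rw [h1, h.E1_mul hc hDc, h.E1_mul hc hDc, ← sub_smul, smul_smul, bc]

theorem IsQRep.E212 (g k : G) : E2 (T := T) ρ c * ρ k * E1 (T := T) ρ c * ρ g * E2 (T := T) ρ c =
    bc t c g k • E2 (T := T) ρ c := by
  have h1 : E2 (T := T) ρ c * ρ k * E1 (T := T) ρ c * ρ g * E2 (T := T) ρ c =
      (⅟2 : T) • (E2 (T := T) ρ c * ρ (k * g) * E2 (T := T) ρ c +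
        E2 (T := T) ρ c * ρ (k * c * g) * E2 (T := T) ρ c) := by
    conv_lhs => rw [E1]
    simp only [map_mul, mul_smul_comm, smul_mul_assoc]
    congr 1
    noncomm_ring
  rw [h1, h.E2_mul hc hDc, h.E2_mul hc hDc, ← add_smul, smul_smul, bc, ee, ee, aa, aa]
  congr 2
  have e1 : t (k * g) = t (g * k) := h.t_comm _ _
  have e2 : t (c * (k * g)) = t (g * c * k) := by
    rw [← mul_assoc, h.t_comm (c * k) g, mul_assoc]
  have e3 : t (k * c * g) = t (c * (g * k)) := by
    rw [mul_assoc, h.t_comm k (c * g), mul_assoc]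
  have e4 : t (c * (k * c * g)) = t (c * (g * c * k)) := by
    rw [← mul_assoc, ← mul_assoc, h.t_comm (c * k * c) g, h.t_comm c (g * c * k)]
    simp only [mul_assoc]
  rw [e1, e2, e3, e4]
  ring

end alg

end

end Fermat.Agent.TW
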