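import Fermat.Agent.TW.BLR

/-!
# Modules over a pseudo-representation: the matrix representation
-/

set_option autoImplicit false
set_option linter.unusedSectionVars false
set_option linter.style.haveILetI false

namespace Fermat.Agent.TW

noncomputable section

variable {T : Type*} [CommRing T] {G : Type*} [Group G]
  {Y : Type*} [AddCommGroup Y] [Module T Y]
  {ρ : G →* Module.End T Y} {D : G →* T} {t : G → T} (h : IsQRep ρ D t)
  [Invertible (2 : T)] {c : G} (hc : c * c = 1) (hDc : D c = -1)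
  {g₀ k₀ : G} {u : Tˣ} (hu : (u : T) = bc t c g₀ k₀)

/-- the half of the module -/
def MM (ρ : G →* Module.End T Y) (c : G) : Submodule T Y := LinearMap.range (E1 (T := T) ρ c)

/-- the matrix -/
def RR (t : G → T) (c g₀ k₀ : G) (u : Tˣ) (g : G) : Matrix (Fin 2) (Fin 2) T :=
  !![aa t c g, (↑u⁻¹ : T) * bc t c g k₀; bc t c g₀ g, ee t c g]

/-- the action of matrices on `M × M` -/
def mact {M : Type*} [AddCommGroup M] [Module T M] (X : Matrix (Fin 2) (Fin 2) T) (m : M × M) :
    M × M :=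
  (X 0 0 • m.1 + X 0 1 • m.2, X 1 0 • m.1 + X 1 1 • m.2)

theorem mact_mul {M : Type*} [AddCommGroup M] [Module T M] (X X' : Matrix (Fin 2) (Fin 2) T)
    (m : M × M) : mact (X * X') m = mact X (mact X' m) := by
  apply Prod.ext
  · simp only [mact, Matrix.mul_apply, Fin.sum_univ_two]
    module
  · simp only [mact, Matrix.mul_apply, Fin.sum_univ_two]
    module

theorem mact_add {M : Type*} [AddCommGroup M] [Module T M] (X X' : Matrix (Fin 2) (Fin 2) T)
    (m : M × M) : mact (X + X') m = mact X m + mact X' m := by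
  apply Prod.ext
  · simp only [mact, Matrix.add_apply, Prod.fst_add]
    module
  · simp only [mact, Matrix.add_apply, Prod.snd_add]
    module

theorem mact_smul {M : Type*} [AddCommGroup M] [Module T M] (a : T) (X : Matrix (Fin 2) (Fin 2) T)
    (m : M × M) : mact (a • X) m = a • mact X m := by
  apply Prod.ext
  · simp only [mact, Matrix.smul_apply, Prod.smul_fst, smul_eq_mul]
    module
  · simp only [mact, Matrix.smul_apply, Prod.smul_snd, smul_eq_mul]
    module

theorem mact_one {M : Type*} [AddCommGroup M] [Module T M] (m : M × M) :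
    mact (1 : Matrix (Fin 2) (Fin 2) T) m = m := by
  apply Prod.ext
  · simp [mact]
  · simp [mact]

theorem mact_inj {M : Type*} [AddCommGroup M] [Module T M]
    (hM : ∀ a : T, (∀ m : M, a • m = 0) → a = 0) {X X' : Matrix (Fin 2) (Fin 2) T}
    (hX : ∀ m : M × M, mact X m = mact X' m) : X = X' := by
  have key : ∀ i j, X i j = X' i j := by
    intro i j
    rw [← sub_eq_zero]
    refine hM _ fun m => ?_
    rw [sub_smul, sub_eq_zero]
    fin_cases i <;> fin_cases j
    · have := congrArg Prod.fst (hX (m, 0))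
      simpa [mact] using this
    · have := congrArg Prod.fst (hX (0, m))
      simpa [mact] using this
    · have := congrArg Prod.snd (hX (m, 0))
      simpa [mact] using this
    · have := congrArg Prod.snd (hX (0, m))
      simpa [mact] using this
  ext i j
  exact key i j

include h hc hDc hu

/-- the splitting of the module -/
theorem exists_split : ∃ E : Y ≃ₗ[T] (MM ρ c × MM ρ c), (∀ y, ((E y).1 : Y) = E1 (T := T) ρ c y) ∧
    ∀ g y, E (ρ g y) = mact (RR t c g₀ k₀ u g) (E y) := by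
  obtain ⟨e1, he1⟩ : ∃ e, e = E1 (T := T) ρ c := ⟨_, rfl⟩
  obtain ⟨e2, he2⟩ : ∃ e, e = E2 (T := T) ρ c := ⟨_, rfl⟩
  have h11 : e1 * e1 = e1 := by rw [he1]; exact E1_mul_E1 hc
  have h22 : e2 * e2 = e2 := by rw [he2]; exact E2_mul_E2 hc
  have h12 : e1 * e2 = 0 := by rw [he1, he2]; exact E1_mul_E2 hc
  have h21 : e2 * e1 = 0 := by rw [he1, he2]; exact E2_mul_E1 hc
  have hsum : e1 + e2 = 1 := by rw [he1, he2]; exact E1_add_E2
  have hA : ∀ g, e1 * ρ g * e1 = aa t c g • e1 := by rw [he1]; exact h.E1_mul hc hDc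
  have hE : ∀ g, e2 * ρ g * e2 = ee t c g • e2 := by rw [he2]; exact h.E2_mul hc hDc
  have hB : ∀ g k, e1 * ρ g * e2 * ρ k * e1 = bc t c g k • e1 := by
    rw [he1, he2]; exact h.E121 hc hDc
  have hC : ∀ g k, e2 * ρ k * e1 * ρ g * e2 = bc t c g k • e2 := by
    rw [he1, he2]; exact h.E212 hc hDc
  have hMM : MM ρ c = LinearMap.range e1 := by rw [he1]; rfl
  have hm : ∀ m : MM ρ c, e1 (m : Y) = m := by
    intro m
    have h1 : (m : Y) ∈ LinearMap.range e1 := hMM ▸ m.2
    obtain ⟨y, hy⟩ := h1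
    rw [← hy, ← Module.End.mul_apply, h11]
  have hin : ∀ y, e1 y ∈ MM ρ c := fun y => hMM ▸ ⟨y, rfl⟩
  let U : Module.End T Y := e1 * ρ g₀ * e2
  let V : Module.End T Y := (↑u⁻¹ : T) • (e2 * ρ k₀ * e1)
  have hUV : U * V = e1 := by
    change e1 * ρ g₀ * e2 * ((↑u⁻¹ : T) • (e2 * ρ k₀ * e1)) = e1
    rw [mul_smul_comm]
    have : e1 * ρ g₀ * e2 * (e2 * ρ k₀ * e1) = e1 * ρ g₀ * (e2 * e2) * ρ k₀ * e1 := by
      simp only [mul_assoc]
    rw [this, h22, hB, ← hu, smul_smul, Units.inv_mul, one_smul]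
  have hVU : V * U = e2 := by
    change ((↑u⁻¹ : T) • (e2 * ρ k₀ * e1)) * (e1 * ρ g₀ * e2) = e2
    rw [smul_mul_assoc]
    have : e2 * ρ k₀ * e1 * (e1 * ρ g₀ * e2) = e2 * ρ k₀ * (e1 * e1) * ρ g₀ * e2 := by
      simp only [mul_assoc]
    rw [this, h11, hC, ← hu, smul_smul, Units.inv_mul, one_smul]
  have hVe : V * e1 = V := by
    change ((↑u⁻¹ : T) • (e2 * ρ k₀ * e1)) * e1 = (↑u⁻¹ : T) • (e2 * ρ k₀ * e1)
    rw [smul_mul_assoc, mul_assoc, h11]
  have he1V : e1 * V = 0 := by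
    change e1 * ((↑u⁻¹ : T) • (e2 * ρ k₀ * e1)) = 0
    rw [mul_smul_comm, ← mul_assoc, ← mul_assoc, h12, zero_mul, zero_mul, smul_zero]
  have hUe1 : U * e1 = 0 := by
    change e1 * ρ g₀ * e2 * e1 = 0
    rw [mul_assoc, h21, mul_zero]
  have hUin : ∀ y, U y ∈ MM ρ c := fun y => by
    change (e1 * ρ g₀ * e2) y ∈ _
    rw [mul_assoc]
    exact hin _
  let f : Y →ₗ[T] (MM ρ c × MM ρ c) :=
    (LinearMap.codRestrict (MM ρ c) e1 hin).prod (LinearMap.codRestrict (MM ρ c) U hUin)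
  let b : (MM ρ c × MM ρ c) →ₗ[T] Y :=
    LinearMap.coprod (MM ρ c).subtype (V ∘ₗ (MM ρ c).subtype)
  have hfb : f ∘ₗ b = LinearMap.id := by
    refine LinearMap.ext fun m => ?_
    apply Prod.ext
    · apply Subtype.ext
      change e1 ((m.1 : Y) + V m.2) = m.1
      rw [map_add, hm, ← Module.End.mul_apply, he1V, LinearMap.zero_apply, add_zero]
    · apply Subtype.ext
      change U ((m.1 : Y) + V m.2) = m.2
      rw [map_add, ← hm m.1, ← Module.End.mul_apply, hUe1, LinearMap.zero_apply, zero_add,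
        ← Module.End.mul_apply, hUV, hm]
  have hbf : b ∘ₗ f = LinearMap.id := by
    refine LinearMap.ext fun y => ?_
    change e1 y + V (U y) = y
    rw [← Module.End.mul_apply, hVU, ← LinearMap.add_apply, hsum]
    rfl
  let E : Y ≃ₗ[T] (MM ρ c × MM ρ c) := LinearEquiv.ofLinear f b hfb hbf
  refine ⟨E, fun y => by rw [← he1]; rfl, fun g y => ?_⟩
  obtain ⟨⟨m1, m2⟩, rfl⟩ := E.symm.surjective y
  rw [LinearEquiv.apply_symm_apply]
  have hsymm : E.symm (m1, m2) = (m1 : Y) + V m2 := rfl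
  rw [hsymm]
  have k1 : e1 (ρ g (m1 : Y)) = aa t c g • (m1 : Y) := by
    conv_lhs => rw [← hm m1]
    rw [← Module.End.mul_apply, ← Module.End.mul_apply, hA, LinearMap.smul_apply, hm]
  have k2 : e1 (ρ g (V (m2 : Y))) = ((↑u⁻¹ : T) * bc t c g k₀) • (m2 : Y) := by
    rw [← Module.End.mul_apply, ← Module.End.mul_apply]
    have : e1 * (ρ g * V) = (↑u⁻¹ : T) • (e1 * ρ g * e2 * ρ k₀ * e1) := by
      change e1 * (ρ g * ((↑u⁻¹ : T) • (e2 * ρ k₀ * e1))) = _
      rw [mul_smul_comm, mul_smul_comm]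
      simp only [mul_assoc]
    rw [mul_assoc, this, hB, smul_smul, LinearMap.smul_apply, hm]
  have k3 : U (ρ g (m1 : Y)) = bc t c g₀ g • (m1 : Y) := by
    conv_lhs => rw [← hm m1]
    rw [← Module.End.mul_apply, ← Module.End.mul_apply]
    have : U * (ρ g * e1) = e1 * ρ g₀ * e2 * ρ g * e1 := by
      change e1 * ρ g₀ * e2 * (ρ g * e1) = _
      simp only [mul_assoc]
    rw [mul_assoc, this, hB, LinearMap.smul_apply, hm]
  have k4 : U (ρ g (V (m2 : Y))) = ee t c g • (m2 : Y) := by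
    rw [← Module.End.mul_apply, ← Module.End.mul_apply]
    have : U * (ρ g * V) = ee t c g • e1 := by
      have e1' : U * (ρ g * V) = (↑u⁻¹ : T) • (e1 * ρ g₀ * (e2 * ρ g * e2) * ρ k₀ * e1) := by
        change e1 * ρ g₀ * e2 * (ρ g * ((↑u⁻¹ : T) • (e2 * ρ k₀ * e1))) = _
        rw [mul_smul_comm, mul_smul_comm]
        simp only [mul_assoc]
      rw [e1', hE, mul_smul_comm, smul_mul_assoc, smul_mul_assoc, hB, ← hu, smul_smul, smul_smul]
      congr 1
      rw [mul_right_comm, Units.inv_mul, one_mul]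
    rw [mul_assoc, this, LinearMap.smul_apply, hm]
  apply Prod.ext
  · apply Subtype.ext
    change e1 (ρ g ((m1 : Y) + V m2)) = aa t c g • (m1 : Y) + ((↑u⁻¹ : T) * bc t c g k₀) • (m2 : Y)
    rw [map_add, map_add, k1, k2]
  · apply Subtype.ext
    change U (ρ g ((m1 : Y) + V m2)) = bc t c g₀ g • (m1 : Y) + ee t c g • (m2 : Y)
    rw [map_add, map_add, k3, k4]

theorem faithful_MM (a : T) (ha : ∀ m : MM ρ c, a • m = 0) : a = 0 := by
  obtain ⟨E, -, -⟩ := exists_split h hc hDc hu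
  refine h.inj a (LinearMap.ext fun y => ?_)
  rw [LinearMap.smul_apply, Module.End.one_apply, LinearMap.zero_apply]
  apply E.injective
  rw [map_smul, map_zero]
  exact Prod.ext (ha _) (ha _)

/-- the matrices form a representation -/
theorem RR_mul (g k : G) : RR t c g₀ k₀ u (g * k) = RR t c g₀ k₀ u g * RR t c g₀ k₀ u k := by
  obtain ⟨E, -, hE⟩ := exists_split h hc hDc hu
  refine mact_inj (faithful_MM h hc hDc hu) fun m => ?_
  obtain ⟨y, rfl⟩ := E.surjective m
  rw [← hE, map_mul, Module.End.mul_apply, hE, hE, mact_mul]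

theorem RR_one : RR t c g₀ k₀ u 1 = 1 := by
  obtain ⟨E, -, hE⟩ := exists_split h hc hDc hu
  refine mact_inj (faithful_MM h hc hDc hu) fun m => ?_
  obtain ⟨y, rfl⟩ := E.surjective m
  rw [← hE, map_one, Module.End.one_apply, mact_one]

theorem RR_rel (g : G) : RR t c g₀ k₀ u g + D g • RR t c g₀ k₀ u g⁻¹ = t g • 1 := by
  obtain ⟨E, -, hE⟩ := exists_split h hc hDc hu
  refine mact_inj (faithful_MM h hc hDc hu) fun m => ?_
  obtain ⟨y, rfl⟩ := E.surjective m
  have h1 := LinearMap.congr_fun (h.rel g) y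
  rw [LinearMap.add_apply, LinearMap.smul_apply, LinearMap.smul_apply, Module.End.one_apply] at h1
  rw [mact_add, mact_smul, mact_smul, mact_one, ← hE, ← hE, ← map_smul, ← map_add, h1, map_smul]

omit h hc hDc hu in
theorem RR_trace (g : G) : (RR t c g₀ k₀ u g).trace = t g := by
  rw [Matrix.trace_fin_two, RR]
  simp only [Matrix.of_apply, Matrix.cons_val', Matrix.cons_val_zero, Matrix.cons_val_one,
    Matrix.cons_val_fin_one]
  rw [aa, ee]
  linear_combination (t g) * (invOf_mul_self (2 : T))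

/-- the determinant -/
theorem RR_det (g : G) : (RR t c g₀ k₀ u g).det = D g := by
  obtain ⟨X, hX⟩ : ∃ X, X = RR t c g₀ k₀ u g := ⟨_, rfl⟩
  have h1 := RR_rel h hc hDc hu g
  have h2 : RR t c g₀ k₀ u g * RR t c g₀ k₀ u g⁻¹ = 1 := by
    rw [← RR_mul h hc hDc hu, mul_inv_cancel, RR_one h hc hDc hu]
  have h3 : X.trace = t g := by rw [hX]; exact RR_trace g
  rw [← hX] at h1 h2 ⊢
  have h4 : X * (X + D g • RR t c g₀ k₀ u g⁻¹) = X.trace • X := by
    rw [h1, h3, mul_smul_comm, mul_one]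
  rw [mul_add, mul_smul_comm, h2] at h4
  have h5 := congrFun (congrFun h4 0) 0
  rw [Matrix.add_apply, Matrix.mul_apply, Fin.sum_univ_two, Matrix.smul_apply,
    Matrix.one_apply_eq, Matrix.smul_apply, Matrix.trace_fin_two] at h5
  simp only [smul_eq_mul, mul_one] at h5
  rw [Matrix.det_fin_two]
  linear_combination -h5

omit hu in
theorem RR_c (hu : (u : T) = bc t c g₀ k₀) : RR t c g₀ k₀ u c = !![1, 0; 0, -1] := by
  have hR1 := RR_one h hc hDc hu
  have e00 : aa t c 1 = 1 := congrFun (congrFun hR1 0) 0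
  have e11 : ee t c 1 = 1 := congrFun (congrFun hR1 1) 1
  have hcc : t (c * c) = t 1 := by rw [hc]
  have hc1 : t (c * 1) = t c := by rw [mul_one]
  rw [aa, hc1] at e00
  rw [ee, hc1] at e11
  have ht1 := h.t_one
  have htc : t c = 0 := by
    have h1 := invOf_mul_self (2 : T)
    rw [ht1] at e00
    have h2 : ⅟(2 : T) * t c = 0 := by linear_combination e00 - h1
    have h3 : t c = 2 * (⅟(2 : T) * t c) := by rw [← mul_assoc, mul_invOf_self, one_mul]
    rw [h3, h2, mul_zero]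
  have hbc : ∀ g k, bc t c g k = ⅟2 * (aa t c (g * k) - aa t c (g * c * k)) := fun g k => rfl
  have hac : ∀ g, aa t c (c * g) = aa t c g := by
    intro g
    rw [aa, aa, ← mul_assoc, hc, one_mul, add_comm]
  have hac' : ∀ g, aa t c (g * c) = aa t c g := by
    intro g
    rw [aa, aa, h.t_comm g c, ← mul_assoc, h.t_comm (c * g) c, ← mul_assoc, hc, one_mul, add_comm]
  have h2inv := invOf_mul_self (2 : T)
  rw [RR]
  have k1 : aa t c c = 1 := by
    rw [aa, htc, hcc, ht1, zero_add]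
    exact h2inv
  have k4 : ee t c c = -1 := by
    rw [ee, htc, hcc, ht1, zero_sub]
    linear_combination -h2inv
  have k2 : bc t c c k₀ = 0 := by
    rw [hbc, hac, hc, one_mul, sub_self, mul_zero]
  have k3 : bc t c g₀ c = 0 := by
    rw [hbc, hac', mul_assoc, hc, mul_one, sub_self, mul_zero]
  rw [k1, k2, k3, k4, mul_zero]

omit hu in
/-- continuity -/
theorem RR_cont (hu : (u : T) = bc t c g₀ k₀) (I : Ideal T) {σ : G}
    (hσ : ∀ g, t (g * σ) - t g ∈ I) (i j : Fin 2) :
    RR t c g₀ k₀ u σ i j - (1 : Matrix (Fin 2) (Fin 2) T) i j ∈ I := by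
  have hR1 := RR_one h hc hDc hu
  have haa : ∀ g k, aa t c (g * σ * k) - aa t c (g * k) ∈ I := by
    intro g k
    rw [aa, aa]
    have e : ⅟(2 : T) * (t (g * σ * k) + t (c * (g * σ * k))) - ⅟2 * (t (g * k) + t (c * (g * k))) =
        ⅟2 * ((t (g * σ * k) - t (g * k)) + (t (c * (g * σ * k)) - t (c * (g * k)))) := by ring
    rw [e]
    refine Ideal.mul_mem_left _ _ (Ideal.add_mem _ ?_ ?_)
    · have := hσ (k * g)
      rwa [mul_assoc k g σ, h.t_comm k (g * σ), h.t_comm k g] at this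
    · have := hσ (k * c * g)
      have e1 : t (k * c * g * σ) = t (c * (g * σ * k)) := by
        rw [mul_assoc, mul_assoc, h.t_comm k (c * (g * σ))]
        simp only [mul_assoc]
      have e2 : t (k * c * g) = t (c * (g * k)) := by
        rw [mul_assoc, h.t_comm k (c * g)]
        simp only [mul_assoc]
      rwa [e1, e2] at this
  have hee : ee t c σ - ee t c 1 ∈ I := by
    rw [ee, ee]
    have e : ⅟(2 : T) * (t σ - t (c * σ)) - ⅟2 * (t 1 - t (c * 1)) =
        ⅟2 * ((t (1 * σ) - t 1) - (t (c * σ) - t c)) := by rw [one_mul, mul_one]; ring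
    rw [e]
    exact Ideal.mul_mem_left _ _ (Ideal.sub_mem _ (hσ 1) (hσ c))
  have hbc : ∀ g k, bc t c g k = ⅟2 * (aa t c (g * k) - aa t c (g * c * k)) := fun g k => rfl
  rw [← hR1]
  fin_cases i <;> fin_cases j
  · change aa t c σ - aa t c 1 ∈ I
    have := haa 1 1
    rwa [one_mul, mul_one, mul_one] at this
  · change (↑u⁻¹ : T) * bc t c σ k₀ - (↑u⁻¹ : T) * bc t c 1 k₀ ∈ I
    rw [← mul_sub, hbc, hbc, ← mul_sub]
    refine Ideal.mul_mem_left _ _ (Ideal.mul_mem_left _ _ ?_)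
    have h1 := haa 1 k₀
    have h2 := haa 1 (c * k₀)
    simp only [one_mul, ← mul_assoc] at h1 h2 ⊢
    have e : aa t c (σ * k₀) - aa t c (σ * c * k₀) - (aa t c k₀ - aa t c (c * k₀)) =
        (aa t c (σ * k₀) - aa t c k₀) - (aa t c (σ * c * k₀) - aa t c (c * k₀)) := by ring
    rw [e]
    exact Ideal.sub_mem _ h1 h2
  · change bc t c g₀ σ - bc t c g₀ 1 ∈ I
    rw [hbc, hbc, ← mul_sub]
    refine Ideal.mul_mem_left _ _ ?_
    have h1 := haa g₀ 1
    have h2 := haa (g₀ * c) 1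
    simp only [mul_one] at h1 h2 ⊢
    have e : aa t c (g₀ * σ) - aa t c (g₀ * c * σ) - (aa t c g₀ - aa t c (g₀ * c)) =
        (aa t c (g₀ * σ) - aa t c g₀) - (aa t c (g₀ * c * σ) - aa t c (g₀ * c)) := by ring
    rw [e]
    exact Ideal.sub_mem _ h1 h2
  · exact hee

end

end Fermat.Agent.TW
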