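import Mathlib

/-!
# The kernel of the norm on free modules over group rings of cyclic groups
-/

set_option autoImplicit false
set_option linter.unusedSectionVars false
set_option linter.style.haveILetI false

namespace Fermat.Agent.TW

noncomputable section

variable {O Y Δ κ : Type*} [CommRing O] [AddCommGroup Y] [Module O Y] [CommGroup Δ]

/-- The kernel of the norm of a cyclic subgroup. -/
theorem mem_range_of_norm (dl : Δ →* Module.End O Y) (b : Module.Basis (κ × Δ) O Y)
    (hb : ∀ i δ, b (i, δ) = dl δ (b (i, 1))) (V : Subgroup Δ) [Fintype V] (D : Δ)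
    (hD : ∀ ν ∈ V, ∃ n : ℕ, ν = D ^ n) (x : Y) (hx : ∑ ν : V, dl ν.1 x = 0) :
    ∃ u, x = dl D u - u := by
  classical
  have hb' : ∀ i δ ε, dl δ (b (i, ε)) = b (i, δ * ε) := by
    intro i δ ε
    rw [hb, hb i (δ * ε), map_mul, Module.End.mul_apply]
  let W : Submodule O Y := LinearMap.range (dl D - 1)
  have hW : ∀ ν ∈ V, ∀ y, dl ν y - y ∈ W := by
    intro ν hν y
    obtain ⟨n, rfl⟩ := hD ν hν
    clear hν
    induction n with
    | zero => rw [pow_zero, map_one, Module.End.one_apply, sub_self]; exact W.zero_mem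
    | succ n ih =>
      have h1 : dl (D ^ (n + 1)) y - y = (dl D - 1) (dl (D ^ n) y) + (dl (D ^ n) y - y) := by
        rw [pow_succ', map_mul, Module.End.mul_apply, LinearMap.sub_apply, Module.End.one_apply]
        abel
      rw [h1]
      exact W.add_mem (LinearMap.mem_range_self _ _) ih
  let π : Y →ₗ[O] (κ × (Δ ⧸ V)) →₀ O :=
    b.constr O fun j => Finsupp.single (j.1, QuotientGroup.mk j.2) 1
  have hπ : ∀ i δ, π (b (i, δ)) = Finsupp.single (i, QuotientGroup.mk δ) 1 := fun i δ =>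
    b.constr_basis O _ (i, δ)
  let r : ((κ × (Δ ⧸ V)) →₀ O) →ₗ[O] Y :=
    Finsupp.linearCombination O fun j => b (j.1, j.2.out)
  have hr : ∀ y, y - r (π y) ∈ W := by
    intro y
    have h1 : ∀ z : Y, W.mkQ z = W.mkQ (r (π z)) := by
      intro z
      refine LinearMap.congr_fun (f := W.mkQ) (g := W.mkQ ∘ₗ r ∘ₗ π) (b.ext fun j => ?_) z
      obtain ⟨i, δ⟩ := j
      rw [LinearMap.comp_apply, LinearMap.comp_apply, hπ, Finsupp.linearCombination_single,
        one_smul, Submodule.mkQ_apply, Submodule.mkQ_apply, Submodule.Quotient.eq]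
      have h2 : δ * ((QuotientGroup.mk δ : Δ ⧸ V).out)⁻¹ ∈ V := by
        have h3 := QuotientGroup.out_eq' (QuotientGroup.mk δ : Δ ⧸ V)
        rw [QuotientGroup.eq] at h3
        rwa [mul_comm]
      have h3 := hW _ h2 (b (i, (QuotientGroup.mk δ : Δ ⧸ V).out))
      rwa [hb', inv_mul_cancel_right] at h3
    rw [← Submodule.Quotient.mk_eq_zero, Submodule.Quotient.mk_sub, sub_eq_zero]
    exact h1 y
  let s : Y →ₗ[O] (κ × (Δ ⧸ V)) →₀ O :=
    b.constr O fun j => if j.2 = (QuotientGroup.mk j.2 : Δ ⧸ V).out then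
      Finsupp.single (j.1, QuotientGroup.mk j.2) 1 else 0
  have hs : ∀ i δ, s (b (i, δ)) = if δ = (QuotientGroup.mk δ : Δ ⧸ V).out then
      Finsupp.single (i, QuotientGroup.mk δ) 1 else 0 := fun i δ => b.constr_basis O _ (i, δ)
  have hsN : ∀ y, s (∑ ν : V, dl ν.1 y) = π y := by
    intro y
    have h1 : s ∘ₗ (∑ ν : V, dl ν.1) = π := by
      refine b.ext fun j => ?_
      obtain ⟨i, δ⟩ := j
      rw [LinearMap.comp_apply, LinearMap.sum_apply, map_sum, hπ]
      have h2 : ∀ ν : V, (QuotientGroup.mk (ν.1 * δ) : Δ ⧸ V) = QuotientGroup.mk δ := by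
        intro ν
        rw [QuotientGroup.eq, mul_inv_rev, mul_comm δ⁻¹, inv_mul_cancel_right]
        exact inv_mem ν.2
      have h3 : δ⁻¹ * (QuotientGroup.mk δ : Δ ⧸ V).out ∈ V := by
        have h4 := QuotientGroup.out_eq' (QuotientGroup.mk δ : Δ ⧸ V)
        have h5 := h4.symm
        rwa [QuotientGroup.eq] at h5
      have h4 : ∀ ν : V, s (dl ν.1 (b (i, δ))) = if ν = ⟨_, h3⟩ then
          Finsupp.single (i, QuotientGroup.mk δ) 1 else 0 := by
        intro ν
        rw [hb', hs, h2]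
        have h5 : (ν.1 * δ = (QuotientGroup.mk δ : Δ ⧸ V).out) ↔
            (ν = ⟨δ⁻¹ * (QuotientGroup.mk δ : Δ ⧸ V).out, h3⟩) := by
          rw [Subtype.ext_iff]
          change _ ↔ ν.1 = δ⁻¹ * _
          rw [mul_comm δ⁻¹, eq_mul_inv_iff_mul_eq]
        simp only [h5]
      rw [Finset.sum_congr rfl fun ν _ => h4 ν, Finset.sum_ite_eq' Finset.univ,
        if_pos (Finset.mem_univ _)]
    have h2 := LinearMap.congr_fun h1 y
    rwa [LinearMap.comp_apply, LinearMap.sum_apply] at h2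
  have h1 : π x = 0 := by rw [← hsN, hx, map_zero]
  have h2 := hr x
  rw [h1, map_zero, sub_zero] at h2
  obtain ⟨u, hu⟩ := h2
  exact ⟨u, hu.symm⟩

end

end Fermat.Agent.TW
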