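import Fermat.Agent.TW.TrV
import Fermat.Agent.TW.NormL
import Fermat.Agent.TW.YH

/-!
# Inertia at a Taylor–Wiles prime and the diamond operators
-/

set_option autoImplicit false
set_option linter.unusedSectionVars false
set_option linter.style.haveILetI false

open Matrix.SpecialLinearGroup
open scoped MatrixGroups TensorProduct
open IsLocalRing
open Fermat.Agent.KumG Fermat.Agent.GalRep Fermat.Agent.Places Fermat.Agent.Cheb
open Fermat.Agent.Cov (HM)

namespace Fermat.Agent.TW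

noncomputable section

/-! ### The abstract argument -/

section abs

variable {O T Y : Type} [CommRing O] [IsLocalRing O] [IsNoetherianRing O]
  [IsAdicComplete (maximalIdeal O) O] [CommRing T] [Algebra O T] [AddCommGroup Y] [Module O Y]
  [Module.Finite O Y] [Module.Free O Y] [Nontrivial Y] {p : ℕ} [hp : Fact p.Prime]
  {hpO : (p : O) ∈ maximalIdeal O}
  {S : Set ℕ} {t : GQ → ResidueField O} {ψ : T →ₐ[O] Module.End O Y}
  {θ : T →ₐ[O] ResidueField O} {ρ : GQ →* Module.End O Y} (h : HG hpO S t ψ θ ρ)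
  [Invertible (2 : O)] {g₀ k₀ : GQ} (hgk : HG.IrrAt t g₀ k₀)

/-- a torsion element fixed up to square is fixed -/
theorem smul_eq_of_sq {A Z : Type*} [CommRing A] [AddCommGroup Z] [Module A Z] {x : A} {n : ℕ}
    (hn : ∀ z : Z, n • z = 0 → z = 0) (hx : x ^ n = 1) {z : Z} (hz : (x - 1) ^ 2 • z = 0) :
    x • z = z := by
  set w := (x - 1) • z with hw
  have h1 : x • w = w := by
    rw [← sub_eq_zero, ← one_smul A w, smul_smul, mul_one, ← sub_smul, hw, smul_smul, ← sq, hz]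
  have h2 : ∀ i : ℕ, x ^ i • w = w := by
    intro i
    induction i with
    | zero => rw [pow_zero, one_smul]
    | succ i ih => rw [pow_succ, mul_smul, h1, ih]
  have h3 : n • w = 0 := by
    have h4 := geom_sum_mul x n
    rw [hx, sub_self] at h4
    have h5 := congrArg (· • z) h4
    simp only [zero_smul, mul_smul] at h5
    rw [← hw, Finset.sum_smul, Finset.sum_congr rfl fun i _ => h2 i, Finset.sum_const,
      Finset.card_range] at h5
    exact h5
  have h4 := hn w h3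
  rw [hw, sub_smul, one_smul, sub_eq_zero] at h4
  exact h4

theorem HG.eta_smul_of_unip {v : ℕ} {A : ValuationSubring (AlgebraicClosure ℚ)}
    (L : LocW p v A (h.R hgk)) {n : ℕ} (hn : ∀ z : Y, n • z = 0 → z = 0)
    (hord : L.η L.σ₀ ^ n = 1) {z : Y}
    (hz : ρ L.σ₀ (ρ L.σ₀ z) - ρ L.σ₀ z - ρ L.σ₀ z + z = 0) : L.η L.σ₀ • z = z := by
  refine smul_eq_of_sq hn hord ?_
  obtain ⟨η, hη⟩ : ∃ η, η = L.η L.σ₀ := ⟨_, rfl⟩
  obtain ⟨η', hη'⟩ : ∃ η', η' = L.η' L.σ₀ := ⟨_, rfl⟩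
  obtain ⟨R, hR⟩ : ∃ R, R = h.R hgk L.σ₀ := ⟨_, rfl⟩
  have e1 : R = η • L.P₁ + η' • L.P₂ := by rw [hR, hη, hη']; exact L.eq _ L.mem
  have e2 : η * η' = 1 := by rw [hη, hη']; exact L.inv _ L.mem
  have e3 := L.add
  have e4 := L.mul
  have e5 : L.P₁ * L.P₁ = L.P₁ := by
    have := congrArg (L.P₁ * ·) e3
    simp only [mul_add, mul_one] at this
    rwa [e4, add_zero] at this
  have e6 : L.P₂ * L.P₁ = 0 := by
    have := congrArg (· * L.P₁) e3
    simp only [add_mul, one_mul] at this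
    rwa [e5, add_eq_left] at this
  have e7 : L.P₂ * L.P₂ = L.P₂ := by
    have := congrArg (L.P₂ * ·) e3
    simp only [mul_add, mul_one] at this
    rwa [e6, zero_add] at this
  have key : (L.P₁ + (η ^ 2) • L.P₂) * (R * R + (-1 : h.TT) • R + (-1 : h.TT) • R + 1) =
      ((η - 1) ^ 2) • (1 : Matrix (Fin 2) (Fin 2) h.TT) := by
    rw [e1, ← e3]
    simp only [mul_add, add_mul, smul_mul_smul_comm, smul_mul_assoc, mul_smul_comm, e4, e5, e6,
      e7, smul_zero, add_zero, zero_add, smul_add, smul_smul]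
    have h1 : η' * η' * η ^ 2 = 1 := by linear_combination (η * η' + 1) * e2
    have h2 : -1 * η' * η ^ 2 = -η := by linear_combination (-η) * e2
    rw [h1, h2]
    module
  have e9 : mact (R * R + (-1 : h.TT) • R + (-1 : h.TT) • R + 1) (h.EE hgk z) = 0 := by
    have h1 := congrArg (h.EE hgk) hz
    rw [map_add, map_sub, map_sub, h.EE_rho hgk, h.EE_rho hgk, map_zero, ← hR] at h1
    rw [mact_add, mact_add, mact_add, mact_one, mact_mul, mact_smul, ← h1]
    module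
  have e10 := congrArg (mact (L.P₁ + (η ^ 2) • L.P₂)) e9
  rw [← mact_mul, key, mact_smul, mact_one] at e10
  have e11 : mact (L.P₁ + (η ^ 2) • L.P₂) (0 : h.MQ × h.MQ) = 0 := by
    apply Prod.ext <;> simp [mact]
  rw [e11, ← map_smul, ← map_zero (h.EE hgk)] at e10
  rw [← hη]
  exact (h.EE hgk).injective e10

end abs

/-! ### Diamond operators as elements of the Hecke ring -/

section dl

variable {O : Type} [CommRing O] [IsLocalRing O] [IsNoetherianRing O]
  [IsAdicComplete (maximalIdeal O) O] {N : ℕ} [NeZero N] {H : Subgroup (ZMod N)ˣ}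
  [hH : Fact ((-1 : (ZMod N)ˣ) ∈ H)] {S : Set ℕ} (hNS : ∀ l, l.Prime → l ∣ N → l ∈ S) (e : TS O S)

theorem psiY_inr (d : (ZMod N)ˣ) (y : YH H hNS e) :
    (psiY H hNS e (MvPolynomial.X (Sum.inr d)) y : XH O N H) = DO O N H (QuotientGroup.mk d) y := by
  rw [actPart_coe, phiD_inr, DO_mk]

/-- the diamond operators in the Hecke ring -/
def dlB : DG N H →* BB (psiY H hNS e) where
  toFun δ := BB.mk _ (MvPolynomial.X (Sum.inr δ.out))
  map_one' := by
    refine BB.act_injective _ (LinearMap.ext fun y => Subtype.ext ?_)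
    rw [BB.act_mk, psiY_inr, QuotientGroup.out_eq', map_one, map_one]
    rfl
  map_mul' a b := by
    refine BB.act_injective _ (LinearMap.ext fun y => Subtype.ext ?_)
    rw [BB.act_mk, psiY_inr, QuotientGroup.out_eq', map_mul, map_mul, BB.act_mk, BB.act_mk,
      Module.End.mul_apply, Module.End.mul_apply, psiY_inr, psiY_inr, QuotientGroup.out_eq',
      QuotientGroup.out_eq']

theorem dlB_smul (δ : DG N H) (y : YH H hNS e) :
    ((dlB hNS e δ • y : YH H hNS e) : XH O N H) = DO O N H δ y := by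
  change ((BB.mk _ (MvPolynomial.X (Sum.inr δ.out)) • y : YH H hNS e) : XH O N H) = _
  rw [BB.mk_smul, psiY_inr, QuotientGroup.out_eq']

theorem dlB_sum_smul (V : Subgroup (DG N H)) (y : YH H hNS e) :
    ((∑ δ : V, dlB hNS e δ.1 • y : YH H hNS e) : XH O N H) = ∑ δ : V, DO O N H δ.1 y := by
  rw [Submodule.coe_sum]
  exact Finset.sum_congr rfl fun δ _ => dlB_smul hNS e δ.1 y

end dl

/-! ### The subgroup of the diamond operators at `v` -/

section vv

variable (v M : ℕ) [hv : Fact v.Prime] [NeZero M] (H : Subgroup (ZMod (v * M))ˣ)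

/-- the diamond operators at `v` -/
def VV : Subgroup (DG (v * M) H) :=
  ((ZMod.unitsMap (dvd_mul_left M v)).ker).map (QuotientGroup.mk' H)

theorem HV_VV : HV (VV v M H) =
    HM (dvd_mul_left M v) (H.map (ZMod.unitsMap (dvd_mul_left M v))) := by
  rw [HV, VV, HM, Subgroup.comap_map_eq, Subgroup.comap_map_eq, QuotientGroup.ker_mk', sup_comm]

variable {v M H}

theorem twd_mem [hH : Fact ((-1 : (ZMod (v * M))ˣ) ∈ H)] (hvM : ¬ v ∣ M) {A : ValuationSubring (AlgebraicClosure ℚ)}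
    (hA : A.LiesOverPrime v) {σ : GQ} (hσ : σ ∈ A.inertiaSubgroupIn ℚ) :
    twd (v * M) H σ ∈ VV v M H := by
  have h1 : ZMod.unitsMap (dvd_mul_left M v) (cycU (v * M) σ) = 1 := by
    rw [← cycU_inertia ((Nat.Prime.coprime_iff_not_dvd hv.out).2 hvM) hA hσ]
    ext
    rw [coe_cycU, ← castHom_cyc (dvd_mul_left M v)]
    rfl
  have h2 : (QuotientGroup.mk (cycU (v * M) σ) : DG (v * M) H) ∈ VV v M H := ⟨_, h1, rfl⟩
  rw [twd_apply]
  exact Subgroup.pow_mem _ h2 _

theorem odd_index_map (hodd : Odd (Fintype.card (DG (v * M) H))) :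
    Odd (H.map (ZMod.unitsMap (dvd_mul_left M v))).index := by
  have h1 : (H.map (ZMod.unitsMap (dvd_mul_left M v))).index ∣ H.index :=
    Subgroup.index_map_dvd _ (ZMod.unitsMap_surjective (dvd_mul_left M v))
  have h2 : Odd H.index := by
    rw [Subgroup.index, Nat.card_eq_fintype_card]
    exact hodd
  exact h2.of_dvd_nat h1

theorem unip_VV {p : ℕ} [hp : Fact p.Prime] (hpv : p ≠ v) (hvM : ¬ v ∣ M) (hM3 : 3 ≤ M)
    [hH : Fact ((-1 : (ZMod (v * M))ˣ) ∈ H)] (hodd : Odd (Fintype.card (DG (v * M) H)))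
    (ι : AlgebraicClosure ℚ →+* ℂ) {A : ValuationSubring (AlgebraicClosure ℚ)}
    (hA : A.LiesOverPrime v) {σ τ : GQ} (hσ : σ ∈ A.inertiaSubgroupIn ℚ)
    (hτ : τ ∈ A.inertiaSubgroupIn ℚ) (n : ℕ) (ξ : XL (GH (v * M) (HV (VV v M H))) (p ^ n)) :
    rhoF ι (p ^ n) τ (rhoF ι (p ^ n) σ ξ) - rhoF ι (p ^ n) τ ξ - rhoF ι (p ^ n) σ ξ + ξ = 0 := by
  have hH' : Fact ((-1 : (ZMod M)ˣ) ∈ H.map (ZMod.unitsMap (dvd_mul_left M v))) :=
    ⟨⟨-1, hH.out, Units.ext (by
      change ZMod.castHom (dvd_mul_left M v) (ZMod M) (-1) = -1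
      rw [map_neg, map_one])⟩⟩
  obtain ⟨D⟩ := SSH.exists_WData_of_odd (q := v) (M := M)
    ((Nat.Prime.coprime_iff_not_dvd hv.out).2 hvM) (odd_index_map hodd)
  have hm : ¬ v ∣ p ^ n := fun h => hpv ((Nat.prime_dvd_prime_iff_eq hv.out hp.out).1
    (hv.out.dvd_of_dvd_pow h)).symm
  have key : ∀ (K : Subgroup (ZMod (v * M))ˣ) [Fact ((-1 : (ZMod (v * M))ˣ) ∈ K)],
      K = HM (dvd_mul_left M v) (H.map (ZMod.unitsMap (dvd_mul_left M v))) →
      ∀ ξ : XL (GH (v * M) K) (p ^ n),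
      rhoF ι (p ^ n) τ (rhoF ι (p ^ n) σ ξ) - rhoF ι (p ^ n) τ ξ - rhoF ι (p ^ n) σ ξ + ξ = 0 := by
    intro K _ hK ξ
    subst hK
    exact SSH.rhoF_unipH hA hvM hM3 D ι hσ hτ hm ξ
  exact key _ (HV_VV v M H) ξ

end vv

/-! ### The main result -/

section main

variable {O : Type} [CommRing O] [IsLocalRing O] [IsNoetherianRing O]
  [IsAdicComplete (maximalIdeal O) O] {p : ℕ} [hp : Fact p.Prime]
  (hpO : (p : O) ∈ maximalIdeal O) {v M : ℕ} [hv : Fact v.Prime] [NeZero M]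
  {H : Subgroup (ZMod (v * M))ˣ} [hH : Fact ((-1 : (ZMod (v * M))ˣ) ∈ H)] {S : Set ℕ}
  {hNS : ∀ l, l.Prime → l ∣ v * M → l ∈ S} {e : TS O S} (ι : AlgebraicClosure ℚ →+* ℂ)

theorem rhoT_of_inv (V : Subgroup (DG (v * M) H)) {σ : GQ} (hσ : twd (v * M) H σ ∈ V)
    (x : XH O (v * M) H) : rhoT (O := O) hpO ι (v * M) H σ (∑ δ : V, DO O (v * M) H δ.1 x) =
      rhoN (O := O) hpO ι (v * M) H σ (∑ δ : V, DO O (v * M) H δ.1 x) := by
  have h1 : ∀ (δ : DG (v * M) H) (y : XH O (v * M) H), DO O (v * M) H δ (rhoN hpO ι (v * M) H σ y) =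
      rhoN hpO ι (v * M) H σ (DO O (v * M) H δ y) := fun δ y =>
    (LinearMap.congr_fun (rhoN_DO (O := O) (N := v * M) (H := H) hpO ι δ σ) y).symm
  rw [rhoT_apply, Module.End.mul_apply, h1]
  congr 1
  rw [map_sum]
  refine Fintype.sum_equiv (Equiv.mulLeft ⟨_, hσ⟩) _ _ fun δ => ?_
  rw [Equiv.coe_mulLeft]
  change _ = DO O (v * M) H (twd (v * M) H σ * δ.1) x
  rw [map_mul]
  rfl

theorem DO_rhoT_comm (δ : DG (v * M) H) (σ : GQ) (y : XH O (v * M) H) :
    DO O (v * M) H δ (rhoT (O := O) hpO ι (v * M) H σ y) =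
      rhoT (O := O) hpO ι (v * M) H σ (DO O (v * M) H δ y) := by
  have h1 := LinearMap.congr_fun (rhoN_DO (O := O) (N := v * M) (H := H) hpO ι δ σ) y
  have h2 : DO O (v * M) H δ * DO O (v * M) H (twd (v * M) H σ) =
      DO O (v * M) H (twd (v * M) H σ) * DO O (v * M) H δ := by
    rw [← map_mul, ← map_mul]
    congr 1
    letI : CommGroup (DG (v * M) H) := QuotientGroup.Quotient.commGroup H
    exact mul_comm (G := DG (v * M) H) _ _
  have h3 := LinearMap.congr_fun h2 (rhoN (O := O) hpO ι (v * M) H σ y)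
  rw [Module.End.mul_apply, Module.End.mul_apply] at h1 h3
  rw [rhoT_apply, Module.End.mul_apply, Module.End.mul_apply, h3, h1]

/-- the unipotency of inertia on the norms -/
theorem unip_rhoT (hpv : p ≠ v) (hvM : ¬ v ∣ M) (hM3 : 3 ≤ M)
    (hodd : Odd (Fintype.card (DG (v * M) H))) {A : ValuationSubring (AlgebraicClosure ℚ)}
    (hA : A.LiesOverPrime v) {σ : GQ} (hσ : σ ∈ A.inertiaSubgroupIn ℚ)
    (x : XH O (v * M) H) (z : XH O (v * M) H) (hz : z = ∑ δ : VV v M H, DO O (v * M) H δ.1 x) :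
    rhoT (O := O) hpO ι (v * M) H σ (rhoT (O := O) hpO ι (v * M) H σ z) -
      rhoT (O := O) hpO ι (v * M) H σ z - rhoT (O := O) hpO ι (v * M) H σ z + z = 0 := by
  have h1 := unip_sum (O := O) (VV v M H) hpO ι (σ := σ) (τ := σ)
    (fun n ξ => unip_VV hpv hvM hM3 hodd ι hA hσ hσ n ξ) x
  have h2 := rhoT_of_inv hpO ι (VV v M H) (twd_mem hvM hA hσ) x
  have h3 : rhoT (O := O) hpO ι (v * M) H σ (∑ δ : VV v M H, DO O (v * M) H δ.1 x) =
      ∑ δ : VV v M H, DO O (v * M) H δ.1 (rhoT (O := O) hpO ι (v * M) H σ x) := by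
    rw [map_sum]
    exact Finset.sum_congr rfl fun δ _ => (DO_rhoT_comm hpO ι δ.1 σ x).symm
  have h4 := rhoT_of_inv hpO ι (VV v M H) (twd_mem hvM hA hσ)
    (rhoT (O := O) hpO ι (v * M) H σ x)
  rw [← h3, h2] at h4
  rw [hz, h2, h4]
  exact h1

variable {θ : TS O S →ₐ[O] ResidueField O} [Nontrivial (YH H hNS e)] [Module.Free O (YH H hNS e)]
  {t : GQ → ResidueField O} [Invertible (2 : O)] {g₀ k₀ : GQ} (hgk : HG.IrrAt t g₀ k₀)

/-- the trace ring acts through the Hecke ring -/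
def HG.incB {O T Y : Type} [CommRing O] [IsLocalRing O] [IsNoetherianRing O]
    [IsAdicComplete (maximalIdeal O) O] [CommRing T] [Algebra O T] [AddCommGroup Y] [Module O Y]
    [Module.Finite O Y] [Module.Free O Y] [Nontrivial Y] {p : ℕ} [hp : Fact p.Prime]
    {hpO : (p : O) ∈ maximalIdeal O}
    {S : Set ℕ} {t : GQ → ResidueField O} {ψ : T →ₐ[O] Module.End O Y}
    {θ : T →ₐ[O] ResidueField O} {ρ : GQ →* Module.End O Y} (h : HG hpO S t ψ θ ρ) :
    h.TT →ₐ[O] BB ψ := TQ.inc h.rel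

theorem HG.incB_smul {O T Y : Type} [CommRing O] [IsLocalRing O] [IsNoetherianRing O]
    [IsAdicComplete (maximalIdeal O) O] [CommRing T] [Algebra O T] [AddCommGroup Y] [Module O Y]
    [Module.Finite O Y] [Module.Free O Y] [Nontrivial Y] {p : ℕ} [hp : Fact p.Prime]
    {hpO : (p : O) ∈ maximalIdeal O}
    {S : Set ℕ} {t : GQ → ResidueField O} {ψ : T →ₐ[O] Module.End O Y}
    {θ : T →ₐ[O] ResidueField O} {ρ : GQ →* Module.End O Y} (h : HG hpO S t ψ θ ρ) (a : h.TT)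
    (y : Y) : h.incB a • y = a • y := TQ.inc_smul h.rel a y

/-- **(C3)** `(G - 1) Y ⊂ (D - 1) Y` -/
theorem C3 (hodd : Odd (Fintype.card (DG (v * M) H))) (hpv : p ≠ v) (hvM : ¬ v ∣ M) (hM3 : 3 ≤ M)
    (h : HG hpO S t (psiY H hNS e) (thetaD θ (v * M)) (rhoY hpO ι H hNS e))
    {A : ValuationSubring (AlgebraicClosure ℚ)} (hA : A.LiesOverPrime v)
    (L : LocW p v A (h.R hgk)) {n : ℕ} (hn : ∀ z : YH H hNS e, n • z = 0 → z = 0)
    (hord : L.η L.σ₀ ^ n = 1)
    {κ : Type} (b : Module.Basis (κ × DG (v * M) H) O (YH H hNS e))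
    (hb : ∀ i δ, b (i, δ) = dlB hNS e δ • b (i, 1)) {D : DG (v * M) H}
    (hD : ∀ ν ∈ VV v M H, ∃ n : ℕ, ν = D ^ n) (y : YH H hNS e) :
    ∃ u : YH H hNS e, (h.incB (L.η L.σ₀) - 1) • y = (dlB hNS e D - 1) • u := by
  letI : CommGroup (DG (v * M) H) := QuotientGroup.Quotient.commGroup H
  let dl : DG (v * M) H →* Module.End O (YH H hNS e) :=
    ((BB.act (psiY H hNS e)).toMonoidHom : BB (psiY H hNS e) →* _).comp (dlB hNS e)
  have hdl : ∀ δ y, dl δ y = dlB hNS e δ • y := fun δ y => rfl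
  set g := L.η L.σ₀ with hg
  have h1 : g • (∑ δ : VV v M H, dlB hNS e δ.1 • y) = ∑ δ : VV v M H, dlB hNS e δ.1 • y := by
    refine h.eta_smul_of_unip hgk L hn hord ?_
    apply Subtype.ext
    exact unip_rhoT hpO ι hpv hvM hM3 hodd hA L.mem (y : XH O (v * M) H) _
      (dlB_sum_smul hNS e (VV v M H) y)
  obtain ⟨u, hu⟩ := mem_range_of_norm dl b (fun i δ => hb i δ) (VV v M H) D hD
    ((h.incB g - 1) • y) (by
      have h2 : ∀ δ : VV v M H, dl δ.1 ((h.incB g - 1) • y) =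
          (h.incB g - 1) • (dlB hNS e δ.1 • y) := fun δ => by rw [hdl, smul_comm]
      rw [Finset.sum_congr rfl fun δ _ => h2 δ, ← Finset.smul_sum, sub_smul, one_smul,
        h.incB_smul, h1, sub_self])
  exact ⟨u, by rw [hu, hdl, sub_smul, one_smul]⟩

end main

end

end Fermat.Agent.TW
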