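import Fermat.Agent.TW.FreeAbs

/-!
# Existence of mod `p` eigenvectors in localised Hecke modules
-/

set_option autoImplicit false
set_option linter.unusedSectionVars false
set_option linter.style.haveILetI false

open scoped TensorProduct
open IsLocalRing

namespace Fermat.Agent.TW

noncomputable section

/-- Commuting locally nilpotent operators on a non-zero stable subspace have a common kernel. -/
theorem exists_common_kernel {k V I : Type*} [Field k] [AddCommGroup V] [Module k V]
    [Module.Finite k V] (g : I → Module.End k V) (hcomm : ∀ i j, Commute (g i) (g j))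
    (W : Submodule k V) (hW : W ≠ ⊥) (hst : ∀ i, ∀ x ∈ W, g i x ∈ W)
    (hnil : ∀ i, ∀ x ∈ W, ∃ n : ℕ, (g i ^ n) x = 0) :
    ∃ x ∈ W, x ≠ 0 ∧ ∀ i, g i x = 0 := by
  classical
  obtain ⟨U, ⟨hU0, hUW, hUst⟩, hmin⟩ := IsArtinian.set_has_minimal
    {U : Submodule k V | U ≠ ⊥ ∧ U ≤ W ∧ ∀ i, ∀ x ∈ U, g i x ∈ U} ⟨W, hW, le_rfl, hst⟩
  obtain ⟨x, hx, hx0⟩ := (Submodule.ne_bot_iff U).1 hU0
  refine ⟨x, hUW hx, hx0, fun i => ?_⟩
  -- the kernel of `g i` on `U`
  let K : Submodule k V := U ⊓ LinearMap.ker (g i)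
  have hK0 : K ≠ ⊥ := by
    -- the last non-zero power
    obtain ⟨n, hn⟩ := hnil i x (hUW hx)
    have hex : ∃ n, (g i ^ n) x = 0 := ⟨n, hn⟩
    have h1 := Nat.find_spec hex
    have h2 : Nat.find hex ≠ 0 := by
      intro h
      rw [h, pow_zero, Module.End.one_apply] at h1
      exact hx0 h1
    obtain ⟨m, hm⟩ := Nat.exists_eq_succ_of_ne_zero h2
    have h3 : (g i ^ m) x ≠ 0 := Nat.find_min hex (by omega)
    have h4 : g i ((g i ^ m) x) = 0 := by
      rw [← Module.End.mul_apply, ← pow_succ', ← Nat.succ_eq_add_one, ← hm]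
      exact h1
    have h5 : ∀ m : ℕ, (g i ^ m) x ∈ U := by
      intro m
      induction m with
      | zero => simpa using hx
      | succ m ih =>
        rw [pow_succ', Module.End.mul_apply]
        exact hUst i _ ih
    rw [Submodule.ne_bot_iff]
    exact ⟨_, ⟨h5 m, h4⟩, h3⟩
  have hKU : K ≤ U := inf_le_left
  have hKeq : K = U := by
    by_contra hne
    refine hmin K ⟨hK0, hKU.trans hUW, fun j y hy => ⟨hUst j y hy.1, ?_⟩⟩
      (lt_of_le_of_ne hKU hne)
    have h6 : g i y = 0 := hy.2
    have h7 : g i (g j y) = g j (g i y) := LinearMap.congr_fun (hcomm i j) y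
    change g i (g j y) = 0
    rw [h7, h6, map_zero]
  have h8 : x ∈ K := by rw [hKeq]; exact hx
  exact h8.2

section red

variable {O : Type} [CommRing O] [IsLocalRing O] {k : Type} [Field k] [Algebra O k]
  {L : Type} [AddCommGroup L]

/-- reduction modulo the maximal ideal -/
def red (O k : Type) [CommRing O] [Field k] [Algebra O k] (L : Type) [AddCommGroup L] :
    O ⊗[ℤ] L →+ k ⊗[ℤ] L :=
  (LinearMap.rTensor L (algebraMap O k).toIntAlgHom.toLinearMap).toAddMonoidHom

theorem red_tmul (a : O) (x : L) : red O k L (a ⊗ₜ x) = (algebraMap O k a) ⊗ₜ x := rfl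

theorem red_smul (a : O) (x : O ⊗[ℤ] L) : red O k L (a • x) = algebraMap O k a • red O k L x := by
  induction x using TensorProduct.induction_on with
  | zero => rw [smul_zero, map_zero, smul_zero]
  | tmul b x =>
    rw [TensorProduct.smul_tmul', red_tmul, red_tmul, TensorProduct.smul_tmul', smul_eq_mul,
      smul_eq_mul, map_mul]
  | add x y hx hy => rw [smul_add, map_add, map_add, hx, hy, smul_add]

theorem red_baseChange {L' : Type} [AddCommGroup L'] (f : L →ₗ[ℤ] L') (x : O ⊗[ℤ] L) :
    red O k L' (f.baseChange O x) = f.baseChange k (red O k L x) := by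
  induction x using TensorProduct.induction_on with
  | zero => rw [map_zero, map_zero, map_zero, map_zero]
  | tmul a x =>
    rw [LinearMap.baseChange_tmul, red_tmul, red_tmul, LinearMap.baseChange_tmul]
  | add x y hx hy => rw [map_add, map_add, map_add, map_add, hx, hy]

theorem red_of_mem {x : O ⊗[ℤ] L} (hx : x ∈ (maximalIdeal O) • (⊤ : Submodule O (O ⊗[ℤ] L)))
    (hloc : ∀ a ∈ maximalIdeal O, algebraMap O k a = 0) : red O k L x = 0 := by
  refine Submodule.smul_induction_on hx (fun a ha y _ => ?_) (fun x y hx hy => ?_)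
  · rw [red_smul, hloc a ha, zero_smul]
  · rw [map_add, hx, hy, add_zero]

theorem mem_of_red {x : O ⊗[ℤ] L} (hk : Function.Surjective (algebraMap O k))
    (hx : red O k L x = 0) : x ∈ (maximalIdeal O) • (⊤ : Submodule O (O ⊗[ℤ] L)) := by
  let I : Ideal O := RingHom.ker (algebraMap O k)
  have hI : I ≤ maximalIdeal O := le_maximalIdeal (RingHom.ker_ne_top _)
  let i : I →ₗ[ℤ] O := I.subtype.restrictScalars ℤ
  have hex : Function.Exact i (algebraMap O k).toIntAlgHom.toLinearMap := by
    intro a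
    constructor
    · intro ha
      exact ⟨⟨a, ha⟩, rfl⟩
    · rintro ⟨b, rfl⟩
      exact b.2
  have h1 := rTensor_exact L hex hk
  obtain ⟨w, rfl⟩ := (h1 x).1 hx
  clear hx
  induction w using TensorProduct.induction_on with
  | zero => rw [map_zero]; exact Submodule.zero_mem _
  | tmul a y =>
    rw [LinearMap.rTensor_tmul]
    have h2 : (i a ⊗ₜ[ℤ] y : O ⊗[ℤ] L) = (a : O) • ((1 : O) ⊗ₜ[ℤ] y) := by
      rw [TensorProduct.smul_tmul', smul_eq_mul, mul_one]
      rfl
    rw [h2]
    exact Submodule.smul_mem_smul (hI a.2) trivial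
  | add x y hx hy => rw [map_add]; exact Submodule.add_mem _ hx hy

theorem red_surjective (hk : Function.Surjective (algebraMap O k)) :
    Function.Surjective (red O k L) :=
  LinearMap.rTensor_surjective L hk

theorem algebraMap_of_mem (hk : Function.Surjective (algebraMap O k)) {a : O}
    (ha : a ∈ maximalIdeal O) : algebraMap O k a = 0 := by
  by_contra hne
  obtain ⟨b, hb⟩ := hk (algebraMap O k a)⁻¹
  have h1 : algebraMap O k (a * b - 1) = 0 := by
    rw [map_sub, map_mul, hb, mul_inv_cancel₀ hne, map_one, sub_self]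
  have h2 : a * b - 1 ∈ maximalIdeal O :=
    (le_maximalIdeal (RingHom.ker_ne_top (algebraMap O k))) h1
  have h3 : (1 : O) ∈ maximalIdeal O := by
    have := Ideal.sub_mem _ (Ideal.mul_mem_right b _ ha) h2
    simpa using this
  exact (Ideal.ne_top_iff_one _).1 (Ideal.IsMaximal.ne_top inferInstance) h3

variable {I : Type} [Module.Finite ℤ L]

/-- Existence of eigenvectors in a localised module. -/
theorem exists_eig (hk : Function.Surjective (algebraMap O k))
    {f : I → Module.End ℤ L} (hf : ∀ i j, Commute (f i) (f j))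
    {hfO : ∀ i j, Commute ((f i).baseChange O : Module.End O (O ⊗[ℤ] L)) ((f j).baseChange O)}
    {θ : MvPolynomial I O →ₐ[O] k} {e : MvPolynomial I O}
    (hnil : ∀ s, θ s = 0 → ∃ n : ℕ, ∀ x,
      evC (fun i => ((f i).baseChange O : Module.End O (O ⊗[ℤ] L))) hfO (s ^ n * e) x ∈
        (maximalIdeal O) • (⊤ : Submodule O (O ⊗[ℤ] L)))
    (W : Submodule O (O ⊗[ℤ] L))
    (hWe : ∀ x ∈ W, evC (fun i => ((f i).baseChange O : Module.End O (O ⊗[ℤ] L))) hfO e x = x)
    (hWst : ∀ i, ∀ x ∈ W, (f i).baseChange O x ∈ W)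
    (hW0 : ¬ W ≤ (maximalIdeal O) • (⊤ : Submodule O (O ⊗[ℤ] L))) :
    ∃ x ∈ W, red O k L x ≠ 0 ∧
      ∀ i, (f i).baseChange k (red O k L x) = θ (MvPolynomial.X i) • red O k L x := by
  classical
  let φ : MvPolynomial I O →ₐ[O] Module.End O (O ⊗[ℤ] L) :=
    evC (fun i => ((f i).baseChange O : Module.End O (O ⊗[ℤ] L))) hfO
  let W' : Submodule k (k ⊗[ℤ] L) :=
    { carrier := {z | ∃ x ∈ W, red O k L x = z}
      zero_mem' := ⟨0, W.zero_mem, map_zero _⟩
      add_mem' := by
        rintro _ _ ⟨x, hx, rfl⟩ ⟨y, hy, rfl⟩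
        exact ⟨x + y, W.add_mem hx hy, map_add _ _ _⟩
      smul_mem' := by
        rintro c _ ⟨x, hx, rfl⟩
        obtain ⟨a, rfl⟩ := hk c
        exact ⟨a • x, W.smul_mem a hx, red_smul a x⟩ }
  let g : I → Module.End k (k ⊗[ℤ] L) := fun i =>
    (f i).baseChange k - algebraMap k _ (θ (MvPolynomial.X i))
  have hg : ∀ i z, g i z = (f i).baseChange k z - θ (MvPolynomial.X i) • z := fun i z => rfl
  have hcomm : ∀ i j, Commute (g i) (g j) := by
    intro i j
    have h1 : Commute ((f i).baseChange k : Module.End k (k ⊗[ℤ] L)) ((f j).baseChange k) := by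
      rw [Commute, SemiconjBy]
      change LinearMap.baseChange k _ ∘ₗ LinearMap.baseChange k _ =
        LinearMap.baseChange k _ ∘ₗ LinearMap.baseChange k _
      rw [← LinearMap.baseChange_comp, ← LinearMap.baseChange_comp]
      exact congrArg _ (hf i j)
    refine Commute.sub_left (Commute.sub_right h1 ?_) (Commute.sub_right ?_ ?_)
    · exact (Algebra.commutes (θ (MvPolynomial.X j)) _).symm
    · exact Algebra.commutes (θ (MvPolynomial.X i)) _
    · exact Algebra.commutes (θ (MvPolynomial.X i)) _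
  -- lift of `g i`
  have hlift : ∀ i, ∃ c : O, algebraMap O k c = θ (MvPolynomial.X i) := fun i => hk _
  choose c hc using hlift
  have hs : ∀ i, θ (MvPolynomial.X i - MvPolynomial.C (c i)) = 0 := by
    intro i
    rw [map_sub, sub_eq_zero, ← hc i]
    exact (θ.commutes (c i)).symm
  have hgr : ∀ i x, g i (red O k L x) =
      red O k L (φ (MvPolynomial.X i - MvPolynomial.C (c i)) x) := by
    intro i x
    have e1 : φ (MvPolynomial.X i - MvPolynomial.C (c i)) x = (f i).baseChange O x - c i • x := by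
      have e2 : φ (MvPolynomial.X i) = (f i).baseChange O := evC_X _ _ _
      have e3 : φ (MvPolynomial.C (c i)) = algebraMap O _ (c i) := evC_C _ _ _
      rw [map_sub, LinearMap.sub_apply, e2, e3]
      rfl
    rw [e1, map_sub, red_baseChange, red_smul, hg, hc]
  have hgn : ∀ (n : ℕ) i x, (g i ^ n) (red O k L x) =
      red O k L (φ ((MvPolynomial.X i - MvPolynomial.C (c i)) ^ n) x) := by
    intro n i x
    induction n with
    | zero => rw [pow_zero, pow_zero, map_one]; rfl
    | succ n ih =>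
      rw [pow_succ', Module.End.mul_apply, ih, hgr, pow_succ', map_mul]
      rfl
  obtain ⟨z, ⟨x, hx, rfl⟩, hz0, hz⟩ := exists_common_kernel g hcomm W' (by
      intro hbot
      apply hW0
      intro x hx
      refine mem_of_red (k := k) hk ?_
      have h1 : red O k L x ∈ W' := ⟨x, hx, rfl⟩
      rw [hbot] at h1
      exact h1) (by
      rintro i _ ⟨x, hx, rfl⟩
      refine ⟨(f i).baseChange O x - c i • x, W.sub_mem (hWst i x hx) (W.smul_mem _ hx), ?_⟩
      rw [map_sub, red_baseChange, red_smul, hg, hc]) (by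
      rintro i _ ⟨x, hx, rfl⟩
      obtain ⟨n, hn⟩ := hnil _ (hs i)
      refine ⟨n, ?_⟩
      rw [hgn]
      refine red_of_mem ?_ (fun a ha => algebraMap_of_mem hk ha)
      have h2 := hn x
      rw [map_mul, Module.End.mul_apply, hWe x hx] at h2
      exact h2)
  refine ⟨x, hx, hz0, fun i => ?_⟩
  have h3 := hz i
  rw [hg, sub_eq_zero] at h3
  exact h3

end red

end

end Fermat.Agent.TW
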