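import Fermat.Agent.TW.CtrlGal
import Fermat.Agent.TW.EigEx
import Fermat.Agent.TW.FreeH
import Fermat.Agent.LevelRaise.Raise

/-!
# The control theorem at a Taylor–Wiles prime
-/

set_option autoImplicit false
set_option linter.unusedSectionVars false
set_option linter.style.haveILetI false

open scoped TensorProduct
open IsLocalRing

namespace Fermat.Agent.TW

open Fermat.Agent.Kum Fermat.Agent.GalRep Fermat.Agent.HeckeHom Fermat.Agent.ALCoh
  Fermat.Agent.LevelRaise Fermat.Agent.AL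

noncomputable section

/-! ### a criterion -/

theorem bijective_of_red {O : Type} [CommRing O] [IsLocalRing O] {P : Type} [AddCommGroup P]
    [Module O P] [Module.Finite O P] (f : P →ₗ[O] P)
    (h : ∀ x, f x ∈ (maximalIdeal O) • (⊤ : Submodule O P) →
      x ∈ (maximalIdeal O) • (⊤ : Submodule O P)) : Function.Bijective f := by
  have h1 : Function.Injective (f.baseChange (ResidueField O)) := by
    rw [injective_iff_map_eq_zero]
    intro z hz
    obtain ⟨x, rfl⟩ := exists_one_tmul z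
    rw [LinearMap.baseChange_tmul, one_tmul_eq_zero] at hz
    exact one_tmul_eq_zero.2 (h x hz)
  have h2 := LinearMap.injective_iff_surjective.1 h1
  have h3 : Function.Surjective f := by
    rw [← LinearMap.range_eq_top, ← top_le_iff]
    refine Submodule.le_of_le_smul_of_le_jacobson_bot Module.Finite.fg_top
      (maximalIdeal_le_jacobson _) fun x _ => ?_
    obtain ⟨z, hz⟩ := h2 ((1 : ResidueField O) ⊗ₜ[O] x)
    obtain ⟨y, rfl⟩ := exists_one_tmul z
    rw [LinearMap.baseChange_tmul, ← sub_eq_zero, ← TensorProduct.tmul_sub,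
      one_tmul_eq_zero] at hz
    have h4 : x = f y - (f y - x) := by abel
    rw [h4]
    exact Submodule.sub_mem _ (Submodule.mem_sup_left (LinearMap.mem_range_self f y))
      (Submodule.mem_sup_right hz)
  exact OrzechProperty.bijective_of_surjective_endomorphism f h3

theorem eq_zero_of_forall_mem {O : Type} [CommRing O] [IsLocalRing O] {P : Type} [AddCommGroup P]
    [Module O P] [Module.Finite O P]
    (h : ∀ x : P, x ∈ (maximalIdeal O) • (⊤ : Submodule O P)) (x : P) : x = 0 := by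
  have h2 : (⊤ : Submodule O P) = ⊥ := Submodule.eq_bot_of_le_smul_of_le_jacobson_bot
    (maximalIdeal O) (⊤ : Submodule O P) Module.Finite.fg_top (fun x _ => h x)
    (maximalIdeal_le_jacobson _)
  have h3 : x ∈ (⊤ : Submodule O P) := trivial
  rw [h2, Submodule.mem_bot] at h3
  exact h3

/-! ### integral relations -/

section rel

variable {M v l : ℕ} [NeZero M] [NeZero (M * v)] {S : Set ℕ}

theorem TG_coe (hl : l.Prime) (hlM : ¬ l ∣ M) (φ : KumG.LZ (GG M)) :
    (TG hl hlM φ).1 = (famT hl hlM).op ℤ φ.1 := rfl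

theorem actL_eq_TG {N : ℕ} [NeZero N] (hl : l.Prime) (hlN : ¬ l ∣ N) (hlS : l ∉ S) (φ : LZ N) :
    actL N S (CuspForm.heckeAlgebra.T hl hlN hlS) φ = TG hl hlN φ :=
  Subtype.ext (actL_T' hl hlN hlS φ)

theorem resL_TG (hl : l.Prime) (hlM : ¬ l ∣ M) (hlv : ¬ l ∣ M * v) (φ : LZ M) :
    resL (dvd_mul_right M v) (TG hl hlM φ : LZ M) = TG hl hlv (resL (dvd_mul_right M v) φ) := by
  apply Subtype.ext
  rw [coe_resL, TG_coe, TG_coe, coe_resL]
  exact res_T_comm hl (dvd_mul_right M v) hlM hlv φ.1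

theorem wL_TG (hv : v.Prime) {B : M2} (hB : B ∈ WS (M * v) v) (hl : l.Prime)
    (hlv : ¬ l ∣ M * v) (φ : LZ (M * v)) :
    wL hv hB (TG hl hlv φ : LZ (M * v)) = TG hl hlv (wL hv hB φ) := by
  apply Subtype.ext
  rw [coe_wL, TG_coe, TG_coe, coe_wL]
  exact W_T_comm hl (dvd_mul_left v M) hv.ne_zero hB hlv φ.1

theorem trL_TG (hl : l.Prime) (hlM : ¬ l ∣ M) (hlv : ¬ l ∣ M * v) (φ : LZ (M * v)) :
    trL (dvd_mul_right M v) (TG hl hlv φ : LZ (M * v)) = TG hl hlM (trL (dvd_mul_right M v) φ) := by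
  apply Subtype.ext
  rw [coe_trL, TG_coe, TG_coe, coe_trL]
  exact tr_T_comm' (dvd_mul_right M v) hl hlv hlM φ.1

theorem trL_wL_resL' (hv : v.Prime) {B : M2} (hB : B ∈ WS (M * v) v) (hvM : ¬ v ∣ M) (φ : LZ M) :
    trL (dvd_mul_right M v) (wL hv hB (resL (dvd_mul_right M v) φ)) = TG hv hvM φ :=
  Subtype.ext (trL_wL_resL hv hB hvM φ)

end rel

section O

variable {O : Type} [CommRing O] {M v : ℕ} [NeZero M] [NeZero (M * v)] {S : Set ℕ}

variable (O M v) in
/-- restriction -/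
def resV : XG O M →ₗ[O] XG O (M * v) :=
  ((resL (dvd_mul_right M v)).toIntLinearMap : KumG.LZ (GG M) →ₗ[ℤ] KumG.LZ (GG (M * v))).baseChange O

variable (O M v) in
/-- transfer -/
def trV : XG O (M * v) →ₗ[O] XG O M :=
  ((trL (dvd_mul_right M v)).toIntLinearMap : KumG.LZ (GG (M * v)) →ₗ[ℤ] KumG.LZ (GG M)).baseChange O

variable (O) in
/-- the Atkin–Lehner involution -/
def wV (hv : v.Prime) {B : M2} (hB : B ∈ WS (M * v) v) : XG O (M * v) →ₗ[O] XG O (M * v) :=
  ((wL hv hB).toIntLinearMap : KumG.LZ (GG (M * v)) →ₗ[ℤ] KumG.LZ (GG (M * v))).baseChange O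

variable (O) in
/-- the Hecke operator at `v` -/
def TV (hv : v.Prime) (hvM : ¬ v ∣ M) : XG O M →ₗ[O] XG O M := (TG hv hvM).baseChange O

variable (hv : v.Prime) {B : M2} (hB : B ∈ WS (M * v) v) (hvM : ¬ v ∣ M)
  (hMS : ∀ l, l.Prime → l ∣ M → l ∈ S) (hMvS : ∀ l, l.Prime → l ∣ M * v → l ∈ S)

theorem resV_phi (s : TS O S) (x : XG O M) :
    resV O M v (phiG O hMS s x) = phiG O hMvS s (resV O M v x) := by
  refine evC_comp (resV O M v) (fun i x => ?_) s x
  refine bc_ext O (f := resV O M v ∘ₗ LinearMap.baseChange O _)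
    (g := LinearMap.baseChange O _ ∘ₗ resV O M v) (fun x => ?_) x
  exact congrArg ((1 : O) ⊗ₜ[ℤ] ·) (resL_TG i.2.1 (i.not_dvd hMS) (i.not_dvd hMvS) x)

theorem trV_phi (s : TS O S) (x : XG O (M * v)) :
    trV O M v (phiG O hMvS s x) = phiG O hMS s (trV O M v x) := by
  refine evC_comp (trV O M v) (fun i x => ?_) s x
  refine bc_ext O (f := trV O M v ∘ₗ LinearMap.baseChange O _)
    (g := LinearMap.baseChange O _ ∘ₗ trV O M v) (fun x => ?_) x
  exact congrArg ((1 : O) ⊗ₜ[ℤ] ·) (trL_TG i.2.1 (i.not_dvd hMS) (i.not_dvd hMvS) x)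

theorem wV_phi (s : TS O S) (x : XG O (M * v)) :
    wV O hv hB (phiG O hMvS s x) = phiG O hMvS s (wV O hv hB x) := by
  refine evC_comp (wV O hv hB) (fun i x => ?_) s x
  refine bc_ext O (f := wV O hv hB ∘ₗ LinearMap.baseChange O _)
    (g := LinearMap.baseChange O _ ∘ₗ wV O hv hB) (fun x => ?_) x
  exact congrArg ((1 : O) ⊗ₜ[ℤ] ·) (wL_TG hv hB i.2.1 (i.not_dvd hMvS) x)

theorem TV_phi (s : TS O S) (x : XG O M) :
    TV O hv hvM (phiG O hMS s x) = phiG O hMS s (TV O hv hvM x) := by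
  refine evC_comp (TV O hv hvM) (fun i x => ?_) s x
  refine bc_ext O (f := TV O hv hvM ∘ₗ LinearMap.baseChange O _)
    (g := LinearMap.baseChange O _ ∘ₗ TV O hv hvM) (fun x => ?_) x
  exact congrArg ((1 : O) ⊗ₜ[ℤ] ·)
    (LinearMap.congr_fun (TG_comm hv hvM i.2.1 (i.not_dvd hMS)) x)

include hv hvM in
theorem trV_resV (x : XG O M) :
    trV O M v (resV O M v x) = ((v : O) + 1) • x := by
  refine bc_ext O (f := trV O M v ∘ₗ resV O M v) (g := ((v : O) + 1) • LinearMap.id)
    (fun x => ?_) x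
  have h1 : trL (dvd_mul_right M v) (resL (dvd_mul_right M v) x) = ((v : ℤ) + 1) • x :=
    trL_resL hv hvM x
  change (1 : O) ⊗ₜ[ℤ] (trL (dvd_mul_right M v) (resL (dvd_mul_right M v) x)) =
    ((v : O) + 1) • ((1 : O) ⊗ₜ[ℤ] x)
  rw [h1, TensorProduct.tmul_smul, ← Int.cast_smul_eq_zsmul O]
  push_cast
  rfl

theorem trV_wV_resV (x : XG O M) :
    trV O M v (wV O hv hB (resV O M v x)) = TV O hv hvM x := by
  refine bc_ext O (f := trV O M v ∘ₗ wV O hv hB ∘ₗ resV O M v) (g := TV O hv hvM) (fun x => ?_) x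
  exact congrArg ((1 : O) ⊗ₜ[ℤ] ·) (trL_wL_resL' hv hB hvM x)

theorem wV_wV (x : XG O (M * v)) : wV O hv hB (wV O hv hB x) = x := by
  refine bc_ext O (f := wV O hv hB ∘ₗ wV O hv hB) (g := LinearMap.id) (fun x => ?_) x
  exact congrArg ((1 : O) ⊗ₜ[ℤ] ·) (wL_wL hv hB x)

/-- `(v + 1)² - T_v²` -/
def D0 : XG O M →ₗ[O] XG O M := ((v : O) + 1) ^ 2 • LinearMap.id - TV O hv hvM ∘ₗ TV O hv hvM

theorem D0_apply (x : XG O M) :
    D0 hv hvM x = ((v : O) + 1) ^ 2 • x - TV O hv hvM (TV O hv hvM x) := rfl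

theorem D0_phi (s : TS O S) (x : XG O M) :
    D0 hv hvM (phiG O hMS s x) = phiG O hMS s (D0 hv hvM x) := by
  rw [D0_apply, D0_apply, TV_phi, TV_phi, map_sub, map_smul]

variable [IsLocalRing O] [IsNoetherianRing O] {k : Type} [Field k] [Algebra O k] {p : ℕ}
  [hp : Fact p.Prime] [CharP k p] (hk : Function.Surjective (algebraMap O k))
  {θ : TS O S →ₐ[O] k} {e : TS O S}
  (hS : S.Finite) (hpS : p ∈ S) (ι : AlgebraicClosure ℚ →+* ℂ)
  {t D : GQ → k} (ht : IsPseudoRep t D) (htc : IsLocConst t)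
  (hfrob : ∀ l : IS S, ∀ A : ValuationSubring (AlgebraicClosure ℚ),
    A.LiesOverPrime (l : ℕ) → ∀ τ : GQ, A.IsFrobeniusAt τ (l : ℕ) →
      t τ = θ (MvPolynomial.X l) ∧ D τ = (l : ℕ))
  (hvk : (v : k) = 1) {A : ValuationSubring (AlgebraicClosure ℚ)} (hA : A.LiesOverPrime v)
  {Φ : GQ} (hΦ : A.IsFrobeniusAt Φ v) (htΦ : t Φ ^ 2 ≠ 4)

include hk hS hpS ι ht htc hfrob hvk hA hΦ htΦ in
theorem bijective_D0 (he : IsLoc (phiG O hMS) θ e) :
    Function.Bijective (mapPart (e := e) (D0 hv hvM) (D0_phi hv hvM hMS)) := by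
  refine bijective_of_red _ fun x hx => ?_
  rw [mem_smul_part he.idem] at hx ⊢
  by_contra hne
  -- eigenvector
  obtain ⟨y, hyW, hy0, hy⟩ := exists_eig (O := O) (k := k) hk
    (L := KumG.LZ (GG M)) (f := fun i : IS S => TG i.2.1 (i.not_dvd hMS))
    (fun i j => TG_comm i.2.1 (i.not_dvd hMS) j.2.1 (j.not_dvd hMS))
    (hfO := commG O hMS) (θ := θ) (e := e) he.nil
    (part (phiG O hMS) e ⊓ ((maximalIdeal O) • (⊤ : Submodule O (XG O M))).comap (D0 hv hvM))
    (fun x hx => (mem_part he.idem).1 hx.1)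
    (fun i x hx => by
      refine ⟨?_, ?_⟩
      · have := comm_part (φ := phiG O hMS) (e := e) (MvPolynomial.X i) x hx.1
        rwa [phiG_X] at this
      · change D0 (O := O) hv hvM _ ∈ (maximalIdeal O) • (⊤ : Submodule O (XG O M))
        have h1 := D0_phi (O := O) hv hvM hMS (MvPolynomial.X i) x
        rw [phiG_X] at h1
        rw [h1]
        exact map_mem_smul_top _ _ hx.2)
    (fun hle => hne (hle ⟨x.2, hx⟩))
  set z := red O k (KumG.LZ (GG M)) y with hzdef
  have hD : red O k (KumG.LZ (GG M)) (D0 hv hvM y) = 0 :=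
    red_of_mem hyW.2 fun a ha => algebraMap_of_mem hk ha
  let Tk : k ⊗[ℤ] KumG.LZ (GG M) →ₗ[k] k ⊗[ℤ] KumG.LZ (GG M) := (TG hv hvM).baseChange k
  have hTk : ∀ x : XG O M, red O k (KumG.LZ (GG M)) (TV O hv hvM x) = Tk (red O k _ x) :=
    fun x => red_baseChange _ x
  rw [D0_apply, map_sub, red_smul, hTk, hTk, ← hzdef] at hD
  have h2 : algebraMap O k (((v : O) + 1) ^ 2) = 4 := by
    rw [map_pow, map_add, map_natCast, hvk, map_one]
    norm_num
  rw [h2, sub_eq_zero] at hD
  -- eigenvectors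
  have hTl : ∀ (l : IS S) (w : k ⊗[ℤ] KumG.LZ (GG M)),
      (actL M S (evT hMS (MvPolynomial.X l))).baseChange k w =
        (TG l.2.1 (l.not_dvd hMS)).baseChange k w := by
    intro l w
    refine bk_ext (f := (actL M S (evT hMS (MvPolynomial.X l))).baseChange k)
      (g := (TG l.2.1 (l.not_dvd hMS)).baseChange k) (fun x => ?_) w
    rw [LinearMap.baseChange_tmul, LinearMap.baseChange_tmul, evT_X, actL_eq_TG]
  have hEz : IsEigL S hMS (fun l => θ (MvPolynomial.X l)) z := fun l => by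
    rw [hTl]
    exact hy l
  have hTc : ∀ (l : IS S) (w : k ⊗[ℤ] KumG.LZ (GG M)),
      (TG l.2.1 (l.not_dvd hMS)).baseChange k (Tk w) =
        Tk ((TG l.2.1 (l.not_dvd hMS)).baseChange k w) := by
    intro l w
    refine bk_ext (f := (TG l.2.1 (l.not_dvd hMS)).baseChange k ∘ₗ Tk)
      (g := Tk ∘ₗ (TG l.2.1 (l.not_dvd hMS)).baseChange k) (fun x => ?_) w
    exact congrArg ((1 : k) ⊗ₜ[ℤ] ·)
      (LinearMap.congr_fun (TG_comm l.2.1 (l.not_dvd hMS) hv hvM) x)
  have key : ∀ (c : k) (w : k ⊗[ℤ] KumG.LZ (GG M)), c ^ 2 = 4 → Tk w = c • w →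
      IsEigL S hMS (fun l => θ (MvPolynomial.X l)) w → w = 0 := by
    intro c w hc hw hE
    refine eig_old hS hpS hMS ι ht htc hfrob hvk hv hvM hA hΦ htΦ hE hc ?_
    rw [← hw]
    refine bk_ext (f := LinearMap.baseChange k _) (g := Tk) (fun x => ?_) w
    rw [LinearMap.baseChange_tmul, actL_eq_TG]
    rfl
  by_cases hz' : (2 : k) • z + Tk z = 0
  · refine hy0 (key (-2) z (by norm_num) ?_ hEz)
    rw [neg_smul]
    exact eq_neg_of_add_eq_zero_right hz'
  · refine hz' (key 2 _ (by norm_num) ?_ ?_)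
    · rw [map_add, map_smul, ← hD, smul_add, smul_smul, add_comm]
      norm_num
    · intro l
      rw [hTl, map_add, map_smul, hTc, ← hTl, hEz l, map_smul, smul_add, smul_comm]

theorem trwV_phi (s : TS O S) (x : XG O (M * v)) :
    (trV O M v ∘ₗ wV O hv hB) (phiG O hMvS s x) = phiG O hMS s ((trV O M v ∘ₗ wV O hv hB) x) := by
  rw [LinearMap.comp_apply, LinearMap.comp_apply, wV_phi, trV_phi hMS hMvS]

/-- the two traces -/
def betaV (e : TS O S) : part (phiG O hMvS) e →ₗ[O] part (phiG O hMS) e × part (phiG O hMS) e :=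
  (mapPart (trV O M v) (trV_phi hMS hMvS)).prod
    (mapPart (trV O M v ∘ₗ wV O hv hB) (trwV_phi hv hB hMS hMvS))

/-- the section -/
def alphaV (e : TS O S) : part (phiG O hMS) e × part (phiG O hMS) e →ₗ[O] part (phiG O hMvS) e :=
  (mapPart (resV O M v) (resV_phi hMS hMvS)).coprod
    (mapPart (wV O hv hB ∘ₗ resV O M v) (fun s x => by
      rw [LinearMap.comp_apply, LinearMap.comp_apply, resV_phi hMS hMvS, wV_phi]))

theorem betaV_alphaV (x : part (phiG O hMS) e × part (phiG O hMS) e) :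
    betaV hv hB hMS hMvS e (alphaV hv hB hMS hMvS e x) =
      (((v : O) + 1) • x.1 + mapPart (TV O hv hvM) (TV_phi hv hvM hMS) x.2,
        mapPart (TV O hv hvM) (TV_phi hv hvM hMS) x.1 + ((v : O) + 1) • x.2) := by
  apply Prod.ext
  · apply Subtype.ext
    change trV O M v (resV O M v x.1 + wV O hv hB (resV O M v x.2)) =
      ((v : O) + 1) • (x.1 : XG O M) + TV O hv hvM x.2
    rw [map_add, trV_resV hv hvM, trV_wV_resV hv hB hvM]
  · apply Subtype.ext
    change trV O M v (wV O hv hB (resV O M v x.1 + wV O hv hB (resV O M v x.2))) =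
      TV O hv hvM x.1 + ((v : O) + 1) • (x.2 : XG O M)
    rw [map_add, map_add, trV_wV_resV hv hB hvM, wV_wV, trV_resV hv hvM]

include hk hS hpS ι ht htc hfrob hvk hA hΦ htΦ hvM in
theorem surjective_betaV (he : IsLoc (phiG O hMS) θ e) :
    Function.Surjective (betaV hv hB hMS hMvS e) := by
  have hbij := bijective_D0 hv hvM hMS hk hS hpS ι ht htc hfrob hvk hA hΦ htΦ he
  set E := mapPart (e := e) (D0 hv hvM) (D0_phi hv hvM hMS) with hE
  set T := mapPart (e := e) (TV O hv hvM) (TV_phi hv hvM hMS) with hT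
  have hEx : ∀ x, E x = ((v : O) + 1) ^ 2 • x - T (T x) := fun x => Subtype.ext rfl
  have hET : ∀ x, E (T x) = T (E x) := by
    intro x
    rw [hEx, hEx, map_sub, map_smul]
  rintro ⟨y₁, y₂⟩
  obtain ⟨z₁, rfl⟩ := hbij.2 y₁
  obtain ⟨z₂, rfl⟩ := hbij.2 y₂
  refine ⟨alphaV hv hB hMS hMvS e (((v : O) + 1) • z₁ - T z₂, ((v : O) + 1) • z₂ - T z₁), ?_⟩
  rw [betaV_alphaV hv hB hvM]
  apply Prod.ext
  · change ((v : O) + 1) • (((v : O) + 1) • z₁ - T z₂) + T (((v : O) + 1) • z₂ - T z₁) = E z₁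
    rw [hEx, map_sub, map_smul]
    module
  · change T (((v : O) + 1) • z₁ - T z₂) + ((v : O) + 1) • (((v : O) + 1) • z₂ - T z₁) = E z₂
    rw [hEx, map_sub, map_smul]
    module

include hk hS hpS ι ht htc hfrob hvk hA hΦ htΦ hvM in
/-- **The control theorem at a Taylor–Wiles prime.** -/
theorem bijective_betaV [Module.Flat ℤ O] (he : IsLoc (phiG O hMS) θ e)
    (he' : IsLoc (phiG O hMvS) θ e) :
    Function.Bijective (betaV hv hB hMS hMvS e) := by
  have hsurj := surjective_betaV hv hB hvM hMS hMvS hk hS hpS ι ht htc hfrob hvk hA hΦ htΦ he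
  refine ⟨?_, hsurj⟩
  haveI : Module.Free O (part (phiG O hMS) e) := free_part he.idem
  obtain ⟨sec, hsec⟩ := Module.projective_lifting_property (betaV hv hB hMS hMvS e)
    LinearMap.id hsurj
  have hsec' : ∀ y, betaV hv hB hMS hMvS e (sec y) = y := fun y => LinearMap.congr_fun hsec y
  -- the kernel
  set K : Submodule O (part (phiG O hMvS) e) := LinearMap.ker (betaV hv hB hMS hMvS e) with hK
  let π : part (phiG O hMvS) e →ₗ[O] K :=
    LinearMap.codRestrict K (LinearMap.id - sec ∘ₗ betaV hv hB hMS hMvS e) (fun x => by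
      rw [hK, LinearMap.mem_ker, LinearMap.sub_apply, LinearMap.comp_apply, map_sub, hsec',
        LinearMap.id_apply, sub_self])
  have hπ : ∀ x : K, π x = x := by
    intro x
    apply Subtype.ext
    change (x : part (phiG O hMvS) e) - sec (betaV hv hB hMS hMvS e x) = x
    have h1 : betaV hv hB hMS hMvS e x = 0 := x.2
    rw [h1, map_zero, sub_zero]
  rw [← LinearMap.ker_eq_bot, ← hK]
  by_contra hne
  haveI : Module.Finite O K := Module.Finite.of_surjective π fun x => ⟨x, hπ x⟩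
  -- `K` is not contained in the multiples of the maximal ideal
  have hK0 : ∃ x : K, (x : part (phiG O hMvS) e) ∉
      (maximalIdeal O) • (⊤ : Submodule O (part (phiG O hMvS) e)) := by
    by_contra hall
    push Not at hall
    apply hne
    rw [Submodule.eq_bot_iff]
    intro x hx
    have h3 : (⟨x, hx⟩ : K) = 0 := eq_zero_of_forall_mem (O := O) (P := ↥K) (fun x => by
      rw [← hπ x]
      exact map_mem_smul_top (M := part (phiG O hMvS) e) (M' := ↥K) _ π (hall x)) _
    exact congrArg Subtype.val h3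
  obtain ⟨x₀, hx₀⟩ := hK0
  let W : Submodule O (XG O (M * v)) := part (phiG O hMvS) e ⊓
    (LinearMap.ker (trV O M v) ⊓ LinearMap.ker (trV O M v ∘ₗ wV O hv hB))
  have hx₀W : ((x₀ : part (phiG O hMvS) e) : XG O (M * v)) ∈ W := by
    have h1 : betaV hv hB hMS hMvS e x₀ = 0 := x₀.2
    exact ⟨(x₀ : part (phiG O hMvS) e).2,
      congrArg (fun y : part (phiG O hMS) e × part (phiG O hMS) e => (y.1 : XG O M)) h1,
      congrArg (fun y : part (phiG O hMS) e × part (phiG O hMS) e => (y.2 : XG O M)) h1⟩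
  obtain ⟨y, hyW, hy0, hy⟩ := exists_eig (O := O) (k := k) hk
    (L := KumG.LZ (GG (M * v))) (f := fun i : IS S => TG i.2.1 (i.not_dvd hMvS))
    (fun i j => TG_comm i.2.1 (i.not_dvd hMvS) j.2.1 (j.not_dvd hMvS))
    (hfO := commG O hMvS) (θ := θ) (e := e) he'.nil W
    (fun x hx => (mem_part he'.idem).1 hx.1)
    (fun i x hx => by
      have e1 := phiG_X (O := O) hMvS i
      refine ⟨?_, ?_, ?_⟩
      · have := comm_part (φ := phiG O hMvS) (e := e) (MvPolynomial.X i) x hx.1
        rwa [e1] at this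
      · have h1 := trV_phi (O := O) hMS hMvS (MvPolynomial.X i) x
        have h2 : trV O M v x = 0 := hx.2.1
        rw [e1, h2, map_zero] at h1
        exact h1
      · have h1 := trwV_phi (O := O) hv hB hMS hMvS (MvPolynomial.X i) x
        have h2 : (trV O M v ∘ₗ wV O hv hB) x = 0 := hx.2.2
        rw [e1, h2, map_zero] at h1
        exact h1)
    (fun hle => hx₀ ((mem_smul_part he'.idem _ _).2 (hle hx₀W)))
  set z := red O k (KumG.LZ (GG (M * v))) y with hzdef
  -- eigenvector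
  have hTl : ∀ (l : IS S) (w : k ⊗[ℤ] KumG.LZ (GG (M * v))),
      (actL (M * v) S (evT hMvS (MvPolynomial.X l))).baseChange k w =
        (TG l.2.1 (l.not_dvd hMvS)).baseChange k w := by
    intro l w
    refine bk_ext (f := (actL (M * v) S (evT hMvS (MvPolynomial.X l))).baseChange k)
      (g := (TG l.2.1 (l.not_dvd hMvS)).baseChange k) (fun x => ?_) w
    rw [LinearMap.baseChange_tmul, LinearMap.baseChange_tmul, evT_X, actL_eq_TG]
  have hEz : IsEigL S hMvS (fun l => θ (MvPolynomial.X l)) z := fun l => by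
    rw [hTl]
    exact hy l
  -- the kernel comes from the integral kernel
  have hyK : y ∈ LinearMap.range ((KK M v hv hB).subtype.baseChange O) := by
    let f : LZ (M * v) →ₗ[ℤ] LZ M := (trL (dvd_mul_right M v)).toIntLinearMap
    let g : LZ (M * v) →ₗ[ℤ] LZ M := ((trL (dvd_mul_right M v)).comp (wL hv hB)).toIntLinearMap
    have hex : Function.Exact (KK M v hv hB).subtype (f.prod g) := by
      intro φ
      constructor
      · intro h
        exact ⟨⟨φ, congrArg Prod.fst h, congrArg Prod.snd h⟩, rfl⟩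
      · rintro ⟨φ, rfl⟩
        exact Prod.ext φ.2.1 φ.2.2
    have h1 := Module.Flat.lTensor_exact O hex
    have h2 : LinearMap.lTensor O (f.prod g) y = 0 := by
      have h3 : f.prod g = LinearMap.inl ℤ _ _ ∘ₗ f + LinearMap.inr ℤ _ _ ∘ₗ g := by
        ext x <;> simp
      rw [h3, LinearMap.lTensor_add, LinearMap.add_apply, LinearMap.lTensor_comp,
        LinearMap.lTensor_comp, LinearMap.comp_apply, LinearMap.comp_apply]
      have h4 : LinearMap.lTensor O f y = 0 := hyW.2.1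
      have h5 : LinearMap.lTensor O g y = 0 := by
        have h6 : (trV O M v ∘ₗ wV O hv hB) y = 0 := hyW.2.2
        have h7 : LinearMap.lTensor O g y = (trV O M v ∘ₗ wV O hv hB) y := by
          clear * -
          induction y using TensorProduct.induction_on with
          | zero => rw [map_zero, map_zero]
          | tmul a x => rfl
          | add x y hx hy => rw [map_add, map_add, hx, hy]
        rw [h7, h6]
      rw [h4, h5, map_zero, map_zero, add_zero]
    obtain ⟨w, hw⟩ := (h1 y).1 h2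
    exact ⟨w, hw⟩
  have hzK : z ∈ LinearMap.range ((KK M v hv hB).subtype.baseChange k) := by
    obtain ⟨w, hw⟩ := hyK
    refine ⟨red O k _ w, ?_⟩
    rw [hzdef, ← hw]
    exact (red_baseChange _ w).symm
  exact hy0 (eig_new hS hpS hMvS ι ht htc hfrob hvk hv hvM hA hΦ htΦ hB hEz hzK)

end O

end

end Fermat.Agent.TW
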