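import Fermat.Agent.TW.Control

/-!
# Raising the level does not create residual systems of eigenvalues
-/

set_option autoImplicit false
set_option linter.unusedSectionVars false
set_option linter.style.haveILetI false

open scoped TensorProduct
open IsLocalRing

namespace Fermat.Agent.TW

open Fermat.Agent.Kum Fermat.Agent.GalRep Fermat.Agent.HeckeHom Fermat.Agent.ALCoh
  Fermat.Agent.LevelRaise Fermat.Agent.AL

noncomputable section

section gal

variable {N p : ℕ} [NeZero N] [hp : Fact p.Prime] {k : Type} [Field k] [CharP k p] {S : Set ℕ}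
  {v : ℕ}

/-- the relation satisfied by a Frobenius element at `v` -/
theorem eig_frob' (hS : S.Finite) (hpS : p ∈ S)
    (hNS : ∀ q : ℕ, q.Prime → q ∣ N → q ∈ S) (ι : AlgebraicClosure ℚ →+* ℂ) {θ : sg S → k}
    {t D : GQ → k} (ht : IsPseudoRep t D) (htc : IsLocConst t)
    (hfrob : ∀ l : sg S, ∀ A : ValuationSubring (AlgebraicClosure ℚ),
      A.LiesOverPrime (l : ℕ) → ∀ τ : GQ, A.IsFrobeniusAt τ (l : ℕ) → t τ = θ l ∧ D τ = (l : ℕ))
    (hvp : v ≠ p) (hv : v.Prime) {A : ValuationSubring (AlgebraicClosure ℚ)}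
    (hA : A.LiesOverPrime v)
    {Φ : GQ} (hΦ : A.IsFrobeniusAt Φ v) {z : k ⊗[ℤ] LZ N} (hz : IsEigL S hNS θ z) :
    GX k N p ι Φ (GX k N p ι Φ (piX k N p z)) =
      t Φ • GX k N p ι Φ (piX k N p z) - (v : k) • piX k N p z := by
  by_cases hz0 : z = 0
  · rw [hz0, map_zero, map_zero, map_zero, smul_zero, smul_zero, sub_zero]
  have hz0' : piX k N p z ≠ 0 := fun h => hz0 (piX_injective (by rw [h, map_zero]))
  have h1 := eig_trace hS hpS hNS ι ht htc hfrob hz.isEigX hz0' Φ
  have hcop : Nat.Coprime v p := (Nat.coprime_primes hv hp.out).mpr hvp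
  have h2 : (((cyc p Φ).val : ℕ) : k) = (v : k) := by
    rw [CharP.natCast_eq_natCast k p, ← ZMod.natCast_eq_natCast_iff, ZMod.natCast_zmod_val,
      cyc_frobenius hcop hA hΦ]
  rw [← Nat.cast_smul_eq_nsmul k, h2] at h1
  have h3 := congrArg (GX k N p ι Φ) h1
  rw [map_add, map_smul] at h3
  have h4 : GX k N p ι Φ (bk k (rX N p ι Φ⁻¹) (piX k N p z)) = piX k N p z := by
    have := GX_mul ι Φ Φ⁻¹ (piX k N p z)
    rw [mul_inv_cancel, GX_one] at this
    exact this.symm
  rw [map_smul, h4] at h3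
  rw [← h3]
  exact (add_sub_cancel_right _ _).symm

/-- There are no eigenvectors in the kernel of the two traces. -/
theorem eig_new' [NeZero (N * v)] (hS : S.Finite) (hpS : p ∈ S)
    (hNvS : ∀ q : ℕ, q.Prime → q ∣ N * v → q ∈ S) (ι : AlgebraicClosure ℚ →+* ℂ) {θ : sg S → k}
    {t D : GQ → k} (ht : IsPseudoRep t D) (htc : IsLocConst t)
    (hfrob : ∀ l : sg S, ∀ A : ValuationSubring (AlgebraicClosure ℚ),
      A.LiesOverPrime (l : ℕ) → ∀ τ : GQ, A.IsFrobeniusAt τ (l : ℕ) → t τ = θ l ∧ D τ = (l : ℕ))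
    (hvp' : v ≠ p) (hv : v.Prime) (hvN : ¬ v ∣ N)
    {A : ValuationSubring (AlgebraicClosure ℚ)} (hA : A.LiesOverPrime v)
    {Φ : GQ} (hΦ : A.IsFrobeniusAt Φ v) (htΦ : t Φ ^ 2 ≠ ((v : k) + 1) ^ 2) {B : M2} (hB : B ∈ WS (N * v) v)
    {z : k ⊗[ℤ] LZ (N * v)}
    (hz : IsEigL S hNvS θ z)
    (hzK : z ∈ LinearMap.range ((KK N v hv hB).subtype.baseChange k)) : z = 0 := by
  haveI : Fact v.Prime := ⟨hv⟩
  have h1 := eig_frob' (N := N * v) hS hpS hNvS ι ht htc hfrob hvp' hv hA hΦ hz
  have hvp : ¬ v ∣ p :=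
    (Nat.Prime.coprime_iff_not_dvd hv).1 ((Nat.coprime_primes hv hp.out).mpr hvp')
  set G := GX k (N * v) p ι Φ with hG
  have h2 : ∀ w : k ⊗[ℤ] KK N v hv hB,
      G (G (G (G (piX k (N * v) p ((KK N v hv hB).subtype.baseChange k w))))) -
        ((v : k) ^ 2 + 1) • G (G (piX k (N * v) p ((KK N v hv hB).subtype.baseChange k w))) +
        (v : k) ^ 2 • piX k (N * v) p ((KK N v hv hB).subtype.baseChange k w) = 0 := by
    intro w
    induction w using TensorProduct.induction_on with
    | zero => simp only [map_zero, smul_zero, sub_zero, add_zero]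
    | tmul c φ =>
      have hφ1 : tr (dvd_mul_right N v) ℤ (φ : LZ (N * v)).1 = 0 :=
        congrArg Subtype.val (show trL (dvd_mul_right N v) (φ : LZ (N * v)) = 0 from φ.2.1)
      have hφ2 : tr (dvd_mul_right N v) ℤ (wop (dvd_mul_left v N)
          (coprime_of_not_dvd hv hvN) ℤ (φ : LZ (N * v)).1) = 0 := by
        rw [wop_eq (dvd_mul_left v N) _ hv.ne_zero hB]
        exact congrArg Subtype.val
          (show trL (dvd_mul_right N v) (wL hv hB (φ : LZ (N * v))) = 0 from φ.2.2)
      have h3 := Nod.rhoF_frob_toric ι hA hvN hΦ hvp (φ : LZ (N * v)) hφ1 hφ2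
      have h4 := congrArg (fun ξ : XL (N * v) p => (c ⊗ₜ[ℤ] ξ : k ⊗[ℤ] XL (N * v) p)) h3
      simp only [TensorProduct.tmul_add, TensorProduct.tmul_sub, TensorProduct.tmul_zero,
        TensorProduct.tmul_smul] at h4
      rw [← Nat.cast_smul_eq_nsmul k, ← Nat.cast_smul_eq_nsmul k] at h4
      have e1 : ((v ^ 2 + 1 : ℕ) : k) = (v : k) ^ 2 + 1 := by
        push_cast
        rfl
      have e2 : ((v ^ 2 : ℕ) : k) = (v : k) ^ 2 := by
        push_cast
        rfl
      rw [e1, e2] at h4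
      exact h4
    | add x y hx hy =>
      simp only [map_add, smul_add]
      have := congrArg₂ (· + ·) hx hy
      simp only [add_zero] at this
      rw [← this]
      abel
  obtain ⟨w, hw⟩ := hzK
  have h3 := h2 w
  rw [hw] at h3
  set y := piX k (N * v) p z with hy
  have e3 : G (G (G y)) = (t Φ ^ 2 - v) • G y - (t Φ * v) • y := by
    rw [h1, map_sub, map_smul, map_smul, h1]
    module
  have e4 : G (G (G (G y))) = (t Φ ^ 3 - 2 * t Φ * v) • G y - ((t Φ ^ 2 - v) * v) • y := by
    rw [e3, map_sub, map_smul, map_smul, h1]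
    module
  rw [e4, h1] at h3
  have e5 : (t Φ ^ 2 - ((v : k) + 1) ^ 2) • (t Φ • G y - (v : k) • y) = 0 := by
    rw [← h3]
    module
  have e6 : t Φ • G y - (v : k) • y = 0 := (smul_eq_zero.1 e5).resolve_left (sub_ne_zero.2 htΦ)
  rw [← h1] at e6
  have e7 := GX_eq_zero ι Φ (GX_eq_zero ι Φ e6)
  exact piX_injective (by rw [← hy, e7, map_zero])

end gal

section O

variable {O : Type} [CommRing O] {M v : ℕ} [NeZero M] [NeZero (M * v)] {S : Set ℕ}
  (hv : v.Prime) {B : M2} (hB : B ∈ WS (M * v) v) (hvM : ¬ v ∣ M)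
  (hMS : ∀ l, l.Prime → l ∣ M → l ∈ S) (hMvS : ∀ l, l.Prime → l ∣ M * v → l ∈ S)
  [IsLocalRing O] [IsNoetherianRing O] {k : Type} [Field k] [Algebra O k] {p : ℕ}
  [hp : Fact p.Prime] [CharP k p] (hk : Function.Surjective (algebraMap O k))
  {θ : TS O S →ₐ[O] k} {e : TS O S}
  (hS : S.Finite) (hpS : p ∈ S) (ι : AlgebraicClosure ℚ →+* ℂ)
  {t D : GQ → k} (ht : IsPseudoRep t D) (htc : IsLocConst t)
  (hfrob : ∀ l : IS S, ∀ A : ValuationSubring (AlgebraicClosure ℚ),
    A.LiesOverPrime (l : ℕ) → ∀ τ : GQ, A.IsFrobeniusAt τ (l : ℕ) →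
      t τ = θ (MvPolynomial.X l) ∧ D τ = (l : ℕ))
  (hvp : v ≠ p) {A : ValuationSubring (AlgebraicClosure ℚ)} (hA : A.LiesOverPrime v)
  {Φ : GQ} (hΦ : A.IsFrobeniusAt Φ v) (htΦ : t Φ ^ 2 ≠ ((v : k) + 1) ^ 2)

include hk hS hpS ι ht htc hfrob hvp hA hΦ htΦ hvM in
/-- injectivity of the two traces -/
theorem injective_betaV [Module.Flat ℤ O] (he : IsLoc (phiG O hMS) θ e)
    (he' : IsLoc (phiG O hMvS) θ e)
    (hsurj : Function.Surjective (betaV hv hB hMS hMvS e)) :
    Function.Injective (betaV hv hB hMS hMvS e) := by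
  haveI : Module.Free O (part (phiG O hMS) e) := free_part he.idem
  obtain ⟨sec, hsec⟩ := Module.projective_lifting_property (betaV hv hB hMS hMvS e)
    LinearMap.id hsurj
  have hsec' : ∀ y, betaV hv hB hMS hMvS e (sec y) = y := fun y => LinearMap.congr_fun hsec y
  -- the kernel
  set K : Submodule O (part (phiG O hMvS) e) := LinearMap.ker (betaV hv hB hMS hMvS e) with hK
  let π : part (phiG O hMvS) e →ₗ[O] K :=
    LinearMap.codRestrict K (LinearMap.id - sec ∘ₗ betaV hv hB hMS hMvS e) (fun x => by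
      rw [hK, LinearMap.mem_ker, LinearMap.sub_apply, LinearMap.comp_apply, map_sub, hsec',
        LinearMap.id_apply, sub_self])
  have hπ : ∀ x : K, π x = x := by
    intro x
    apply Subtype.ext
    change (x : part (phiG O hMvS) e) - sec (betaV hv hB hMS hMvS e x) = x
    have h1 : betaV hv hB hMS hMvS e x = 0 := x.2
    rw [h1, map_zero, sub_zero]
  rw [← LinearMap.ker_eq_bot, ← hK]
  by_contra hne
  haveI : Module.Finite O K := Module.Finite.of_surjective π fun x => ⟨x, hπ x⟩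
  -- `K` is not contained in the multiples of the maximal ideal
  have hK0 : ∃ x : K, (x : part (phiG O hMvS) e) ∉
      (maximalIdeal O) • (⊤ : Submodule O (part (phiG O hMvS) e)) := by
    by_contra hall
    push Not at hall
    apply hne
    rw [Submodule.eq_bot_iff]
    intro x hx
    have h3 : (⟨x, hx⟩ : K) = 0 := eq_zero_of_forall_mem (O := O) (P := ↥K) (fun x => by
      rw [← hπ x]
      exact map_mem_smul_top (M := part (phiG O hMvS) e) (M' := ↥K) _ π (hall x)) _
    exact congrArg Subtype.val h3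
  obtain ⟨x₀, hx₀⟩ := hK0
  let W : Submodule O (XG O (M * v)) := part (phiG O hMvS) e ⊓
    (LinearMap.ker (trV O M v) ⊓ LinearMap.ker (trV O M v ∘ₗ wV O hv hB))
  have hx₀W : ((x₀ : part (phiG O hMvS) e) : XG O (M * v)) ∈ W := by
    have h1 : betaV hv hB hMS hMvS e x₀ = 0 := x₀.2
    exact ⟨(x₀ : part (phiG O hMvS) e).2,
      congrArg (fun y : part (phiG O hMS) e × part (phiG O hMS) e => (y.1 : XG O M)) h1,
      congrArg (fun y : part (phiG O hMS) e × part (phiG O hMS) e => (y.2 : XG O M)) h1⟩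
  obtain ⟨y, hyW, hy0, hy⟩ := exists_eig (O := O) (k := k) hk
    (L := KumG.LZ (GG (M * v))) (f := fun i : IS S => TG i.2.1 (i.not_dvd hMvS))
    (fun i j => TG_comm i.2.1 (i.not_dvd hMvS) j.2.1 (j.not_dvd hMvS))
    (hfO := commG O hMvS) (θ := θ) (e := e) he'.nil W
    (fun x hx => (mem_part he'.idem).1 hx.1)
    (fun i x hx => by
      have e1 := phiG_X (O := O) hMvS i
      refine ⟨?_, ?_, ?_⟩
      · have := comm_part (φ := phiG O hMvS) (e := e) (MvPolynomial.X i) x hx.1
        rwa [e1] at this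
      · have h1 := trV_phi (O := O) hMS hMvS (MvPolynomial.X i) x
        have h2 : trV O M v x = 0 := hx.2.1
        rw [e1, h2, map_zero] at h1
        exact h1
      · have h1 := trwV_phi (O := O) hv hB hMS hMvS (MvPolynomial.X i) x
        have h2 : (trV O M v ∘ₗ wV O hv hB) x = 0 := hx.2.2
        rw [e1, h2, map_zero] at h1
        exact h1)
    (fun hle => hx₀ ((mem_smul_part he'.idem _ _).2 (hle hx₀W)))
  set z := red O k (KumG.LZ (GG (M * v))) y with hzdef
  -- eigenvector
  have hTl : ∀ (l : IS S) (w : k ⊗[ℤ] KumG.LZ (GG (M * v))),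
      (actL (M * v) S (evT hMvS (MvPolynomial.X l))).baseChange k w =
        (TG l.2.1 (l.not_dvd hMvS)).baseChange k w := by
    intro l w
    refine bk_ext (f := (actL (M * v) S (evT hMvS (MvPolynomial.X l))).baseChange k)
      (g := (TG l.2.1 (l.not_dvd hMvS)).baseChange k) (fun x => ?_) w
    rw [LinearMap.baseChange_tmul, LinearMap.baseChange_tmul, evT_X, actL_eq_TG]
  have hEz : IsEigL S hMvS (fun l => θ (MvPolynomial.X l)) z := fun l => by
    rw [hTl]
    exact hy l
  -- the kernel comes from the integral kernel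
  have hyK : y ∈ LinearMap.range ((KK M v hv hB).subtype.baseChange O) := by
    let f : LZ (M * v) →ₗ[ℤ] LZ M := (trL (dvd_mul_right M v)).toIntLinearMap
    let g : LZ (M * v) →ₗ[ℤ] LZ M := ((trL (dvd_mul_right M v)).comp (wL hv hB)).toIntLinearMap
    have hex : Function.Exact (KK M v hv hB).subtype (f.prod g) := by
      intro φ
      constructor
      · intro h
        exact ⟨⟨φ, congrArg Prod.fst h, congrArg Prod.snd h⟩, rfl⟩
      · rintro ⟨φ, rfl⟩
        exact Prod.ext φ.2.1 φ.2.2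
    have h1 := Module.Flat.lTensor_exact O hex
    have h2 : LinearMap.lTensor O (f.prod g) y = 0 := by
      have h3 : f.prod g = LinearMap.inl ℤ _ _ ∘ₗ f + LinearMap.inr ℤ _ _ ∘ₗ g := by
        ext x <;> simp
      rw [h3, LinearMap.lTensor_add, LinearMap.add_apply, LinearMap.lTensor_comp,
        LinearMap.lTensor_comp, LinearMap.comp_apply, LinearMap.comp_apply]
      have h4 : LinearMap.lTensor O f y = 0 := hyW.2.1
      have h5 : LinearMap.lTensor O g y = 0 := by
        have h6 : (trV O M v ∘ₗ wV O hv hB) y = 0 := hyW.2.2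
        have h7 : LinearMap.lTensor O g y = (trV O M v ∘ₗ wV O hv hB) y := by
          clear * -
          induction y using TensorProduct.induction_on with
          | zero => rw [map_zero, map_zero]
          | tmul a x => rfl
          | add x y hx hy => rw [map_add, map_add, hx, hy]
        rw [h7, h6]
      rw [h4, h5, map_zero, map_zero, add_zero]
    obtain ⟨w, hw⟩ := (h1 y).1 h2
    exact ⟨w, hw⟩
  have hzK : z ∈ LinearMap.range ((KK M v hv hB).subtype.baseChange k) := by
    obtain ⟨w, hw⟩ := hyK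
    refine ⟨red O k _ w, ?_⟩
    rw [hzdef, ← hw]
    exact (red_baseChange _ w).symm
  exact hy0 (eig_new' hS hpS hMvS ι ht htc hfrob hvp hv hvM hA hΦ htΦ hB hEz hzK)

end O

end

end Fermat.Agent.TW
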