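import Fermat.Agent.TW.Ctrl2

/-!
# The Hecke operators at further primes on residual eigenvectors
-/

set_option autoImplicit false
set_option linter.unusedSectionVars false
set_option linter.style.haveILetI false

open scoped TensorProduct
open IsLocalRing

namespace Fermat.Agent.TW

open Fermat.Agent.Kum Fermat.Agent.GalRep Fermat.Agent.HeckeHom Fermat.Agent.ALCoh
  Fermat.Agent.LevelRaise Fermat.Agent.AL

noncomputable section

section gal

variable {N p : ℕ} [NeZero N] [hp : Fact p.Prime] {k : Type} [Field k] [CharP k p] {S : Set ℕ}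
  {v : ℕ}

/-- the Hecke operator at `v` is determined on eigenvectors -/
theorem eig_Tv (hS : S.Finite) (hpS : p ∈ S)
    (hNS : ∀ q : ℕ, q.Prime → q ∣ N → q ∈ S) (ι : AlgebraicClosure ℚ →+* ℂ) {θ : sg S → k}
    {t D : GQ → k} (ht : IsPseudoRep t D) (htc : IsLocConst t)
    (hfrob : ∀ l : sg S, ∀ A : ValuationSubring (AlgebraicClosure ℚ),
      A.LiesOverPrime (l : ℕ) → ∀ τ : GQ, A.IsFrobeniusAt τ (l : ℕ) → t τ = θ l ∧ D τ = (l : ℕ))
    (hvp' : v ≠ p) (hv : v.Prime) (hvN : ¬ v ∣ N)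
    {A : ValuationSubring (AlgebraicClosure ℚ)} (hA : A.LiesOverPrime v)
    {Φ : GQ} (hΦ : A.IsFrobeniusAt Φ v) {z : k ⊗[ℤ] LZ N}
    (hz : IsEigL S hNS θ z) :
    (actL N (S \ {v}) (CuspForm.heckeAlgebra.T hv hvN (fun h => h.2 rfl))).baseChange k z =
      t Φ • z := by
  have h1 := eig_frob' (N := N) hS hpS hNS ι ht htc hfrob hvp' hv hA hΦ hz
  have hvp : ¬ v ∣ p :=
    (Nat.Prime.coprime_iff_not_dvd hv).1 ((Nat.coprime_primes hv hp.out).mpr hvp')
  let Tv : XL N p →+ XL N p :=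
    actX N p (S \ {v}) (CuspForm.heckeAlgebra.T hv hvN (fun h => h.2 rfl))
  have hES : ∀ ξ : XL N p, rhoF ι p Φ (rhoF ι p Φ ξ) - Tv (rhoF ι p Φ ξ) + v • ξ = 0 := fun ξ =>
    rhoF_frob ι (goodRed hv hvN hvp hA) hv hvN (fun h => h.2 rfl) hA hΦ ξ
  haveI : NeZero v := ⟨hv.ne_zero⟩
  have hcomm : ∀ ξ : XL N p, Tv (rhoF ι p Φ ξ) = rhoF ι p Φ (Tv ξ) := fun ξ =>
    (rhoF_T ι hv hvN (fun h => h.2 rfl) Φ ξ).symm
  have h2 : ∀ y : k ⊗[ℤ] XL N p, GX k N p ι Φ (GX k N p ι Φ y) =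
      GX k N p ι Φ (bk k Tv y) - (v : k) • y := by
    intro y
    refine bk_ext (f := GX k N p ι Φ ∘ₗ GX k N p ι Φ)
      (g := GX k N p ι Φ ∘ₗ bk k Tv - (v : k) • LinearMap.id) (fun ξ => ?_) y
    rw [LinearMap.comp_apply, LinearMap.sub_apply, LinearMap.comp_apply, LinearMap.smul_apply,
      LinearMap.id_apply, GX_tmul, GX_tmul, bk_tmul, GX_tmul, ← hcomm, Nat.cast_smul_eq_nsmul,
      ← TensorProduct.tmul_smul, ← TensorProduct.tmul_sub]
    have h3 := hES ξ
    have h4 : rhoF ι p Φ (rhoF ι p Φ ξ) = Tv (rhoF ι p Φ ξ) - v • ξ := by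
      rw [sub_add_eq_add_sub, sub_eq_zero] at h3
      exact eq_sub_of_add_eq h3
    rw [h4]
  set z' := (actL N (S \ {v}) (CuspForm.heckeAlgebra.T hv hvN (fun h => h.2 rfl))).baseChange k z
    with hz'
  have h5 : bk k Tv (piX k N p z) = piX k N p z' := by
    rw [hz']
    refine bk_ext (f := bk k Tv ∘ₗ piX k N p) (g := piX k N p ∘ₗ (actL N (S \ {v})
      (CuspForm.heckeAlgebra.T hv hvN (fun h => h.2 rfl))).baseChange k) (fun x => ?_) z
    rfl
  have h6 := h2 (piX k N p z)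
  rw [h1, h5, sub_left_inj, ← map_smul, ← sub_eq_zero, ← map_sub] at h6
  have h8 := GX_eq_zero ι Φ h6
  rw [← map_smul, ← map_sub] at h8
  have h9 := piX_injective (h8.trans (map_zero _).symm)
  exact (sub_eq_zero.1 h9).symm

end gal

section O

variable {O : Type} [CommRing O] {M : ℕ} [NeZero M] {S : Set ℕ}
  (hMS : ∀ l, l.Prime → l ∣ M → l ∈ S)
  [IsLocalRing O] [IsNoetherianRing O] {k : Type} [Field k] [Algebra O k] {p : ℕ}
  [hp : Fact p.Prime] [CharP k p] (hk : Function.Surjective (algebraMap O k))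
  {θ : TS O S →ₐ[O] k} {e : TS O S}
  (hS : S.Finite) (hpS : p ∈ S) (ι : AlgebraicClosure ℚ →+* ℂ)
  {t D : GQ → k} (ht : IsPseudoRep t D) (htc : IsLocConst t)
  (hfrob : ∀ l : IS S, ∀ A : ValuationSubring (AlgebraicClosure ℚ),
    A.LiesOverPrime (l : ℕ) → ∀ τ : GQ, A.IsFrobeniusAt τ (l : ℕ) →
      t τ = θ (MvPolynomial.X l) ∧ D τ = (l : ℕ))

include hk hS hpS ι ht htc hfrob in
/-- a residual eigenvector, for all primes -/
theorem exists_eig_all (he : IsLoc (phiG O hMS) θ e) (hne : phiG O hMS e ≠ 0) :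
    ∃ z : k ⊗[ℤ] KumG.LZ (GG M), z ≠ 0 ∧
      (∀ l : IS S, (TG l.2.1 (l.not_dvd hMS)).baseChange k z = θ (MvPolynomial.X l) • z) ∧
      ∀ (v : ℕ) (hv : v.Prime) (hvM : ¬ v ∣ M), v ≠ p →
        ∀ A : ValuationSubring (AlgebraicClosure ℚ), A.LiesOverPrime v →
        ∀ Φ : GQ, A.IsFrobeniusAt Φ v → (TG hv hvM).baseChange k z = t Φ • z := by
  obtain ⟨y, hyW, hy0, hy⟩ := exists_eig (O := O) (k := k) hk
    (L := KumG.LZ (GG M)) (f := fun i : IS S => TG i.2.1 (i.not_dvd hMS))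
    (fun i j => TG_comm i.2.1 (i.not_dvd hMS) j.2.1 (j.not_dvd hMS))
    (hfO := commG O hMS) (θ := θ) (e := e) he.nil (part (phiG O hMS) e)
    (fun x hx => (mem_part he.idem).1 hx)
    (fun i x hx => by
      have := comm_part (φ := phiG O hMS) (e := e) (MvPolynomial.X i) x hx
      rwa [phiG_X] at this)
    (fun hle => hne (by
      have h3 : ∀ x : part (phiG O hMS) e, x = 0 := by
        intro x
        exact eq_zero_of_forall_mem (O := O) (P := ↥(part (phiG O hMS) e)) (fun x =>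
          (mem_smul_part he.idem _ _).2 (hle x.2)) x
      refine LinearMap.ext fun x => ?_
      exact congrArg Subtype.val (h3 (toPart (phiG O hMS) e x))))
  refine ⟨red O k (KumG.LZ (GG M)) y, hy0, hy, ?_⟩
  intro v hv hvM hvp A hA Φ hΦ
  have hTl : ∀ (l : IS S) (w : k ⊗[ℤ] KumG.LZ (GG M)),
      (actL M S (evT hMS (MvPolynomial.X l))).baseChange k w =
        (TG l.2.1 (l.not_dvd hMS)).baseChange k w := by
    intro l w
    refine bk_ext (f := (actL M S (evT hMS (MvPolynomial.X l))).baseChange k)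
      (g := (TG l.2.1 (l.not_dvd hMS)).baseChange k) (fun x => ?_) w
    rw [LinearMap.baseChange_tmul, LinearMap.baseChange_tmul, evT_X, actL_eq_TG]
  have hEz : IsEigL S hMS (fun l => θ (MvPolynomial.X l)) (red O k (KumG.LZ (GG M)) y) :=
    fun l => by
      rw [hTl]
      exact hy l
  have h1 := eig_Tv (N := M) hS hpS hMS ι ht htc hfrob hvp hv hvM hA hΦ hEz
  rw [← h1]
  refine bk_ext (f := LinearMap.baseChange k (TG hv hvM)) (g := LinearMap.baseChange k _)
    (fun x => ?_) _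
  rw [LinearMap.baseChange_tmul, LinearMap.baseChange_tmul, actL_eq_TG]

end O

end

end Fermat.Agent.TW
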