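import Fermat.Agent.TW.EigTrace
import Fermat.Agent.Nod.FrobKum
import Fermat.Agent.LevelRaise.Lattice

/-!
# Galois-theoretic input for the control theorem at a Taylor–Wiles prime
-/

set_option autoImplicit false
set_option linter.unusedSectionVars false
set_option linter.style.haveILetI false

open scoped TensorProduct

namespace Fermat.Agent.TW

open Fermat.Agent.Kum Fermat.Agent.GalRep Fermat.Agent.HeckeHom Fermat.Agent.ALCoh
  Fermat.Agent.LevelRaise Fermat.Agent.AL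

noncomputable section

variable {N p : ℕ} [NeZero N] [hp : Fact p.Prime] {k : Type} [Field k] [CharP k p] {S : Set ℕ}

/-- reduction of characters -/
def piX (k : Type) [Field k] (N p : ℕ) [NeZero N] [NeZero p] : k ⊗[ℤ] LZ N →ₗ[k] k ⊗[ℤ] XL N p :=
  bk k (mkX : LZ N →+ XL N p)

theorem piX_injective : Function.Injective (piX k N p) := by
  rw [injective_iff_map_eq_zero]
  intro z hz
  have hex : Function.Exact ((p : ℤ) • (LinearMap.id : LZ N →ₗ[ℤ] LZ N))
      (mkX : LZ N →+ XL N p).toIntLinearMap := by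
    intro φ
    constructor
    · intro h
      have h1 : (mkX φ : XL N p) = mkX 0 := by rw [map_zero]; exact h
      rw [mkX_eq_iff, redI_zero, redI_eq_zero] at h1
      obtain ⟨ψ, hψ⟩ := h1
      exact ⟨ψ, by rw [hψ]; simp⟩
    · rintro ⟨ψ, rfl⟩
      change mkX (((p : ℤ) • (LinearMap.id : LZ N →ₗ[ℤ] LZ N)) ψ) = (0 : XL N p)
      rw [LinearMap.smul_apply, LinearMap.id_apply, natCast_zsmul, map_nsmul]
      exact mkX_nsmul ψ
  have h1 := lTensor_exact k hex (mkX_surjective (N := N) (m := p))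
  obtain ⟨w, rfl⟩ := (h1 z).1 hz
  clear hz
  have h2 : ∀ w : k ⊗[ℤ] LZ N, LinearMap.lTensor k ((p : ℤ) • (LinearMap.id : LZ N →ₗ[ℤ] LZ N)) w =
      0 := by
    intro w
    induction w using TensorProduct.induction_on with
    | zero => rw [map_zero]
    | tmul c φ =>
      rw [LinearMap.lTensor_tmul, LinearMap.smul_apply, LinearMap.id_apply, natCast_zsmul,
        TensorProduct.tmul_smul, ← Nat.cast_smul_eq_nsmul k, CharP.cast_eq_zero, zero_smul]
    | add x y hx hy => rw [map_add, hx, hy, add_zero]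
  exact h2 w

/-- the Galois action on `k ⊗ XL` -/
def GX (k : Type) [Field k] (N p : ℕ) [NeZero N] [NeZero p] (ι : AlgebraicClosure ℚ →+* ℂ)
    (σ : GQ) : k ⊗[ℤ] XL N p →ₗ[k] k ⊗[ℤ] XL N p := bk k (rX N p ι σ)

theorem GX_tmul (ι : AlgebraicClosure ℚ →+* ℂ) (σ : GQ) (c : k) (ξ : XL N p) :
    GX k N p ι σ (c ⊗ₜ ξ) = c ⊗ₜ rhoF ι p σ ξ := rfl

theorem GX_mul (ι : AlgebraicClosure ℚ →+* ℂ) (σ τ : GQ) (z : k ⊗[ℤ] XL N p) :
    GX k N p ι (σ * τ) z = GX k N p ι σ (GX k N p ι τ z) := by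
  refine bk_ext (f := GX k N p ι (σ * τ)) (g := GX k N p ι σ ∘ₗ GX k N p ι τ) (fun x => ?_) z
  rw [LinearMap.comp_apply, GX_tmul, GX_tmul, GX_tmul, rhoF_mul]

theorem GX_one (ι : AlgebraicClosure ℚ →+* ℂ) (z : k ⊗[ℤ] XL N p) :
    GX k N p ι 1 z = z := by
  refine bk_ext (f := GX k N p ι 1) (g := LinearMap.id) (fun x => ?_) z
  rw [LinearMap.id_apply, GX_tmul, rhoF_one]

theorem GX_eq_zero (ι : AlgebraicClosure ℚ →+* ℂ) (σ : GQ) {z : k ⊗[ℤ] XL N p}
    (h : GX k N p ι σ z = 0) : z = 0 := by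
  have := GX_mul ι σ⁻¹ σ z
  rw [inv_mul_cancel, GX_one, h, map_zero] at this
  exact this

/-- eigenvectors in `k ⊗ LZ N` -/
def IsEigL (S : Set ℕ) (hNS : ∀ q : ℕ, q.Prime → q ∣ N → q ∈ S) (θ : sg S → k)
    (z : k ⊗[ℤ] LZ N) : Prop :=
  ∀ l : sg S, (actL N S (evT hNS (MvPolynomial.X l))).baseChange k z = θ l • z

theorem IsEigL.isEigX {hNS : ∀ q : ℕ, q.Prime → q ∣ N → q ∈ S} {θ : sg S → k}
    {z : k ⊗[ℤ] LZ N} (hz : IsEigL S hNS θ z) : IsEigX S hNS θ (piX k N p z) := by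
  intro l
  rw [← map_smul, ← hz l]
  refine bk_ext (f := bk k (tX N p hNS (MvPolynomial.X l)) ∘ₗ piX k N p)
    (g := piX k N p ∘ₗ (actL N S (evT hNS (MvPolynomial.X l))).baseChange k) (fun x => ?_) z
  rfl

variable {v : ℕ}

/-- the relation satisfied by a Frobenius element at `v` -/
theorem eig_frob (hS : S.Finite) (hpS : p ∈ S)
    (hNS : ∀ q : ℕ, q.Prime → q ∣ N → q ∈ S) (ι : AlgebraicClosure ℚ →+* ℂ) {θ : sg S → k}
    {t D : GQ → k} (ht : IsPseudoRep t D) (htc : IsLocConst t)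
    (hfrob : ∀ l : sg S, ∀ A : ValuationSubring (AlgebraicClosure ℚ),
      A.LiesOverPrime (l : ℕ) → ∀ τ : GQ, A.IsFrobeniusAt τ (l : ℕ) → t τ = θ l ∧ D τ = (l : ℕ))
    (hvk : (v : k) = 1) (hv : v.Prime) {A : ValuationSubring (AlgebraicClosure ℚ)}
    (hA : A.LiesOverPrime v)
    {Φ : GQ} (hΦ : A.IsFrobeniusAt Φ v) {z : k ⊗[ℤ] LZ N} (hz : IsEigL S hNS θ z) :
    GX k N p ι Φ (GX k N p ι Φ (piX k N p z)) =
      t Φ • GX k N p ι Φ (piX k N p z) - piX k N p z := by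
  by_cases hz0 : z = 0
  · rw [hz0, map_zero, map_zero, map_zero, smul_zero, sub_zero]
  have hz0' : piX k N p z ≠ 0 := fun h => hz0 (piX_injective (by rw [h, map_zero]))
  have h1 := eig_trace hS hpS hNS ι ht htc hfrob hz.isEigX hz0' Φ
  have hvp : (v : ZMod p) = 1 := by
    have h2 : (v : k) = ((1 : ℕ) : k) := by rw [hvk, Nat.cast_one]
    have h3 := (CharP.natCast_eq_natCast k p).1 h2
    have h4 := (ZMod.natCast_eq_natCast_iff v 1 p).2 h3
    rw [h4, Nat.cast_one]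
  have hcop : Nat.Coprime v p := by
    refine (Nat.coprime_primes hv hp.out).mpr ?_
    rintro rfl
    rw [CharP.cast_eq_zero] at hvk
    exact zero_ne_one hvk
  have h2 : (cyc p Φ).val = 1 := by
    rw [cyc_frobenius hcop hA hΦ, hvp]
    exact ZMod.val_one p
  rw [h2, one_smul] at h1
  have h3 := congrArg (GX k N p ι Φ) h1
  rw [map_add, map_smul] at h3
  have h4 : GX k N p ι Φ (bk k (rX N p ι Φ⁻¹) (piX k N p z)) = piX k N p z := by
    have := GX_mul ι Φ Φ⁻¹ (piX k N p z)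
    rw [mul_inv_cancel, GX_one] at this
    exact this.symm
  rw [h4] at h3
  rw [← h3]
  exact (add_sub_cancel_right _ _).symm

/-- No eigenvector of level `M` has `T_v`-eigenvalue `± 2`. -/
theorem eig_old (hS : S.Finite) (hpS : p ∈ S)
    (hNS : ∀ q : ℕ, q.Prime → q ∣ N → q ∈ S) (ι : AlgebraicClosure ℚ →+* ℂ) {θ : sg S → k}
    {t D : GQ → k} (ht : IsPseudoRep t D) (htc : IsLocConst t)
    (hfrob : ∀ l : sg S, ∀ A : ValuationSubring (AlgebraicClosure ℚ),
      A.LiesOverPrime (l : ℕ) → ∀ τ : GQ, A.IsFrobeniusAt τ (l : ℕ) → t τ = θ l ∧ D τ = (l : ℕ))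
    (hvk : (v : k) = 1) (hv : v.Prime) (hvN : ¬ v ∣ N)
    {A : ValuationSubring (AlgebraicClosure ℚ)} (hA : A.LiesOverPrime v)
    {Φ : GQ} (hΦ : A.IsFrobeniusAt Φ v) (htΦ : t Φ ^ 2 ≠ 4) {z : k ⊗[ℤ] LZ N}
    (hz : IsEigL S hNS θ z) {c : k} (hc : c ^ 2 = 4)
    (hzv : (actL N (S \ {v}) (CuspForm.heckeAlgebra.T hv hvN (fun h => h.2 rfl))).baseChange k z =
      c • z) : z = 0 := by
  have h1 := eig_frob (N := N) hS hpS hNS ι ht htc hfrob hvk hv hA hΦ hz
  have hvp : ¬ v ∣ p := by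
    refine (Nat.Prime.coprime_iff_not_dvd hv).1 ((Nat.coprime_primes hv hp.out).mpr ?_)
    rintro rfl
    rw [CharP.cast_eq_zero] at hvk
    exact zero_ne_one hvk
  let Tv : XL N p →+ XL N p :=
    actX N p (S \ {v}) (CuspForm.heckeAlgebra.T hv hvN (fun h => h.2 rfl))
  have hES : ∀ ξ : XL N p, rhoF ι p Φ (rhoF ι p Φ ξ) - Tv (rhoF ι p Φ ξ) + v • ξ = 0 := fun ξ =>
    rhoF_frob ι (goodRed hv hvN hvp hA) hv hvN (fun h => h.2 rfl) hA hΦ ξ
  haveI : NeZero v := ⟨hv.ne_zero⟩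
  have hcomm : ∀ ξ : XL N p, Tv (rhoF ι p Φ ξ) = rhoF ι p Φ (Tv ξ) := fun ξ =>
    (rhoF_T ι hv hvN (fun h => h.2 rfl) Φ ξ).symm
  have h2 : ∀ y : k ⊗[ℤ] XL N p, GX k N p ι Φ (GX k N p ι Φ y) =
      GX k N p ι Φ (bk k Tv y) - y := by
    intro y
    refine bk_ext (f := GX k N p ι Φ ∘ₗ GX k N p ι Φ)
      (g := GX k N p ι Φ ∘ₗ bk k Tv - LinearMap.id) (fun ξ => ?_) y
    rw [LinearMap.comp_apply, LinearMap.sub_apply, LinearMap.comp_apply, LinearMap.id_apply,
      GX_tmul, GX_tmul, bk_tmul, GX_tmul, ← hcomm, ← TensorProduct.tmul_sub]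
    have h3 := hES ξ
    have h4 : rhoF ι p Φ (rhoF ι p Φ ξ) = Tv (rhoF ι p Φ ξ) - v • ξ := by
      rw [sub_add_eq_add_sub, sub_eq_zero] at h3
      exact eq_sub_of_add_eq h3
    rw [h4, TensorProduct.tmul_sub, TensorProduct.tmul_sub]
    congr 1
    rw [TensorProduct.tmul_smul, ← Nat.cast_smul_eq_nsmul k, hvk, one_smul]
  have h5 : bk k Tv (piX k N p z) = c • piX k N p z := by
    rw [← map_smul, ← hzv]
    refine bk_ext (f := bk k Tv ∘ₗ piX k N p) (g := piX k N p ∘ₗ (actL N (S \ {v})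
      (CuspForm.heckeAlgebra.T hv hvN (fun h => h.2 rfl))).baseChange k) (fun x => ?_) z
    rfl
  have h6 := h2 (piX k N p z)
  rw [h1, h5, map_smul, sub_left_inj, ← sub_eq_zero, ← sub_smul] at h6
  have h7 : t Φ - c ≠ 0 := by
    intro h
    rw [sub_eq_zero] at h
    exact htΦ (by rw [h, hc])
  have h8 := GX_eq_zero ι Φ ((smul_eq_zero.1 h6).resolve_left h7)
  exact piX_injective (by rw [h8, map_zero])

/-- the kernel of the two traces -/
def KK (N v : ℕ) [NeZero N] [NeZero (N * v)] {B : M2} (hv : v.Prime) (hB : B ∈ WS (N * v) v) :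
    Submodule ℤ (LZ (N * v)) :=
  LinearMap.ker ((trL (dvd_mul_right N v)).toIntLinearMap : LZ (N * v) →ₗ[ℤ] LZ N) ⊓
    LinearMap.ker (((trL (dvd_mul_right N v)).comp (wL hv hB)).toIntLinearMap :
      LZ (N * v) →ₗ[ℤ] LZ N)

/-- There are no eigenvectors in the kernel of the two traces. -/
theorem eig_new [NeZero (N * v)] (hS : S.Finite) (hpS : p ∈ S)
    (hNvS : ∀ q : ℕ, q.Prime → q ∣ N * v → q ∈ S) (ι : AlgebraicClosure ℚ →+* ℂ) {θ : sg S → k}
    {t D : GQ → k} (ht : IsPseudoRep t D) (htc : IsLocConst t)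
    (hfrob : ∀ l : sg S, ∀ A : ValuationSubring (AlgebraicClosure ℚ),
      A.LiesOverPrime (l : ℕ) → ∀ τ : GQ, A.IsFrobeniusAt τ (l : ℕ) → t τ = θ l ∧ D τ = (l : ℕ))
    (hvk : (v : k) = 1) (hv : v.Prime) (hvN : ¬ v ∣ N)
    {A : ValuationSubring (AlgebraicClosure ℚ)} (hA : A.LiesOverPrime v)
    {Φ : GQ} (hΦ : A.IsFrobeniusAt Φ v) (htΦ : t Φ ^ 2 ≠ 4) {B : M2} (hB : B ∈ WS (N * v) v)
    {z : k ⊗[ℤ] LZ (N * v)}
    (hz : IsEigL S hNvS θ z)
    (hzK : z ∈ LinearMap.range ((KK N v hv hB).subtype.baseChange k)) : z = 0 := by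
  haveI : Fact v.Prime := ⟨hv⟩
  have h1 := eig_frob (N := N * v) hS hpS hNvS ι ht htc hfrob hvk hv hA hΦ hz
  have hvp : ¬ v ∣ p := by
    refine (Nat.Prime.coprime_iff_not_dvd hv).1 ((Nat.coprime_primes hv hp.out).mpr ?_)
    rintro rfl
    rw [CharP.cast_eq_zero] at hvk
    exact zero_ne_one hvk
  set G := GX k (N * v) p ι Φ with hG
  have h2 : ∀ w : k ⊗[ℤ] KK N v hv hB,
      G (G (G (G (piX k (N * v) p ((KK N v hv hB).subtype.baseChange k w))))) -
        (2 : k) • G (G (piX k (N * v) p ((KK N v hv hB).subtype.baseChange k w))) +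
        piX k (N * v) p ((KK N v hv hB).subtype.baseChange k w) = 0 := by
    intro w
    induction w using TensorProduct.induction_on with
    | zero => simp only [map_zero, smul_zero, sub_zero, add_zero]
    | tmul c φ =>
      have hφ1 : tr (dvd_mul_right N v) ℤ (φ : LZ (N * v)).1 = 0 :=
        congrArg Subtype.val (show trL (dvd_mul_right N v) (φ : LZ (N * v)) = 0 from φ.2.1)
      have hφ2 : tr (dvd_mul_right N v) ℤ (wop (dvd_mul_left v N)
          (coprime_of_not_dvd hv hvN) ℤ (φ : LZ (N * v)).1) = 0 := by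
        rw [wop_eq (dvd_mul_left v N) _ hv.ne_zero hB]
        exact congrArg Subtype.val
          (show trL (dvd_mul_right N v) (wL hv hB (φ : LZ (N * v))) = 0 from φ.2.2)
      have h3 := Nod.rhoF_frob_toric ι hA hvN hΦ hvp (φ : LZ (N * v)) hφ1 hφ2
      have h4 := congrArg (fun ξ : XL (N * v) p => (c ⊗ₜ[ℤ] ξ : k ⊗[ℤ] XL (N * v) p)) h3
      simp only [TensorProduct.tmul_add, TensorProduct.tmul_sub, TensorProduct.tmul_zero,
        TensorProduct.tmul_smul] at h4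
      rw [← Nat.cast_smul_eq_nsmul k, ← Nat.cast_smul_eq_nsmul k] at h4
      have e1 : ((v ^ 2 + 1 : ℕ) : k) = 2 := by
        push_cast
        rw [hvk]
        norm_num
      have e2 : ((v ^ 2 : ℕ) : k) = 1 := by
        push_cast
        rw [hvk, one_pow]
      rw [e1, e2, one_smul] at h4
      exact h4
    | add x y hx hy =>
      simp only [map_add, smul_add]
      have := congrArg₂ (· + ·) hx hy
      simp only [add_zero] at this
      rw [← this]
      abel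
  obtain ⟨w, hw⟩ := hzK
  have h3 := h2 w
  rw [hw] at h3
  set y := piX k (N * v) p z with hy
  have e3 : G (G (G y)) = (t Φ ^ 2 - 1) • G y - t Φ • y := by
    rw [h1, map_sub, map_smul, h1]
    module
  have e4 : G (G (G (G y))) = (t Φ ^ 3 - 2 * t Φ) • G y - (t Φ ^ 2 - 1) • y := by
    rw [e3, map_sub, map_smul, map_smul, h1]
    module
  rw [e4, h1] at h3
  have e5 : (t Φ ^ 2 - 4) • (t Φ • G y - y) = 0 := by
    rw [← h3]
    module
  have e6 : t Φ • G y - y = 0 := (smul_eq_zero.1 e5).resolve_left (sub_ne_zero.2 htΦ)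
  rw [← h1] at e6
  have e7 := GX_eq_zero ι Φ (GX_eq_zero ι Φ e6)
  exact piX_injective (by rw [← hy, e7, map_zero])

end

end Fermat.Agent.TW
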