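import Fermat.Agent.TW.DvrX

/-!
# Eigenvectors over finite extensions of a complete discrete valuation ring
-/

set_option autoImplicit false
set_option linter.unusedSectionVars false
set_option linter.style.haveILetI false

namespace Fermat.Agent.TW

open IsLocalRing
open scoped TensorProduct

noncomputable section

section ev

variable {L I : Type} [AddCommGroup L] (f : I → Module.End ℤ L) (hf : ∀ i j, Commute (f i) (f j))

include hf in
theorem bc_comm (A : Type) [CommRing A] (i j : I) :
    Commute ((f i).baseChange A : Module.End A (A ⊗[ℤ] L)) ((f j).baseChange A) := by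
  have h := hf i j
  rw [Commute, SemiconjBy] at h ⊢
  change LinearMap.baseChange A _ ∘ₗ LinearMap.baseChange A _ =
    LinearMap.baseChange A _ ∘ₗ LinearMap.baseChange A _
  rw [← LinearMap.baseChange_comp, ← LinearMap.baseChange_comp]
  exact congrArg _ h

/-- the evaluation over `A` -/
abbrev evA (A : Type) [CommRing A] : MvPolynomial I A →ₐ[A] Module.End A (A ⊗[ℤ] L) :=
  evC (fun i => (f i).baseChange A) (bc_comm f hf A)

theorem evA_map {A B : Type} [CommRing A] [CommRing B] (j : A →+* B) (s : MvPolynomial I A) :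
    ∀ x : A ⊗[ℤ] L, cc j L (evA f hf A s x) = evA f hf B (MvPolynomial.map j s) (cc j L x) := by
  induction s using MvPolynomial.induction_on with
  | C r =>
    intro x
    rw [MvPolynomial.map_C, evC_C, evC_C, Module.algebraMap_end_apply, Module.algebraMap_end_apply,
      cc_smul]
  | add p q hp hq =>
    intro x
    rw [map_add, map_add, map_add, LinearMap.add_apply, LinearMap.add_apply, map_add, hp, hq]
  | mul_X p i hp =>
    intro x
    rw [map_mul, map_mul, map_mul, Module.End.mul_apply, Module.End.mul_apply, hp, MvPolynomial.map_X,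
      evC_X, evC_X, cc_baseChange]

theorem evA_eig {A : Type} [CommRing A] {μ : I → A} {y : A ⊗[ℤ] L}
    (hy : ∀ i, (f i).baseChange A y = μ i • y) (s : MvPolynomial I A) :
    evA f hf A s y = MvPolynomial.eval μ s • y := by
  induction s using MvPolynomial.induction_on with
  | C r => rw [evC_C, Module.algebraMap_end_apply, MvPolynomial.eval_C]
  | add p q hp hq => rw [map_add, LinearMap.add_apply, hp, hq, map_add, add_smul]
  | mul_X p i hp =>
    rw [map_mul, Module.End.mul_apply, evC_X, hy, map_smul, hp, map_mul, MvPolynomial.eval_X,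
      smul_smul, mul_comm]

end ev

section main

/-- a good discrete valuation ring between `O` and a field -/
structure DvrIn (O : Type) [CommRing O] [IsLocalRing O] {Kb : Type} [Field Kb] (j₀ : O →+* Kb)
    (s : Set Kb) where
  A : Type
  [i1 : CommRing A]
  [i2 : IsDomain A]
  [i3 : IsDiscreteValuationRing A]
  [i4 : CharZero A]
  [i5 : Algebra O A]
  j : A →+* Kb
  inj : Function.Injective j
  comp : ∀ a, j (algebraMap O A a) = j₀ a
  max : ∀ a ∈ maximalIdeal O, algebraMap O A a ∈ maximalIdeal A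
  den : ∀ x ∈ s, ∃ d e : A, d ≠ 0 ∧ j d * x = j e
  int : ∀ x, j₀.IsIntegralElem x → x ∈ Subfield.closure (Set.range j₀ ∪ s) → ∃ e, j e = x

attribute [instance] DvrIn.i1 DvrIn.i2 DvrIn.i3 DvrIn.i4 DvrIn.i5

/-- **eigenvectors over a finite extension** -/
theorem exists_dvr_eig_aux (O : Type) [CommRing O] [IsLocalRing O] {Kb : Type} [Field Kb]
    [IsAlgClosed Kb] {j₀ : O →+* Kb} (hj₀ : Function.Injective j₀)
    (hdvr : ∀ s : Set Kb, s.Finite → Nonempty (DvrIn O j₀ s))
    {L I : Type} [AddCommGroup L] [Module.Finite ℤ L] [Module.Free ℤ L]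
    (f : I → Module.End ℤ L) (hf : ∀ i j, Commute (f i) (f j)) (W : Submodule O (O ⊗[ℤ] L))
    (hW : W ≠ ⊥) (hst : ∀ i, ∀ x ∈ W, (f i).baseChange O x ∈ W) :
    ∃ (A : Type) (_ : CommRing A) (_ : IsDomain A) (_ : IsDiscreteValuationRing A)
      (_ : CharZero A) (_ : Algebra O A), (∀ a ∈ maximalIdeal O, algebraMap O A a ∈ maximalIdeal A) ∧
      Function.Injective (algebraMap O A) ∧ ∃ (y : A ⊗[ℤ] L) (μ : I → A), y ≠ 0 ∧
        (∀ i, (f i).baseChange A y = μ i • y) ∧
        ∀ s : MvPolynomial I O, (∀ x ∈ W, evA f hf O s x = 0) → MvPolynomial.aeval μ s = 0 := by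
  classical
  let Wb : Submodule Kb (Kb ⊗[ℤ] L) := Submodule.span Kb (cc j₀ L '' W)
  have hWb0 : Wb ≠ ⊥ := by
    obtain ⟨w, hw, hw0⟩ := (Submodule.ne_bot_iff W).1 hW
    intro h
    have h1 : cc j₀ L w ∈ Wb := Submodule.subset_span ⟨w, hw, rfl⟩
    rw [h, Submodule.mem_bot] at h1
    exact hw0 (cc_injective hj₀ L (by rw [h1, map_zero]))
  have hev : ∀ s : MvPolynomial I O, (∀ x ∈ W, evA f hf O s x = 0) → ∀ z ∈ Wb,
      evA f hf Kb (MvPolynomial.map j₀ s) z = 0 := by
    intro s hs z hz
    induction hz using Submodule.span_induction with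
    | mem y hy =>
      obtain ⟨w, hw, rfl⟩ := hy
      rw [← evA_map, hs w hw, map_zero]
    | zero => rw [map_zero]
    | add y z _ _ hy hz => rw [map_add, hy, hz, add_zero]
    | smul a y _ hy => rw [map_smul, hy, smul_zero]
  obtain ⟨x, hxW, hx0, hx⟩ := exists_common_eig (fun i => (f i).baseChange Kb) (bc_comm f hf Kb) Wb
    hWb0 (fun i x hx => by
      induction hx using Submodule.span_induction with
      | mem y hy =>
        obtain ⟨w, hw, rfl⟩ := hy
        rw [← cc_baseChange]
        exact Submodule.subset_span ⟨_, hst i w hw, rfl⟩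
      | zero => rw [map_zero]; exact Submodule.zero_mem _
      | add y z _ _ hy hz => rw [map_add]; exact Submodule.add_mem _ hy hz
      | smul a y _ hy => rw [map_smul]; exact Submodule.smul_mem _ _ hy)
  choose μ hμ using hx
  let b := Module.Free.chooseBasis ℤ L
  let bK : Module.Basis (Module.Free.ChooseBasisIndex ℤ L) Kb (Kb ⊗[ℤ] L) :=
    Algebra.TensorProduct.basis Kb b
  have hbK : ∀ i, bK i = 1 ⊗ₜ b i := fun i => Algebra.TensorProduct.basis_apply b i
  let c : Module.Free.ChooseBasisIndex ℤ L → Kb := fun i => bK.repr x i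
  have hxc : x = ∑ i, c i • ((1 : Kb) ⊗ₜ[ℤ] b i) := by
    have h0 := bK.sum_repr x
    refine h0.symm.trans (Finset.sum_congr rfl fun i _ => ?_)
    rw [hbK]
  obtain ⟨j₁, hj₁⟩ : ∃ j, c j ≠ 0 := by
    by_contra hne
    push Not at hne
    apply hx0
    rw [hxc]
    exact Finset.sum_eq_zero fun i _ => by rw [hne, zero_smul]
  obtain ⟨X⟩ := hdvr (Set.range c) (Set.finite_range c)
  have hcL : ∀ i, c i ∈ Subfield.closure (Set.range j₀ ∪ Set.range c) := fun i =>
    Subfield.subset_closure (Or.inr ⟨i, rfl⟩)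
  -- the eigenvalues
  have hμL : ∀ i, μ i ∈ Subfield.closure (Set.range j₀ ∪ Set.range c) := by
    intro i
    have h1 : μ i * c j₁ = ∑ l, c l * ((b.repr (f i (b l)) j₁ : ℤ) : Kb) := by
      have h2 := hμ i
      have h3 : (f i).baseChange Kb x = ∑ l, c l • ((1 : Kb) ⊗ₜ[ℤ] f i (b l)) := by
        conv_lhs => rw [hxc]
        rw [map_sum]
        exact Finset.sum_congr rfl fun l _ => by rw [map_smul, LinearMap.baseChange_tmul]
      have h4 : bK.repr ((f i).baseChange Kb x) j₁ = μ i * c j₁ := by
        rw [h2, map_smul, Finsupp.smul_apply, smul_eq_mul]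
      rw [← h4, h3, map_sum, Finsupp.finset_sum_apply]
      refine Finset.sum_congr rfl fun l _ => ?_
      rw [map_smul, Finsupp.smul_apply, smul_eq_mul]
      congr 1
      rw [Algebra.TensorProduct.basis_repr_tmul, Finsupp.smul_apply, Finsupp.mapRange_apply,
        smul_eq_mul, one_mul]
      rfl
    have h2 : μ i = (∑ l, c l * ((b.repr (f i (b l)) j₁ : ℤ) : Kb)) * (c j₁)⁻¹ := by
      rw [← h1, mul_assoc, mul_inv_cancel₀ hj₁, mul_one]
    rw [h2]
    exact mul_mem (sum_mem fun l _ => mul_mem (hcL l) (intCast_mem _ _)) (inv_mem (hcL _))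
  have hμI : ∀ i, j₀.IsIntegralElem (μ i) := by
    intro i
    obtain ⟨P, hP, hP0⟩ := (Algebra.IsIntegral.of_finite ℤ (Module.End ℤ L)).isIntegral (f i)
    have h1 : Polynomial.aeval ((f i).baseChange Kb) P = 0 := by
      have h2 : (f i).baseChange Kb = Module.End.baseChangeHom ℤ Kb L (f i) := rfl
      rw [h2, Polynomial.aeval_algHom_apply]
      have h3 : Polynomial.aeval (f i) P = 0 := hP0
      rw [h3, map_zero]
    have h2 : Module.End.HasEigenvector ((f i).baseChange Kb : Module.End Kb (Kb ⊗[ℤ] L)) (μ i) x :=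
      Module.End.hasEigenvector_iff.2 ⟨Module.End.mem_eigenspace_iff.2 (hμ i), hx0⟩
    have h3 := Module.End.aeval_apply_of_hasEigenvector (p := P.map (algebraMap ℤ Kb)) h2
    rw [Polynomial.aeval_map_algebraMap, h1, LinearMap.zero_apply] at h3
    have h4 := (smul_eq_zero.1 h3.symm).resolve_right hx0
    refine ⟨P.map (algebraMap ℤ O), hP.map _, ?_⟩
    rw [Polynomial.eval₂_map]
    rw [Polynomial.eval_map] at h4
    rw [← h4]
    congr 1
    exact RingHom.ext_int _ _
  choose ν hν using fun i => X.int (μ i) (hμI i) (hμL i)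
  -- denominators
  choose d e hd hde using fun i => X.den (c i) ⟨i, rfl⟩
  let D : X.A := ∏ i, d i
  have hD0 : D ≠ 0 := Finset.prod_ne_zero_iff.2 fun i _ => hd i
  let e' : Module.Free.ChooseBasisIndex ℤ L → X.A := fun i =>
    (∏ l ∈ Finset.univ.erase i, d l) * e i
  have he' : ∀ i, X.j (e' i) = X.j D * c i := by
    intro i
    have h1 : D = d i * ∏ l ∈ Finset.univ.erase i, d l :=
      (Finset.mul_prod_erase Finset.univ d (Finset.mem_univ i)).symm
    rw [h1, map_mul, map_mul, ← hde]
    ring
  let y : X.A ⊗[ℤ] L := ∑ i, e' i ⊗ₜ[ℤ] b i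
  have hy : cc X.j L y = X.j D • x := by
    rw [map_sum]
    conv_rhs => rw [hxc]
    rw [Finset.smul_sum]
    refine Finset.sum_congr rfl fun i _ => ?_
    rw [cc_tmul, he', smul_smul, TensorProduct.smul_tmul', smul_eq_mul, mul_one]
  have hjD : X.j D ≠ 0 := fun h => hD0 (X.inj (by rw [h, map_zero]))
  have hOA : Function.Injective (algebraMap O X.A) := by
    intro a a' haa
    apply hj₀
    rw [← X.comp, ← X.comp, haa]
  refine ⟨X.A, X.i1, X.i2, X.i3, X.i4, X.i5, X.max, hOA, y, ν, ?_, fun i => ?_, fun s hs => ?_⟩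
  · intro h
    rw [h, map_zero, eq_comm, smul_eq_zero] at hy
    exact hy.elim hjD hx0
  · refine cc_injective X.inj L ?_
    rw [cc_baseChange, hy, map_smul, hμ, cc_smul, hy, hν, smul_comm]
  · apply X.inj
    have h1 : evA f hf Kb (MvPolynomial.map j₀ s) x = 0 := hev s hs x hxW
    rw [evA_eig f hf hμ, smul_eq_zero] at h1
    have h2 := h1.resolve_right hx0
    rw [MvPolynomial.eval_map] at h2
    rw [map_zero, ← h2, MvPolynomial.aeval_def, MvPolynomial.hom_eval₂]
    congr 1
    · exact RingHom.ext fun a => X.comp a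
    · funext i
      exact hν i

/-- **eigenvectors over a finite extension** -/
theorem exists_dvr_eig (O : Type) [CommRing O] [IsDomain O] [IsDiscreteValuationRing O]
    [IsAdicComplete (maximalIdeal O) O] [CharZero O]
    {L I : Type} [AddCommGroup L] [Module.Finite ℤ L] [Module.Free ℤ L]
    (f : I → Module.End ℤ L) (hf : ∀ i j, Commute (f i) (f j)) (W : Submodule O (O ⊗[ℤ] L))
    (hW : W ≠ ⊥) (hst : ∀ i, ∀ x ∈ W, (f i).baseChange O x ∈ W) :
    ∃ (A : Type) (_ : CommRing A) (_ : IsDomain A) (_ : IsDiscreteValuationRing A)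
      (_ : CharZero A) (_ : Algebra O A), (∀ a ∈ maximalIdeal O, algebraMap O A a ∈ maximalIdeal A) ∧
      Function.Injective (algebraMap O A) ∧ ∃ (y : A ⊗[ℤ] L) (μ : I → A), y ≠ 0 ∧
        (∀ i, (f i).baseChange A y = μ i • y) ∧
        ∀ s : MvPolynomial I O, (∀ x ∈ W, evA f hf O s x = 0) → MvPolynomial.aeval μ s = 0 := by
  have hj₀ : Function.Injective (algebraMap O (AlgebraicClosure (FractionRing O))) := by
    have h1 : (algebraMap O (AlgebraicClosure (FractionRing O)) : O → _) =
      algebraMap (FractionRing O) _ ∘ algebraMap O (FractionRing O) := rfl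
    rw [h1]
    exact (algebraMap (FractionRing O) _).injective.comp (IsFractionRing.injective O _)
  refine exists_dvr_eig_aux O hj₀ (fun s hs => ?_) f hf W hW hst
  obtain ⟨A, i1, i2, i3, i4, i5, j, hj, hjO, hmax, hden, hint⟩ := exists_dvr O s hs
  refine ⟨{ A := A, j := j, inj := hj, comp := hjO, max := hmax, den := hden,
            int := fun x hx hx' => hint x hx ?_ }⟩
  have h1 : Subfield.closure (Set.range (algebraMap O (AlgebraicClosure (FractionRing O))) ∪ s) ≤
      (IntermediateField.adjoin (FractionRing O) s).toSubfield := by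
    rw [Subfield.closure_le]
    rintro _ (⟨a, rfl⟩ | ha)
    · exact (IntermediateField.adjoin (FractionRing O) s).algebraMap_mem (algebraMap O _ a)
    · exact IntermediateField.subset_adjoin _ _ ha
  exact h1 hx'

end main

end

end Fermat.Agent.TW
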