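import Fermat.Agent.CL.Padic
import Fermat.Agent.TW.FreeAbs

/-!
# Eigenvectors over finite extensions of a complete discrete valuation ring
-/

set_option autoImplicit false
set_option linter.unusedSectionVars false
set_option linter.style.haveILetI false

namespace Fermat.Agent.TW

open IsLocalRing
open scoped TensorProduct

noncomputable section

section dvr

variable (O : Type) [CommRing O] [IsDomain O] [IsDiscreteValuationRing O]
  [IsAdicComplete (maximalIdeal O) O] [CharZero O]

/-- finite extensions of a complete discrete valuation ring -/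
theorem exists_dvr (s : Set (AlgebraicClosure (FractionRing O))) (hs : s.Finite) :
    ∃ (A : Type) (_ : CommRing A) (_ : IsDomain A) (_ : IsDiscreteValuationRing A)
      (_ : CharZero A) (_ : Algebra O A) (j : A →+* AlgebraicClosure (FractionRing O)),
      Function.Injective j ∧ (∀ a, j (algebraMap O A a) = algebraMap O _ a) ∧
      (∀ a ∈ maximalIdeal O, algebraMap O A a ∈ maximalIdeal A) ∧
      (∀ x ∈ s, ∃ d e : A, d ≠ 0 ∧ j d * x = j e) ∧
      ∀ x, IsIntegral O x → x ∈ IntermediateField.adjoin (FractionRing O) s → ∃ e, j e = x := by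
  classical
  let K := FractionRing O
  let Kb := AlgebraicClosure K
  haveI : CharZero K := charZero_of_injective_algebraMap (IsFractionRing.injective O K)
  haveI : CharZero Kb := charZero_of_injective_algebraMap (algebraMap K Kb).injective
  let L : IntermediateField K Kb := IntermediateField.adjoin K s
  haveI hfin : FiniteDimensional K L := by
    haveI : Finite s := hs
    exact IntermediateField.finiteDimensional_adjoin fun x _ => Algebra.IsIntegral.isIntegral x
  let A : Type := integralClosure O L
  haveI : Module.Finite O A := IsIntegralClosure.finite O K L A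
  haveI : IsDedekindDomain A := integralClosure.isDedekindDomain O K L
  haveI : IsLocalRing A := CL.isLocalRing_of_finite (𝒪 := O) A
  have hinj : Function.Injective (algebraMap O A) := by
    intro a b hab
    have h1 : algebraMap O L a = algebraMap O L b := congrArg Subtype.val hab
    rw [IsScalarTower.algebraMap_apply O K L, IsScalarTower.algebraMap_apply O K L] at h1
    exact IsFractionRing.injective O K ((algebraMap K L).injective h1)
  haveI : FaithfulSMul O A := (faithfulSMul_iff_algebraMap_injective O A).mpr hinj
  haveI : Algebra.IsIntegral O A := inferInstance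
  haveI : IsLocalHom (algebraMap O A) := inferInstance
  haveI : CharZero A := charZero_of_injective_algebraMap hinj
  have hmax : ∀ a ∈ maximalIdeal O, algebraMap O A a ∈ maximalIdeal A := by
    intro a ha
    rw [mem_maximalIdeal, mem_nonunits_iff, isUnit_map_iff]
    exact ha
  have hnf : ¬ IsField A := by
    intro hf
    letI := hf.toField
    obtain ⟨ϖ, hϖ⟩ := IsDiscreteValuationRing.exists_irreducible O
    have h0 : algebraMap O A ϖ ≠ 0 := fun h => hϖ.ne_zero (hinj (by rw [h, map_zero]))
    exact hmax ϖ (by rw [hϖ.maximalIdeal_eq]; exact Ideal.mem_span_singleton_self _)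
      (isUnit_iff_ne_zero.mpr h0)
  haveI : IsDiscreteValuationRing A := ((IsDiscreteValuationRing.TFAE A hnf).out 0 2 :
    IsDiscreteValuationRing A ↔ IsDedekindDomain A).mpr inferInstance
  haveI : IsFractionRing A L := integralClosure.isFractionRing_of_finite_extension K L
  let j : A →+* Kb := (algebraMap L Kb).comp (algebraMap A L)
  refine ⟨A, inferInstance, inferInstance, inferInstance, inferInstance, inferInstance, j, ?_, ?_,
    hmax, ?_, ?_⟩
  · exact (algebraMap L Kb).injective.comp (IsFractionRing.injective A L)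
  · intro a
    rfl
  · intro x hx
    have hxL : x ∈ L := IntermediateField.subset_adjoin K s hx
    obtain ⟨e, d, hd⟩ := IsLocalization.exists_mk'_eq (nonZeroDivisors A) (⟨x, hxL⟩ : L)
    rw [IsLocalization.mk'_eq_iff_eq_mul] at hd
    refine ⟨d, e, nonZeroDivisors.coe_ne_zero d, ?_⟩
    have h1 := congrArg (algebraMap L Kb) hd
    rw [map_mul] at h1
    change (algebraMap L Kb) (algebraMap A L d) * x = (algebraMap L Kb) (algebraMap A L e)
    rw [h1, mul_comm]
    rfl
  · intro x hx hxL
    haveI : IsScalarTower O L Kb := IsScalarTower.of_algebraMap_eq fun a => rfl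
    have h1 : IsIntegral O (⟨x, hxL⟩ : L) := by
      refine (isIntegral_algHom_iff (IsScalarTower.toAlgHom O L Kb) ?_).1 hx
      exact (algebraMap L Kb).injective
    exact ⟨⟨⟨x, hxL⟩, h1⟩, rfl⟩

end dvr

section eig

/-- common eigenvectors of commuting operators over an algebraically closed field -/
theorem exists_common_eig {k V I : Type*} [Field k] [IsAlgClosed k] [AddCommGroup V] [Module k V]
    [Module.Finite k V] (g : I → Module.End k V) (hcomm : ∀ i j, Commute (g i) (g j))
    (W : Submodule k V) (hW : W ≠ ⊥) (hst : ∀ i, ∀ x ∈ W, g i x ∈ W) :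
    ∃ x ∈ W, x ≠ 0 ∧ ∀ i, ∃ c : k, g i x = c • x := by
  classical
  obtain ⟨U, ⟨hU0, hUW, hUst⟩, hmin⟩ := IsArtinian.set_has_minimal
    {U : Submodule k V | U ≠ ⊥ ∧ U ≤ W ∧ ∀ i, ∀ x ∈ U, g i x ∈ U} ⟨W, hW, le_rfl, hst⟩
  obtain ⟨x, hx, hx0⟩ := (Submodule.ne_bot_iff U).1 hU0
  refine ⟨x, hUW hx, hx0, fun i => ?_⟩
  haveI : Nontrivial U := Submodule.nontrivial_iff_ne_bot.2 hU0
  obtain ⟨c, hc⟩ := Module.End.exists_eigenvalue ((g i).restrict (hUst i))
  obtain ⟨y, hy⟩ := hc.exists_hasEigenvector
  refine ⟨c, ?_⟩
  let K : Submodule k V := U ⊓ LinearMap.ker (g i - c • 1)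
  have hK0 : K ≠ ⊥ := by
    intro h
    have h1 : (y : V) ∈ K := by
      refine ⟨y.2, ?_⟩
      change (g i - c • (1 : Module.End k V)) y = 0
      rw [LinearMap.sub_apply, LinearMap.smul_apply, Module.End.one_apply,
        sub_eq_zero]
      exact congrArg Subtype.val hy.apply_eq_smul
    rw [h, Submodule.mem_bot] at h1
    exact hy.2 (Subtype.ext h1)
  have hKst : ∀ j, ∀ z ∈ K, g j z ∈ K := by
    intro j z hz
    refine ⟨hUst j z hz.1, ?_⟩
    have h1 : (g i - c • 1) (g j z) = g j ((g i - c • 1) z) := by
      have h2 := LinearMap.congr_fun (hcomm i j) z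
      rw [Module.End.mul_apply, Module.End.mul_apply] at h2
      simp only [LinearMap.sub_apply, LinearMap.smul_apply, Module.End.one_apply, map_sub, map_smul,
        h2]
    have h3 : (g i - c • 1) z = 0 := hz.2
    change (g i - c • (1 : Module.End k V)) (g j z) = 0
    rw [h1, h3, map_zero]
  have hKU : K = U := by
    by_contra hne
    exact hmin K ⟨hK0, inf_le_left.trans hUW, hKst⟩ (lt_of_le_of_ne inf_le_left hne)
  have h1 : x ∈ K := by rw [hKU]; exact hx
  have h2 : (g i - c • 1) x = 0 := h1.2
  rwa [LinearMap.sub_apply, LinearMap.smul_apply, Module.End.one_apply, sub_eq_zero] at h2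

/-- change of coefficients -/
def cc {A B : Type} [CommRing A] [CommRing B] (j : A →+* B) (L : Type) [AddCommGroup L] :
    A ⊗[ℤ] L →+ B ⊗[ℤ] L :=
  (TensorProduct.map (j : A →+ B).toIntLinearMap LinearMap.id).toAddMonoidHom

theorem cc_tmul {A B : Type} [CommRing A] [CommRing B] (j : A →+* B) {L : Type} [AddCommGroup L]
    (a : A) (x : L) : cc j L (a ⊗ₜ x) = j a ⊗ₜ x := rfl

theorem cc_smul {A B : Type} [CommRing A] [CommRing B] (j : A →+* B) {L : Type} [AddCommGroup L]
    (a : A) (x : A ⊗[ℤ] L) : cc j L (a • x) = j a • cc j L x := by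
  induction x using TensorProduct.induction_on with
  | zero => rw [smul_zero, map_zero, smul_zero]
  | tmul b x => rw [TensorProduct.smul_tmul', cc_tmul, cc_tmul, TensorProduct.smul_tmul',
      smul_eq_mul, smul_eq_mul, map_mul]
  | add x y hx hy => rw [smul_add, map_add, map_add, smul_add, hx, hy]

theorem cc_baseChange {A B : Type} [CommRing A] [CommRing B] (j : A →+* B) {L L' : Type}
    [AddCommGroup L] [AddCommGroup L'] (f : L →ₗ[ℤ] L') (x : A ⊗[ℤ] L) :
    cc j L' (f.baseChange A x) = f.baseChange B (cc j L x) := by
  induction x using TensorProduct.induction_on with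
  | zero => rw [map_zero, map_zero, map_zero, map_zero]
  | tmul b x => rfl
  | add x y hx hy => rw [map_add, map_add, map_add, map_add, hx, hy]

theorem cc_injective {A B : Type} [CommRing A] [CommRing B] {j : A →+* B}
    (hj : Function.Injective j) (L : Type) [AddCommGroup L] [Module.Flat ℤ L] :
    Function.Injective (cc j L) := by
  have h1 := Module.Flat.rTensor_preserves_injective_linearMap (M := L)
    (j : A →+ B).toIntLinearMap hj
  exact h1

end eig

end

end Fermat.Agent.TW
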