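import Fermat.Agent.Kum.Final
import Fermat.Agent.KumG.PseudoD
import Fermat.Agent.ALCoh.Kill

/-!
# The Galois action on mod `p` Hecke eigenvectors
-/

set_option autoImplicit false
set_option linter.unusedSectionVars false
set_option linter.style.haveILetI false

open scoped TensorProduct

namespace Fermat.Agent.TW

open Fermat.Agent.Kum Fermat.Agent.GalRep Fermat.Agent.HeckeHom Fermat.Agent.ALCoh

noncomputable section

variable {N p : ℕ} [NeZero N] [hp : Fact p.Prime] {k : Type} [Field k] {S : Set ℕ}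

/-- extension of scalars of an additive endomorphism -/
def bk (k : Type) [Field k] {X Y : Type} [AddCommGroup X] [AddCommGroup Y] (f : X →+ Y) :
    k ⊗[ℤ] X →ₗ[k] k ⊗[ℤ] Y := f.toIntLinearMap.baseChange k

theorem bk_tmul {X Y : Type} [AddCommGroup X] [AddCommGroup Y] (f : X →+ Y) (c : k) (x : X) :
    bk k f (c ⊗ₜ x) = c ⊗ₜ (f x) := rfl

theorem bk_ext {X : Type} [AddCommGroup X] {M : Type} [AddCommGroup M] [Module k M]
    {f g : k ⊗[ℤ] X →ₗ[k] M} (h : ∀ x, f (1 ⊗ₜ x) = g (1 ⊗ₜ x)) (z : k ⊗[ℤ] X) : f z = g z := by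
  induction z using TensorProduct.induction_on with
  | zero => rw [map_zero, map_zero]
  | tmul a x =>
    have h1 : (a ⊗ₜ[ℤ] x : k ⊗[ℤ] X) = a • (1 ⊗ₜ x) := by
      rw [TensorProduct.smul_tmul', smul_eq_mul, mul_one]
    rw [h1, map_smul, map_smul, h]
  | add x y hx hy => rw [map_add, map_add, hx, hy]

/-- the Galois action as an additive map -/
def rX (N p : ℕ) [NeZero N] [NeZero p] (ι : AlgebraicClosure ℚ →+* ℂ) (σ : GQ) :
    XL N p →+ XL N p := AddMonoidHom.mk' (rhoF ι p σ) (rhoF_add ι σ)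

theorem rX_apply [NeZero p] (ι : AlgebraicClosure ℚ →+* ℂ) (σ : GQ) (ξ : XL N p) :
    rX N p ι σ ξ = rhoF ι p σ ξ := rfl

/-- the Hecke action as an additive map -/
def tX (N p : ℕ) [NeZero N] [NeZero p] {S : Set ℕ} (hNS : ∀ q : ℕ, q.Prime → q ∣ N → q ∈ S)
    (P : MvPolynomial (sg S) ℤ) : XL N p →+ XL N p := actX N p S (evT hNS P)

section tX

variable [NeZero p] (hNS : ∀ q : ℕ, q.Prime → q ∣ N → q ∈ S)

theorem tX_C (a : ℤ) (ξ : XL N p) : tX N p hNS (MvPolynomial.C a) ξ = a • ξ := by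
  have h1 : (MvPolynomial.C a : MvPolynomial (sg S) ℤ) = (a : MvPolynomial (sg S) ℤ) := by simp
  change (actX N p S (evT hNS (MvPolynomial.C a))) ξ = _
  rw [h1, map_intCast, map_intCast]
  exact AddMonoid.End.intCast_apply a ξ

theorem tX_add (P Q : MvPolynomial (sg S) ℤ) (ξ : XL N p) :
    tX N p hNS (P + Q) ξ = tX N p hNS P ξ + tX N p hNS Q ξ := by
  change (actX N p S (evT hNS (P + Q))) ξ = _
  rw [map_add, map_add]
  rfl

theorem tX_mul (P Q : MvPolynomial (sg S) ℤ) (ξ : XL N p) :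
    tX N p hNS (P * Q) ξ = tX N p hNS P (tX N p hNS Q ξ) := by
  change (actX N p S (evT hNS (P * Q))) ξ = _
  rw [map_mul, map_mul]
  rfl

theorem tX_X (l : sg S) (φ : LZ N) : tX N p hNS (MvPolynomial.X l) (mkX φ) =
    mkX (actL N S (CuspForm.heckeAlgebra.T l.2.1 (fun h => l.2.2 (hNS l l.2.1 h)) l.2.2) φ) := by
  change actX N p S (evT hNS (MvPolynomial.X l)) (mkX φ) = _
  rw [evT_X]
  rfl

theorem rX_tX (ι : AlgebraicClosure ℚ →+* ℂ) (σ : GQ) (P : MvPolynomial (sg S) ℤ) (ξ : XL N p) :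
    rX N p ι σ (tX N p hNS P ξ) = tX N p hNS P (rX N p ι σ ξ) := by
  induction P using MvPolynomial.induction_on generalizing ξ with
  | C a => rw [tX_C, tX_C, map_zsmul]
  | add P P' ih ih' => rw [tX_add, tX_add, map_add, ih, ih']
  | mul_X P l ih =>
    rw [tX_mul, tX_mul, ih]
    congr 1
    change rhoF ι p σ (actX N p S (evT hNS (MvPolynomial.X l)) ξ) =
      actX N p S (evT hNS (MvPolynomial.X l)) (rhoF ι p σ ξ)
    rw [evT_X]
    haveI : NeZero (l : ℕ) := ⟨l.2.1.ne_zero⟩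
    exact rhoF_T ι l.2.1 _ l.2.2 σ ξ

end tX

/-- `z` is an eigenvector of all `T_ℓ`, `ℓ ∉ S`, with eigenvalues `θ`. -/
def IsEigX (S : Set ℕ) (hNS : ∀ q : ℕ, q.Prime → q ∣ N → q ∈ S) (θ : sg S → k)
    [NeZero p] (z : k ⊗[ℤ] XL N p) : Prop :=
  ∀ l : sg S, bk k (tX N p hNS (MvPolynomial.X l)) z = θ l • z

/-- evaluation of abstract Hecke operators at an eigensystem -/
def evθ (θ : sg S → k) : MvPolynomial (sg S) ℤ →+* k :=
  MvPolynomial.eval₂Hom (Int.castRingHom k) θ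

theorem IsEigX.ev [NeZero p] {hNS : ∀ q : ℕ, q.Prime → q ∣ N → q ∈ S} {θ : sg S → k}
    {z : k ⊗[ℤ] XL N p} (hz : IsEigX S hNS θ z) (P : MvPolynomial (sg S) ℤ) :
    bk k (tX N p hNS P) z = evθ θ P • z := by
  induction P using MvPolynomial.induction_on with
  | C a =>
    have h1 : evθ θ (MvPolynomial.C a : MvPolynomial (sg S) ℤ) = (a : k) := by
      rw [evθ, MvPolynomial.coe_eval₂Hom, MvPolynomial.eval₂_C]
      rfl
    rw [h1]
    refine bk_ext (f := bk k (tX N p hNS (MvPolynomial.C a))) (g := (a : k) • LinearMap.id)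
      (fun x => ?_) z
    rw [bk_tmul, LinearMap.smul_apply, LinearMap.id_apply, tX_C, TensorProduct.tmul_smul,
      ← Int.cast_smul_eq_zsmul k]
  | add P P' ih ih' =>
    rw [map_add, add_smul, ← ih, ← ih']
    refine bk_ext (f := bk k (tX N p hNS (P + P')))
      (g := bk k (tX N p hNS P) + bk k (tX N p hNS P')) (fun x => ?_) z
    rw [LinearMap.add_apply, bk_tmul, bk_tmul, bk_tmul, ← TensorProduct.tmul_add, tX_add]
  | mul_X P l ih =>
    rw [map_mul]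
    have h1 : bk k (tX N p hNS (P * MvPolynomial.X l)) z =
        bk k (tX N p hNS P) (bk k (tX N p hNS (MvPolynomial.X l)) z) := by
      refine bk_ext (f := bk k (tX N p hNS (P * MvPolynomial.X l)))
        (g := bk k (tX N p hNS P) ∘ₗ bk k (tX N p hNS (MvPolynomial.X l)))
        (fun x => ?_) z
      rw [LinearMap.comp_apply, bk_tmul, bk_tmul, bk_tmul, tX_mul]
    rw [h1, hz l, map_smul, ih, smul_smul]
    congr 1
    rw [mul_comm]
    congr 1
    exact (MvPolynomial.eval₂_X _ _ _).symm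

/-- **The Galois action on Hecke eigenvectors.** -/
theorem eig_trace [CharP k p] (hS : S.Finite) (hpS : p ∈ S)
    (hNS : ∀ q : ℕ, q.Prime → q ∣ N → q ∈ S) (ι : AlgebraicClosure ℚ →+* ℂ) {θ : sg S → k}
    {t D : GQ → k} (ht : IsPseudoRep t D) (htc : IsLocConst t)
    (hfrob : ∀ l : sg S, ∀ A : ValuationSubring (AlgebraicClosure ℚ),
      A.LiesOverPrime (l : ℕ) → ∀ τ : GQ, A.IsFrobeniusAt τ (l : ℕ) → t τ = θ l ∧ D τ = (l : ℕ))
    {z : k ⊗[ℤ] XL N p} (hz : IsEigX S hNS θ z) (hz0 : z ≠ 0) (g : GQ) :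
    bk k (rX N p ι g) z + (cyc p g).val • bk k (rX N p ι g⁻¹) z = t g • z := by
  classical
  letI : Module (MvPolynomial (sg S) ℤ) (XL N p) :=
    Module.compHom (XL N p) ((actX N p S).comp (evT hNS))
  have hsm : ∀ (P : MvPolynomial (sg S) ℤ) (ξ : XL N p), P • ξ = tX N p hNS P ξ :=
    fun _ _ => rfl
  let ρ : GQ →* Module.End (MvPolynomial (sg S) ℤ) (XL N p) :=
    { toFun := fun σ =>
        { toFun := rX N p ι σ
          map_add' := map_add _
          map_smul' := fun P ξ => rX_tX hNS ι σ P ξ }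
      map_one' := LinearMap.ext fun ξ => rhoF_one ι ξ
      map_mul' := fun σ τ => LinearMap.ext fun ξ => rhoF_mul ι σ τ ξ }
  have hρ : ∀ σ ξ, ρ σ ξ = rX N p ι σ ξ := fun _ _ => rfl
  let a : ℕ → MvPolynomial (sg S) ℤ := fun l =>
    if h : l.Prime ∧ l ∉ S then MvPolynomial.X ⟨l, h⟩ else 0
  have hcop : ∀ ℓ : ℕ, ℓ.Prime → ℓ ∉ S → Nat.Coprime ℓ p := by
    intro ℓ hℓ hℓS
    refine (Nat.coprime_primes hℓ hp.out).mpr ?_
    rintro rfl
    exact hℓS hpS
  have hker : ∀ P : MvPolynomial (sg S) ℤ, (∀ ξ : XL N p, P • ξ = 0) →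
      P ∈ RingHom.ker (evθ θ) := by
    intro P hP
    rw [RingHom.mem_ker]
    have h1 := hz.ev P
    have h2 : bk k (tX N p hNS P) z = 0 :=
      bk_ext (f := bk k (tX N p hNS P)) (g := 0) (fun x => by
        rw [bk_tmul, ← hsm, hP, TensorProduct.tmul_zero]; rfl) z
    rw [h2] at h1
    exact (smul_eq_zero.1 h1.symm).resolve_right hz0
  obtain ⟨t', ht1, ht2, ht3, -, ht5⟩ := KumG.exists_pseudoRep_eps (R := MvPolynomial (sg S) ℤ)
    (X := XL N p) (ρ := ρ) (ε := 1) (M := p) (a := a) (I := RingHom.ker (evθ θ)) (S := S) hS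
    (fun ξ => by
      obtain ⟨φ, rfl⟩ := mkX_surjective ξ
      exact mkX_nsmul φ)
    hker
    (by
      obtain ⟨L, hL, h⟩ := exists_level_rhoF (N := N) (m := p) (K := AlgebraicClosure ℚ) ι
      exact ⟨L, hL, fun σ hσ => LinearMap.ext fun ξ => h σ hσ ξ⟩)
    ⟨⊥, inferInstance, fun σ _ => rfl⟩
    hcop
    (fun ℓ hℓ hℓS A hA τ hτ x => by
      have ha : a ℓ = MvPolynomial.X ⟨ℓ, hℓ, hℓS⟩ := dif_pos ⟨hℓ, hℓS⟩
      have hℓN : ¬ ℓ ∣ N := fun h => hℓS (hNS ℓ hℓ h)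
      have hℓp : ¬ ℓ ∣ p := (Nat.Prime.coprime_iff_not_dvd hℓ).1 (hcop ℓ hℓ hℓS)
      rw [ha, hsm, hρ, hρ, rX_apply, rX_apply, MonoidHom.one_apply, one_smul]
      change rhoF ι p τ (rhoF ι p τ x) -
        actX N p S (evT hNS (MvPolynomial.X ⟨ℓ, hℓ, hℓS⟩)) (rhoF ι p τ x) + ℓ • x = 0
      rw [evT_X]
      exact rhoF_frob ι (goodRed hℓ hℓN hℓp hA) hℓ hℓN hℓS hA hτ x)
  let φ : MvPolynomial (sg S) ℤ ⧸ RingHom.ker (evθ θ) →+* k := RingHom.kerLift (evθ θ)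
  have hφ : ∀ r, φ (Ideal.Quotient.mk _ r) = evθ θ r := fun r => rfl
  have e1 : (fun g => φ (t' g)) = t := by
    refine IsPseudoRep.t_eq_of_frobenius (ht1.comp φ) ht (ht2.comp φ) htc hS ?_
    intro ℓ hℓ hℓS A hA τ hτ
    have ha : a ℓ = MvPolynomial.X ⟨ℓ, hℓ, hℓS⟩ := dif_pos ⟨hℓ, hℓS⟩
    obtain ⟨h1, h2⟩ := hfrob ⟨ℓ, hℓ, hℓS⟩ A hA τ hτ
    refine ⟨?_, ?_⟩
    · rw [ht3 ℓ hℓ hℓS A hA τ hτ, ha, hφ, h1]
      exact MvPolynomial.eval₂_X _ _ _
    · rw [h2, hφ, MonoidHom.one_apply, mul_one, map_natCast]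
      have h3 : ((cyc p τ).val : k) = ((ℓ : ℕ) : k) := by
        rw [cyc_frobenius (hcop ℓ hℓ hℓS) hA hτ, ZMod.val_natCast]
        exact (CharP.cast_eq_iff_mod_eq k p).2 (Nat.mod_mod _ _)
      exact h3
  obtain ⟨r, hr, hr'⟩ := ht5 g
  have e2 : t g = evθ θ r := by
    rw [← e1]
    change φ (t' g) = _
    rw [hr, hφ]
  rw [e2, ← hz.ev r]
  refine bk_ext (f := bk k (rX N p ι g) + (cyc p g).val • bk k (rX N p ι g⁻¹))
    (g := bk k (tX N p hNS r)) (fun x => ?_) z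
  rw [LinearMap.add_apply, LinearMap.smul_apply, bk_tmul, bk_tmul, bk_tmul, ← hsm, ← hr' x,
    TensorProduct.tmul_add]
  congr 1
  rw [MonoidHom.one_apply, one_smul]
  exact (TensorProduct.tmul_smul _ _ _).symm

end

end Fermat.Agent.TW
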