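import Fermat.Agent.TW.KillE

/-!
# The Eisenstein operator `T_ℓ - ℓ - 1` kills the parabolic elements, `ℓ ≡ 1 mod N`
-/

set_option autoImplicit false

open Matrix.SpecialLinearGroup
open scoped MatrixGroups
open ModularGroup (S T)
open Fermat.Agent.AL Fermat.Agent.ALCoh Fermat.Agent.LevelRaise
open ModularCurve ModularCurve.Period

namespace Fermat.Agent.TW

noncomputable section

variable {N l : ℕ}

/-- every matrix of determinant divisible by `l` is a multiple of a standard representative -/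
theorem exists_dl_eq (hl : l.Prime) (A : M2) (hA : (l : ℤ) ∣ A.det) :
    ∃ (y : Option (Fin l)) (B : M2), A = B * dl l y := by
  have hp := Nat.prime_iff_prime_int.mp hl
  rw [Matrix.det_fin_two] at hA
  by_cases h0 : (l : ℤ) ∣ A 0 0
  · by_cases h1 : (l : ℤ) ∣ A 1 0
    · obtain ⟨a, ha⟩ := h0
      obtain ⟨c, hc⟩ := h1
      refine ⟨none, !![a, A 0 1; c, A 1 1], ?_⟩
      apply mat_ext <;> simp [AL.dl, Matrix.mul_apply, Fin.sum_univ_two, ha, hc, mul_comm]
    · obtain ⟨j, d, hd⟩ := exists_fin_solve hl h1 (A 1 1)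
      have h2 : (l : ℤ) ∣ A 0 1 - (j : ℕ) * A 0 0 := by
        have h3 : (l : ℤ) ∣ A 1 0 * (A 0 1 - (j : ℕ) * A 0 0) := by
          have e : A 1 0 * (A 0 1 - (j : ℕ) * A 0 0) = -(A 0 0 * A 1 1 - A 0 1 * A 1 0) +
              A 0 0 * (A 1 1 - (j : ℕ) * A 1 0) := by ring
          rw [e]
          exact dvd_add (dvd_neg.mpr hA) (Dvd.dvd.mul_left ⟨d, hd⟩ _)
        exact (hp.dvd_or_dvd h3).resolve_left h1
      obtain ⟨b, hb⟩ := h2
      refine ⟨some j, !![A 0 0, b; A 1 0, d], ?_⟩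
      apply mat_ext <;> simp [AL.dl, Matrix.mul_apply, Fin.sum_univ_two]
      · linarith
      · linarith
  · obtain ⟨j, b, hb⟩ := exists_fin_solve hl h0 (A 0 1)
    have h2 : (l : ℤ) ∣ A 1 1 - (j : ℕ) * A 1 0 := by
      have h3 : (l : ℤ) ∣ A 0 0 * (A 1 1 - (j : ℕ) * A 1 0) := by
        have e : A 0 0 * (A 1 1 - (j : ℕ) * A 1 0) = (A 0 0 * A 1 1 - A 0 1 * A 1 0) +
            A 1 0 * (A 0 1 - (j : ℕ) * A 0 0) := by ring
        rw [e]
        exact dvd_add hA (Dvd.dvd.mul_left ⟨b, hb⟩ _)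
      exact (hp.dvd_or_dvd h3).resolve_left h0
    obtain ⟨d, hd⟩ := h2
    refine ⟨some j, !![A 0 0, b; A 1 0, d], ?_⟩
    apply mat_ext <;> simp [AL.dl, Matrix.mul_apply, Fin.sum_univ_two]
    · linarith
    · linarith

/-- matrices of determinant `l`, with lower left entry divisible by `N` -/
theorem exists_GG_dl (hl : l.Prime) (hlN : ¬ l ∣ N) (A : M2) (hA : A.det = l)
    (hN : (N : ℤ) ∣ A 1 0) : ∃ (y : Option (Fin l)) (δ : GG N), A = ((δ : SL(2, ℤ)) : M2) * dl l y := by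
  obtain ⟨y, B, hB⟩ := exists_dl_eq hl A (by rw [hA])
  have hdet : B.det = 1 := by
    have h1 := congrArg Matrix.det hB
    rw [Matrix.det_mul, det_dl, hA] at h1
    have h2 : (l : ℤ) ≠ 0 := by exact_mod_cast hl.ne_zero
    exact mul_right_cancel₀ h2 (by rw [one_mul]; exact h1.symm)
  refine ⟨y, mkG B hdet ?_, hB⟩
  have h3 : A 1 0 = B 1 0 * dl l y 0 0 := by
    rw [hB]; simp [Matrix.mul_apply, Fin.sum_univ_two]
  rw [h3] at hN
  have hco : IsCoprime (N : ℤ) (dl l y 0 0) := by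
    cases y with
    | none =>
      have : dl l none 0 0 = (l : ℤ) := by simp [AL.dl]
      rw [this]
      exact Nat.isCoprime_iff_coprime.mpr ((Nat.Prime.coprime_iff_not_dvd hl).mpr hlN).symm
    | some j =>
      have : dl l (some j) 0 0 = 1 := by simp [AL.dl]
      rw [this]
      exact isCoprime_one_right
  exact hco.dvd_of_dvd_mul_right hN

/-- the representatives adapted to a cusp -/
def Dz (N l : ℕ) : Option (ZMod l) → M2
  | none => !![(l : ℤ), 0; 0, 1]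
  | some j => !![1, (N : ℤ) * (j.val : ℤ); 0, (l : ℤ)]

lemma det_Dz (x : Option (ZMod l)) : (Dz N l x).det = l := by
  cases x <;> simp [Dz, Matrix.det_fin_two_of]

/-- congruent to one -/
lemma Dz_eq (hN : (N : ℤ) ∣ (l : ℤ) - 1) (x : Option (ZMod l)) : ∃ E : M2,
    Dz N l x = 1 + (N : ℤ) • E := by
  obtain ⟨k, hk⟩ := hN
  have hk' : (l : ℤ) = 1 + N * k := by linarith
  cases x with
  | none =>
    refine ⟨!![k, 0; 0, 0], ?_⟩
    apply mat_ext <;> simp only [Dz, Matrix.add_apply, Matrix.smul_apply, smul_eq_mul,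
      Matrix.one_apply] <;> simp [hk']
  | some j =>
    refine ⟨!![0, (j.val : ℤ); 0, k], ?_⟩
    apply mat_ext <;> simp only [Dz, Matrix.add_apply, Matrix.smul_apply, smul_eq_mul,
      Matrix.one_apply] <;> simp [hk']

/-- the adapted family -/
def Rz (N l : ℕ) (z : SL(2, ℤ)) (x : Option (ZMod l)) : M2 :=
  ((z⁻¹ : SL(2, ℤ)) : M2) * Dz N l x * (z : M2)

variable {z : SL(2, ℤ)}

lemma det_Rz (x : Option (ZMod l)) : (Rz N l z x).det = l := by
  rw [Rz, Matrix.det_mul, Matrix.det_mul, det_Dz, (z⁻¹).det_coe, z.det_coe, one_mul, mul_one]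

lemma Rz_eq (hN : (N : ℤ) ∣ (l : ℤ) - 1) (x : Option (ZMod l)) : ∃ E : M2,
    Rz N l z x = 1 + (N : ℤ) • E := by
  obtain ⟨E, hE⟩ := Dz_eq hN x
  refine ⟨((z⁻¹ : SL(2, ℤ)) : M2) * E * (z : M2), ?_⟩
  rw [Rz, hE, Matrix.mul_add, Matrix.add_mul, Matrix.mul_one, ← Matrix.SpecialLinearGroup.coe_mul,
    inv_mul_cancel, Matrix.mul_smul, Matrix.smul_mul]
  simp

lemma Dz_inj (hl : l.Prime) (hlN : ¬ l ∣ N) {x y : Option (ZMod l)} {B : M2}
    (h : Dz N l x = B * Dz N l y) : x = y := by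
  haveI : NeZero l := ⟨hl.ne_zero⟩
  have hl0 : (l : ℤ) ≠ 0 := by exact_mod_cast hl.ne_zero
  have hnu : ¬ IsUnit (l : ℤ) := (Nat.prime_iff_prime_int.mp hl).not_isUnit
  have h00 := congrFun (congrFun h 0) 0
  have h01 := congrFun (congrFun h 0) 1
  have h10 := congrFun (congrFun h 1) 0
  have h11 := congrFun (congrFun h 1) 1
  cases x with
  | none =>
    cases y with
    | none => rfl
    | some j =>
      exfalso
      simp [Dz, Matrix.mul_apply, Fin.sum_univ_two, -ZMod.natCast_val] at h00 h01 h10 h11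
      rw [← h10] at h11
      exact hnu (isUnit_of_dvd_one ⟨B 1 1, by linarith⟩)
  | some i =>
    cases y with
    | none =>
      exfalso
      simp [Dz, Matrix.mul_apply, Fin.sum_univ_two, -ZMod.natCast_val] at h00 h01 h10 h11
      exact hnu (isUnit_of_dvd_one ⟨B 0 0, by linarith⟩)
    | some j =>
      simp [Dz, Matrix.mul_apply, Fin.sum_univ_two, -ZMod.natCast_val] at h00 h01 h10 h11
      rw [← h00] at h01
      have h1 : (l : ℤ) ∣ (N : ℤ) * ((i.val : ℤ) - j.val) := ⟨B 0 1, by linarith⟩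
      have h2 : (l : ℤ) ∣ (i.val : ℤ) - j.val := by
        refine ((Nat.prime_iff_prime_int.mp hl).dvd_or_dvd h1).resolve_left fun h => hlN ?_
        exact_mod_cast h
      have h3 : ((i.val : ℤ) : ZMod l) = ((j.val : ℤ) : ZMod l) := by
        rw [← sub_eq_zero, ← Int.cast_sub, ZMod.intCast_zmod_eq_zero_iff_dvd]
        exact h2
      push_cast at h3
      rw [ZMod.natCast_zmod_val, ZMod.natCast_zmod_val] at h3
      rw [h3]

lemma Rz_inj (hl : l.Prime) (hlN : ¬ l ∣ N) {x y : Option (ZMod l)} {g : SL(2, ℤ)}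
    (h : Rz N l z x = (g : M2) * Rz N l z y) : x = y := by
  have h1 : Dz N l x = ((z * g * z⁻¹ : SL(2, ℤ)) : M2) * Dz N l y := by
    have h2 : (z : M2) * Rz N l z x * ((z⁻¹ : SL(2, ℤ)) : M2) = Dz N l x := by
      rw [Rz]
      have : (z : M2) * (((z⁻¹ : SL(2, ℤ)) : M2) * Dz N l x * (z : M2)) * ((z⁻¹ : SL(2, ℤ)) : M2) =
          ((z * z⁻¹ : SL(2, ℤ)) : M2) * Dz N l x * ((z * z⁻¹ : SL(2, ℤ)) : M2) := by
        simp only [Matrix.SpecialLinearGroup.coe_mul, Matrix.mul_assoc]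
      rw [this, mul_inv_cancel]; simp
    rw [← h2, h, Rz]
    have : (z : M2) * ((g : M2) * (((z⁻¹ : SL(2, ℤ)) : M2) * Dz N l y * (z : M2))) *
        ((z⁻¹ : SL(2, ℤ)) : M2) = ((z * g * z⁻¹ : SL(2, ℤ)) : M2) * Dz N l y *
          ((z * z⁻¹ : SL(2, ℤ)) : M2) := by
      simp only [Matrix.SpecialLinearGroup.coe_mul, Matrix.mul_assoc]
    rw [this, mul_inv_cancel]; simp
  exact Dz_inj hl hlN h1

section sum

variable {A : Type*} [AddCommGroup A]

/-- the operator `T_ℓ` computed with the adapted family -/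
theorem exists_fam_Rz (hl : l.Prime) (hlN : ¬ l ∣ N) (hN : (N : ℤ) ∣ (l : ℤ) - 1) (z : SL(2, ℤ)) :
    haveI : NeZero l := ⟨hl.ne_zero⟩
    ∃ hR : Fam (GG N) (GG N) (Rz N l z), hR.op A = (famT hl hlN).op A := by
  haveI : NeZero l := ⟨hl.ne_zero⟩
  have h1 : ∀ x, ∃ (y : Option (Fin l)) (δ : GG N),
      Rz N l z x = ((δ : SL(2, ℤ)) : M2) * dl l y := by
    intro x
    refine exists_GG_dl hl hlN _ (det_Rz x) ?_
    obtain ⟨E, hE⟩ := Rz_eq (z := z) hN x
    rw [hE]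
    simp only [Matrix.add_apply, Matrix.smul_apply, smul_eq_mul, Matrix.one_apply]
    simp
  choose e δ he using h1
  have hinj : Function.Injective e := by
    intro x y hxy
    apply Rz_inj (z := z) (g := (δ x * (δ y)⁻¹ : GG N)) hl hlN
    rw [he x, he y, hxy, Subgroup.coe_mul, Matrix.SpecialLinearGroup.coe_mul, Matrix.mul_assoc,
      ← Matrix.mul_assoc ((((δ y)⁻¹ : GG N) : SL(2, ℤ)) : M2),
      ← Matrix.SpecialLinearGroup.coe_mul, ← Subgroup.coe_mul, inv_mul_cancel]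
    simp
  have hbij : Function.Bijective e := by
    rw [Fintype.bijective_iff_injective_and_card]
    refine ⟨hinj, ?_⟩
    rw [Fintype.card_option, Fintype.card_option, ZMod.card, Fintype.card_fin]
  have hR := Fam.congr (famT (N := N) hl hlN) (rep := Rz N l z) (Equiv.ofBijective e hbij) (c := 1)
    (c' := 1) one_ne_zero one_ne_zero (fun x => ⟨δ x, by
      rw [one_smul, one_smul]; exact he x⟩)
  exact ⟨hR, Fam.op_eq' hR _ (Equiv.ofBijective e hbij) fun x => ⟨δ x, he x⟩⟩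

/-- additivity along a unipotent subgroup -/
lemma sum_unip {Γ : Subgroup SL(2, ℤ)} (φ : Additive Γ →+ A) (z : SL(2, ℤ)) {ι : Type*}
    (s : Finset ι) (m : ι → ℤ) (hm : ∀ i ∈ s, z⁻¹ * T ^ m i * z ∈ Γ) :
    z⁻¹ * T ^ (∑ i ∈ s, m i) * z ∈ Γ ∧
      fnG φ (z⁻¹ * T ^ (∑ i ∈ s, m i) * z) = ∑ i ∈ s, fnG φ (z⁻¹ * T ^ m i * z) := by
  classical
  induction s using Finset.induction_on with
  | empty =>
    simp only [Finset.sum_empty, zpow_zero, mul_one, inv_mul_cancel]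
    refine ⟨one_mem _, ?_⟩
    rw [fnG_of_mem φ (one_mem _)]
    exact map_zero φ
  | insert a s ha ih =>
    have h1 := ih fun i hi => hm i (Finset.mem_insert_of_mem hi)
    have h2 := hm a (Finset.mem_insert_self _ _)
    rw [Finset.sum_insert ha, Finset.sum_insert ha]
    have e : z⁻¹ * T ^ (m a + ∑ i ∈ s, m i) * z =
        (z⁻¹ * T ^ m a * z) * (z⁻¹ * T ^ (∑ i ∈ s, m i) * z) := by
      rw [zpow_add]; group
    rw [e]
    refine ⟨mul_mem h2 h1.1, ?_⟩
    rw [← h1.2, fnG_of_mem φ h2, fnG_of_mem φ h1.1, fnG_of_mem φ (mul_mem h2 h1.1), ← map_add,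
      ← ofMul_mul]
    rfl

/-- `T_ℓ` on parabolic elements -/
theorem op_par (hl : l.Prime) (hlN : ¬ l ∣ N) (hN : (N : ℤ) ∣ (l : ℤ) - 1)
    (φ : Additive (GG N) →+ A) {z : SL(2, ℤ)} {n : ℤ} (he : z⁻¹ * T ^ n * z ∈ GG N) :
    (famT hl hlN).op A φ (Additive.ofMul ⟨_, he⟩) = (l + 1) • φ (Additive.ofMul ⟨_, he⟩) := by
  classical
  haveI : NeZero l := ⟨hl.ne_zero⟩
  haveI : Fact l.Prime := ⟨hl⟩
  have hl0 : (l : ℤ) ≠ 0 := by exact_mod_cast hl.ne_zero
  obtain ⟨hR, hop⟩ := exists_fam_Rz (A := A) hl hlN hN z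
  rw [← hop]
  have hN0 : (N : ZMod l) ≠ 0 := by
    rw [Ne, ZMod.natCast_eq_zero_iff]; exact hlN
  set c : ZMod l := (n : ZMod l) * (N : ZMod l)⁻¹ with hc
  have hdiv : ∀ j : ZMod l, (l : ℤ) ∣ (N : ℤ) * (j.val : ℤ) + n - (N : ℤ) * ((j + c).val : ℤ) := by
    intro j
    rw [← ZMod.intCast_zmod_eq_zero_iff_dvd]
    push_cast
    rw [ZMod.natCast_zmod_val, ZMod.natCast_zmod_val, hc]
    field_simp
    ring
  choose m hm using hdiv
  let σ : Equiv.Perm (Option (ZMod l)) := Equiv.optionCongr (Equiv.addRight c)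
  let M : Option (ZMod l) → ℤ := fun x => x.elim (l * n) m
  have hD : ∀ x, Dz N l x * ((T ^ n : SL(2, ℤ)) : M2) = ((T ^ M x : SL(2, ℤ)) : M2) * Dz N l (σ x) := by
    intro x
    cases x with
    | none =>
      rw [ModularGroup.coe_T_zpow, ModularGroup.coe_T_zpow]
      change Dz N l none * _ = _ * Dz N l none
      apply mat_ext <;> simp [Dz, M, Matrix.mul_apply, Fin.sum_univ_two, -ZMod.natCast_val]
    | some j =>
      rw [ModularGroup.coe_T_zpow, ModularGroup.coe_T_zpow]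
      change Dz N l (some j) * _ = _ * Dz N l (some (j + c))
      have h1 := hm j
      apply mat_ext <;> simp [Dz, M, Matrix.mul_apply, Fin.sum_univ_two, -ZMod.natCast_val]
      linarith
  have hRz : ∀ x, Rz N l z x * ((z⁻¹ * T ^ n * z : SL(2, ℤ)) : M2) =
      ((z⁻¹ * T ^ M x * z : SL(2, ℤ)) : M2) * Rz N l z (σ x) := by
    intro x
    have e1 : Rz N l z x * ((z⁻¹ * T ^ n * z : SL(2, ℤ)) : M2) =
        ((z⁻¹ : SL(2, ℤ)) : M2) * (Dz N l x * (((z * z⁻¹ : SL(2, ℤ)) : M2) *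
          ((T ^ n : SL(2, ℤ)) : M2))) * (z : M2) := by
      rw [Rz]; simp only [Matrix.SpecialLinearGroup.coe_mul, Matrix.mul_assoc]
    have e2 : ((z⁻¹ * T ^ M x * z : SL(2, ℤ)) : M2) * Rz N l z (σ x) =
        ((z⁻¹ : SL(2, ℤ)) : M2) * (((T ^ M x : SL(2, ℤ)) : M2) * (((z * z⁻¹ : SL(2, ℤ)) : M2) *
          Dz N l (σ x))) * (z : M2) := by
      rw [Rz]; simp only [Matrix.SpecialLinearGroup.coe_mul, Matrix.mul_assoc]
    rw [e1, e2, mul_inv_cancel, Matrix.SpecialLinearGroup.coe_one, Matrix.one_mul, Matrix.one_mul,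
      hD]
  have hmem : ∀ x, z⁻¹ * T ^ M x * z ∈ GG N := by
    intro x
    rw [mem_Gamma0_iff]
    obtain ⟨E, hE⟩ := Rz_eq (z := z) hN x
    obtain ⟨E', hE'⟩ := Rz_eq (z := z) hN (σ x)
    have h1 := congrFun (congrFun (hRz x) 1) 0
    have h2 := mem_Gamma0_iff.mp he
    rw [Matrix.mul_apply, Matrix.mul_apply, Fin.sum_univ_two, Fin.sum_univ_two, hE, hE'] at h1
    simp only [Matrix.add_apply, Matrix.smul_apply, smul_eq_mul, Matrix.one_apply] at h1
    simp only [reduceIte, Fin.isValue, one_ne_zero, zero_add] at h1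
    set g := z⁻¹ * T ^ M x * z
    set γ := z⁻¹ * T ^ n * z
    have h3 : g 1 0 = (N : ℤ) * E 1 0 * γ 0 0 + (1 + N * E 1 1) * γ 1 0 -
        g 1 0 * (N * E' 0 0) - g 1 1 * (N * E' 1 0) := by linear_combination -h1
    rw [h3]
    refine dvd_sub (dvd_sub (dvd_add ?_ (Dvd.dvd.mul_left h2 _)) ?_) ?_
    · rw [mul_assoc]; exact dvd_mul_right _ _
    · exact ⟨g 1 0 * E' 0 0, by ring⟩
    · exact ⟨g 1 1 * E' 1 0, by ring⟩
  have htr : Tr (GG N) (Rz N l z) ((⟨_, he⟩ : GG N) : SL(2, ℤ)) σ (fun x => ⟨_, hmem x⟩) := hRz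
  rw [Fam.op_apply_of_tr hR φ ⟨_, he⟩ htr, Fintype.sum_option]
  have hsum : ∑ j, m j = n := by
    have h1 : (l : ℤ) * ∑ j, m j = l * n := by
      rw [Finset.mul_sum]
      have h2 : ∀ j, (l : ℤ) * m j = (N : ℤ) * (j.val : ℤ) + n - (N : ℤ) * ((j + c).val : ℤ) :=
        fun j => (hm j).symm
      rw [Finset.sum_congr rfl fun j _ => h2 j, Finset.sum_sub_distrib, Finset.sum_add_distrib]
      have h3 : ∑ j : ZMod l, (N : ℤ) * ((j + c).val : ℤ) = ∑ j : ZMod l, (N : ℤ) * (j.val : ℤ) :=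
        Equiv.sum_comp (Equiv.addRight c) (fun j : ZMod l => (N : ℤ) * (j.val : ℤ))
      rw [h3, Finset.sum_const, Finset.card_univ, ZMod.card]
      simp
    exact mul_left_cancel₀ hl0 h1
  have hs1 : ∑ j : ZMod l, φ (Additive.ofMul (⟨_, hmem (some j)⟩ : GG N)) =
      φ (Additive.ofMul ⟨_, he⟩) := by
    have h1 := (sum_unip φ z Finset.univ m (fun j _ => hmem (some j))).2
    rw [hsum, fnG_of_mem φ he] at h1
    rw [h1]
    exact Finset.sum_congr rfl fun j _ => (fnG_of_mem φ (hmem (some j))).symm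
  have hs2 : φ (Additive.ofMul (⟨_, hmem none⟩ : GG N)) = l • φ (Additive.ofMul ⟨_, he⟩) := by
    rw [← map_nsmul, ← ofMul_pow]
    congr 2
    apply Subtype.ext
    rw [Subgroup.coe_pow]
    change z⁻¹ * T ^ ((l : ℤ) * n) * z = (z⁻¹ * T ^ n * z) ^ l
    have h1 := conj_pow (a := z⁻¹) (b := T ^ n) (i := l)
    rw [inv_inv] at h1
    rw [h1, mul_comm, zpow_mul, zpow_natCast]
  rw [hs1, hs2, add_smul, one_smul]

end sum

end

end Fermat.Agent.TW
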