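import Fermat.Agent.LevelRaise.Nondeg

/-!
# Lifting parabolic homomorphisms mod `m` to `ℤ`
-/

set_option autoImplicit false

open Matrix.SpecialLinearGroup
open scoped MatrixGroups
open ModularGroup (S T)
open Fermat.Agent.ShimuraCover Fermat.Agent.LevelRaise

namespace Fermat.Agent.TW

noncomputable section

/-- A parabolic homomorphism mod `m` which vanishes on the elliptic elements of order three
lifts to an integral parabolic homomorphism. -/
theorem exists_lift {Γ : Subgroup SL(2, ℤ)} [Γ.FiniteIndex] (h1 : -1 ∈ Γ) {m : ℕ} [NeZero m]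
    (h2 : ∀ a : ZMod m, 2 * a = 0 → a = 0) {H : SL(2, ℤ) → ZMod m} (hH : PH Γ H)
    (hell : ∀ y, y⁻¹ * U * y ∈ Γ → H (y⁻¹ * U * y) = 0) :
    ∃ φ : SL(2, ℤ) → ℤ, PH Γ φ ∧ ∀ γ ∈ Γ, ((φ γ : ℤ) : ZMod m) = H γ := by
  classical
  letI : Fintype (SL(2, ℤ) ⧸ Γ) := Fintype.ofFinite _
  obtain ⟨h, hh⟩ := exists_IsH hH
  have hneg := map_neg_of_right h1 (hH.map_neg_one h1) hh.right
  have hinv := dS_inv hh.right
  have hS : ∀ x : SL(2, ℤ) ⧸ Γ, S • S • x = x := by
    intro x
    rw [← mul_smul, S_sq]; exact neg_smul_X h1 x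
  have hU : ∀ x : SL(2, ℤ) ⧸ Γ, U • U • U • x = x := by
    intro x
    have e : U • U • U • x = (U * U * U : SL(2, ℤ)) • x := by
      rw [mul_smul (U * U) U x, mul_smul U U (U • x)]
    rw [e, U_cube]; exact neg_smul_X h1 x
  set f : SL(2, ℤ) ⧸ Γ → ZMod m := fun x => dS h x.out with hf
  have hfmk : ∀ y : SL(2, ℤ), f (QuotientGroup.mk y) = dS h y := by
    intro y
    simp only [hf]
    rw [hinv.out]
  have f1 : ∀ x, f (S • x) = - f x := by
    intro x
    obtain ⟨y, rfl⟩ := QuotientGroup.mk_surjective x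
    change f (QuotientGroup.mk (S * y)) = _
    rw [hfmk, hfmk, dS_S hneg]
  have f2 : ∀ x, S • x = x → f x = 0 := by
    intro x hx
    have h3 := f1 x
    rw [hx] at h3
    apply h2
    linear_combination h3
  have f3 : ∀ x, f x + f (U • x) + f (U • U • x) = 0 := by
    intro x
    obtain ⟨y, rfl⟩ := QuotientGroup.mk_surjective x
    change f (QuotientGroup.mk y) + f (QuotientGroup.mk (U * y)) +
      f (QuotientGroup.mk (U * (U * y))) = 0
    rw [hfmk, hfmk, hfmk]
    exact dS_sum hneg hh.left y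
  have f4 : ∀ x, U • x = x → f x = 0 := by
    intro x hx
    obtain ⟨y, rfl⟩ := QuotientGroup.mk_surjective x
    have h3 : y⁻¹ * U * y ∈ Γ := by
      have h4 : (QuotientGroup.mk (U * y) : SL(2, ℤ) ⧸ Γ) = QuotientGroup.mk y := hx
      have h5 := QuotientGroup.eq.mp h4.symm
      rwa [← mul_assoc] at h5
    have h6 := hh.right y _ h3
    rw [hell y h3, add_zero] at h6
    rw [hfmk, dS_eq_dU hh.left]
    have e : U * y = y * (y⁻¹ * U * y) := by group
    rw [e, h6, sub_self]
  obtain ⟨F, F1, F2, F3⟩ := lift_cycle' (G := SL(2, ℤ)) closure_SU hS hU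
    (QuotientGroup.mk 1 : SL(2, ℤ) ⧸ Γ) f f1 f2 f3 f4
  obtain ⟨φ, h', hφ, hh', hF⟩ := exists_of_cycle (Γ := Γ) h1
    (fun y => F (QuotientGroup.mk y))
    (fun y g hg => by
      change F (QuotientGroup.mk (y * g)) = F (QuotientGroup.mk y)
      rw [QuotientGroup.mk_mul_of_mem y hg])
    (fun y => F2 (QuotientGroup.mk y)) (fun y => F3 (QuotientGroup.mk y))
  refine ⟨φ, hφ, ?_⟩
  -- compare the primitives
  set D : SL(2, ℤ) → ZMod m := fun y => ((h' y : ℤ) : ZMod m) - h y with hD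
  have hneg' := map_neg_of_right h1 (hφ.map_neg_one h1) hh'.right
  have hdS : ∀ y, dS D y = 0 := by
    intro y
    have e1 : ((dS h' y : ℤ) : ZMod m) = dS h y := by
      rw [hF, F1, hfmk]
    rw [dS] at e1
    push_cast at e1
    rw [dS] at e1 ⊢
    simp only [hD]
    linear_combination e1
  have DS : ∀ y, D (S * y) = D y := fun y => sub_eq_zero.mp (hdS y)
  have DT : ∀ y, D (T * y) = D y := by
    intro y
    simp only [hD, hh'.left, hh.left]
  have DU : ∀ y, D (U * y) = D y := by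
    intro y
    rw [U, mul_assoc, DT, DS]
  intro γ hγ
  have e1 := const_of_gen D DS DU γ
  have e2 := hh'.right 1 γ hγ
  have e3 := hh.right 1 γ hγ
  rw [one_mul] at e2 e3
  simp only [hD] at e1
  rw [e2, e3] at e1
  push_cast at e1
  linear_combination e1

end

end Fermat.Agent.TW
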