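import Fermat.Agent.KumG.HeckeAlg
import Fermat.Agent.TW.KillP
import Fermat.Agent.TW.Lift
import Fermat.Agent.LevelRaise.Lattice

/-!
# Restriction and transfer between `Γ₀(N)` and `Γ_H(N)` are bijective modulo Eisenstein
-/

set_option autoImplicit false
set_option linter.unusedSectionVars false

open Matrix.SpecialLinearGroup
open scoped MatrixGroups
open ModularGroup (S T)
open Fermat.Agent.AL Fermat.Agent.ALCoh Fermat.Agent.LevelRaise Fermat.Agent.KumG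
open ModularCurve ModularCurve.Period

namespace Fermat.Agent.TW

noncomputable section

/-! ### generalities -/

section gen

variable {Γ Γ' : Subgroup SL(2, ℤ)} {ι : Type*} [Fintype ι] {rep : ι → M2} {A : Type*}
  [AddCommGroup A]

/-- operators between lattices -/
def opLL (hF : Fam Γ Γ' rep) : KumG.LZ Γ →ₗ[ℤ] KumG.LZ Γ' :=
  AddMonoidHom.toIntLinearMap
    { toFun := fun φ => ⟨hF.op ℤ φ.1, isParabolicHom_op hF φ.2⟩
      map_zero' := Subtype.ext (map_zero (hF.op ℤ))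
      map_add' := fun φ ψ => Subtype.ext (map_add (hF.op ℤ) φ.1 ψ.1) }

theorem opLL_coe (hF : Fam Γ Γ' rep) (φ : KumG.LZ Γ) : (opLL hF φ).1 = hF.op ℤ φ.1 := rfl

/-- the restriction family -/
theorem famSub (h : Γ' ≤ Γ) : Fam Γ Γ' (fun _ : Unit => (1 : M2)) := Fam.one.mono h

theorem famSub_apply (h : Γ' ≤ Γ) (φ : Additive Γ →+ A) (g : Γ') :
    (famSub h).op A φ (Additive.ofMul g) = φ (Additive.ofMul ⟨g, h g.2⟩) := by
  rw [Fam.op_apply_of_tr (famSub h) φ g (σ := 1) (g := fun _ => ⟨g, h g.2⟩) (fun _ => by simp)]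
  simp

/-- operators commute with restriction -/
theorem HFam.op_res (hF : HFam Γ' Γ rep) (h : Γ' ≤ Γ) (φ : Additive Γ →+ A) (g : Γ') :
    hF.fam.op A φ (Additive.ofMul ⟨g, h g.2⟩) =
      hF.fam'.op A ((famSub h).op A φ) (Additive.ofMul g) := by
  have t1 := hF.fam.tr_elt ⟨g, h g.2⟩
  have t2 := hF.fam'.tr_elt g
  rw [Fam.op_apply_of_tr hF.fam φ _ t1, Fam.op_apply_of_tr hF.fam' _ _ t2]
  refine Finset.sum_congr rfl fun x _ => ?_
  rw [famSub_apply h]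
  congr 2
  exact Subtype.ext (hF.unique (hF.fam.elt _ x).2 (h (hF.fam'.elt g x).2) (t1 x) (t2 x)).2

/-- divisibility in the lattice -/
theorem exists_smul_of_dvd' {m : ℕ} (hm : m ≠ 0) (φ : KumG.LZ Γ) (h : ∀ γ, (m : ℤ) ∣ φ.1 γ) :
    ∃ φ' : KumG.LZ Γ, φ = (m : ℤ) • φ' := by
  choose f hf using h
  have hpZ : (m : ℤ) ≠ 0 := by exact_mod_cast hm
  refine ⟨⟨AddMonoidHom.mk' f fun x y => ?_, fun γ hγ => ?_⟩, ?_⟩
  · refine mul_left_cancel₀ hpZ ?_
    rw [← hf, map_add, mul_add, ← hf, ← hf]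
  · refine mul_left_cancel₀ hpZ ?_
    rw [AddMonoidHom.mk'_apply, ← hf, φ.2 γ hγ, mul_zero]
  · apply Subtype.ext
    ext γ
    change φ.1 γ = (m : ℤ) • f γ
    rw [hf, smul_eq_mul]

/-- the reduction of an integral homomorphism -/
def rd (m : ℕ) (φ : Additive Γ →+ ℤ) : Additive Γ →+ ZMod m := (Int.castAddHom (ZMod m)).comp φ

lemma rd_apply (m : ℕ) (φ : Additive Γ →+ ℤ) (g : Additive Γ) :
    rd m φ g = ((φ g : ℤ) : ZMod m) := rfl

lemma rd_op (m : ℕ) (hF : Fam Γ Γ' rep) (φ : Additive Γ →+ ℤ) :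
    rd m (hF.op ℤ φ) = hF.op (ZMod m) (rd m φ) := Fam.comp_op hF _ φ

theorem exists_of_rd_eq {m : ℕ} (hm : m ≠ 0) {φ ψ : KumG.LZ Γ} (h : rd m φ.1 = rd m ψ.1) :
    ∃ χ : KumG.LZ Γ, φ = ψ + (m : ℤ) • χ := by
  obtain ⟨χ, hχ⟩ := exists_smul_of_dvd' hm (φ - ψ) (fun γ => by
    change (m : ℤ) ∣ φ.1 γ - ψ.1 γ
    rw [← ZMod.intCast_zmod_eq_zero_iff_dvd, Int.cast_sub, sub_eq_zero]
    exact DFunLike.congr_fun h γ)
  exact ⟨χ, by rw [← hχ]; abel⟩

lemma rd_smul_add (m : ℕ) (φ : Additive Γ →+ ℤ) : rd m ((m : ℤ) • φ) = 0 := by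
  refine AddMonoidHom.ext fun γ => ?_
  rw [rd_apply]
  change (((m : ℤ) • φ γ : ℤ) : ZMod m) = 0
  rw [smul_eq_mul]; push_cast; simp

end gen

variable {N l : ℕ} {γ : SL(2, ℤ)} {H : Subgroup (ZMod N)ˣ}

/-- `Γ_H(N)` is normal in `Γ₀(N)` -/
theorem nm_GH : Nm (GH N H) (GG N) := ⟨GH_le N H, fun _ hg _ hh => conj_mem_GH hg _ hh⟩

/-- the Hecke operators at both levels -/
theorem hfam (hl : l.Prime) (hlN : ¬ l ∣ N) (hγ : Adp N l γ) :
    HFam (GH N H) (GG N) (rT l γ) where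
  fam := fam_rT0 hl hlN hγ
  fam' := fam_rT H hl hlN hγ
  cls δ hδ g hg x y h := by
    obtain ⟨u, hu⟩ := isUnit_dd hδ
    have h1 := (bot_rT hγ x).mul (bot_of_mem hδ)
    rw [h] at h1
    have h2 := (bot_of_mem hg).mul (bot_rT hγ y)
    have h3 : dd N g * (l : ZMod N) = l * dd N δ := by rw [← h2.d, ← h1.d]
    have h4 : dd N g = dd N δ := by
      rw [mul_comm (l : ZMod N)] at h3
      exact (isUnit_natCast hl hlN).mul_right_cancel h3
    exact mul_inv_mem_GH hg hδ (u := 1) (one_mem _) (by rw [h4]; simp)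
  inj x y h _ e := dl_eq_of_rT hl e

/-- the Hecke operator on `Γ₀(N)` does not depend on the choices -/
theorem op_fam_rT0 {A : Type*} [AddCommGroup A] (hl : l.Prime) (hlN : ¬ l ∣ N) (hγ : Adp N l γ) :
    (fam_rT0 hl hlN hγ).op A = (famT (N := N) hl hlN).op A :=
  Fam.op_eq' _ _ (Equiv.refl _) fun x => ⟨⟨aT l γ x, aT_mem hγ x⟩, rfl⟩

lemma hom_neg_one' {A : Type*} [AddCommGroup A] (h2 : ∀ a : A, 2 • a = 0 → a = 0)
    (φ : Additive (GG N) →+ A) {z : SL(2, ℤ)} {n : ℤ} {g : GG N}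
    (h : z * (g : SL(2, ℤ)) * z⁻¹ = T ^ n ∨ z * (g : SL(2, ℤ)) * z⁻¹ = -T ^ n) :
    ∃ h' : z⁻¹ * T ^ n * z ∈ GG N, φ (Additive.ofMul g) = φ (Additive.ofMul ⟨_, h'⟩) := by
  rcases h with h | h
  · have e : (g : SL(2, ℤ)) = z⁻¹ * T ^ n * z := by rw [← h]; group
    refine ⟨by rw [← e]; exact g.2, ?_⟩
    congr 2
    exact Subtype.ext e
  · have e : z⁻¹ * T ^ n * z = -(g : SL(2, ℤ)) := by
      have h1 : T ^ n = -(z * (g : SL(2, ℤ)) * z⁻¹) := by rw [h, neg_neg]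
      rw [h1]
      simp only [mul_neg, neg_mul, neg_inj]
      group
    have hm : -(1 : SL(2, ℤ)) ∈ GG N := neg_one_mem_GG N
    have hmem : z⁻¹ * T ^ n * z ∈ GG N := by
      rw [e, ← neg_one_mul]
      exact mul_mem hm g.2
    refine ⟨hmem, ?_⟩
    have h2' := map_neg_one h2 φ (g := ⟨-1, hm⟩) rfl
    have h3 : (⟨_, hmem⟩ : GG N) = ⟨-1, hm⟩ * g := by
      apply Subtype.ext
      rw [Subgroup.coe_mul]
      change z⁻¹ * T ^ n * z = -1 * (g : SL(2, ℤ))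
      rw [e, neg_one_mul]
    rw [h3, ofMul_mul, map_add, h2', zero_add]

/-- the Eisenstein operator `T_ℓ - (ℓ + 1)` makes homomorphisms parabolic and trivial on the
elliptic elements of order three -/
theorem eis_par {A : Type*} [AddCommGroup A] (h2 : ∀ a : A, 2 • a = 0 → a = 0) (hl : l.Prime)
    (hlN : ¬ l ∣ N) (hN : (N : ℤ) ∣ (l : ℤ) - 1) (φ : Additive (GG N) →+ A) :
    IsParabolicHom (GG N) ((famT hl hlN).op A φ - (l + 1) • φ) ∧
      ∀ (y : SL(2, ℤ)) (he : y⁻¹ * U * y ∈ GG N),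
        ((famT hl hlN).op A φ - (l + 1) • φ) (Additive.ofMul ⟨_, he⟩) = 0 := by
  refine ⟨fun g hg => ?_, fun y he => ?_⟩
  · obtain ⟨z, n, hz⟩ := exists_conj_T g hg
    obtain ⟨h', e⟩ := hom_neg_one' h2 ((famT hl hlN).op A φ - (l + 1) • φ) hz
    rw [e, AddMonoidHom.sub_apply, op_par hl hlN hN φ h', AddMonoidHom.nsmul_apply, sub_self]
  · rw [AddMonoidHom.sub_apply, op_ell h2 hl hlN φ he, AddMonoidHom.nsmul_apply, sub_self]

/-- lifting to `ℤ` after applying the Eisenstein operator -/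
theorem exists_lift_eis [NeZero N] {p : ℕ} (hp : p.Prime) (hp2 : p ≠ 2) (hl : l.Prime)
    (hlN : ¬ l ∣ N) (hN : (N : ℤ) ∣ (l : ℤ) - 1) (φ : Additive (GG N) →+ ZMod p) :
    ∃ x : KumG.LZ (GG N), rd p x.1 = (famT hl hlN).op (ZMod p) φ - (l + 1) • φ := by
  haveI : Fact p.Prime := ⟨hp⟩
  have h2 : ∀ a : ZMod p, 2 * a = 0 → a = 0 := by
    intro a ha
    refine (mul_eq_zero.mp ha).resolve_left fun h => ?_
    have h3 : ((2 : ℕ) : ZMod p) = 0 := by exact_mod_cast h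
    rw [ZMod.natCast_eq_zero_iff] at h3
    exact hp2 ((Nat.prime_dvd_prime_iff_eq hp Nat.prime_two).mp h3)
  have h2' : ∀ a : ZMod p, 2 • a = 0 → a = 0 := fun a ha => h2 a (by
    rw [nsmul_eq_mul] at ha; exact_mod_cast ha)
  obtain ⟨e1, e2⟩ := eis_par h2' hl hlN hN φ
  set ψ := (famT hl hlN).op (ZMod p) φ - (l + 1) • φ
  obtain ⟨x, hx, hx'⟩ := exists_lift (Γ := GG N) (neg_one_mem_GG N) h2 (PH_fnG e1)
    (fun y hy => by rw [fnG_of_mem _ hy]; exact e2 y hy)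
  refine ⟨⟨ofPH hx, isParabolicHom_ofPH hx⟩, ?_⟩
  refine AddMonoidHom.ext fun g => ?_
  obtain ⟨g, rfl⟩ := Additive.ofMul.surjective g
  rw [rd_apply]
  have := hx' g g.2
  rw [fnG_coe] at this
  exact this

variable [NeZero N]

/-! ### restriction -/

variable (N H) in
/-- restriction -/
def resH : KumG.LZ (GG N) →ₗ[ℤ] KumG.LZ (GH N H) := opLL (famSub (GH_le N H))

/-- the Hecke operator on the lattice of level `Γ₀(N)` -/
def TG (hl : l.Prime) (hlN : ¬ l ∣ N) : Module.End ℤ (KumG.LZ (GG N)) := opLL (famT hl hlN)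

/-- the Eisenstein operators -/
def tG (hl : l.Prime) (hlN : ¬ l ∣ N) : Module.End ℤ (KumG.LZ (GG N)) :=
  TG hl hlN - ((l + 1 : ℕ) : ℤ) • 1

lemma tG_coe (hl : l.Prime) (hlN : ¬ l ∣ N) (φ : KumG.LZ (GG N)) :
    (tG hl hlN φ).1 = (famT hl hlN).op ℤ φ.1 - (l + 1) • φ.1 := by
  change (famT hl hlN).op ℤ φ.1 - ((l + 1 : ℕ) : ℤ) • φ.1 = _
  rw [natCast_zsmul]

variable [hH : Fact ((-1 : (ZMod N)ˣ) ∈ H)]

variable (H) in
/-- the Eisenstein operators -/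
def tH (hl : l.Prime) (hlN : ¬ l ∣ N) : Module.End ℤ (KumG.LZ (GH N H)) :=
  TH N H hl hlN - ((l + 1 : ℕ) : ℤ) • 1

lemma tH_coe (hl : l.Prime) (hlN : ¬ l ∣ N) (hγ : Adp N l γ) (φ : KumG.LZ (GH N H)) :
    (tH H hl hlN φ).1 = (fam_rT H hl hlN hγ).op ℤ φ.1 - (l + 1) • φ.1 := by
  rw [tH, TH_eq hl hlN hγ]
  change (fam_rT H hl hlN hγ).op ℤ φ.1 - ((l + 1 : ℕ) : ℤ) • φ.1 = _
  rw [natCast_zsmul]

theorem resH_TG (hl : l.Prime) (hlN : ¬ l ∣ N) (φ : KumG.LZ (GG N)) :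
    resH N H (TG hl hlN φ) = TH N H hl hlN (resH N H φ) := by
  obtain ⟨γ, hγ⟩ := exists_adp hl hlN
  rw [TH_eq hl hlN hγ]
  apply Subtype.ext
  refine AddMonoidHom.ext fun g => ?_
  obtain ⟨g, rfl⟩ := Additive.ofMul.surjective g
  change (famSub (GH_le N H)).op ℤ ((famT hl hlN).op ℤ φ.1) _ =
    (fam_rT H hl hlN hγ).op ℤ ((famSub (GH_le N H)).op ℤ φ.1) _
  rw [famSub_apply, ← op_fam_rT0 hl hlN hγ]
  exact (hfam hl hlN hγ).op_res (GH_le N H) φ.1 g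

theorem resH_tG (hl : l.Prime) (hlN : ¬ l ∣ N) (φ : KumG.LZ (GG N)) :
    resH N H (tG hl hlN φ) = tH H hl hlN (resH N H φ) := by
  rw [tG, tH, LinearMap.sub_apply, LinearMap.sub_apply, map_sub, resH_TG]
  simp

/-- **(Z1)** restriction is injective modulo `p` up to the Eisenstein operators -/
theorem Z1 {p : ℕ} (hp : p.Prime) (hl : l.Prime) (hlN : ¬ l ∣ N) (x : KumG.LZ (GG N))
    (h : ∃ y, resH N H x = (p : ℤ) • y) : ∃ z, tG hl hlN x = (p : ℤ) • z := by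
  obtain ⟨y, hy⟩ := h
  obtain ⟨γ, hγ⟩ := exists_adp hl hlN
  have h1 := (hfam (H := H) hl hlN hγ).op_of_vanish (rd p x.1) (fun g hg => by
    have h2 := congrArg (fun z : KumG.LZ (GH N H) => rd p z.1 (Additive.ofMul ⟨g, hg⟩)) hy
    have h3 : rd p (((p : ℤ) • y : KumG.LZ (GH N H))).1 = 0 := rd_smul_add p y.1
    simp only [h3] at h2
    rw [← show rd p (resH N H x).1 (Additive.ofMul ⟨g, hg⟩) = rd p x.1 (Additive.ofMul g) from ?_]
    · exact h2
    · rw [rd_apply, rd_apply]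
      congr 1
      exact famSub_apply (GH_le N H) x.1 ⟨g, hg⟩)
  refine exists_smul_of_dvd' hp.ne_zero _ fun g => ?_
  rw [← ZMod.intCast_zmod_eq_zero_iff_dvd, ← rd_apply, tG_coe]
  have h4 : rd p ((famT hl hlN).op ℤ x.1 - (l + 1) • x.1) =
      (famT hl hlN).op (ZMod p) (rd p x.1) - (l + 1) • rd p x.1 := by
    rw [← rd_op]
    ext g
    simp [rd_apply]
  rw [h4, ← op_fam_rT0 hl hlN hγ, h1]
  simp

/-! ### the action of `Δ` -/

variable (N H) in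
/-- the group `(ℤ/N)^× / H` -/
abbrev DG : Type := (ZMod N)ˣ ⧸ H

variable (N H) in
/-- the diamond operators -/
def DQ : DG N H →* Module.End ℤ (KumG.LZ (GH N H)) :=
  QuotientGroup.lift H
    { toFun := DH N H
      map_one' := DH_one
      map_mul' := DH_mul } (fun _ hd => DH_of_mem hd)

lemma DQ_mk (d : (ZMod N)ˣ) : DQ N H (QuotientGroup.mk d) = DH N H d := rfl

/-- representatives -/
def rD (δ : DG N H) : SL(2, ℤ) := (exists_dd_unit δ.out).choose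

lemma rD_mem (δ : DG N H) : rD δ ∈ GG N := (exists_dd_unit δ.out).choose_spec.1

lemma dd_rD (δ : DG N H) : dd N (rD δ) = (δ.out : (ZMod N)ˣ) := (exists_dd_unit δ.out).choose_spec.2

lemma DQ_eq (δ : DG N H) : DQ N H δ = KumG.opL (fam_diaH H (rD_mem δ)) := by
  conv_lhs => rw [← QuotientGroup.out_eq' δ]
  rw [DQ_mk, DH_eq (rD_mem δ) (dd_rD δ)]

/-- two elements with the same class -/
lemma mem_GH_of_class {g g' : SL(2, ℤ)} (hg : g ∈ GG N) (hg' : g' ∈ GG N) {u u' : (ZMod N)ˣ}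
    (hu : dd N g = u) (hu' : dd N g' = u') :
    g * g'⁻¹ ∈ GH N H ↔ (QuotientGroup.mk u : DG N H) = QuotientGroup.mk u' := by
  constructor
  · intro h
    obtain ⟨w, hw, hw'⟩ := exists_unit_of_mem h
    rw [QuotientGroup.eq]
    have h1 : dd N g = w * dd N g' := by
      rw [← hw', ← dd_mul (GH_le N H h) hg', inv_mul_cancel_right]
    rw [hu, hu'] at h1
    have h2 : u = w * u' := Units.ext (by rw [Units.val_mul]; exact h1)
    rw [h2]
    have : (w * u')⁻¹ * u' = w⁻¹ := by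
      rw [mul_inv_rev, mul_comm u'⁻¹, inv_mul_cancel_right]
    rw [this]
    exact inv_mem hw
  · intro h
    rw [QuotientGroup.eq] at h
    refine mul_inv_mem_GH hg hg' (u := (u⁻¹ * u')⁻¹) (inv_mem h) ?_
    rw [hu, hu', ← Units.val_mul]
    congr 1
    rw [mul_inv_rev, inv_inv, mul_comm u'⁻¹, inv_mul_cancel_right]

lemma rD_inj (δ δ' : DG N H) (h : rD δ * (rD δ')⁻¹ ∈ GH N H) : δ = δ' := by
  rw [mem_GH_of_class (rD_mem δ) (rD_mem δ') (dd_rD δ) (dd_rD δ')] at h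
  rwa [QuotientGroup.out_eq', QuotientGroup.out_eq'] at h

lemma rD_surj (g : SL(2, ℤ)) (hg : g ∈ GG N) : ∃ δ : DG N H, g * (rD δ)⁻¹ ∈ GH N H := by
  obtain ⟨u, hu⟩ := isUnit_dd hg
  refine ⟨QuotientGroup.mk u, ?_⟩
  rw [mem_GH_of_class hg (rD_mem _) hu.symm (dd_rD _), QuotientGroup.out_eq']

/-- the transfer family -/
theorem famTrH : Fam (GH N H) (GG N) (fun δ : DG N H => (rD δ : M2)) :=
  fam_of_choice (fun i => by rw [(rD i).det_coe]; exact one_ne_zero) (fun γ hγ i => by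
    obtain ⟨j, hj⟩ := rD_surj (H := H) (rD i * γ) (mul_mem (rD_mem i) hγ)
    refine ⟨j, ⟨_, hj⟩, ?_⟩
    rw [← Matrix.SpecialLinearGroup.coe_mul, ← Matrix.SpecialLinearGroup.coe_mul,
      inv_mul_cancel_right]) (fun i j g h => rD_inj i j (by
    rw [← Matrix.SpecialLinearGroup.coe_mul] at h
    have h1 : rD i = (g : SL(2, ℤ)) * rD j := Subtype.ext h
    rw [h1, mul_inv_cancel_right]
    exact g.2))

instance : Fintype (DG N H) := Fintype.ofFinite _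

variable (N H) in
/-- transfer -/
def trH : KumG.LZ (GH N H) →ₗ[ℤ] KumG.LZ (GG N) := opLL (famTrH (N := N) (H := H))

/-- restriction of a transfer -/
theorem resH_trH (x : KumG.LZ (GH N H)) : resH N H (trH N H x) = ∑ δ : DG N H, DQ N H δ x := by
  apply Subtype.ext
  refine AddMonoidHom.ext fun g => ?_
  obtain ⟨g, rfl⟩ := Additive.ofMul.surjective g
  change (famSub (GH_le N H)).op ℤ ((famTrH (N := N) (H := H)).op ℤ x.1) _ = _
  rw [famSub_apply (GH_le N H)]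
  rw [Fam.op_apply_of_tr famTrH x.1 ⟨g, GH_le N H g.2⟩ (σ := 1)
    (g := fun δ => ⟨rD δ * g * (rD δ)⁻¹, conj_mem_GH (rD_mem δ) g g.2⟩) (fun δ => by
      rw [← Matrix.SpecialLinearGroup.coe_mul, ← Matrix.SpecialLinearGroup.coe_mul]
      simp)]
  have h1 : ∀ δ : DG N H, x.1 (Additive.ofMul ⟨rD δ * g * (rD δ)⁻¹, conj_mem_GH (rD_mem δ) g g.2⟩) =
      (DQ N H δ x).1 (Additive.ofMul g) := by
    intro δ
    rw [DQ_eq]
    exact (fam_diaH_op_apply (rD_mem δ) x.1 g).symm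
  rw [Finset.sum_congr rfl fun δ _ => h1 δ]
  have h2 : ∀ s : Finset (DG N H), ((∑ δ ∈ s, DQ N H δ x : KumG.LZ (GH N H))).1 =
      ∑ δ ∈ s, (DQ N H δ x).1 := by
    intro s
    classical
    induction s using Finset.induction_on with
    | empty => rfl
    | insert a s ha ih =>
      rw [Finset.sum_insert ha, Finset.sum_insert ha, ← ih]; rfl
  rw [h2]
  rw [AddMonoidHom.finsetSum_apply]

end

end Fermat.Agent.TW
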