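import Fermat.Agent.LevelRaise.Nondeg
import Fermat.Agent.ALCoh.Ident2

/-!
# Elements of order three (six) of `SL₂(ℤ)`
-/

set_option autoImplicit false

open Matrix.SpecialLinearGroup
open scoped MatrixGroups
open ModularGroup (S T)
open Fermat.Agent.ShimuraCover Fermat.Agent.LevelRaise

namespace Fermat.Agent.TW

noncomputable section

lemma coe_U' : (U : Matrix (Fin 2) (Fin 2) ℤ) = !![1, -1; 1, 0] := by
  rw [U, Matrix.SpecialLinearGroup.coe_mul, ModularGroup.coe_T, ModularGroup.coe_S]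
  ext i j; fin_cases i <;> fin_cases j <;> simp [Matrix.mul_apply, Fin.sum_univ_two]

lemma coe_U_inv : ((U⁻¹ : SL(2, ℤ)) : Matrix (Fin 2) (Fin 2) ℤ) = !![0, 1; -1, 1] := by
  rw [Matrix.SpecialLinearGroup.coe_inv, coe_U', Matrix.adjugate_fin_two]
  ext i j; fin_cases i <;> fin_cases j <;> simp

lemma T_conj (g : SL(2, ℤ)) (k : ℤ) : (T ^ k * g * (T ^ k)⁻¹) 1 0 = g 1 0 ∧
    (T ^ k * g * (T ^ k)⁻¹) 0 0 = g 0 0 + k * g 1 0 := by
  rw [← zpow_neg]
  constructor <;>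
  simp only [Matrix.SpecialLinearGroup.coe_mul, ModularGroup.coe_T_zpow, Matrix.mul_apply,
    Fin.sum_univ_two] <;> simp

lemma S_conj (g : SL(2, ℤ)) : (S * g * S⁻¹) 1 0 = - g 0 1 ∧ (S * g * S⁻¹) 0 1 = - g 1 0 := by
  constructor <;>
  simp only [Matrix.SpecialLinearGroup.coe_mul, Matrix.SpecialLinearGroup.coe_inv,
    ModularGroup.coe_S, Matrix.adjugate_fin_two, Matrix.mul_apply,
    Fin.sum_univ_two] <;> simp

/-- elements of trace one are conjugate to `U` or `U⁻¹` -/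
theorem exists_conj_U (g : SL(2, ℤ)) (h : g 0 0 + g 1 1 = 1) :
    ∃ y : SL(2, ℤ), g = y⁻¹ * U * y ∨ g = y⁻¹ * U⁻¹ * y := by
  suffices H : ∀ n : ℕ, ∀ g : SL(2, ℤ), g 0 0 + g 1 1 = 1 → (g 1 0).natAbs = n →
      ∃ y : SL(2, ℤ), g = y⁻¹ * U * y ∨ g = y⁻¹ * U⁻¹ * y from H _ g h rfl
  intro n
  induction n using Nat.strong_induction_on with
  | _ n ih =>
    intro g h hn
    have htr : ∀ (z : SL(2, ℤ)), (z * g * z⁻¹) 0 0 + (z * g * z⁻¹) 1 1 = 1 := by
      intro z
      have e := trace_conj_inv z⁻¹ g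
      rw [inv_inv, Matrix.trace_fin_two, Matrix.trace_fin_two] at e
      exact e.trans h
    have hconj : ∀ (z : SL(2, ℤ)), (∃ y : SL(2, ℤ), z * g * z⁻¹ = y⁻¹ * U * y ∨
        z * g * z⁻¹ = y⁻¹ * U⁻¹ * y) → ∃ y : SL(2, ℤ), g = y⁻¹ * U * y ∨ g = y⁻¹ * U⁻¹ * y := by
      rintro z ⟨y, hy | hy⟩
      · refine ⟨y * z, Or.inl ?_⟩
        have : g = z⁻¹ * (z * g * z⁻¹) * z := by group
        rw [this, hy]; group
      · refine ⟨y * z, Or.inr ?_⟩
        have : g = z⁻¹ * (z * g * z⁻¹) * z := by group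
        rw [this, hy]; group
    have hdet : g 0 0 * g 1 1 - g 0 1 * g 1 0 = 1 := by
      have := g.det_coe
      rwa [Matrix.det_fin_two] at this
    have hc0 : g 1 0 ≠ 0 := by
      intro h0
      rw [h0, mul_zero, sub_zero] at hdet
      have h1 : g 1 1 = 1 - g 0 0 := by linarith
      rw [h1] at hdet
      nlinarith [sq_nonneg (2 * g 0 0 - 1)]
    -- normalise `a`
    set c := g 1 0 with hc
    have hcpos : 0 < |c| := abs_pos.mpr hc0
    obtain ⟨k, hk⟩ : ∃ k : ℤ, |2 * (g 0 0 + k * c) - 1| ≤ |c| := by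
      -- choose `a' = a + k c` with `0 ≤ 2 a' - 1 + |c| < 2 |c|`
      refine ⟨-(c.sign * ((2 * g 0 0 - 1 + |c|) / (2 * |c|))), ?_⟩
      have h1 := Int.emod_nonneg (2 * g 0 0 - 1 + |c|) (b := 2 * |c|) (by omega)
      have h2 := Int.emod_lt_of_pos (2 * g 0 0 - 1 + |c|) (b := 2 * |c|) (by omega)
      have h3 := Int.emod_add_mul_ediv (2 * g 0 0 - 1 + |c|) (2 * |c|)
      have h4 : c.sign * c = |c| := Int.sign_mul_self_eq_abs c
      set q := (2 * g 0 0 - 1 + |c|) / (2 * |c|) with hq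
      have h5 : 2 * (g 0 0 + -(c.sign * q) * c) - 1 = 2 * g 0 0 - 1 - 2 * |c| * q := by
        rw [← h4]; ring
      rw [h5, abs_le]
      constructor <;> linarith
    by_cases hc1 : |c| = 1
    · -- base case
      have e1 := T_conj g k
      apply hconj (T ^ k)
      set g' := T ^ k * g * (T ^ k)⁻¹ with hg'
      have htr' : g' 0 0 + g' 1 1 = 1 := htr (T ^ k)
      have hdet' : g' 0 0 * g' 1 1 - g' 0 1 * g' 1 0 = 1 := by
        have := g'.det_coe
        rwa [Matrix.det_fin_two] at this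
      rw [← e1.2, hc1, abs_le] at hk
      have ha : g' 0 0 = 0 ∨ g' 0 0 = 1 := by omega
      have hc' : g' 1 0 = 1 ∨ g' 1 0 = -1 := by
        rw [e1.1]
        exact eq_or_eq_neg_of_abs_eq hc1
      have hd : g' 1 1 = 1 - g' 0 0 := by linarith
      -- four cases
      have hext : ∀ {a b : SL(2, ℤ)}, a 0 0 = b 0 0 → a 0 1 = b 0 1 → a 1 0 = b 1 0 →
          a 1 1 = b 1 1 → a = b := by
        intro a b h1 h2 h3 h4
        apply Subtype.ext
        exact Fermat.Agent.AL.mat_ext h1 h2 h3 h4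
      have hU00 : (U : SL(2, ℤ)) 0 0 = 1 := by
        have := congrFun (congrFun coe_U' 0) 0; simpa using this
      have hU01 : (U : SL(2, ℤ)) 0 1 = -1 := by
        have := congrFun (congrFun coe_U' 0) 1; simpa using this
      have hU10 : (U : SL(2, ℤ)) 1 0 = 1 := by
        have := congrFun (congrFun coe_U' 1) 0; simpa using this
      have hU11 : (U : SL(2, ℤ)) 1 1 = 0 := by
        have := congrFun (congrFun coe_U' 1) 1; simpa using this
      have hV00 : (U⁻¹ : SL(2, ℤ)) 0 0 = 0 := by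
        have := congrFun (congrFun coe_U_inv 0) 0; simpa using this
      have hV01 : (U⁻¹ : SL(2, ℤ)) 0 1 = 1 := by
        have := congrFun (congrFun coe_U_inv 0) 1; simpa using this
      have hV10 : (U⁻¹ : SL(2, ℤ)) 1 0 = -1 := by
        have := congrFun (congrFun coe_U_inv 1) 0; simpa using this
      have hV11 : (U⁻¹ : SL(2, ℤ)) 1 1 = 1 := by
        have := congrFun (congrFun coe_U_inv 1) 1; simpa using this
      rcases ha with ha | ha <;> rcases hc' with hc' | hc' <;>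
        rw [ha] at hd hdet' <;> rw [hc'] at hdet' <;> rw [hd] at hdet'
      · -- a = 0, c = 1: `[[0,-1],[1,1]] = T⁻¹ U T`
        have hb : g' 0 1 = -1 := by linarith
        refine ⟨T, Or.inl ?_⟩
        have h5 := T_conj U (-1)
        have h6 : (T ^ (-1 : ℤ) * U * (T ^ (-1 : ℤ))⁻¹ : SL(2, ℤ)) = T⁻¹ * U * T := by
          rw [zpow_neg_one, inv_inv]
        rw [h6] at h5
        have h7 := trace_conj_inv T U
        rw [Matrix.trace_fin_two, Matrix.trace_fin_two] at h7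
        have h8 := (T⁻¹ * U * T : SL(2, ℤ)).det_coe
        rw [Matrix.det_fin_two] at h8
        have h00 : (T⁻¹ * U * T : SL(2, ℤ)) 0 0 = 0 := by rw [h5.2, hU00, hU10]; norm_num
        have h10 : (T⁻¹ * U * T : SL(2, ℤ)) 1 0 = 1 := by rw [h5.1, hU10]
        have h11 : (T⁻¹ * U * T : SL(2, ℤ)) 1 1 = 1 := by
          have : (U : SL(2, ℤ)) 0 0 + (U : SL(2, ℤ)) 1 1 = 1 := by rw [hU00, hU11]; norm_num
          have h9 : (T⁻¹ * U * T : SL(2, ℤ)) 0 0 + (T⁻¹ * U * T : SL(2, ℤ)) 1 1 = 1 :=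
            h7.trans this
          linarith
        have h01 : (T⁻¹ * U * T : SL(2, ℤ)) 0 1 = -1 := by
          have h9 : (T⁻¹ * U * T : SL(2, ℤ)) 0 0 * (T⁻¹ * U * T : SL(2, ℤ)) 1 1 -
            (T⁻¹ * U * T : SL(2, ℤ)) 0 1 * (T⁻¹ * U * T : SL(2, ℤ)) 1 0 = 1 := h8
          rw [h00, h10] at h9
          linarith
        exact hext (by rw [ha, h00]) (by rw [hb, h01]) (by rw [hc', h10]) (by rw [hd, h11]; norm_num)
      · -- a = 0, c = -1: `U⁻¹`
        refine ⟨1, Or.inr ?_⟩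
        rw [inv_one, one_mul, mul_one]
        exact hext (by rw [ha, hV00]) (by rw [hV01]; linarith) (by rw [hc', hV10])
          (by rw [hd, hV11]; norm_num)
      · -- a = 1, c = 1: `U`
        refine ⟨1, Or.inl ?_⟩
        rw [inv_one, one_mul, mul_one]
        exact hext (by rw [ha, hU00]) (by rw [hU01]; linarith) (by rw [hc', hU10])
          (by rw [hd, hU11]; norm_num)
      · -- a = 1, c = -1: `[[1,1],[-1,0]] = T⁻¹ U⁻¹ T`
        have hb : g' 0 1 = 1 := by linarith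
        refine ⟨T, Or.inr ?_⟩
        have h5 := T_conj U⁻¹ (-1)
        have h6 : (T ^ (-1 : ℤ) * U⁻¹ * (T ^ (-1 : ℤ))⁻¹ : SL(2, ℤ)) = T⁻¹ * U⁻¹ * T := by
          rw [zpow_neg_one, inv_inv]
        rw [h6] at h5
        have h7 := trace_conj_inv T U⁻¹
        rw [Matrix.trace_fin_two, Matrix.trace_fin_two] at h7
        have h8 := (T⁻¹ * U⁻¹ * T : SL(2, ℤ)).det_coe
        rw [Matrix.det_fin_two] at h8
        have h00 : (T⁻¹ * U⁻¹ * T : SL(2, ℤ)) 0 0 = 1 := by rw [h5.2, hV00, hV10]; norm_num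
        have h10 : (T⁻¹ * U⁻¹ * T : SL(2, ℤ)) 1 0 = -1 := by rw [h5.1, hV10]
        have h11 : (T⁻¹ * U⁻¹ * T : SL(2, ℤ)) 1 1 = 0 := by
          have : (U⁻¹ : SL(2, ℤ)) 0 0 + (U⁻¹ : SL(2, ℤ)) 1 1 = 1 := by rw [hV00, hV11]; norm_num
          have h9 : (T⁻¹ * U⁻¹ * T : SL(2, ℤ)) 0 0 + (T⁻¹ * U⁻¹ * T : SL(2, ℤ)) 1 1 = 1 :=
            h7.trans this
          linarith
        have h01 : (T⁻¹ * U⁻¹ * T : SL(2, ℤ)) 0 1 = 1 := by
          have h9 : (T⁻¹ * U⁻¹ * T : SL(2, ℤ)) 0 0 * (T⁻¹ * U⁻¹ * T : SL(2, ℤ)) 1 1 -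
            (T⁻¹ * U⁻¹ * T : SL(2, ℤ)) 0 1 * (T⁻¹ * U⁻¹ * T : SL(2, ℤ)) 1 0 = 1 := h8
          rw [h00, h10] at h9
          linarith
        exact hext (by rw [ha, h00]) (by rw [hb, h01]) (by rw [hc', h10]) (by rw [hd, h11]; norm_num)
    · -- reduction step
      have e1 := T_conj g k
      set g' := T ^ k * g * (T ^ k)⁻¹ with hg'
      have htr' : g' 0 0 + g' 1 1 = 1 := htr (T ^ k)
      have hdet' : g' 0 0 * g' 1 1 - g' 0 1 * g' 1 0 = 1 := by
        have := g'.det_coe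
        rwa [Matrix.det_fin_two] at this
      have hd : g' 1 1 = 1 - g' 0 0 := by linarith
      rw [hd, e1.1] at hdet'
      rw [← e1.2] at hk
      have e2 := S_conj g'
      set g'' := S * g' * S⁻¹ with hg''
      have e3 : g'' = (S * T ^ k) * g * (S * T ^ k)⁻¹ := by
        rw [hg'', hg']; group
      apply hconj (S * T ^ k)
      rw [← e3]
      refine ih _ ?_ g'' (by rw [e3]; exact htr _) rfl
      rw [e2.1, ← hn, Int.natAbs_neg]
      -- `4 |b| |c| = (2a-1)^2 + 3 ≤ c^2 + 3 < 4 c^2`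
      have h6 : 4 * (g' 0 1 * c) = -((2 * g' 0 0 - 1) ^ 2 + 3) := by linear_combination -4 * hdet'
      have h7 : (2 * g' 0 0 - 1) ^ 2 ≤ c ^ 2 := sq_le_sq.mpr hk
      have h8 : 2 ≤ |c| := by omega
      have h9 : |g' 0 1| < |c| := by
        by_contra hcon
        rw [not_lt] at hcon
        have h10 : |c| * |c| ≤ |g' 0 1| * |c| := mul_le_mul_of_nonneg_right hcon (abs_nonneg _)
        have h11 : |g' 0 1| * |c| = |g' 0 1 * c| := (abs_mul _ _).symm
        have h12 : |g' 0 1 * c| = - (g' 0 1 * c) := abs_of_nonpos (by nlinarith [sq_nonneg (2 * g' 0 0 - 1)])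
        have h13 : |c| * |c| = c ^ 2 := by rw [← sq, sq_abs]
        have h14 : 4 ≤ c ^ 2 := by rw [← h13]; nlinarith
        nlinarith
      have h15 : ((g' 0 1).natAbs : ℤ) < (c.natAbs : ℤ) := by
        rw [Int.natCast_natAbs, Int.natCast_natAbs]; exact h9
      exact_mod_cast h15

end

end Fermat.Agent.TW
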