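import Fermat.Agent.TW.GrpRing

/-!
# Freeness over the group ring through Galois
-/

set_option autoImplicit false
set_option linter.unusedSectionVars false
set_option linter.style.haveILetI false

open IsLocalRing

namespace Fermat.Agent.TW

noncomputable section

theorem exists_matrix {O D TT M Y : Type} [CommRing O] [CommRing D] [IsLocalRing D] [Algebra O D]
    [CommRing TT] [Algebra O TT] [AddCommGroup M] [Module O M] [Module TT M] [IsScalarTower O TT M]
    [AddCommGroup Y] [Module TT Y] (g : D →ₐ[O] TT) (EE : Y ≃ₗ[TT] M × M) {κ : Type} [Fintype κ]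
    (y : κ → Y) (hbij : Function.Bijective (fun x : κ → D => ∑ k, g (x k) • y k)) :
    ∃ (d : ℕ) (E : M ≃ₗ[O] (Fin d → D)) (f : TT →ₐ[O] Matrix (Fin d) (Fin d) D),
      2 * d = Fintype.card κ ∧ (∀ a m, E (a • m) = (f a).mulVec (E m)) ∧
      ∀ x : D, f (g x) = Matrix.scalar (Fin d) x := by
  classical
  letI mM : Module D M := Module.compHom M g.toRingHom
  have hDM : ∀ (a : D) (m : M), a • m = g a • m := fun a m => rfl
  haveI : IsScalarTower O D M := ⟨fun a b m => by
    rw [hDM, hDM, map_smul, smul_assoc]⟩
  haveI : SMulCommClass D TT M := ⟨fun a b m => by rw [hDM, hDM, smul_comm]⟩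
  let b : Module.Basis κ D (M × M) := Module.Basis.ofEquivFun
    (LinearEquiv.ofBijective ((Fintype.linearCombination D (fun k => EE (y k))))
      (by
        have h1 : (Fintype.linearCombination D (fun k => EE (y k)) : (κ → D) → M × M) =
            EE ∘ fun x : κ → D => ∑ k, g (x k) • y k := by
          funext x
          rw [Fintype.linearCombination_apply, Function.comp_apply, map_sum]
          refine Finset.sum_congr rfl fun k _ => ?_
          rw [map_smul]
          rfl
        rw [h1]
        exact EE.bijective.comp hbij)).symm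
  haveI : Module.Free D (M × M) := Module.Free.of_basis b
  haveI : Module.Finite D (M × M) := Module.Finite.of_basis b
  haveI : Module.Finite D M := Module.Finite.of_surjective (LinearMap.fst D M M)
    LinearMap.fst_surjective
  haveI : Module.Projective D M := Module.Projective.of_split
    (LinearMap.inl D M M) (LinearMap.fst D M M) (LinearMap.ext fun x => rfl)
  haveI : Module.Free D M := Module.free_of_flat_of_isLocalRing
  let E : M ≃ₗ[D] (Fin (Module.finrank D M) → D) := (Module.finBasis D M).equivFun
  let ls : TT → (M →ₗ[D] M) := fun a =>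
    { toFun := fun m => a • m
      map_add' := fun m n => smul_add _ _ _
      map_smul' := fun c m => (smul_comm c a m).symm }
  have hls : ∀ a m, ls a m = a • m := fun a m => rfl
  let f₀ : TT → Matrix (Fin (Module.finrank D M)) (Fin (Module.finrank D M)) D := fun a =>
    LinearMap.toMatrix' (E.toLinearMap ∘ₗ ls a ∘ₗ E.symm.toLinearMap)
  have hf₀ : ∀ a x, (f₀ a).mulVec x = E (a • E.symm x) := fun a x => by
    rw [LinearMap.toMatrix'_mulVec]
    rfl
  have hext : ∀ A B : Matrix (Fin (Module.finrank D M)) (Fin (Module.finrank D M)) D,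
      (∀ x, A.mulVec x = B.mulVec x) → A = B := fun A B h =>
    Matrix.ext_of_mulVec_single fun i => h _
  have hscal : ∀ (c : D) (x : Fin (Module.finrank D M) → D),
      (Matrix.scalar (Fin (Module.finrank D M)) c).mulVec x = c • x := fun c x => by
    rw [Matrix.scalar_apply, ← Matrix.smul_one_eq_diagonal, Matrix.smul_mulVec, Matrix.one_mulVec]
  have hg : ∀ c : D, f₀ (g c) = Matrix.scalar (Fin (Module.finrank D M)) c := fun c => by
    refine hext _ _ fun x => ?_
    rw [hf₀, hscal, ← hDM, map_smul, LinearEquiv.apply_symm_apply]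
  let f : TT →ₐ[O] Matrix (Fin (Module.finrank D M)) (Fin (Module.finrank D M)) D :=
    { toFun := f₀
      map_one' := hext _ _ fun x => by
        rw [hf₀, one_smul, LinearEquiv.apply_symm_apply, Matrix.one_mulVec]
      map_mul' := fun a b => hext _ _ fun x => by
        rw [hf₀, ← Matrix.mulVec_mulVec, hf₀, hf₀, LinearEquiv.symm_apply_apply, mul_smul]
      map_zero' := hext _ _ fun x => by
        rw [hf₀, zero_smul, map_zero, Matrix.zero_mulVec]
      map_add' := fun a b => hext _ _ fun x => by
        rw [hf₀, Matrix.add_mulVec, hf₀, hf₀, add_smul, map_add]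
      commutes' := fun c => by
        rw [← AlgHom.commutes g, hg]
        rfl }
  refine ⟨Module.finrank D M, E.restrictScalars O, f, ?_, ?_, hg⟩
  · have h1 := Module.finrank_eq_card_basis b
    rw [Module.finrank_prod] at h1
    omega
  · intro a m
    change E (a • m) = (f₀ a).mulVec (E m)
    rw [hf₀, LinearEquiv.symm_apply_apply]

theorem bijective_D {O B TT Y Δ κ : Type} [CommRing O] [IsLocalRing O] [CommRing B] [Algebra O B]
    [CommRing TT] [Algebra O TT] [AddCommGroup Y] [Module O Y] [Module B Y] [Module TT Y]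
    [IsScalarTower O B Y] [IsScalarTower O TT Y] [Group Δ] [Fintype Δ] [Fintype κ] {r : ℕ}
    {P : Fin r → ℕ} {p : ℕ} [hp : Fact p.Prime] (hpO : (p : O) ∈ maximalIdeal O)
    (hP : ∀ i, ∃ m, P i = p ^ m) (g : GR O P →ₐ[O] TT) (dl : Δ →* B)
    (b : Module.Basis (κ × Δ) O Y) (hb : ∀ i δ, b (i, δ) = dl δ • b (i, 1)) (d : Fin r → Δ)
    (hgen : Subgroup.closure (Set.range d) = ⊤) (hcard : ∏ i, P i ≤ Fintype.card Δ)
    (hDG : ∀ i, ∀ y : Y, ∃ z : Y, (dl (d i) - 1) • y = (g (GR.δ O P i) - 1) • z) :
    Function.Bijective (fun x : κ → GR O P => ∑ k, g (x k) • b (k, 1)) := by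
  classical
  haveI := GR.isLocalRing (O := O) (P := P) hpO hP
  letI mY : Module (GR O P) Y := Module.compHom Y g.toRingHom
  have hDY : ∀ (a : GR O P) (y : Y), a • y = g a • y := fun a y => rfl
  haveI : IsScalarTower O (GR O P) Y := ⟨fun a c y => by rw [hDY, hDY, map_smul, smul_assoc]⟩
  haveI : Module.Finite O Y := Module.Finite.of_basis b
  haveI : Module.Finite (GR O P) Y := Module.Finite.of_restrictScalars_finite O (GR O P) Y
  have hPpos : ∀ i, 0 < P i := fun i => by
    obtain ⟨m, hm⟩ := hP i
    rw [hm]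
    exact pow_pos hp.out.pos m
  -- surjectivity
  have h1 : ∀ δ : Δ, ∀ y : Y, (dl δ - 1) • y ∈
      maximalIdeal (GR O P) • (⊤ : Submodule (GR O P) Y) := by
    intro δ
    have hδ : δ ∈ Subgroup.closure (Set.range d) := by rw [hgen]; trivial
    induction hδ using Subgroup.closure_induction with
    | mem x hx =>
      obtain ⟨i, rfl⟩ := hx
      intro y
      obtain ⟨z, hz⟩ := hDG i y
      have h2 : (g (GR.δ O P i) - 1) • z = (GR.δ O P i - 1) • z := by
        rw [sub_smul, sub_smul, hDY, one_smul, one_smul]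
      rw [hz, h2]
      exact Submodule.smul_mem_smul (GR.δ1 hpO hP i) trivial
    | one => intro y; rw [map_one, sub_self, zero_smul]; exact Submodule.zero_mem _
    | mul x y _ _ hx hy =>
      intro z
      have h2 : (dl (x * y) - 1) • z = (dl x - 1) • (dl y • z) + (dl y - 1) • z := by
        rw [map_mul, sub_smul, mul_smul, sub_smul, sub_smul, one_smul, one_smul]
        abel
      rw [h2]
      exact Submodule.add_mem _ (hx _) (hy _)
    | inv x _ hx =>
      intro z
      have h2 : (dl x⁻¹ - 1) • z = -((dl x - 1) • (dl x⁻¹ • z)) := by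
        rw [sub_smul, sub_smul, smul_smul, ← map_mul, mul_inv_cancel, map_one, one_smul, one_smul]
        abel
      rw [h2]
      exact Submodule.neg_mem _ (hx _)
  have h2 : (⊤ : Submodule (GR O P) Y) ≤
      Submodule.span (GR O P) (Set.range fun k => b (k, 1)) := by
    refine Submodule.le_of_le_smul_of_le_jacobson_bot (I := maximalIdeal (GR O P))
      Module.Finite.fg_top (IsLocalRing.maximalIdeal_le_jacobson _) ?_
    set K := Submodule.span (GR O P) (Set.range fun k => b (k, 1)) ⊔
      maximalIdeal (GR O P) • (⊤ : Submodule (GR O P) Y) with hK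
    have h3 : Submodule.span O (Set.range b) ≤ K.restrictScalars O := by
      rw [Submodule.span_le]
      rintro _ ⟨⟨k, δ⟩, rfl⟩
      have h4 : b (k, δ) = b (k, 1) + (dl δ - 1) • b (k, 1) := by
        rw [hb k δ, sub_smul, one_smul]
        abel
      rw [h4]
      exact Submodule.add_mem_sup (Submodule.subset_span ⟨k, rfl⟩) (h1 δ _)
    rw [b.span_eq] at h3
    intro y _
    exact h3 trivial
  have hsurj : Function.Surjective (fun x : κ → GR O P => ∑ k, g (x k) • b (k, 1)) := by
    intro y
    obtain ⟨c, hc⟩ := (Submodule.mem_span_range_iff_exists_fun (GR O P)).1 (h2 (trivial : y ∈ ⊤))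
    exact ⟨c, hc⟩
  refine ⟨?_, hsurj⟩
  -- injectivity
  let F : ((κ × ∀ i, Fin (P i)) → O) →ₗ[O] Y :=
    Fintype.linearCombination O fun ka : κ × ∀ i, Fin (P i) =>
      g (GR.mon ka.2) • b (ka.1, 1)
  have hF : ∀ c, F c = ∑ k, g (∑ a, c (k, a) • GR.mon (O := O) (P := P) a) • b (k, 1) := by
    intro c
    rw [Fintype.linearCombination_apply, Fintype.sum_prod_type]
    refine Finset.sum_congr rfl fun k _ => ?_
    rw [map_sum, Finset.sum_smul]
    refine Finset.sum_congr rfl fun a _ => ?_
    rw [map_smul, smul_assoc]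
  have hspan : ∀ x : κ → GR O P, ∃ c : (κ × ∀ i, Fin (P i)) → O,
      ∀ k, x k = ∑ a, c (k, a) • GR.mon (O := O) (P := P) a := by
    intro x
    have h3 : ∀ k, ∃ c : (∀ i, Fin (P i)) → O, ∑ a, c a • GR.mon (O := O) (P := P) a = x k :=
      fun k => (Submodule.mem_span_range_iff_exists_fun O).1
        (by rw [GR.span_mon hPpos]; trivial)
    choose c hc using h3
    exact ⟨fun ka => c ka.1 ka.2, fun k => (hc k).symm⟩
  have hFs : Function.Surjective F := by
    intro y
    obtain ⟨x, hx⟩ := hsurj y
    obtain ⟨c, hc⟩ := hspan x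
    refine ⟨c, ?_⟩
    rw [hF, ← hx]
    exact Finset.sum_congr rfl fun k _ => by rw [hc k]
  have hFi : Function.Injective F := by
    have hc : Fintype.card (κ × ∀ i, Fin (P i)) ≤ Fintype.card (κ × Δ) := by
      rw [Fintype.card_prod, Fintype.card_prod, Fintype.card_pi]
      refine Nat.mul_le_mul_left _ ?_
      rw [Finset.prod_congr rfl fun i _ => Fintype.card_fin (P i)]
      exact hcard
    obtain ⟨j⟩ := Function.Embedding.nonempty_of_card_le hc
    let π : (κ × Δ → O) →ₗ[O] ((κ × ∀ i, Fin (P i)) → O) := LinearMap.funLeft O O j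
    have hπ : Function.Surjective π := LinearMap.funLeft_surjective_of_injective O O j j.injective
    let T : (κ × Δ → O) →ₗ[O] (κ × Δ → O) := b.equivFun.toLinearMap ∘ₗ F ∘ₗ π
    have hT : Function.Surjective T := (b.equivFun.surjective.comp hFs).comp hπ
    have hTi : Function.Injective T := OrzechProperty.injective_of_surjective_endomorphism T hT
    rw [← LinearMap.ker_eq_bot, eq_bot_iff]
    intro x hx
    obtain ⟨z, rfl⟩ := hπ x
    have h3 : T z = 0 := by
      change b.equivFun (F (π z)) = 0
      rw [LinearMap.mem_ker.1 hx, map_zero]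
    have h4 : z = 0 := hTi (by rw [h3, map_zero])
    rw [h4, map_zero]
    exact Submodule.zero_mem _
  intro x x' hxx
  obtain ⟨c, hc⟩ := hspan x
  obtain ⟨c', hc'⟩ := hspan x'
  have h3 : F c = F c' := by
    rw [hF, hF]
    have h4 : ∑ k, g (x k) • b (k, 1) = ∑ k, g (x' k) • b (k, 1) := hxx
    rw [Finset.sum_congr rfl fun k _ => by rw [← hc k], h4]
    exact Finset.sum_congr rfl fun k _ => by rw [hc' k]
  have h4 := hFi h3
  funext k
  rw [hc, hc', h4]

end

end Fermat.Agent.TW
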