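import Fermat.Agent.TW.DvrX
import Fermat.Prelude.Thm_IsLocalRing_isAdicComplete_of_module_finite

/-!
# Adjoining a root of unity to a complete discrete valuation ring
-/

set_option autoImplicit false
set_option linter.unusedSectionVars false
set_option linter.style.haveILetI false

namespace Fermat.Agent.TW

open IsLocalRing
open scoped TensorProduct

noncomputable section

variable (O : Type) [CommRing O] [IsDomain O] [IsDiscreteValuationRing O]
  [IsAdicComplete (maximalIdeal O) O] [CharZero O]

theorem exists_zeta_dvr (p : ℕ) [hp : Fact p.Prime] :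
    ∃ (A : Type) (_ : CommRing A) (_ : IsDomain A) (_ : IsDiscreteValuationRing A)
      (_ : CharZero A) (_ : Algebra O A) (_ : Module.Free O A) (_ : IsAdicComplete (maximalIdeal A) A)
      (ζ : A), IsPrimitiveRoot ζ p ∧ ∀ a ∈ maximalIdeal O, algebraMap O A a ∈ maximalIdeal A := by
  classical
  let K := FractionRing O
  let Kb := AlgebraicClosure K
  haveI : CharZero K := charZero_of_injective_algebraMap (IsFractionRing.injective O K)
  haveI : CharZero Kb := charZero_of_injective_algebraMap (algebraMap K Kb).injective
  haveI : NeZero ((p : ℕ) : Kb) := ⟨Nat.cast_ne_zero.2 hp.out.ne_zero⟩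
  obtain ⟨z, hz⟩ := HasEnoughRootsOfUnity.exists_primitiveRoot Kb p
  let L : IntermediateField K Kb := IntermediateField.adjoin K {z}
  haveI hfin : FiniteDimensional K L :=
    IntermediateField.adjoin.finiteDimensional (Algebra.IsIntegral.isIntegral z)
  let A : Type := integralClosure O L
  haveI : Module.Finite O A := IsIntegralClosure.finite O K L A
  haveI : IsDedekindDomain A := integralClosure.isDedekindDomain O K L
  haveI : IsLocalRing A := CL.isLocalRing_of_finite (𝒪 := O) A
  have hinj : Function.Injective (algebraMap O A) := by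
    intro a b hab
    have h1 : algebraMap O L a = algebraMap O L b := congrArg Subtype.val hab
    rw [IsScalarTower.algebraMap_apply O K L, IsScalarTower.algebraMap_apply O K L] at h1
    exact IsFractionRing.injective O K ((algebraMap K L).injective h1)
  haveI : FaithfulSMul O A := (faithfulSMul_iff_algebraMap_injective O A).mpr hinj
  haveI : Algebra.IsIntegral O A := inferInstance
  haveI : IsLocalHom (algebraMap O A) := inferInstance
  haveI : CharZero A := charZero_of_injective_algebraMap hinj
  have hmax : ∀ a ∈ maximalIdeal O, algebraMap O A a ∈ maximalIdeal A := by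
    intro a ha
    rw [mem_maximalIdeal, mem_nonunits_iff, isUnit_map_iff]
    exact ha
  have hnf : ¬ IsField A := by
    intro hf
    letI := hf.toField
    obtain ⟨ϖ, hϖ⟩ := IsDiscreteValuationRing.exists_irreducible O
    have h0 : algebraMap O A ϖ ≠ 0 := fun h => hϖ.ne_zero (hinj (by rw [h, map_zero]))
    exact hmax ϖ (by rw [hϖ.maximalIdeal_eq]; exact Ideal.mem_span_singleton_self _)
      (isUnit_iff_ne_zero.mpr h0)
  haveI : IsDiscreteValuationRing A := ((IsDiscreteValuationRing.TFAE A hnf).out 0 2 :
    IsDiscreteValuationRing A ↔ IsDedekindDomain A).mpr inferInstance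
  haveI : IsNoetherianRing A := inferInstance
  haveI : Module.IsTorsionFree O A := by
    rw [Module.isTorsionFree_iff_algebraMap_injective]
    exact hinj
  haveI : Module.Free O A := Module.free_of_finite_type_torsion_free'
  haveI : IsAdicComplete (maximalIdeal A) A :=
    IsLocalRing.isAdicComplete_of_module_finite (𝒪 := O)
  have hzL : z ∈ L := IntermediateField.mem_adjoin_simple_self K z
  have hzI : IsIntegral O (⟨z, hzL⟩ : L) := by
    refine ⟨Polynomial.X ^ p - 1, Polynomial.monic_X_pow_sub_C 1 hp.out.ne_zero, ?_⟩
    rw [Polynomial.eval₂_sub, Polynomial.eval₂_X_pow, Polynomial.eval₂_one, sub_eq_zero]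
    exact Subtype.ext hz.pow_eq_one
  let ζ : A := ⟨⟨z, hzL⟩, hzI⟩
  refine ⟨A, inferInstance, inferInstance, inferInstance, inferInstance, inferInstance,
    inferInstance, inferInstance, ζ, ?_, hmax⟩
  have hj : Function.Injective ((algebraMap L Kb).comp (algebraMap A L)) :=
    (algebraMap L Kb).injective.comp (Subtype.val_injective)
  refine IsPrimitiveRoot.of_map_of_injective (f := (algebraMap L Kb).comp (algebraMap A L)) ?_ hj
  exact hz

end

end Fermat.Agent.TW
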