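import Fermat.Agent.TW.HNU3
import Fermat.Agent.TW.Zeta
import Fermat.Agent.TW.BasY
import Fermat.Agent.TW.FreeD

/-!
# Diamond operators through inertia
-/

set_option autoImplicit false
set_option linter.unusedSectionVars false
set_option linter.style.haveILetI false

open IsLocalRing
open scoped TensorProduct
open Fermat.Agent.KumG Fermat.Agent.GalRep Fermat.Agent.Places Fermat.Agent.Cheb

namespace Fermat.Agent.TW

noncomputable section

/-- (C3) at a general level -/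
theorem C3_N {O : Type} [CommRing O] [IsLocalRing O] [IsNoetherianRing O]
    [IsAdicComplete (maximalIdeal O) O] {p : ℕ} [hp : Fact p.Prime]
    (hpO : (p : O) ∈ maximalIdeal O) {N v M : ℕ} [hv : Fact v.Prime] [NeZero M] [NeZero N]
    (hN : N = v * M) (hMN : M ∣ N)
    {H : Subgroup (ZMod N)ˣ} [hH : Fact ((-1 : (ZMod N)ˣ) ∈ H)] {S : Set ℕ}
    {hNS : ∀ l, l.Prime → l ∣ N → l ∈ S} {e : TS O S} (ι : AlgebraicClosure ℚ →+* ℂ)
    {θ : TS O S →ₐ[O] ResidueField O} [Nontrivial (YH H hNS e)] [Module.Free O (YH H hNS e)]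
    {t : GQ → ResidueField O} [Invertible (2 : O)] {g₀ k₀ : GQ} (hgk : HG.IrrAt t g₀ k₀)
    (hodd : Odd (Fintype.card (DG N H))) (hpv : p ≠ v) (hvM : ¬ v ∣ M) (hM3 : 3 ≤ M)
    (h : HG hpO S t (psiY H hNS e) (thetaD θ N) (rhoY hpO ι H hNS e))
    {A : ValuationSubring (AlgebraicClosure ℚ)} (hA : A.LiesOverPrime v)
    (L : LocW p v A (h.R hgk)) {n : ℕ} (hn : ∀ z : YH H hNS e, n • z = 0 → z = 0)
    (hord : L.η L.σ₀ ^ n = 1)
    {κ : Type} (b : Module.Basis (κ × DG N H) O (YH H hNS e))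
    (hb : ∀ i δ, b (i, δ) = dlB hNS e δ • b (i, 1)) {D : DG N H}
    (hD : ∀ x : (ZMod N)ˣ, ZMod.unitsMap hMN x = 1 → ∃ n : ℕ,
      (QuotientGroup.mk x : DG N H) = D ^ n) (y : YH H hNS e) :
    ∃ u : YH H hNS e, (h.incB (L.η L.σ₀) - 1) • y = (dlB hNS e D - 1) • u := by
  subst hN
  refine C3 hpO ι hgk hodd hpv hvM hM3 h hA L hn hord b hb (D := D) ?_ y
  rintro _ ⟨x, hx, rfl⟩
  exact hD x hx

section main

variable {O : Type} [CommRing O] [IsDomain O] [IsDiscreteValuationRing O]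
  [IsAdicComplete (maximalIdeal O) O] [CharZero O] {p : ℕ} [hp : Fact p.Prime]
  (hpO : (p : O) ∈ maximalIdeal O) (ι : AlgebraicClosure ℚ →+* ℂ)
  {r : ℕ} {N₀ : ℕ} {v : Fin r → ℕ} {N : ℕ} [NeZero N] {m c : Fin r → ℕ}
  (hw : TWN p N₀ v N m c) [hH : Fact ((-1 : (ZMod N)ˣ) ∈ HQ hw.dvd c)]
  {S : Set ℕ} {hNS : ∀ l, l.Prime → l ∣ N → l ∈ S} {e : TS O S}
  {θ : TS O S →ₐ[O] ResidueField O} [Nontrivial (YH (HQ hw.dvd c) hNS e)]
  [Module.Free O (YH (HQ hw.dvd c) hNS e)]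
  {t : GQ → ResidueField O} [Invertible (2 : O)] {g₀ k₀ : GQ} (hgk : HG.IrrAt t g₀ k₀)
  (h : HG hpO S t (psiY (HQ hw.dvd c) hNS e) (thetaD θ N) (rhoY hpO ι (HQ hw.dvd c) hNS e))

include hp in
/-- the diamond operators are residually trivial -/
theorem sub_one_mem_of_pow {O' : Type} [CommRing O'] [IsLocalRing O']
    (hpO' : (p : O') ∈ maximalIdeal O') {x : O'} (hx : x ^ p = 1) : x - 1 ∈ maximalIdeal O' := by
  haveI := charP_res hpO'
  rw [← IsLocalRing.residue_eq_zero_iff]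
  have h1 : (residue O' (x - 1)) ^ p = 0 := by
    rw [map_sub, sub_pow_char, ← map_pow, hx, map_one, one_pow, sub_self]
  exact pow_eq_zero_iff (hp.out.ne_zero) |>.1 h1

include hgk in
/-- **`(D - 1) Y ⊂ (G - 1) Y`** -/
theorem exists_DG (hS : S.Finite) (hpS : p ∈ S) (hN₀ : 3 ≤ N₀)
    {d : Fin r → (ZMod N)ˣ}
    (h1 : ∀ i M (hM : M ∣ N), N = v i * M → ZMod.unitsMap hM (d i) = 1)
    (h3 : ∀ i, ∀ y : (ZMod (v i))ˣ, ∃ n : ℕ, y = ZMod.unitsMap (hw.dvd i) (d i) ^ n)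
    (h4 : ∀ i, orderOf (ZMod.unitsMap (hw.dvd i) (d i)) = v i - 1)
    {κ : Type} (b : Module.Basis (κ × DG N (HQ hw.dvd c)) O (YH (HQ hw.dvd c) hNS e))
    (hb : ∀ i δ, b (i, δ) = dlB hNS e δ • b (i, 1)) (i : Fin r)
    {A : ValuationSubring (AlgebraicClosure ℚ)} (hA : A.LiesOverPrime (v i)) (hpv : p ≠ v i)
    (L : LocW p (v i) A (h.R hgk)) (y : YH (HQ hw.dvd c) hNS e) :
    ∃ z : YH (HQ hw.dvd c) hNS e, (dlB (H := HQ hw.dvd c) hNS e (QuotientGroup.mk (d i)) - 1) • y =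
      (h.incB (L.η L.σ₀) - 1) • z := by
  haveI : Fact (v i).Prime := ⟨hw.prime i⟩
  have hodd := odd_card (N := N) (H := HQ hw.dvd c) hw.p2 hw.isPGroup
  obtain ⟨O', i1, i2, i3, i4, i5, i6, i7, ζ, hζ, hmax⟩ := exists_zeta_dvr O p
  have hpO' : (p : O') ∈ maximalIdeal O' := by
    have := hmax _ hpO
    rwa [map_natCast] at this
  haveI : IsLocalRing (BB (psiY (HQ hw.dvd c) hNS e)) := BB.isLocalRing _ h.unit
  haveI : Module.Finite (BB (psiY (HQ hw.dvd c) hNS e)) (YH (HQ hw.dvd c) hNS e) :=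
    Module.Finite.of_restrictScalars_finite O _ _
  haveI : IsNoetherian (BB (psiY (HQ hw.dvd c) hNS e)) (YH (HQ hw.dvd c) hNS e) :=
    isNoetherian_of_isNoetherianRing_of_finite _ _
  obtain ⟨M, hNM, hcop, hdvd, hN₀M⟩ := hw.exists_M i
  have hMN : M ∣ N := ⟨v i, by rw [hNM, mul_comm]⟩
  haveI : NeZero M := ⟨fun h0 => NeZero.ne N (by rw [hNM, h0, mul_zero])⟩
  have hvM : ¬ v i ∣ M := (Nat.Prime.coprime_iff_not_dvd (hw.prime i)).1 hcop
  have hM3 : 3 ≤ M := hN₀.trans (Nat.le_of_dvd (NeZero.pos M) hN₀M)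
  -- the character
  let ζu : O'ˣ := hζ.isUnit hp.out.ne_zero |>.unit
  have hζu : (ζu : O') = ζ := rfl
  have hζu1 : ζu ^ p = 1 := Units.ext (by
    rw [Units.val_pow_eq_pow_val, hζu, hζ.pow_eq_one, Units.val_one])
  have hpv1 : p ∣ v i - 1 := by
    rw [hw.sub]
    exact dvd_mul_of_dvd_left (dvd_pow_self p (by have := hw.hm i; omega)) _
  obtain ⟨ψ, hψg, hψp⟩ := exists_char hp.out hpv1 hζu1 (h3 i) (h4 i)
  have hψ : ψ ≠ 1 := by
    intro h0
    rw [h0, MonoidHom.one_apply] at hψg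
    exact hζ.ne_one hp.out.one_lt (by rw [← hζu, ← hψg, Units.val_one])
  have hψc : ∀ u, u ^ c i = 1 → ψ u = 1 := by
    intro u hu
    have e1 : ψ u ^ c i = 1 := by rw [← map_pow, hu, map_one]
    have e2 := Nat.Coprime.gcd_eq_one ((Nat.Prime.coprime_iff_not_dvd hp.out).2 (hw.hc i))
    have e3 := orderOf_dvd_of_pow_eq_one (hψp u)
    have e4 := orderOf_dvd_of_pow_eq_one e1
    have e5 := Nat.dvd_gcd e3 e4
    rw [e2, Nat.dvd_one] at e5
    exact orderOf_eq_one_iff.1 e5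
  let χ : DG N (HQ hw.dvd c) →* O'ˣ := chiQ hw.dvd c i ψ hψc
  have hχ : ∀ d : (ZMod N)ˣ, χ (QuotientGroup.mk d) = ψ (ZMod.unitsMap (hw.dvd i) d) ^ 2 :=
    fun d => rfl
  let χ' : DG N (HQ hw.dvd c) →* O' := (Units.coeHom O').comp χ
  have hχ' : ∀ δ, χ' δ = (χ δ : O') := fun δ => rfl
  have hχp : ∀ δ, χ' δ ^ p = 1 := by
    intro δ
    obtain ⟨x, rfl⟩ := QuotientGroup.mk_surjective δ
    rw [hχ', hχ, ← Units.val_pow_eq_pow_val, ← pow_mul, mul_comm, pow_mul, hψp, one_pow,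
      Units.val_one]
  have hζ2 : IsPrimitiveRoot (ζ ^ 2) p := by
    refine hζ.pow_of_coprime 2 ?_
    exact (Nat.coprime_primes Nat.prime_two hp.out).2 (Ne.symm hw.p2)
  have hreg : ∀ (n : ℕ), n ≠ 0 → ∀ z : YH (HQ hw.dvd c) hNS e, n • z = 0 → z = 0 := by
    intro n hn z hz
    haveI : Module.IsTorsionFree O (YH (HQ hw.dvd c) hNS e) := inferInstance
    have e1 : (n : O) • z = 0 := by rw [Nat.cast_smul_eq_nsmul, hz]
    exact (smul_eq_zero.1 e1).resolve_left (Nat.cast_ne_zero.2 hn)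
  have hord : L.η L.σ₀ ^ p ^ m i = 1 := L.ord (m i) (c i) (hw.sub i) (hw.hc i)
  have hpm : p ^ m i ≠ 0 := pow_ne_zero _ hp.out.ne_zero
  letI : CommGroup (DG N (HQ hw.dvd c)) := QuotientGroup.Quotient.commGroup _
  refine glue2 (O := O) (O' := O') hp.out hpO' hζ2 hmax (fun a ha => ?_) (dlB hNS e) b hb χ'
    (fun δ => sub_one_mem_of_pow hpO' (hχp δ)) (fun δ => ?_) (D := QuotientGroup.mk (d i)) ?_ hpm
    (G := h.incB (L.η L.σ₀)) ?_ ?_ ?_ y
  · rw [BB.mem_maximalIdeal _ h.unit, AlgHom.commutes]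
    exact (IsLocalRing.residue_eq_zero_iff a).2 ha
  · obtain ⟨x, rfl⟩ := QuotientGroup.mk_surjective δ
    rw [BB.mem_maximalIdeal _ h.unit, map_sub, map_one, dlB_mk, BB.theta_mk, thetaD_inr, sub_self]
  · rw [hχ', hχ, hψg, Units.val_pow_eq_pow_val, hζu]
  · rw [← map_pow, hord, map_one]
  · intro y
    refine C3_N hpO hNM hMN ι hgk hodd hpv hvM hM3 h hA L (hreg _ hpm) hord b hb ?_ y
    intro x hx
    obtain ⟨n, hn⟩ := hw.gen_V h1 h3 i hMN hNM hcop hx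
    exact ⟨n, by rw [hn]; rfl⟩
  · intro x hx1 hx2
    exact hNU hpO ι h hgk hS hpS hw.p2 hodd (by rw [hNM, mul_comm]) (hw.dvd i) hvM hpv.symm hA L
      hmax hψ hψp hχ x hx1 hx2

end main

end

end Fermat.Agent.TW
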