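import Fermat.Agent.TW.HL2

/-!
# Localisation of the Hecke algebra with diamond operators
-/

set_option autoImplicit false
set_option linter.unusedSectionVars false
set_option linter.style.haveILetI false

open scoped TensorProduct
open IsLocalRing
open Fermat.Agent.KumG Fermat.Agent.GalRep

namespace Fermat.Agent.TW

noncomputable section

section unit

variable {O : Type} [CommRing O] [IsLocalRing O] {T X : Type} [CommRing T] [Algebra O T]
  [AddCommGroup X] [Module O X] [Module.Finite O X] [Module.Free O X]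

/-- an operator with invertible determinant has an inverse in the algebra it generates -/
theorem exists_inv_of_bij (f : Module.End O X) (hf : Function.Bijective f) :
    ∃ q : Polynomial O, f * Polynomial.aeval f q = 1 := by
  have hdet : IsUnit (LinearMap.det f) := by
    have h1 : IsUnit f := (Module.End.isUnit_iff f).2 hf
    exact h1.map (LinearMap.det (M := X) (A := O))
  rw [LinearMap.det_eq_sign_charpoly_coeff] at hdet
  have h0 : IsUnit (f.charpoly.coeff 0) := isUnit_of_mul_isUnit_right hdet
  obtain ⟨w, hw⟩ := h0.exists_right_inv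
  have h1 := f.aeval_self_charpoly
  have h2 := Polynomial.X_mul_divX_add f.charpoly
  rw [← h2, map_add, map_mul, Polynomial.aeval_X, Polynomial.aeval_C, ← eq_neg_iff_add_eq_zero]
    at h1
  refine ⟨-(Polynomial.C w * f.charpoly.divX), ?_⟩
  rw [map_neg, map_mul, Polynomial.aeval_C, mul_neg, Algebra.commutes, ← mul_assoc]
  have h3 : f * (Polynomial.aeval f) f.charpoly.divX =
      -(algebraMap O (Module.End O X)) (f.charpoly.coeff 0) := h1
  rw [h3, neg_mul, neg_neg, ← map_mul, hw, map_one]

/-- invertibility in the localisation from topological nilpotence -/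
theorem isLoc_unit {φ : T →ₐ[O] Module.End O X} {θ : T →ₐ[O] ResidueField O} {e : T}
    (he : φ e * φ e = φ e) (hnil : ∀ s, θ s = 0 → ∃ n : ℕ, ∀ x, φ (s ^ n * e) x ∈
      (maximalIdeal O) • (⊤ : Submodule O X)) : IsLoc φ θ e := by
  refine ⟨he, fun s hs => ?_, hnil⟩
  haveI : Module.Free O (part φ e) := free_part he
  obtain ⟨c, hc⟩ := IsLocalRing.residue_surjective (θ s)
  have hcu : IsUnit c := by
    rw [← IsLocalRing.residue_ne_zero_iff_isUnit, hc]
    exact hs
  have h0 : θ (s - algebraMap O T c) = 0 := by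
    rw [map_sub, AlgHom.commutes, ← hc]
    exact sub_self _
  obtain ⟨n, hn⟩ := hnil _ h0
  obtain ⟨q, hq⟩ : ∃ q, (s - algebraMap O T c) ^ n = s * q + (-algebraMap O T c) ^ n := by
    have h1 : s ∣ (s - algebraMap O T c) ^ n - (-algebraMap O T c) ^ n := by
      have h2 := sub_dvd_pow_sub_pow (s - algebraMap O T c) (-algebraMap O T c) n
      rwa [show s - algebraMap O T c - -algebraMap O T c = s by ring] at h2
    obtain ⟨q, hq⟩ := h1
    exact ⟨q, by rw [← hq]; ring⟩
  have hsurj : Function.Surjective (actPart φ e s) := by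
    rw [← LinearMap.range_eq_top, ← top_le_iff]
    refine Submodule.le_of_le_smul_of_le_jacobson_bot Module.Finite.fg_top
      (maximalIdeal_le_jacobson _) fun y _ => ?_
    have h1 : actPart φ e ((s - algebraMap O T c) ^ n) y ∈
        (maximalIdeal O) • (⊤ : Submodule O (part φ e)) := by
      rw [mem_smul_part he, actPart_coe]
      have h2 := hn (y : X)
      rwa [map_mul, Module.End.mul_apply, (mem_part he).1 y.2] at h2
    rw [hq, map_add, LinearMap.add_apply, map_mul, Module.End.mul_apply, map_pow, map_neg,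
      AlgHom.commutes] at h1
    have h3 : ((-(algebraMap O (Module.End O (part φ e)) c)) ^ n) y = (-c) ^ n • y := by
      rw [← map_neg, ← map_pow]
      rfl
    rw [h3] at h1
    obtain ⟨w, hw⟩ := ((hcu.neg).pow n).exists_left_inv
    have h4 : y = w • (actPart φ e s (actPart φ e q y) + (-c) ^ n • y) -
        w • actPart φ e s (actPart φ e q y) := by
      rw [smul_add, smul_smul, hw, one_smul]
      abel
    rw [h4]
    exact Submodule.sub_mem _ (Submodule.mem_sup_right (Submodule.smul_mem _ _ h1))
      (Submodule.mem_sup_left (Submodule.smul_mem _ _ (LinearMap.mem_range_self _ _)))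
  obtain ⟨q', hq'⟩ := exists_inv_of_bij (actPart φ e s)
    (OrzechProperty.bijective_of_surjective_endomorphism _ hsurj)
  refine ⟨Polynomial.aeval s q', LinearMap.ext fun x => ?_⟩
  have h5 : Polynomial.aeval (actPart φ e s) q' = actPart φ e (Polynomial.aeval s q') :=
    Polynomial.aeval_algHom_apply _ _ _
  rw [h5] at hq'
  have h6 := congrArg Subtype.val (LinearMap.congr_fun hq' ⟨φ e x, ⟨x, rfl⟩⟩)
  rw [Module.End.mul_apply, actPart_coe, actPart_coe, Module.End.one_apply] at h6
  rw [← map_mul, mul_comm, map_mul, Module.End.mul_apply, Module.End.mul_apply]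
  exact h6

end unit

section diam

variable {O : Type} [CommRing O] [IsLocalRing O] {p : ℕ} [hp : Fact p.Prime]
  {N : ℕ} [NeZero N] {H : Subgroup (ZMod N)ˣ}
  [hH : Fact ((-1 : (ZMod N)ˣ) ∈ H)] {S : Set ℕ} {hNS : ∀ l, l.Prime → l ∣ N → l ∈ S}

/-- the extension of the residual character, trivial on the diamond operators -/
def thetaD (θ : TS O S →ₐ[O] ResidueField O) (N : ℕ) : TD O S N →ₐ[O] ResidueField O :=
  MvPolynomial.aeval (Sum.elim (fun i => θ (MvPolynomial.X i)) fun _ => 1)

theorem thetaD_inl (θ : TS O S →ₐ[O] ResidueField O) (i : IS S) :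
    thetaD θ N (MvPolynomial.X (Sum.inl i)) = θ (MvPolynomial.X i) := by
  rw [thetaD, MvPolynomial.aeval_X, Sum.elim_inl]

theorem thetaD_inr (θ : TS O S →ₐ[O] ResidueField O) (d : (ZMod N)ˣ) :
    thetaD θ N (MvPolynomial.X (Sum.inr d)) = 1 := by
  rw [thetaD, MvPolynomial.aeval_X, Sum.elim_inr]

theorem thetaD_incD (θ : TS O S →ₐ[O] ResidueField O) (s : TS O S) :
    thetaD θ N (incD O S N s) = θ s := by
  have h : (thetaD θ N).comp (incD O S N) = θ := by
    refine MvPolynomial.algHom_ext fun i => ?_
    rw [AlgHom.comp_apply, incD_X, thetaD_inl]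
  exact congrArg (fun f : TS O S →ₐ[O] ResidueField O => f s) h

variable (O S N) in
/-- forgetting the diamond operators -/
def forD : TD O S N →ₐ[O] TS O S := MvPolynomial.aeval (Sum.elim (fun i => MvPolynomial.X i)
  fun _ => 1)

theorem theta_forD (θ : TS O S →ₐ[O] ResidueField O) (s : TD O S N) :
    θ (forD O N S s) = thetaD θ N s := by
  have h : θ.comp (forD O N S) = thetaD θ N := by
    refine MvPolynomial.algHom_ext fun i => ?_
    rw [AlgHom.comp_apply, forD, thetaD, MvPolynomial.aeval_X, MvPolynomial.aeval_X]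
    rcases i with i | d
    · rfl
    · exact map_one θ
  exact congrArg (fun f : TD O S N →ₐ[O] ResidueField O => f s) h

theorem sub_forD_mem (s : TD O S N) : s - incD O S N (forD O N S s) ∈
    Ideal.span (Set.range fun d : (ZMod N)ˣ => (MvPolynomial.X (Sum.inr d) - 1 : TD O S N)) := by
  rw [← Ideal.Quotient.eq]
  have h : (Ideal.Quotient.mkₐ O (Ideal.span (Set.range fun d : (ZMod N)ˣ =>
      (MvPolynomial.X (Sum.inr d) - 1 : TD O S N)))) = (Ideal.Quotient.mkₐ O
      (Ideal.span (Set.range fun d : (ZMod N)ˣ =>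
      (MvPolynomial.X (Sum.inr d) - 1 : TD O S N)))).comp ((incD O S N).comp (forD O N S)) := by
    refine MvPolynomial.algHom_ext fun i => ?_
    rw [AlgHom.comp_apply, AlgHom.comp_apply, forD, MvPolynomial.aeval_X]
    rcases i with i | d
    · rw [Sum.elim_inl, incD_X]
    · rw [Sum.elim_inr, map_one]
      exact Ideal.Quotient.eq.2 (Ideal.subset_span ⟨d, rfl⟩)
  exact congrArg (fun f : TD O S N →ₐ[O] _ => f s) h

variable (hpO : (p : O) ∈ maximalIdeal O)

include hpO in
/-- the localisation of the Hecke algebra with diamond operators -/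
theorem isLoc_phiD (hp2 : p ≠ 2) (hΔ : IsPGroup p (DG N H)) {θ : TS O S →ₐ[O] ResidueField O}
    {e : TS O S} (heH : IsLoc (phiH O H hNS) θ e) :
    IsLoc (phiD O H hNS) (thetaD θ N) (incD O S N e) := by
  have he : phiD O H hNS (incD O S N e) * phiD O H hNS (incD O S N e) =
      phiD O H hNS (incD O S N e) := by rw [phiD_incD, heH.idem]
  refine isLoc_unit he ?_
  let I₀ : Ideal (TD O S N) :=
    { carrier := {s | ∀ x, phiD O H hNS (s * incD O S N e) x ∈
        (maximalIdeal O) • (⊤ : Submodule O (XH O N H))}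
      add_mem' := fun {a b} ha hb x => by
        rw [add_mul, map_add, LinearMap.add_apply]
        exact Submodule.add_mem _ (ha x) (hb x)
      zero_mem' := fun x => by
        rw [zero_mul, map_zero, LinearMap.zero_apply]
        exact Submodule.zero_mem _
      smul_mem' := fun a b hb x => by
        rw [smul_eq_mul, mul_assoc, map_mul, Module.End.mul_apply]
        exact map_mem_smul_top _ _ (hb x) }
  have hI₀ : ∀ s, s ∈ I₀ ↔ ∀ x, phiD O H hNS (s * incD O S N e) x ∈
        (maximalIdeal O) • (⊤ : Submodule O (XH O N H)) := fun s => Iff.rfl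
  have hrad : ∀ s, s ∈ I₀.radical ↔ ∃ n : ℕ, ∀ x, phiD O H hNS (s ^ n * incD O S N e) x ∈
        (maximalIdeal O) • (⊤ : Submodule O (XH O N H)) := fun s => Iff.rfl
  have hpI : (p : TD O S N) ∈ I₀ := by
    intro x
    have h1 : ((p : ℕ) : TD O S N) = algebraMap O (TD O S N) (p : O) := (map_natCast _ _).symm
    rw [h1, ← Algebra.smul_def, map_smul, LinearMap.smul_apply]
    exact Submodule.smul_mem_smul hpO trivial
  obtain ⟨k, hk⟩ : ∃ k, Fintype.card (DG N H) = p ^ k := by
    have := hΔ.exists_card_eq
    rwa [Nat.card_eq_fintype_card] at this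
  have hodd : Odd p := hp.out.odd_of_ne_two hp2
  -- the diamond operators are residually unipotent
  have h1 : ∀ d : (ZMod N)ˣ, (MvPolynomial.X (Sum.inr d) - 1 : TD O S N) ∈ I₀.radical := by
    intro d
    refine ⟨p ^ k, ?_⟩
    obtain ⟨r, hr⟩ := exists_add_pow_prime_pow_eq hp.out
      (MvPolynomial.X (Sum.inr d) : TD O S N) (-1) k
    rw [← sub_eq_add_neg] at hr
    rw [hr, (hodd.pow).neg_one_pow]
    refine Ideal.add_mem _ ?_ ?_
    · intro x
      rw [map_mul, Module.End.mul_apply]
      have h2 : phiD O H hNS (MvPolynomial.X (Sum.inr d) ^ p ^ k + -1) = 0 := by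
        rw [map_add, map_pow, map_neg, map_one, phiD_inr, ← DO_mk, ← map_pow, ← hk,
          pow_card_eq_one, map_one]
        exact add_neg_cancel _
      rw [h2, LinearMap.zero_apply]
      exact Submodule.zero_mem _
    · simp only [mul_assoc]
      exact Ideal.mul_mem_right _ _ hpI
  intro s hs
  rw [← hrad]
  have h2 : s = (s - incD O S N (forD O N S s)) + incD O S N (forD O N S s) := by ring
  rw [h2]
  refine Ideal.add_mem _ ?_ ?_
  · refine (Ideal.span_le.2 ?_) (sub_forD_mem s)
    rintro _ ⟨d, rfl⟩
    exact h1 d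
  · rw [hrad]
    obtain ⟨n, hn⟩ := heH.nil (forD O N S s) (by rw [theta_forD, hs])
    refine ⟨n, fun x => ?_⟩
    rw [← map_pow, ← map_mul, phiD_incD]
    exact hn x

end diam

end

end Fermat.Agent.TW
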