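import Fermat.Agent.TW.BLR2
import Fermat.Agent.TW.LocD

/-!
# The Hecke ring generated by the traces of Galois
-/

set_option autoImplicit false
set_option linter.unusedSectionVars false
set_option linter.style.haveILetI false

open IsLocalRing
open Fermat.Agent.GalRep Fermat.Agent.Places

namespace Fermat.Agent.TW

noncomputable section

/-! ### The image of an algebra in the endomorphisms of a module -/

section BB

variable {O T Y : Type} [CommRing O] [CommRing T] [Algebra O T] [AddCommGroup Y] [Module O Y]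
  (ψ : T →ₐ[O] Module.End O Y)

/-- the image of an algebra in the endomorphisms of a module -/
def BB : Type := T ⧸ RingHom.ker ψ

instance : CommRing (BB ψ) := inferInstanceAs (CommRing (T ⧸ RingHom.ker ψ))

instance : Algebra O (BB ψ) := inferInstanceAs (Algebra O (T ⧸ RingHom.ker ψ))

/-- the projection -/
def BB.mk : T →ₐ[O] BB ψ := Ideal.Quotient.mkₐ O (RingHom.ker ψ)

theorem BB.mk_surjective : Function.Surjective (BB.mk ψ) := Ideal.Quotient.mk_surjective

/-- the action -/
def BB.act : BB ψ →ₐ[O] Module.End O Y := Ideal.Quotient.liftₐ (RingHom.ker ψ) ψ fun _ h => h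

@[simp] theorem BB.act_mk (s : T) : BB.act ψ (BB.mk ψ s) = ψ s := rfl

theorem BB.mk_eq_zero {s : T} : BB.mk ψ s = 0 ↔ ψ s = 0 := Ideal.Quotient.eq_zero_iff_mem

theorem BB.act_injective : Function.Injective (BB.act ψ) := by
  rw [injective_iff_map_eq_zero]
  intro a ha
  obtain ⟨s, rfl⟩ := BB.mk_surjective ψ a
  exact (BB.mk_eq_zero ψ).2 ha

instance : Module (BB ψ) Y := Module.compHom Y (BB.act ψ).toRingHom

theorem BB.smul_def (b : BB ψ) (y : Y) : b • y = BB.act ψ b y := rfl

@[simp] theorem BB.mk_smul (s : T) (y : Y) : BB.mk ψ s • y = ψ s y := rfl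

instance : IsScalarTower O (BB ψ) Y where
  smul_assoc a b y := by
    rw [BB.smul_def, BB.smul_def, map_smul, LinearMap.smul_apply]

instance : SMulCommClass O (BB ψ) Y where
  smul_comm a b y := by
    rw [BB.smul_def, BB.smul_def, map_smul]

instance [IsNoetherianRing O] [Module.Finite O Y] [Module.Free O Y] : Module.Finite O (BB ψ) :=
  Module.Finite.of_injective (BB.act ψ).toLinearMap (BB.act_injective ψ)

instance [IsNoetherianRing O] [Module.Finite O Y] [Module.Free O Y] : IsNoetherianRing (BB ψ) :=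
  isNoetherian_of_tower O (inferInstance : IsNoetherian O (BB ψ))

theorem BB.faithful {b : BB ψ} (h : ∀ y : Y, b • y = 0) : b = 0 :=
  BB.act_injective ψ (by rw [map_zero]; exact LinearMap.ext h)

theorem BB.smul_eq_zero [Module.Free O Y] {a : O} (ha : ∀ y : Y, a • y = 0 → y = 0) {b : BB ψ}
    (h : a • b = 0) : b = 0 := by
  refine BB.faithful ψ fun y => ha _ ?_
  rw [← smul_assoc, h, zero_smul]

section loc

variable {k : Type} [Field k] [Algebra O k] {θ : T →ₐ[O] k}
  (hu : ∀ s, θ s ≠ 0 → ∃ s', ψ s' * ψ s = 1) [Nontrivial Y]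

include hu in
theorem BB.ker_le {s : T} (hs : ψ s = 0) : θ s = 0 := by
  by_contra h
  obtain ⟨s', hs'⟩ := hu s h
  rw [hs, mul_zero] at hs'
  obtain ⟨y, hy⟩ := exists_ne (0 : Y)
  exact hy (LinearMap.congr_fun hs'.symm y)

/-- the residual character -/
def BB.theta : BB ψ →ₐ[O] k := Ideal.Quotient.liftₐ (RingHom.ker ψ) θ fun _ h =>
  BB.ker_le ψ hu h

theorem BB.theta_mk (s : T) : BB.theta ψ hu (BB.mk ψ s) = θ s := rfl

include hu in
theorem BB.isUnit_of {b : BB ψ} (hb : BB.theta ψ hu b ≠ 0) : IsUnit b := by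
  obtain ⟨s, rfl⟩ := BB.mk_surjective ψ b
  obtain ⟨s', hs'⟩ := hu s hb
  refine IsUnit.of_mul_eq_one (BB.mk ψ s') ?_
  refine BB.act_injective ψ ?_
  rw [mul_comm, map_mul, BB.act_mk, BB.act_mk, hs', map_one]

include hu in
theorem BB.isLocalRing : IsLocalRing (BB ψ) := by
  haveI : Nontrivial (BB ψ) := (BB.theta ψ hu).toRingHom.domain_nontrivial
  refine IsLocalRing.of_isUnit_or_isUnit_one_sub_self fun a => ?_
  by_cases h : BB.theta ψ hu a = 0
  · right
    apply BB.isUnit_of ψ hu
    rw [map_sub, map_one, h, sub_zero]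
    exact one_ne_zero
  · left
    exact BB.isUnit_of ψ hu h

theorem BB.mem_maximalIdeal [IsLocalRing (BB ψ)] {b : BB ψ} :
    b ∈ maximalIdeal (BB ψ) ↔ BB.theta ψ hu b = 0 := by
  rw [_root_.IsLocalRing.mem_maximalIdeal]
  constructor
  · intro h
    by_contra h'
    exact h (BB.isUnit_of ψ hu h')
  · intro h h'
    exact (h'.map (BB.theta ψ hu)).ne_zero h

end loc

end BB

/-! ### torsion bounds -/

section tors

variable {O : Type} [CommRing O] [IsNoetherianRing O]

theorem exists_tors_bound {C : Type} [AddCommGroup C] [Module O C] [Module.Finite O C] (a : O) :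
    ∃ c : ℕ, ∀ (n : ℕ) (x : C), a ^ n • x = 0 → a ^ c • x = 0 := by
  let f : ℕ →o Submodule O C :=
    { toFun := fun n => LinearMap.ker (LinearMap.lsmul O C (a ^ n))
      monotone' := by
        intro m n hmn x hx
        obtain ⟨k, rfl⟩ := Nat.exists_eq_add_of_le hmn
        rw [LinearMap.mem_ker, LinearMap.lsmul_apply] at hx ⊢
        rw [pow_add, mul_comm, mul_smul, hx, smul_zero] }
  obtain ⟨c, hc⟩ := monotone_stabilizes_iff_noetherian.2 (inferInstance : IsNoetherian O C) f
  refine ⟨c, fun n x hx => ?_⟩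
  have h1 : x ∈ f (max c n) := f.monotone (le_max_right c n) hx
  rw [← hc _ (le_max_left c n)] at h1
  exact h1

theorem exists_div_bound {M M' : Type} [AddCommGroup M] [Module O M] [AddCommGroup M']
    [Module O M'] [Module.Finite O M'] (f : M →ₗ[O] M') (hf : Function.Injective f) (a : O) :
    ∃ c : ℕ, ∀ (n : ℕ) (x : M) (E : M'), f x = a ^ (n + c) • E → ∃ z, x = a ^ n • z := by
  obtain ⟨c, hc⟩ := exists_tors_bound (C := M' ⧸ LinearMap.range f) a
  refine ⟨c, fun n x E hE => ?_⟩
  have h1 : a ^ (n + c) • (LinearMap.range f).mkQ E = 0 := by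
    rw [← map_smul, ← hE]
    exact (Submodule.Quotient.mk_eq_zero _).2 ⟨x, rfl⟩
  have h2 := hc _ _ h1
  rw [← map_smul] at h2
  obtain ⟨z, hz⟩ := (Submodule.Quotient.mk_eq_zero _).1 h2
  refine ⟨z, hf ?_⟩
  rw [map_smul, hz, hE, smul_smul, pow_add]

end tors

/-! ### The trace ring -/

section TQ

variable {O T Y G : Type} [CommRing O] [CommRing T] [Algebra O T] [AddCommGroup Y] [Module O Y]
  [Group G] {ψ : T →ₐ[O] Module.End O Y} {ρ : G →* Module.End O Y} {D : G →* O}
  (hcomm : ∀ σ s y, ρ σ (ψ s y) = ψ s (ρ σ y)) (hrel : ∀ g, ∃ s, ρ g + D g • ρ g⁻¹ = ψ s)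

/-- elements representing the traces -/
def trS (g : G) : T := (hrel g).choose

theorem trS_spec (g : G) : ψ (trS hrel g) = ρ g + D g • ρ g⁻¹ := (hrel g).choose_spec.symm

/-- the action of the polynomial ring in the traces -/
def psiQ : MvPolynomial G O →ₐ[O] Module.End O Y := ψ.comp (MvPolynomial.aeval (trS hrel))

/-- **the Hecke ring generated by the traces of Galois** -/
abbrev TQ : Type := BB (psiQ hrel)

/-- the traces -/
def tQ (g : G) : TQ hrel := BB.mk (psiQ hrel) (MvPolynomial.X g)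

theorem act_tQ (g : G) : BB.act (psiQ hrel) (tQ hrel g) = ρ g + D g • ρ g⁻¹ := by
  rw [tQ, BB.act_mk, psiQ, AlgHom.comp_apply, MvPolynomial.aeval_X, trS_spec]

theorem tQ_smul (g : G) (y : Y) : tQ hrel g • y = ρ g y + D g • ρ g⁻¹ y := by
  rw [BB.smul_def, act_tQ]
  rfl

/-- the inclusion in the Hecke ring -/
def TQ.inc : TQ hrel →ₐ[O] BB ψ := Ideal.Quotient.liftₐ (RingHom.ker (psiQ hrel))
  ((BB.mk ψ).comp (MvPolynomial.aeval (trS hrel))) fun _ h => (BB.mk_eq_zero ψ).2 h

theorem TQ.inc_mk (s : MvPolynomial G O) : TQ.inc hrel (BB.mk (psiQ hrel) s) =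
    BB.mk ψ (MvPolynomial.aeval (trS hrel) s) := rfl

theorem TQ.act_inc (a : TQ hrel) : BB.act ψ (TQ.inc hrel a) = BB.act (psiQ hrel) a := by
  obtain ⟨s, rfl⟩ := BB.mk_surjective _ a
  rfl

theorem TQ.inc_smul (a : TQ hrel) (y : Y) : TQ.inc hrel a • y = a • y := by
  rw [BB.smul_def, BB.smul_def, TQ.act_inc]

theorem TQ.adjoin_tQ : Algebra.adjoin O (Set.range (tQ hrel)) = ⊤ := by
  rw [eq_top_iff]
  rintro a -
  obtain ⟨s, rfl⟩ := BB.mk_surjective _ a
  induction s using MvPolynomial.induction_on with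
  | C r =>
    have h1 : BB.mk (psiQ hrel) (MvPolynomial.C r) = algebraMap O _ r :=
      (BB.mk (psiQ hrel)).commutes r
    rw [h1]
    exact Subalgebra.algebraMap_mem _ r
  | add p q hp hq =>
    rw [map_add]
    exact Subalgebra.add_mem _ hp hq
  | mul_X p i hp =>
    rw [map_mul]
    exact Subalgebra.mul_mem _ hp (Algebra.subset_adjoin ⟨i, rfl⟩)

include hcomm in
theorem rho_psiQ (g : G) (s : MvPolynomial G O) (y : Y) :
    ρ g (psiQ hrel s y) = psiQ hrel s (ρ g y) := hcomm g _ y

/-- the Galois representation over the Hecke ring -/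
def rhoQ : G →* Module.End (TQ hrel) Y where
  toFun g :=
    { toFun := ρ g
      map_add' := map_add _
      map_smul' := fun a y => by
        obtain ⟨s, rfl⟩ := BB.mk_surjective _ a
        rw [BB.mk_smul, RingHom.id_apply, BB.mk_smul]
        exact rho_psiQ hcomm hrel g s y }
  map_one' := by
    refine LinearMap.ext fun y => ?_
    change ρ 1 y = y
    rw [map_one]
    rfl
  map_mul' a b := by
    refine LinearMap.ext fun y => ?_
    change ρ (a * b) y = ρ a (ρ b y)
    rw [map_mul]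
    rfl

theorem rhoQ_apply (g : G) (y : Y) : rhoQ hcomm hrel g y = ρ g y := rfl

/-- the determinant -/
def DQu : G →* TQ hrel := (algebraMap O (TQ hrel)).toMonoidHom.comp D

theorem DQu_apply (g : G) : DQu hrel g = algebraMap O (TQ hrel) (D g) := rfl

theorem isQRep : IsQRep (rhoQ hcomm hrel) (DQu hrel) (tQ hrel) where
  rel g := by
    refine LinearMap.ext fun y => ?_
    rw [LinearMap.add_apply, LinearMap.smul_apply, LinearMap.smul_apply, Module.End.one_apply,
      rhoQ_apply, rhoQ_apply, tQ_smul, DQu_apply, algebraMap_smul]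
  inj a ha := BB.faithful _ fun y => LinearMap.congr_fun ha y

end TQ

section pseudo

variable {R A G : Type*} [CommRing R] [Ring A] [Algebra R A] [Group G] {ρ : G →* A} {D : G →* R}
  {t : G → R}

/-- the trace is a pseudo-representation -/
theorem IsQRep.isPseudoRep (h : IsQRep ρ D t) : IsPseudoRep t D where
  t_one := h.t_one
  D_one := map_one D
  D_mul := map_mul D
  rel g k := by
    rw [← sub_eq_zero]
    apply h.inj
    have h1 := h.rel g
    have h2 := h.rel k
    have h3 := h.rel (g * k)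
    have h4 := h.rel (g * k⁻¹)
    have h5 : (ρ g + D g • ρ g⁻¹) * (ρ k + D k • ρ k⁻¹) = (t g * t k) • (1 : A) := by
      rw [h1, h2, smul_mul_smul_comm, mul_one]
    have h6 : ρ g⁻¹ * (ρ k + D k • ρ k⁻¹) = (ρ k + D k • ρ k⁻¹) * ρ g⁻¹ := by
      rw [h2, mul_smul_comm, smul_mul_assoc, mul_one, one_mul]
    have h7 : D k * D k⁻¹ = 1 := by rw [← map_mul, mul_inv_cancel, map_one]
    rw [sub_smul, add_smul, mul_smul, ← h3, ← h4, ← h5]
    rw [mul_inv_rev, mul_inv_rev, inv_inv, map_mul, map_mul ρ k⁻¹, map_mul ρ g k⁻¹, map_mul ρ k,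
      map_mul D, map_mul D]
    rw [mul_add, add_mul, mul_smul_comm, smul_mul_assoc] at h6
    have h8 : D k * (D g * D k⁻¹) = D g := by rw [mul_left_comm, h7, mul_one]
    have e1 : ρ g * ρ k + (D g * D k) • (ρ k⁻¹ * ρ g⁻¹) +
        D k • (ρ g * ρ k⁻¹ + (D g * D k⁻¹) • (ρ k * ρ g⁻¹)) -
        (ρ g + D g • ρ g⁻¹) * (ρ k + D k • ρ k⁻¹) =
        D g • ((ρ k * ρ g⁻¹ + D k • (ρ k⁻¹ * ρ g⁻¹)) - (ρ g⁻¹ * ρ k + D k • (ρ g⁻¹ * ρ k⁻¹))) := by
      rw [smul_add (D k), smul_smul, h8]
      simp only [mul_add, add_mul, smul_mul_assoc, mul_smul_comm]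
      module
    rw [e1, h6, sub_self, smul_zero]

end pseudo

end

end Fermat.Agent.TW
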