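import Fermat.Agent.TW.Glue
import Fermat.Agent.TW.TQ
import Fermat.Agent.TW.DvrE

/-!
# Descent of the glueing argument
-/

set_option autoImplicit false
set_option linter.unusedSectionVars false
set_option linter.style.haveILetI false

open IsLocalRing
open scoped TensorProduct

namespace Fermat.Agent.TW

section core

variable {O B H Δ κ : Type*} [CommRing O] [IsDomain O] [CharZero O] [IsLocalRing O]
  [CommRing B] [Algebra O B] [AddCommGroup H] [Module O H] [Module B H]
  [IsScalarTower O B H] [CommGroup Δ] [Fintype Δ] {p : ℕ}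

theorem dl_mul_prE' (dl : Δ →* B) (χ : Δ →* O) (δ : Δ) :
    dl δ * prE dl χ = algebraMap O B (χ δ) * prE dl χ := by
  rw [prE, Finset.mul_sum, Finset.mul_sum]
  refine Fintype.sum_equiv (Equiv.mulLeft δ) _ _ fun ε => ?_
  rw [Equiv.coe_mulLeft, mul_inv_rev, map_mul χ, map_mul dl, map_mul (algebraMap O B)]
  have h1 : algebraMap O B (χ δ) * algebraMap O B (χ δ⁻¹) = 1 := by
    rw [← map_mul, ← map_mul, mul_inv_cancel, map_one, map_one]
  linear_combination (-(algebraMap O B) (χ ε⁻¹) * dl δ * dl ε) * h1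

/-- the algebra of local-global compatibility at Taylor–Wiles primes, before Nakayama -/
theorem glue_core (hp : p.Prime) (hpO : (p : O) ∈ maximalIdeal O) {ζ : O} (hζ : IsPrimitiveRoot ζ p)
    (dl : Δ →* B) (b : Module.Basis (κ × Δ) O H) (hb : ∀ i δ, b (i, δ) = dl δ • b (i, 1))
    (χ : Δ →* O) {J : Ideal B} (hloc : ∀ δ, dl δ - algebraMap O B (χ δ) ∈ J)
    {D : Δ} (hD : χ D = ζ) {G : B} {P : ℕ} (hP : P ≠ 0) (hG : G ^ P = 1)
    (hGD : ∀ y : H, ∃ u : H, (G - 1) • y = (dl D - 1) • u)
    (hNU : ∀ x : H, (∀ δ, dl δ • x = χ δ • x) → G • x = x → x = 0) (y : H) :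
    ∃ z : H, ∃ x ∈ J • (⊤ : Submodule B H), (dl D - 1) • y = (G - 1) • z + (dl D - 1) • x := by
  classical
  haveI : Module.Free O H := Module.Free.of_basis b
  haveI : Module.IsTorsionFree O H := inferInstance
  set E := prE dl χ with hE
  set lam : O := ζ - 1 with hlam
  have hlam0 : lam ≠ 0 := sub_ne_zero.2 (hζ.ne_one hp.one_lt)
  have hEδ : ∀ (δ : Δ) (x : H), dl δ • E • x = χ δ • E • x := by
    intro δ x
    rw [smul_smul, dl_mul_prE', mul_smul, algebraMap_smul]
  have hYE : ∀ x : H, ∃ x' : H, (G - 1) • E • x = lam • E • x' := by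
    intro x
    obtain ⟨u, hu⟩ := hGD x
    refine ⟨u, ?_⟩
    rw [smul_comm, hu, smul_comm, sub_smul, hEδ, hD, one_smul, hlam, sub_smul, one_smul]
  have hYn : ∀ (n : ℕ) (x : H), ∃ x' : H, (G - 1) ^ n • E • x = lam ^ n • E • x' := by
    intro n x
    induction n with
    | zero => exact ⟨x, by rw [pow_zero, pow_zero, one_smul, one_smul]⟩
    | succ n ih =>
      obtain ⟨x', hx'⟩ := ih
      obtain ⟨x'', hx''⟩ := hYE x'
      refine ⟨x'', ?_⟩
      rw [pow_succ', mul_smul, hx', smul_comm, hx'', smul_smul, pow_succ]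
  -- the key divisibility
  have key : ∀ x : H, ∃ x' : H, (G - 1) • E • x' = lam • E • x := by
    intro x
    obtain ⟨Q, rfl⟩ := Nat.exists_eq_succ_of_ne_zero hP
    have h1 : (G - 1) * ∑ j ∈ Finset.range (Q + 1),
        ((Q + 1).choose (j + 1) : B) * (G - 1) ^ j = 0 := by
      have h2 : (G - 1 + 1) ^ (Q + 1) = 1 := by rw [sub_add_cancel]; exact hG
      rw [add_pow] at h2
      simp only [one_pow, mul_one] at h2
      rw [Finset.sum_range_succ'] at h2
      simp only [pow_zero, Nat.choose_zero_right, Nat.cast_one, mul_one] at h2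
      rw [Finset.mul_sum]
      have h3 : ∀ k ∈ Finset.range (Q + 1), (G - 1) * (((Q + 1).choose (k + 1) : B) * (G - 1) ^ k) =
          (G - 1) ^ (k + 1) * ((Q + 1).choose (k + 1) : B) := by
        intro k _
        ring
      rw [Finset.sum_congr rfl h3]
      linear_combination h2
    have h4 : (∑ j ∈ Finset.range (Q + 1), ((Q + 1).choose (j + 1) : B) * (G - 1) ^ j) •
        E • x = 0 := by
      refine hNU _ (fun δ => ?_) ?_
      · rw [smul_comm, hEδ, smul_comm]
      · have h5 : (G - 1) • (∑ j ∈ Finset.range (Q + 1),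
            ((Q + 1).choose (j + 1) : B) * (G - 1) ^ j) • E • x = 0 := by
          rw [smul_smul, h1, zero_smul]
        rw [sub_smul, one_smul, sub_eq_zero] at h5
        exact h5
    rw [Finset.sum_range_succ'] at h4
    simp only [pow_zero, mul_one, zero_add, Nat.choose_one_right] at h4
    rw [add_smul, Finset.sum_smul] at h4
    -- `h4 : ∑ … + (Q+1) • E x = 0`
    choose c hc using fun j : ℕ => choose_dvd hp hpO hζ (P := Q) (j + 1)
    choose w hw using fun j : ℕ => hYn j x
    refine ⟨-∑ j ∈ Finset.range Q, c j • w j, ?_⟩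
    have hQ0 : ((Q + 1 : ℕ) : O) ≠ 0 := by exact_mod_cast Nat.succ_ne_zero Q
    have h6 : ((Q + 1 : ℕ) : O) • ((G - 1) • E • (-∑ j ∈ Finset.range Q, c j • w j)) =
        ((Q + 1 : ℕ) : O) • (lam • E • x) := by
      have h7 : ∀ j ∈ Finset.range Q, lam • (((Q + 1).choose (j + 1 + 1) : B) * (G - 1) ^ (j + 1)) •
          E • x = ((Q + 1 : ℕ) : O) • ((G - 1) • E • (c j • w j)) := by
        intro j _
        rw [mul_smul, pow_succ', mul_smul, hw j]
        have h8 : (((Q + 1).choose (j + 1 + 1) : ℕ) : B) =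
            algebraMap O B (((Q + 1).choose (j + 1 + 1) : ℕ) : O) := (map_natCast _ _).symm
        have h9 : lam * ((((Q + 1).choose (j + 1 + 1) : ℕ) : O) * lam ^ j) = ((Q + 1 : ℕ) : O) * c j := by
          rw [← hc j, pow_succ]
          ring
        have h10 : (G - 1) • E • (c j • w j) = c j • (G - 1) • E • w j := by
          rw [smul_comm E (c j), smul_comm (G - 1) (c j)]
        rw [h10, h8, algebraMap_smul, smul_comm (G - 1) (lam ^ j)]
        simp only [smul_smul]
        rw [h9]
      rw [smul_neg, smul_neg, smul_neg, Finset.smul_sum, Finset.smul_sum, Finset.smul_sum,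
        ← Finset.sum_congr rfl h7, ← Finset.smul_sum]
      have h9 : ((Q + 1 : ℕ) : B) • E • x = ((Q + 1 : ℕ) : O) • E • x := by
        rw [Nat.cast_smul_eq_nsmul, Nat.cast_smul_eq_nsmul]
      rw [h9, add_eq_zero_iff_neg_eq] at h4
      rw [smul_comm ((Q + 1 : ℕ) : O) lam, ← h4, smul_neg]
    exact smul_right_injective H hQ0 h6
  -- the kernel of `E`
  have hker : ∀ x : H, E • x = 0 → x ∈ J • (⊤ : Submodule B H) := by
    intro x hx
    have hx1 : x = (b.repr x).sum fun i c => c • b i := (b.linearCombination_repr x).symm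
    -- coefficients
    let s : Finset κ := (b.repr x).support.image Prod.fst
    have hx2 : x = ∑ i ∈ s, ∑ δ, b.repr x (i, δ) • b (i, δ) := by
      conv_lhs => rw [hx1, Finsupp.sum]
      rw [← Finset.sum_product']
      refine Finset.sum_subset (fun a ha => ?_) (fun a _ ha => ?_)
      · rw [Finset.mem_product]
        exact ⟨Finset.mem_image_of_mem _ ha, Finset.mem_univ _⟩
      · rw [Finsupp.notMem_support_iff.1 ha, zero_smul]
    let a : κ → O := fun i => ∑ δ, b.repr x (i, δ) * χ δ
    have hEb : ∀ i δ, E • b (i, δ) = χ δ • E • b (i, 1) := by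
      intro i δ
      rw [hb, smul_comm, hEδ]
    have hEx : ∑ i ∈ s, ∑ δ, (a i * χ δ⁻¹) • b (i, δ) = 0 := by
      rw [← hx]
      conv_rhs => rw [hx2]
      rw [Finset.smul_sum]
      refine Finset.sum_congr rfl fun i _ => ?_
      rw [Finset.smul_sum]
      have h1 : ∀ δ ∈ Finset.univ, E • (b.repr x (i, δ) • b (i, δ)) =
          (b.repr x (i, δ) * χ δ) • E • b (i, 1) := by
        intro δ _
        rw [smul_comm, hEb, smul_smul]
      have h2 : E • b (i, 1) = ∑ δ, χ δ⁻¹ • b (i, δ) := by
        rw [hE, prE, Finset.sum_smul]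
        refine Finset.sum_congr rfl fun δ _ => ?_
        rw [mul_smul, algebraMap_smul, ← hb]
      rw [Finset.sum_congr rfl h1, ← Finset.sum_smul, h2, Finset.smul_sum]
      refine Finset.sum_congr rfl fun δ _ => ?_
      rw [smul_smul]
    have ha : ∀ i ∈ s, a i = 0 := by
      intro i hi
      have h1 : ∑ j ∈ s ×ˢ (Finset.univ : Finset Δ), (a j.1 * χ j.2⁻¹) • b j = 0 := by
        rw [Finset.sum_product]
        exact hEx
      have h2 := linearIndependent_iff'.1 b.linearIndependent _ _ h1 (i, 1)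
        (Finset.mem_product.2 ⟨hi, Finset.mem_univ _⟩)
      simpa using h2
    have hx3 : x = ∑ i ∈ s, ∑ δ, (dl δ - algebraMap O B (χ δ)) • (b.repr x (i, δ) • b (i, 1)) := by
      conv_lhs => rw [hx2]
      have h1 : ∀ i ∈ s, ∑ δ, b.repr x (i, δ) • b (i, δ) = ∑ δ,
          ((dl δ - algebraMap O B (χ δ)) • (b.repr x (i, δ) • b (i, 1)) +
            (b.repr x (i, δ) * χ δ) • b (i, 1)) := by
        intro i _
        refine Finset.sum_congr rfl fun δ _ => ?_
        rw [sub_smul, algebraMap_smul, hb i δ, smul_comm (dl δ), mul_comm, mul_smul]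
        abel
      rw [Finset.sum_congr rfl h1]
      refine Finset.sum_congr rfl fun i hi => ?_
      rw [Finset.sum_add_distrib, ← Finset.sum_smul]
      have h2 : ∑ δ, b.repr x (i, δ) * χ δ = 0 := ha i hi
      rw [h2, zero_smul, add_zero]
    rw [hx3]
    exact Submodule.sum_mem _ fun i _ => Submodule.sum_mem _ fun δ _ =>
      Submodule.smul_mem_smul (hloc δ) trivial
  obtain ⟨z, hz⟩ := key y
  obtain ⟨u, hu⟩ := hGD z
  have h1 : E • (y - u) = 0 := by
    have h2 : lam • E • (y - u) = 0 := by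
      rw [smul_sub, smul_sub, ← hz, smul_comm (G - 1) E z, hu, smul_comm E (dl D - 1) u,
        sub_smul, hEδ, hD, one_smul, hlam, sub_smul, one_smul, sub_self]
    exact (smul_eq_zero.1 h2).resolve_left hlam0
  refine ⟨z, y - u, hker _ h1, ?_⟩
  rw [hu, smul_sub]
  abel

end core

/-! ### Retractions -/

/-- a local extension has a retraction compatible with the maximal ideals -/
theorem exists_retr (O O' : Type*) [CommRing O] [IsLocalRing O] [CommRing O'] [IsLocalRing O']
    [Algebra O O'] [Module.Projective O O']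
    (hmax : ∀ a ∈ maximalIdeal O, algebraMap O O' a ∈ maximalIdeal O') :
    ∃ r : O' →ₗ[O] O, r 1 = 1 ∧ ∀ a ∈ maximalIdeal O', r a ∈ maximalIdeal O := by
  haveI : IsLocalHom (algebraMap O O') := ⟨fun a ha => by
    by_contra hna
    exact (IsLocalRing.mem_maximalIdeal _).1 (hmax a ((IsLocalRing.mem_maximalIdeal _).2 hna)) ha⟩
  obtain ⟨l, hl⟩ := (Algebra.linearMap (ResidueField O) (ResidueField O')).exists_leftInverse_of_injective
    (LinearMap.ker_eq_bot.2 (algebraMap (ResidueField O) (ResidueField O')).injective)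
  have hl1 : l 1 = 1 := by
    have := LinearMap.congr_fun hl 1
    simpa using this
  let f : O' →ₗ[O] ResidueField O := (l.restrictScalars O) ∘ₗ
    (IsScalarTower.toAlgHom O O' (ResidueField O')).toLinearMap
  have hf1 : f 1 = 1 := by
    change l (algebraMap O' (ResidueField O') 1) = 1
    rw [map_one, hl1]
  obtain ⟨r, hr⟩ := Module.projective_lifting_property
    (Algebra.linearMap O (ResidueField O)) f IsLocalRing.residue_surjective
  have hr' : ∀ a, residue O (r a) = f a := fun a => LinearMap.congr_fun hr a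
  have hu : IsUnit (r 1) := by
    by_contra hna
    have h1 := (IsLocalRing.residue_eq_zero_iff (r 1)).2 ((IsLocalRing.mem_maximalIdeal _).2 hna)
    rw [hr', hf1] at h1
    exact one_ne_zero h1
  obtain ⟨u, hu⟩ := hu.exists_left_inv
  refine ⟨u • r, by rw [LinearMap.smul_apply, smul_eq_mul, hu], fun a ha => ?_⟩
  rw [LinearMap.smul_apply, smul_eq_mul]
  refine Ideal.mul_mem_left _ _ ?_
  rw [← IsLocalRing.residue_eq_zero_iff, hr']
  change l (algebraMap O' (ResidueField O') a) = 0
  have h2 : algebraMap O' (ResidueField O') a = 0 := (IsLocalRing.residue_eq_zero_iff a).2 ha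
  rw [h2, map_zero]

end Fermat.Agent.TW
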