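import Fermat.Agent.TW.Glue2

/-!
# Descent of the glueing argument
-/

set_option autoImplicit false
set_option linter.unusedSectionVars false
set_option linter.style.haveILetI false

open IsLocalRing
open scoped TensorProduct

namespace Fermat.Agent.TW

noncomputable section

section desc

variable {O B Y : Type} [CommRing O] [CommRing B] [Algebra O B] [AddCommGroup Y] [Module O Y]
  [Module B Y] [IsScalarTower O B Y]

/-- the action of an element -/
def lsO (O : Type) {B Y : Type} [CommRing O] [CommRing B] [Algebra O B] [AddCommGroup Y]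
    [Module O Y] [Module B Y] [IsScalarTower O B Y] (b : B) : Module.End O Y :=
  (LinearMap.lsmul B Y b).restrictScalars O

theorem lsO_apply (b : B) (y : Y) : lsO O b y = b • y := rfl

theorem lsO_mul (a b : B) : (lsO O (a * b) : Module.End O Y) = lsO O a ∘ₗ lsO O b :=
  LinearMap.ext fun y => mul_smul a b y

variable (O' : Type) [CommRing O'] [Algebra O O']

theorem bc_lsO_comm (a b : B) :
    Commute ((lsO O a : Module.End O Y).baseChange O' : Module.End O' (O' ⊗[O] Y))
      ((lsO O b : Module.End O Y).baseChange O') := by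
  rw [Commute, SemiconjBy]
  change LinearMap.baseChange O' _ ∘ₗ LinearMap.baseChange O' _ =
    LinearMap.baseChange O' _ ∘ₗ LinearMap.baseChange O' _
  rw [← LinearMap.baseChange_comp, ← LinearMap.baseChange_comp, ← lsO_mul, ← lsO_mul, mul_comm]

variable (O B Y) in
/-- the action of polynomials -/
def psB : MvPolynomial B O' →ₐ[O'] Module.End O' (O' ⊗[O] Y) :=
  evC (fun b => (lsO O b : Module.End O Y).baseChange O') (bc_lsO_comm O')

theorem psB_X (b : B) : psB O B Y O' (MvPolynomial.X b) =
    (lsO O b : Module.End O Y).baseChange O' := evC_X _ _ _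

/-- elements of the base -/
def inB (b : B) : BB (psB O B Y O') := BB.mk _ (MvPolynomial.X b)

theorem inB_smul (b : B) (x : O' ⊗[O] Y) :
    (inB O' b : BB (psB O B Y O')) • x = (lsO O b : Module.End O Y).baseChange O' x := by
  rw [inB, BB.mk_smul, psB_X]

theorem inB_mul (a b : B) : (inB O' (a * b) : BB (psB O B Y O')) = inB O' a * inB O' b := by
  refine BB.act_injective _ (LinearMap.ext fun x => ?_)
  rw [← BB.smul_def, ← BB.smul_def, mul_smul, inB_smul, inB_smul, inB_smul, lsO_mul,
    LinearMap.baseChange_comp]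
  rfl

theorem inB_one : (inB O' (1 : B) : BB (psB O B Y O')) = 1 := by
  refine BB.act_injective _ (LinearMap.ext fun x => ?_)
  rw [← BB.smul_def, ← BB.smul_def, one_smul, inB_smul]
  have h : (lsO O (1 : B) : Module.End O Y) = LinearMap.id := LinearMap.ext fun y => one_smul B y
  rw [h, LinearMap.baseChange_id]
  rfl

theorem inB_sub_one_smul (b : B) (x : O' ⊗[O] Y) :
    ((inB O' b : BB (psB O B Y O')) - 1) • x =
      (lsO O (b - 1) : Module.End O Y).baseChange O' x := by
  rw [sub_smul, one_smul, inB_smul]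
  have h : (lsO O (b - 1) : Module.End O Y) = lsO O b - LinearMap.id :=
    LinearMap.ext fun y => by rw [lsO_apply, sub_smul, one_smul]; rfl
  rw [h, LinearMap.baseChange_sub, LinearMap.sub_apply, LinearMap.baseChange_id]
  rfl

variable {O'}

/-- the retraction on the module -/
def rY (Y : Type) [AddCommGroup Y] [Module O Y] (r : O' →ₗ[O] O) : O' ⊗[O] Y →ₗ[O] Y :=
  (TensorProduct.lid O Y).toLinearMap ∘ₗ LinearMap.rTensor Y r

theorem rY_tmul (r : O' →ₗ[O] O) (a : O') (y : Y) : rY Y r (a ⊗ₜ y) = r a • y := rfl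

theorem rY_bc (r : O' →ₗ[O] O) (f : Module.End O Y) (x : O' ⊗[O] Y) :
    rY Y r (f.baseChange O' x) = f (rY Y r x) := by
  induction x using TensorProduct.induction_on with
  | zero => rw [map_zero, map_zero, map_zero]
  | tmul a y => rw [LinearMap.baseChange_tmul, rY_tmul, rY_tmul, map_smul]
  | add x y hx hy => rw [map_add, map_add, map_add, map_add, hx, hy]

variable [IsLocalRing O] [IsDomain O'] [CharZero O'] [IsLocalRing O'] [Module.Free O O']
  [IsLocalRing B] [IsNoetherian B Y] {Δ κ : Type} [CommGroup Δ] [Fintype Δ] {p : ℕ}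

/-- **The algebra of local-global compatibility at Taylor–Wiles primes (descended form).** -/
theorem glue2 (hp : p.Prime) (hpO : (p : O') ∈ maximalIdeal O') {ζ : O'}
    (hζ : IsPrimitiveRoot ζ p) (hmax : ∀ a ∈ maximalIdeal O, algebraMap O O' a ∈ maximalIdeal O')
    (hmaxB : ∀ a ∈ maximalIdeal O, algebraMap O B a ∈ maximalIdeal B)
    (dl : Δ →* B) (b : Module.Basis (κ × Δ) O Y) (hb : ∀ i δ, b (i, δ) = dl δ • b (i, 1))
    (χ : Δ →* O') (hχ1 : ∀ δ, χ δ - 1 ∈ maximalIdeal O') (hdl1 : ∀ δ, dl δ - 1 ∈ maximalIdeal B)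
    {D : Δ} (hD : χ D = ζ) {G : B} {P : ℕ} (hP : P ≠ 0) (hG : G ^ P = 1)
    (hGD : ∀ y : Y, ∃ u : Y, (G - 1) • y = (dl D - 1) • u)
    (hNU : ∀ x : O' ⊗[O] Y, (∀ δ, (lsO O (dl δ) : Module.End O Y).baseChange O' x = χ δ • x) →
      (lsO O G : Module.End O Y).baseChange O' x = x → x = 0) (y : Y) :
    ∃ z : Y, (dl D - 1) • y = (G - 1) • z := by
  classical
  obtain ⟨r, hr1, hr⟩ := exists_retr O O' hmax
  let B' := BB (psB O B Y O')
  let dl' : Δ →* B' :=
    { toFun := fun δ => inB O' (dl δ)
      map_one' := by rw [map_one, inB_one]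
      map_mul' := fun a b => by rw [map_mul, inB_mul] }
  have hdl' : ∀ δ, dl' δ = inB O' (dl δ) := fun δ => rfl
  let b' : Module.Basis (κ × Δ) O' (O' ⊗[O] Y) := Module.Basis.baseChange O' b
  have hb' : ∀ i, b' i = 1 ⊗ₜ b i := fun i => Module.Basis.baseChange_apply O' b i
  let J : Ideal B' := Ideal.span ({x | ∃ a ∈ maximalIdeal O', x = algebraMap O' B' a} ∪
    {x | ∃ c ∈ maximalIdeal B, x = inB O' c})
  have hJ1 : ∀ a ∈ maximalIdeal O', algebraMap O' B' a ∈ J := fun a ha =>
    Ideal.subset_span (Or.inl ⟨a, ha, rfl⟩)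
  have hJ2 : ∀ c ∈ maximalIdeal B, (inB O' c : B') ∈ J := fun c hc =>
    Ideal.subset_span (Or.inr ⟨c, hc, rfl⟩)
  have hinsub : ∀ c : B, (inB O' (c - 1) : B') = inB O' c - 1 := fun c => by
    refine BB.act_injective _ (LinearMap.ext fun x => ?_)
    rw [← BB.smul_def, ← BB.smul_def, inB_sub_one_smul, inB_smul]
  -- the retraction maps `J` into the maximal ideal
  have hrJ : ∀ x ∈ J • (⊤ : Submodule B' (O' ⊗[O] Y)),
      rY Y r x ∈ maximalIdeal B • (⊤ : Submodule B Y) := by
    intro x hx
    have hgen : ∀ j ∈ J, ∀ w : O' ⊗[O] Y,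
        rY Y r (j • w) ∈ maximalIdeal B • (⊤ : Submodule B Y) := by
      intro j hj
      induction hj using Submodule.span_induction with
      | mem j hj =>
        intro w
        rcases hj with ⟨a, ha, rfl⟩ | ⟨c, hc, rfl⟩
        · rw [algebraMap_smul]
          induction w using TensorProduct.induction_on with
          | zero => rw [smul_zero, map_zero]; exact Submodule.zero_mem _
          | tmul o h =>
            rw [TensorProduct.smul_tmul', rY_tmul, smul_eq_mul, ← algebraMap_smul B (r (a * o)) h]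
            exact Submodule.smul_mem_smul (hmaxB _ (hr _ (Ideal.mul_mem_right _ _ ha))) trivial
          | add u v hu hv => rw [smul_add, map_add]; exact Submodule.add_mem _ hu hv
        · rw [inB_smul, rY_bc, lsO_apply]
          exact Submodule.smul_mem_smul hc trivial
      | zero => intro w; rw [zero_smul, map_zero]; exact Submodule.zero_mem _
      | add j k _ _ hj hk =>
        intro w
        rw [add_smul, map_add]
        exact Submodule.add_mem _ (hj w) (hk w)
      | smul a j _ hj =>
        intro w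
        rw [smul_eq_mul, mul_comm, mul_smul]
        exact hj _
    refine Submodule.smul_induction_on hx (fun j hj w _ => hgen j hj w) fun u v hu hv => ?_
    rw [map_add]
    exact Submodule.add_mem _ hu hv
  have hrG : ∀ (c : B) (w : O' ⊗[O] Y), rY Y r (((inB O' c : B') - 1) • w) = (c - 1) • rY Y r w := by
    intro c w
    rw [inB_sub_one_smul, rY_bc, lsO_apply]
  -- Nakayama
  let M : Submodule B Y := LinearMap.range (LinearMap.lsmul B Y (dl D - 1))
  let M' : Submodule B Y := LinearMap.range (LinearMap.lsmul B Y (G - 1))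
  have hle : M ≤ M' ⊔ maximalIdeal B • M := by
    rintro _ ⟨y, rfl⟩
    obtain ⟨z, x, hx, hzx⟩ := glue_core (O := O') (B := B') (H := O' ⊗[O] Y) hp hpO hζ dl' b'
      (fun i δ => by
        rw [hb', hb', hb, hdl', inB_smul, LinearMap.baseChange_tmul, lsO_apply]) χ (J := J)
      (fun δ => by
        have h1 : dl' δ - algebraMap O' B' (χ δ) = inB O' (dl δ - 1) -
            algebraMap O' B' (χ δ - 1) := by
          rw [hinsub, map_sub, map_one, hdl']
          ring
        rw [h1]
        exact Ideal.sub_mem _ (hJ2 _ (hdl1 δ)) (hJ1 _ (hχ1 δ))) hD (G := inB O' G) hP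
      (by
        have h1 : ∀ n : ℕ, (inB O' G : B') ^ n = inB O' (G ^ n) := by
          intro n
          induction n with
          | zero => rw [pow_zero, pow_zero, inB_one]
          | succ n ih => rw [pow_succ, ih, pow_succ, inB_mul]
        rw [h1, hG, inB_one])
      (fun w => by
        induction w using TensorProduct.induction_on with
        | zero => exact ⟨0, by rw [smul_zero, smul_zero]⟩
        | tmul o h =>
          obtain ⟨u, hu⟩ := hGD h
          refine ⟨o ⊗ₜ u, ?_⟩
          rw [hdl', inB_sub_one_smul, inB_sub_one_smul, LinearMap.baseChange_tmul,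
            LinearMap.baseChange_tmul, lsO_apply, lsO_apply, hu]
        | add u v hu hv =>
          obtain ⟨u', hu'⟩ := hu
          obtain ⟨v', hv'⟩ := hv
          exact ⟨u' + v', by rw [smul_add, smul_add, hu', hv']⟩)
      (fun w hw1 hw2 => hNU w (fun δ => by rw [← inB_smul]; exact hw1 δ)
        (by rw [← inB_smul]; exact hw2)) (1 ⊗ₜ y)
    have h1 := congrArg (rY Y r) hzx
    rw [map_add, hdl', hrG, hrG, hrG, rY_tmul, hr1, one_smul] at h1
    rw [LinearMap.lsmul_apply, h1]
    refine Submodule.add_mem_sup ⟨_, rfl⟩ ?_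
    have h4 : (LinearMap.lsmul B Y (dl D - 1)) (rY Y r x) ∈
        Submodule.map (LinearMap.lsmul B Y (dl D - 1)) (maximalIdeal B • (⊤ : Submodule B Y)) :=
      Submodule.mem_map_of_mem (hrJ x hx)
    rw [Submodule.map_smul'', Submodule.map_top] at h4
    exact h4
  have h5 : M ≤ M' := Submodule.le_of_le_smul_of_le_jacobson_bot
    (IsNoetherian.noetherian M) (maximalIdeal_le_jacobson _) hle
  obtain ⟨z, hz⟩ := h5 ⟨y, rfl⟩
  exact ⟨z, hz.symm⟩

end desc

end

end Fermat.Agent.TW
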