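import Fermat.Agent.TW.Glue3
import Fermat.Agent.TW.C3

/-!
# Eigenvectors in the localised lattice
-/

set_option autoImplicit false
set_option linter.unusedSectionVars false
set_option linter.style.haveILetI false

open IsLocalRing
open scoped TensorProduct
open Fermat.Agent.KumG Fermat.Agent.GalRep

namespace Fermat.Agent.TW

noncomputable section

section iY

variable {O O' : Type} [CommRing O] [CommRing O'] [Algebra O O'] {L : Type} [AddCommGroup L]
  (Y : Submodule O (O ⊗[ℤ] L))

/-- the embedding -/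
def iY : O' ⊗[O] Y →ₗ[O'] O' ⊗[ℤ] L :=
  (TensorProduct.AlgebraTensorModule.cancelBaseChange ℤ O O' O' L).toLinearMap ∘ₗ
    Y.subtype.baseChange O'

theorem cbc_tmul (a : O') (z : O ⊗[ℤ] L) :
    TensorProduct.AlgebraTensorModule.cancelBaseChange ℤ O O' O' L (a ⊗ₜ z) =
      a • cc (algebraMap O O') L z := by
  induction z using TensorProduct.induction_on with
  | zero => rw [TensorProduct.tmul_zero, map_zero, map_zero, smul_zero]
  | tmul b l =>
    rw [TensorProduct.AlgebraTensorModule.cancelBaseChange_tmul, cc_tmul, TensorProduct.smul_tmul',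
      Algebra.smul_def, mul_comm, smul_eq_mul]
  | add x y hx hy => rw [TensorProduct.tmul_add, map_add, map_add, smul_add, hx, hy]

theorem iY_tmul (a : O') (y : Y) :
    iY Y (a ⊗ₜ[O] y) = a • cc (algebraMap O O') L (y : O ⊗[ℤ] L) := by
  rw [iY, LinearMap.comp_apply, LinearMap.baseChange_tmul]
  exact cbc_tmul a _

theorem iY_injective [Module.Flat O O'] : Function.Injective (iY (O' := O') Y) := by
  refine (LinearEquiv.injective
    (TensorProduct.AlgebraTensorModule.cancelBaseChange ℤ O O' O' L)).comp ?_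
  exact Module.Flat.lTensor_preserves_injective_linearMap (M := O') Y.subtype
    (Submodule.subtype_injective Y)

end iY

section main

variable {O : Type} [CommRing O] [IsLocalRing O] [IsNoetherianRing O]
  [IsAdicComplete (maximalIdeal O) O] {N : ℕ} [NeZero N] {H : Subgroup (ZMod N)ˣ}
  [hH : Fact ((-1 : (ZMod N)ˣ) ∈ H)] {S : Set ℕ} (hNS : ∀ l, l.Prime → l ∣ N → l ∈ S) (e : TS O S)
  {O' : Type} [CommRing O'] [Algebra O O']

theorem evA_genD (s : TD O S N) : evA (genD H hNS) (genD_comm H hNS) O s = phiD O H hNS s := rfl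

theorem iY_psiY (s : TD O S N) (x : O' ⊗[O] YH H hNS e) :
    iY _ ((psiY H hNS e s).baseChange O' x) =
      evA (genD H hNS) (genD_comm H hNS) O' (MvPolynomial.map (algebraMap O O') s) (iY _ x) := by
  induction x using TensorProduct.induction_on with
  | zero => simp only [map_zero]
  | tmul a y =>
    rw [LinearMap.baseChange_tmul, iY_tmul, iY_tmul, map_smul, ← evA_map, evA_genD]
    rfl
  | add x y hx hy => rw [map_add, map_add, map_add, map_add, hx, hy]

variable [IsDomain O'] [IsDiscreteValuationRing O'] [IsAdicComplete (maximalIdeal O') O']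
  [CharZero O'] [Module.Free O O']

/-- **eigenvectors in the localised lattice** -/
theorem exists_lam (W₀ : Submodule O' (O' ⊗[O] YH H hNS e)) (hW₀ : W₀ ≠ ⊥)
    (hst : ∀ s : TD O S N, ∀ x ∈ W₀, (psiY H hNS e s).baseChange O' x ∈ W₀) :
    ∃ (A : Type) (_ : CommRing A) (_ : IsDomain A) (_ : IsDiscreteValuationRing A)
      (_ : CharZero A) (_ : Algebra O' A),
      (∀ a ∈ maximalIdeal O', algebraMap O' A a ∈ maximalIdeal A) ∧
      Function.Injective (algebraMap O' A) ∧
      ∃ (y : A ⊗[ℤ] KumG.LZ (GH N H)) (μ : IS S ⊕ (ZMod N)ˣ → A) (lam : BB (psiY H hNS e) →+* A),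
        y ≠ 0 ∧ (∀ i, (genD H hNS i).baseChange A y = μ i • y) ∧
        (∀ i, lam (BB.mk _ (MvPolynomial.X i)) = μ i) ∧
        (∀ a : O, lam (algebraMap O _ a) = algebraMap O' A (algebraMap O O' a)) ∧
        ∀ (b : BB (psiY H hNS e)) (a : O'),
          (∀ x ∈ W₀, (lsO O b : Module.End O (YH H hNS e)).baseChange O' x = a • x) →
          lam b = algebraMap O' A a := by
  have hinj := iY_injective (O' := O') (part (phiD O H hNS) (incD O S N e))
  obtain ⟨A, i1, i2, i3, i4, i5, hmax, hOA, y, μ, hy0, hμ, hker⟩ := exists_dvr_eig O' (genD H hNS)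
    (genD_comm H hNS) (W₀.map (iY (O' := O') (part (phiD O H hNS) (incD O S N e)))) (by
      intro h
      apply hW₀
      rw [eq_bot_iff]
      intro x hx
      have h1 : iY (O' := O') (part (phiD O H hNS) (incD O S N e)) x ∈
          W₀.map (iY (O' := O') (part (phiD O H hNS) (incD O S N e))) := ⟨x, hx, rfl⟩
      rw [h, Submodule.mem_bot] at h1
      rw [Submodule.mem_bot]
      exact hinj (by rw [h1, map_zero])) (by
      rintro i _ ⟨x, hx, rfl⟩
      refine ⟨_, hst (MvPolynomial.X i) x hx, ?_⟩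
      rw [iY_psiY, MvPolynomial.map_X, evC_X])
  refine ⟨A, i1, i2, i3, i4, i5, hmax, hOA, y, μ, ?_⟩
  let ev : TD O S N →+* A := (MvPolynomial.aeval μ : MvPolynomial _ O' →ₐ[O'] A).toRingHom.comp
    (MvPolynomial.map (algebraMap O O'))
  have hev : ∀ s, ev s = MvPolynomial.aeval μ (MvPolynomial.map (algebraMap O O') s) := fun s => rfl
  have hlift : ∀ s : TD O S N, s ∈ RingHom.ker (psiY H hNS e) → ev s = 0 := by
    intro s hs
    rw [hev]
    refine hker _ ?_
    rintro _ ⟨x, -, rfl⟩
    have h1 : psiY H hNS e s = 0 := hs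
    rw [← iY_psiY, h1, LinearMap.baseChange_zero, LinearMap.zero_apply, map_zero]
  let lam : BB (psiY H hNS e) →+* A := Ideal.Quotient.lift (RingHom.ker (psiY H hNS e)) ev hlift
  have hlam : ∀ s, lam (BB.mk _ s) = ev s := fun s => rfl
  refine ⟨lam, hy0, hμ, fun i => ?_, fun a => ?_, fun b a hb => ?_⟩
  · rw [hlam, hev, MvPolynomial.map_X, MvPolynomial.aeval_X]
  · rw [← AlgHom.commutes (BB.mk (psiY H hNS e)), hlam, hev, MvPolynomial.algebraMap_eq,
      MvPolynomial.map_C, ← MvPolynomial.algebraMap_eq, AlgHom.commutes]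
  · obtain ⟨s, rfl⟩ := BB.mk_surjective _ b
    rw [hlam, hev, ← sub_eq_zero, ← AlgHom.commutes (MvPolynomial.aeval μ), ← map_sub]
    refine hker _ ?_
    rintro _ ⟨x, hx, rfl⟩
    rw [map_sub, LinearMap.sub_apply, ← iY_psiY, AlgHom.commutes, Module.algebraMap_end_apply,
      ← map_smul, ← map_sub]
    have h1 := hb x hx
    have h2 : (lsO O (BB.mk (psiY H hNS e) s) : Module.End O (YH H hNS e)) = psiY H hNS e s :=
      LinearMap.ext fun y => rfl
    rw [h2] at h1
    rw [h1, sub_self, map_zero]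

end main

end

end Fermat.Agent.TW
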