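import Fermat.Agent.TW.HNU1
import Fermat.Agent.TW.GrpH
import Fermat.Agent.Twi.TwistFalse
import Fermat.Agent.CarK.Main
import Fermat.Agent.CarM.Fin
import Fermat.Agent.Flat.Local

/-!
# No unipotent inertia with non-trivial nebentypus
-/

set_option autoImplicit false
set_option linter.unusedSectionVars false
set_option linter.style.haveILetI false

open IsLocalRing
open scoped TensorProduct Pointwise
open Fermat.Agent.KumG Fermat.Agent.GalRep Fermat.Agent.Places Fermat.Agent.Cheb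

namespace Fermat.Agent.TW

noncomputable section

theorem conj_inertia {A P : ValuationSubring (AlgebraicClosure ℚ)} {g : GQ} (hg : g • A = P)
    {σ : GQ} (hσ : σ ∈ P.inertiaSubgroupIn ℚ) : g⁻¹ * σ * g ∈ A.inertiaSubgroupIn ℚ := by
  rw [Flat.mem_inertia_iff] at hσ ⊢
  intro x hx
  have h1 : g x ∈ P := by
    rw [← hg, mem_smul_iff]
    change g⁻¹ (g x) ∈ A
    rw [← AlgEquiv.mul_apply, inv_mul_cancel]
    exact hx
  have h2 := hσ _ h1
  rw [← hg, mem_nonunits_smul_iff] at h2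
  have h3 : (g⁻¹ * σ * g) x - x = g⁻¹ • (σ (g x) - g x) := by
    change _ = g⁻¹ (σ (g x) - g x)
    rw [map_sub, AlgEquiv.mul_apply, AlgEquiv.mul_apply]
    congr 1
    rw [← AlgEquiv.mul_apply g⁻¹ g, inv_mul_cancel]
    rfl
  rw [h3]
  exact h2

/-- `twist_false'` at a general level -/
theorem twist_false_N (ι : AlgebraicClosure ℚ →+* ℂ)
    {O : Type*} [CommRing O] [IsDomain O] [IsDiscreteValuationRing O] [CharZero O]
    {p : ℕ} [Fact p.Prime] (hp2 : p ≠ 2) (hpO : (p : O) ∈ IsLocalRing.maximalIdeal O)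
    {N M v : ℕ} [hv : Fact v.Prime] [NeZero N] (hN : N = M * v) (hvN : v ∣ N) (hvM : ¬ v ∣ M)
    (hvp : v ≠ p)
    {H : Subgroup (ZMod N)ˣ} [Fact ((-1 : (ZMod N)ˣ) ∈ H)]
    {S : Set ℕ} (hS : S.Finite) {ψ : (ZMod v)ˣ →* Oˣ} (hψ : ψ ≠ 1) (hψp : ∀ u, ψ u ^ p = 1)
    {x : O ⊗[ℤ] KumG.LZ (GH N H)}
    (hdia : ∀ d : (ZMod N)ˣ, (DH N H d).baseChange O x =
      (ψ (ZMod.unitsMap hvN d) : O) ^ 2 • x)
    {lam : ℕ → O}
    (hT : ∀ (l : ℕ) (hl : l.Prime) (hlN : ¬ l ∣ N), l ∉ S →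
      (TH N H hl hlN).baseChange O x = lam l • x)
    {t D : GQ → O} (hps : IsPseudoRep t D)
    (ht : ∀ n, IsLocConst (fun g => Ideal.Quotient.mk (IsLocalRing.maximalIdeal O ^ n) (t g)))
    (hD : ∀ n, IsLocConst (fun g => Ideal.Quotient.mk (IsLocalRing.maximalIdeal O ^ n) (D g)))
    (hfrob : ∀ l : ℕ, l.Prime → l ∉ S → ¬ l ∣ N →
      ∀ P : ValuationSubring (AlgebraicClosure ℚ),
      P.LiesOverPrime l → ∀ τ : GQ, P.IsFrobeniusAt τ l →
        (∀ u : (ZMod v)ˣ, (u : ZMod v) = l → lam l = ψ u * t τ) ∧ D τ = l)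
    (hun : ∀ P : ValuationSubring (AlgebraicClosure ℚ), P.LiesOverPrime v →
      ∀ σ ∈ P.inertiaSubgroupIn ℚ, t σ = 2 ∧ D σ = 1) : x = 0 := by
  subst hN
  exact Twi.twist_false' ι hp2 hpO hvM hvp hS hψ hψp hdia hT hps ht hD hfrob hun
    fun M₀ q r p _ _ hq hr hr11 hqM hrM hqp hrp =>
      CarK.s36_hclaim ι CarM.car_F0 M₀ q r p hq hr hr11 hqM hrM hqp hrp

end

end Fermat.Agent.TW
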