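import Fermat.Agent.TW.HNU2

/-!
# No unipotent inertia with non-trivial nebentypus
-/

set_option autoImplicit false
set_option linter.unusedSectionVars false
set_option linter.style.haveILetI false

open IsLocalRing
open scoped TensorProduct Pointwise
open Fermat.Agent.KumG Fermat.Agent.GalRep Fermat.Agent.Places Fermat.Agent.Cheb

namespace Fermat.Agent.TW

noncomputable section

variable {O : Type} [CommRing O] [IsLocalRing O] [IsNoetherianRing O]
  [IsAdicComplete (maximalIdeal O) O] {p : ℕ} [hp : Fact p.Prime]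
  (hpO : (p : O) ∈ maximalIdeal O) {N : ℕ} [NeZero N] {H : Subgroup (ZMod N)ˣ}
  [hH : Fact ((-1 : (ZMod N)ˣ) ∈ H)] {S : Set ℕ} {hNS : ∀ l, l.Prime → l ∣ N → l ∈ S} {e : TS O S}
  (ι : AlgebraicClosure ℚ →+* ℂ)

theorem cycO_cont (n : ℕ) : ∃ L : IntermediateField ℚ (AlgebraicClosure ℚ),
    FiniteDimensional ℚ L ∧ ∀ σ : GQ, (∀ x ∈ L, σ x = x) →
      ∃ w : O, cycO hpO σ = 1 + (p ^ n : O) * w := by
  obtain ⟨L₂, hL₂, hL₂'⟩ := exists_level_cyc (p ^ n)
  refine ⟨L₂, hL₂, fun σ hσ => ?_⟩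
  obtain ⟨z, hz⟩ := cycO_spec (O := O) hpO σ n
  have h1 := hL₂' σ hσ
  obtain ⟨z', hz'⟩ := cycO_spec (O := O) hpO (1 : GQ) n
  rw [map_one] at hz'
  rw [h1, ← map_one (cyc (p ^ n))] at hz
  refine ⟨z - z', ?_⟩
  rw [hz, hz']
  ring

theorem dlB_mk (d : (ZMod N)ˣ) :
    dlB hNS e (QuotientGroup.mk d : DG N H) = BB.mk _ (MvPolynomial.X (Sum.inr d)) := by
  refine BB.act_injective _ (LinearMap.ext fun y => Subtype.ext ?_)
  rw [BB.act_mk, psiY_inr, ← dlB_smul hNS e]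
  rfl

/-- the Eichler–Shimura relation -/
theorem rhoY_frob (hodd : Odd (Fintype.card (DG N H))) {l : ℕ} (hl : l.Prime) (hlS : l ∉ S)
    (hlp : l ≠ p) {A : ValuationSubring (AlgebraicClosure ℚ)}
    (hA : A.LiesOverPrime l) {τ : GQ} (hτ : A.IsFrobeniusAt τ l) :
    rhoY hpO ι H hNS e τ + (l : O) • rhoY hpO ι H hNS e τ⁻¹ =
      psiY H hNS e (MvPolynomial.X (Sum.inr (twd N H τ).out) *
        MvPolynomial.X (Sum.inl ⟨l, hl, hlS⟩)) := by
  have hlN : ¬ l ∣ N := fun h => hlS (hNS l hl h)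
  have h1 := rhoT_frob (O := O) (H := H) hpO ι hodd hl hlN hlp hA hτ
  refine LinearMap.ext fun y => Subtype.ext ?_
  have h2 := LinearMap.congr_fun h1 (y : XH O N H)
  rw [actPart_coe, map_mul, phiD_inr, phiD_inl, ← DO_mk, QuotientGroup.out_eq']
  exact h2

variable [Nontrivial (YH H hNS e)] [Module.Free O (YH H hNS e)]
  {t : GQ → ResidueField O} {θ' : TD O S N →ₐ[O] ResidueField O}
  (h : HG hpO S t (psiY H hNS e) θ' (rhoY hpO ι H hNS e))

/-- the traces of Frobenius in the Hecke ring -/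
theorem incB_tt_frob (hodd : Odd (Fintype.card (DG N H))) {l : ℕ} (hl : l.Prime) (hlS : l ∉ S)
    (hlp : l ≠ p) {A : ValuationSubring (AlgebraicClosure ℚ)}
    (hA : A.LiesOverPrime l) {τ : GQ} (hτ : A.IsFrobeniusAt τ l) :
    h.incB (h.tt τ) = dlB hNS e (twd N H τ) * BB.mk _ (MvPolynomial.X (Sum.inl ⟨l, hl, hlS⟩)) := by
  have h1 := rhoY_frob (e := e) (hNS := hNS) hpO ι hodd hl hlS hlp hA hτ
  refine BB.act_injective _ (LinearMap.ext fun y => ?_)
  have h2 : BB.act (psiY H hNS e) (h.incB (h.tt τ)) y = h.incB (h.tt τ) • y := rfl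
  rw [h2, h.incB_smul, h.tt_smul, cycO_frob hpO hl hlp hA hτ]
  have h3 := LinearMap.congr_fun h1 y
  rw [LinearMap.add_apply, LinearMap.smul_apply] at h3
  rw [h3]
  have h4 : dlB hNS e (twd N H τ) = BB.mk (psiY H hNS e) (MvPolynomial.X (Sum.inr (twd N H τ).out)) :=
    rfl
  rw [h4, ← map_mul]
  rfl

variable [Invertible (2 : O)] {g₀ k₀ : GQ} (hgk : HG.IrrAt t g₀ k₀)
  {O' : Type} [CommRing O'] [Algebra O O'] [IsDomain O'] [IsDiscreteValuationRing O']
  [IsAdicComplete (maximalIdeal O') O'] [CharZero O'] [Module.Free O O']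

theorem map_sub_eq {R A : Type*} [CommRing R] [CommRing A] (f : R →+* A) {a b w : R} {q n : ℕ}
    (h : a - b = (q : R) ^ n * w) : f a - f b = (q : A) ^ n * f w := by
  rw [← map_sub, h, map_mul, map_pow, map_natCast]

/-- a unit of order dividing two and `p` is trivial -/
theorem unit_eq_one {G : Type*} [Group G] {z : G} {p : ℕ} (hodd : Odd p) (h2 : z ^ 2 = 1)
    (hp : z ^ p = 1) : z = 1 := by
  obtain ⟨k, rfl⟩ := hodd
  rwa [pow_add, pow_mul, h2, one_pow, one_mul, pow_one] at hp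

theorem psi_twd {O' : Type} [CommRing O'] {N : ℕ} [NeZero N] {H : Subgroup (ZMod N)ˣ}
    [hH : Fact ((-1 : (ZMod N)ˣ) ∈ H)] {p : ℕ}
    (hpodd : Odd p)
    (hodd : Odd (Fintype.card (DG N H))) {v : ℕ} (hvN : v ∣ N)
    {ψ : (ZMod v)ˣ →* O'ˣ} (hψp : ∀ u, ψ u ^ p = 1) {χ : DG N H →* O'ˣ}
    (hχ : ∀ d : (ZMod N)ˣ, χ (QuotientGroup.mk d) = ψ (ZMod.unitsMap hvN d) ^ 2) (τ : GQ) :
    ψ (ZMod.unitsMap hvN (cycU N τ)) * χ (twd N H τ) = 1 := by
  refine unit_eq_one hpodd ?_ ?_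
  · rw [mul_pow, ← hχ, ← map_pow, ← map_mul]
    have h1 := twd_mul_mk (H := H) hodd τ
    rw [eq_inv_iff_mul_eq_one] at h1
    have h2 : (QuotientGroup.mk (cycU N τ) : DG N H) * twd N H τ ^ 2 = 1 := by
      letI : CommGroup (DG N H) := QuotientGroup.Quotient.commGroup H
      rw [← h1, sq, mul_comm (G := DG N H) (twd N H τ) (QuotientGroup.mk (cycU N τ)), mul_assoc]
    rw [h2, map_one]
  · rw [mul_pow, hψp, one_mul]
    obtain ⟨d, hd⟩ := QuotientGroup.mk_surjective (twd N H τ)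
    rw [← hd, hχ, ← pow_mul, mul_comm, pow_mul, hψp, one_pow]

theorem hun_aux {O T Y : Type} [CommRing O] [IsLocalRing O] [IsNoetherianRing O]
    [IsAdicComplete (maximalIdeal O) O] [CommRing T] [Algebra O T] [AddCommGroup Y] [Module O Y]
    [Module.Finite O Y] [Module.Free O Y] [Nontrivial Y] {p : ℕ} [hp : Fact p.Prime]
    {hpO : (p : O) ∈ maximalIdeal O}
    {S : Set ℕ} {t : GQ → ResidueField O} {ψ : T →ₐ[O] Module.End O Y}
    {θ : T →ₐ[O] ResidueField O} {ρ : GQ →* Module.End O Y} (h : HG hpO S t ψ θ ρ)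
    [Invertible (2 : O)] {g₀ k₀ : GQ} (hgk : HG.IrrAt t g₀ k₀)
    {v : ℕ} (hv : v.Prime) {A : ValuationSubring (AlgebraicClosure ℚ)} (hA : A.LiesOverPrime v)
    (L : LocW p v A (h.R hgk)) {A' : Type} [CommRing A'] (Λ : h.TT →+* A')
    (hΛG : Λ (L.η L.σ₀) = 1) {P : ValuationSubring (AlgebraicClosure ℚ)} (hP : P.LiesOverPrime v)
    {σ : GQ} (hσ : σ ∈ P.inertiaSubgroupIn ℚ) : Λ (h.tt σ) = 2 := by
  obtain ⟨g, hg⟩ := exists_smul_eq_of_liesOverPrime hv A P hA hP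
  have h1 := conj_inertia hg hσ
  have h2 : h.tt σ = h.tt (g⁻¹ * σ * g) := by
    rw [h.isPseudoRep.t_mul_comm (g⁻¹ * σ) g, ← mul_assoc, mul_inv_cancel, one_mul]
  obtain ⟨n, hn⟩ := L.gen _ h1
  have h3 := L.inv _ h1
  have h4 := congrArg Matrix.trace (L.eq _ h1)
  rw [h.R_trace, Matrix.trace_add, Matrix.trace_smul, Matrix.trace_smul, L.trace, smul_eq_mul,
    smul_eq_mul, mul_one] at h4
  have h5 := congrArg Matrix.trace L.add
  rw [Matrix.trace_add, L.trace, Matrix.trace_one, Fintype.card_fin] at h5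
  have h6 : Λ (L.η (g⁻¹ * σ * g)) = 1 := by
    rw [hn, map_pow, hΛG, one_pow]
  have h7 : Λ (L.η' (g⁻¹ * σ * g)) = 1 := by
    have h8 := congrArg Λ h3
    rw [map_mul, h6, one_mul, map_one] at h8
    exact h8
  have h8 : L.P₂.trace = 1 := by
    have h9 : ((2 : ℕ) : h.TT) = 2 := Nat.cast_ofNat
    rw [h9] at h5
    linear_combination h5
  rw [h2, h4, h8, mul_one, map_add, h6, h7]
  norm_num

include hpO in
/-- **No unipotent inertia with non-trivial nebentypus.** -/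
theorem hNU (hS : S.Finite) (hpS : p ∈ S) (hp2 : p ≠ 2) (hodd : Odd (Fintype.card (DG N H)))
    {v M : ℕ} [hv : Fact v.Prime] (hN : N = M * v) (hvN : v ∣ N) (hvM : ¬ v ∣ M) (hvp : v ≠ p)
    {A : ValuationSubring (AlgebraicClosure ℚ)} (hA : A.LiesOverPrime v)
    (L : LocW p v A (h.R hgk))
    (hmax : ∀ a ∈ maximalIdeal O, algebraMap O O' a ∈ maximalIdeal O')
    {ψ : (ZMod v)ˣ →* O'ˣ} (hψ : ψ ≠ 1) (hψp : ∀ u, ψ u ^ p = 1) {χ : DG N H →* O'ˣ}
    (hχ : ∀ d : (ZMod N)ˣ, χ (QuotientGroup.mk d) = ψ (ZMod.unitsMap hvN d) ^ 2)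
    (x : O' ⊗[O] YH H hNS e)
    (hx1 : ∀ δ, (lsO O (dlB hNS e δ) : Module.End O (YH H hNS e)).baseChange O' x =
      (χ δ : O') • x)
    (hx2 : (lsO O (h.incB (L.η L.σ₀)) : Module.End O (YH H hNS e)).baseChange O' x = x) :
    x = 0 := by
  by_contra hx0
  have hpodd : Odd p := hp.out.odd_of_ne_two hp2
  set G := h.incB (L.η L.σ₀) with hG
  let W₀ : Submodule O' (O' ⊗[O] YH H hNS e) :=
    { carrier := {x | (∀ δ, (lsO O (dlB hNS e δ) : Module.End O (YH H hNS e)).baseChange O' x =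
        (χ δ : O') • x) ∧ (lsO O G : Module.End O (YH H hNS e)).baseChange O' x = x}
      zero_mem' := ⟨fun δ => by rw [map_zero, smul_zero], by rw [map_zero]⟩
      add_mem' := fun {a b} ha hb => ⟨fun δ => by rw [map_add, ha.1, hb.1, smul_add],
        by rw [map_add, ha.2, hb.2]⟩
      smul_mem' := fun c a ha => ⟨fun δ => by rw [map_smul, ha.1, smul_comm],
        by rw [map_smul, ha.2]⟩ }
  have hW₀ : W₀ ≠ ⊥ := fun hb => hx0 (by
    have : x ∈ W₀ := ⟨hx1, hx2⟩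
    rwa [hb, Submodule.mem_bot] at this)
  have hcomm : ∀ (a b : BB (psiY H hNS e)) (w : O' ⊗[O] YH H hNS e),
      (lsO O a : Module.End O (YH H hNS e)).baseChange O' ((lsO O b).baseChange O' w) =
      (lsO O b : Module.End O (YH H hNS e)).baseChange O' ((lsO O a).baseChange O' w) :=
    fun a b w => LinearMap.congr_fun (bc_lsO_comm (Y := YH H hNS e) O' a b) w
  obtain ⟨A', i1, i2, i3, i4, i5, hmaxA, hOA, y, μ, lam, hy0, hμ, hlX, hlO, hlW⟩ :=
    exists_lam hNS e W₀ hW₀ (by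
      intro s w hw
      have h1 : (psiY H hNS e s : Module.End O (YH H hNS e)) = lsO O (BB.mk (psiY H hNS e) s) := rfl
      rw [h1]
      exact ⟨fun δ => by rw [hcomm, hw.1, map_smul], by rw [hcomm, hw.2]⟩)
  apply hy0
  have hpO' : (p : O') ∈ maximalIdeal O' := by
    have := hmax _ hpO
    rwa [map_natCast] at this
  have hpA : (p : A') ∈ maximalIdeal A' := by
    have := hmaxA _ hpO'
    rwa [map_natCast] at this
  have hlδ : ∀ δ, lam (dlB hNS e δ) = algebraMap O' A' (χ δ : O') := fun δ =>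
    hlW _ _ fun w hw => hw.1 δ
  have hlG : lam G = 1 := by
    rw [hlW G 1 fun w hw => by rw [hw.2, one_smul], map_one]
  -- the pseudo-representation
  obtain ⟨Λ, hΛ⟩ : ∃ Λ : h.TT →+* A', ∀ a, Λ a = lam (h.incB a) :=
    ⟨lam.comp h.incB.toRingHom, fun a => rfl⟩
  have hΛG : Λ (L.η L.σ₀) = 1 := by rw [hΛ, ← hG, hlG]
  have hps : IsPseudoRep (fun g => Λ (h.tt g)) (fun g => Λ (h.DD g)) :=
    h.isPseudoRep.comp Λ
  have hDD : ∀ g, Λ (h.DD g) = algebraMap O' A' (algebraMap O O' (cycO hpO g)) := by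
    intro g
    rw [hΛ, h.DD_apply, AlgHom.commutes, hlO]
  have hΛfr : ∀ (l : ℕ) (hl : l.Prime) (hlS : l ∉ S) (hlp : l ≠ p)
      (P : ValuationSubring (AlgebraicClosure ℚ)) (hP : P.LiesOverPrime l) (τ : GQ)
      (hτ : P.IsFrobeniusAt τ l), Λ (h.tt τ) =
        algebraMap O' A' (χ (twd N H τ) : O') * μ (Sum.inl ⟨l, hl, hlS⟩) := by
    intro l hl hlS hlp P hP τ hτ
    rw [hΛ, incB_tt_frob hpO ι h hodd hl hlS hlp hP hτ, map_mul, hlδ, hlX]
  have hspan : ∀ (n : ℕ) (a b : A'), (∃ w, a - b = (p : A') ^ n * w) →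
      Ideal.Quotient.mk (maximalIdeal A' ^ n) a = Ideal.Quotient.mk (maximalIdeal A' ^ n) b := by
    rintro n a b ⟨w, hw⟩
    rw [Ideal.Quotient.eq, hw]
    exact Ideal.mul_mem_right _ _ (Ideal.pow_mem_pow hpA n)
  let lm : ℕ → A' := fun l => by
    classical
    exact if hl : l.Prime ∧ l ∉ S then μ (Sum.inl ⟨l, hl⟩) else 0
  have hlm : ∀ (l : ℕ) (hl : l.Prime ∧ l ∉ S), lm l = μ (Sum.inl ⟨l, hl⟩) := fun l hl => by
    simp only [lm]
    rw [dif_pos hl]
  let ψA : (ZMod v)ˣ →* A'ˣ := (Units.map (algebraMap O' A' : O' →* A')).comp ψ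
  have hψA : ∀ u, ((ψA u : A'ˣ) : A') = algebraMap O' A' (ψ u : O') := fun u => rfl
  refine twist_false_N (ψ := ψA) (lam := lm) ι hp2 hpA hN hvN hvM hvp hS ?_ ?_ ?_ ?_ hps ?_ ?_ ?_ ?_
  · intro h1
    apply hψ
    refine MonoidHom.ext fun u => Units.ext (hOA ?_)
    have h2 := congrArg Units.val (DFunLike.congr_fun h1 u)
    rw [hψA] at h2
    rw [h2, MonoidHom.one_apply, MonoidHom.one_apply, Units.val_one, Units.val_one, map_one]
  · intro u
    apply Units.ext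
    rw [Units.val_pow_eq_pow_val, hψA, ← map_pow, ← Units.val_pow_eq_pow_val, hψp, Units.val_one,
      map_one, Units.val_one]
  · intro d
    have h1 := hμ (Sum.inr d)
    have h2 : μ (Sum.inr d) = (ψA (ZMod.unitsMap hvN d) : A') ^ 2 := by
      rw [← hlX, ← dlB_mk, hlδ, hχ, hψA, Units.val_pow_eq_pow_val, map_pow]
    rw [← h2]
    exact h1
  · intro l hl hlN hlS
    rw [hlm l ⟨hl, hlS⟩]
    exact hμ (Sum.inl ⟨l, hl, hlS⟩)
  · intro n
    obtain ⟨Lf, hLf, hLf'⟩ := h.tt_cont n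
    refine ⟨Lf, hLf, fun σ hσ g => hspan n _ _ ?_⟩
    obtain ⟨w, hw⟩ := Ideal.mem_span_singleton.1 (hLf' σ hσ g)
    exact ⟨Λ w, map_sub_eq Λ hw⟩
  · intro n
    obtain ⟨Lf, hLf, hLf'⟩ := cycO_cont (O := O) hpO n
    refine ⟨Lf, hLf, fun σ hσ g => hspan n _ _ ?_⟩
    obtain ⟨w, hw⟩ := hLf' σ hσ
    refine ⟨((algebraMap O' A').comp (algebraMap O O')) (cycO hpO g * w), ?_⟩
    have h1 : cycO hpO (g * σ) - cycO hpO g = (p : O) ^ n * (cycO hpO g * w) := by
      rw [map_mul (cycO hpO), hw]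
      ring
    rw [hDD, hDD]
    exact map_sub_eq ((algebraMap O' A').comp (algebraMap O O')) h1
  · intro l hl hlS hlN P hP τ hτ
    have hlp : l ≠ p := by rintro rfl; exact hlS hpS
    refine ⟨fun u hu => ?_, ?_⟩
    · change lm l = (ψA u : A') * Λ (h.tt τ)
      rw [hΛfr l hl hlS hlp P hP τ hτ, hlm l ⟨hl, hlS⟩, hψA,
        ← mul_assoc, ← map_mul, ← Units.val_mul]
      have hcu : ZMod.unitsMap hvN (cycU N τ) = u := by
        apply Units.ext
        have h1 := cycU_frobenius ((Nat.Prime.coprime_iff_not_dvd hl).2 hlN) hP hτ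
        change ZMod.castHom hvN (ZMod v) ((cycU N τ : (ZMod N)ˣ) : ZMod N) = u
        rw [h1, map_natCast, hu]
      have hz : ψ u * χ (twd N H τ) = 1 := by
        rw [← hcu]
        exact psi_twd hpodd hodd hvN hψp hχ τ
      rw [hz, Units.val_one, map_one, one_mul]
    · change Λ (h.DD τ) = l
      rw [hDD, cycO_frob hpO hl hlp hP hτ, map_natCast, map_natCast]
  · intro P hP σ hσ
    refine ⟨hun_aux h hgk hv.out hA L Λ hΛG hP hσ, ?_⟩
    · change Λ (h.DD σ) = 1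
      rw [hDD, cycO_inertia hpO hv.out hvp hP hσ, map_one, map_one]

end

end Fermat.Agent.TW
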