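import Fermat.Agent.LevelRaise.Adjoint2
import Fermat.Agent.LevelRaise.Abstract
import Fermat.Agent.KumG.Par

/-!
# Double coset operators and normal subgroups: restriction, quasi-homomorphisms
-/

set_option autoImplicit false

open Matrix.SpecialLinearGroup
open scoped MatrixGroups
open Fermat.Agent.AL Fermat.Agent.ALCoh Fermat.Agent.LevelRaise
open ModularCurve ModularCurve.Period

namespace Fermat.Agent.TW

noncomputable section

/-- `Γ'` is a normal subgroup of `Γ` -/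
structure Nm (Γ' Γ : Subgroup SL(2, ℤ)) : Prop where
  le : Γ' ≤ Γ
  conj : ∀ g ∈ Γ, ∀ h ∈ Γ', g * h * g⁻¹ ∈ Γ'

/-- a family acting on the levels `Γ` and `Γ'`, preserving classes modulo `Γ'` -/
structure HFam {ι : Type*} (Γ' Γ : Subgroup SL(2, ℤ)) (rep : ι → M2) : Prop where
  fam : Fam Γ Γ rep
  fam' : Fam Γ' Γ' rep
  cls : ∀ γ ∈ Γ, ∀ g ∈ Γ, ∀ x y : ι, rep x * (γ : M2) = (g : M2) * rep y → g * γ⁻¹ ∈ Γ'
  inj : ∀ x y : ι, ∀ h ∈ Γ, rep x = (h : M2) * rep y → x = y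

variable {Γ Γ' : Subgroup SL(2, ℤ)} {ι : Type*} {rep : ι → M2} {A : Type*}
  [AddCommGroup A]

section basic

variable (hn : Nm Γ' Γ)
include hn

lemma Nm.conj' {g h : SL(2, ℤ)} (hg : g ∈ Γ) (hh : h ∈ Γ') : g⁻¹ * h * g ∈ Γ' := by
  have := hn.conj g⁻¹ (inv_mem hg) h hh
  rwa [inv_inv] at this

end basic

/-- uniqueness of transport -/
lemma HFam.unique (hF : HFam Γ' Γ rep) {γ g g' : SL(2, ℤ)} (hg : g ∈ Γ) (hg' : g' ∈ Γ)
    {x y y' : ι} (h : rep x * (γ : M2) = (g : M2) * rep y)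
    (h' : rep x * (γ : M2) = (g' : M2) * rep y') : y = y' ∧ g = g' := by
  have e1 : rep y = ((g⁻¹ * g' : SL(2, ℤ)) : M2) * rep y' := by
    refine mul_left_cancel_det (C := (g : M2)) ?_ ?_
    · rw [g.det_coe]; exact one_ne_zero
    · rw [← h, h', ← Matrix.mul_assoc, ← Matrix.SpecialLinearGroup.coe_mul, mul_inv_cancel_left]
  have e2 := hF.inj y y' _ (mul_mem (inv_mem hg) hg') e1
  refine ⟨e2, ?_⟩
  subst e2
  apply Subtype.ext
  exact mul_right_cancel_det (hF.fam.det y) (h.symm.trans h')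

variable [Fintype ι]

/-- homomorphisms vanishing on `Γ'` are eigenvectors -/
theorem HFam.op_of_vanish (hF : HFam Γ' Γ rep) (φ : Additive Γ →+ A)
    (h0 : ∀ g : Γ, (g : SL(2, ℤ)) ∈ Γ' → φ (Additive.ofMul g) = 0) :
    hF.fam.op A φ = Fintype.card ι • φ := by
  refine AddMonoidHom.ext fun γ => ?_
  obtain ⟨γ, rfl⟩ := Additive.ofMul.surjective γ
  have ht := hF.fam.tr_elt γ
  rw [Fam.op_apply_of_tr hF.fam φ γ ht]
  have h1 : ∀ x, φ (Additive.ofMul (hF.fam.elt γ x)) = φ (Additive.ofMul γ) := by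
    intro x
    have h2 := hF.cls γ γ.2 _ (hF.fam.elt γ x).2 _ _ (ht x)
    have h3 := h0 (hF.fam.elt γ x * γ⁻¹) h2
    rw [ofMul_mul, ofMul_inv, map_add, map_neg, add_neg_eq_zero] at h3
    exact h3
  rw [Finset.sum_congr rfl fun x _ => h1 x]
  simp

/-- **quasi-homomorphisms**: if `f` is a homomorphism on `Γ'` invariant under `Γ`, then
`T f - deg(T) f` extends to `Γ`. -/
theorem HFam.exists_extension (hF : HFam Γ' Γ rep) (hn : Nm Γ' Γ) (f : Additive Γ' →+ A)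
    (hf : ∀ g ∈ Γ, ∀ h : Γ', ∀ h' : Γ', (h' : SL(2, ℤ)) = g * h * g⁻¹ →
      f (Additive.ofMul h') = f (Additive.ofMul h)) :
    ∃ G : Additive Γ →+ A, ∀ (g : Γ) (h : (g : SL(2, ℤ)) ∈ Γ'),
      G (Additive.ofMul g) = hF.fam'.op A f (Additive.ofMul ⟨g, h⟩) -
        Fintype.card ι • f (Additive.ofMul ⟨g, h⟩) := by
  classical
  have hmul : ∀ g ∈ Γ', ∀ h ∈ Γ', fnG f (g * h) = fnG f g + fnG f h := by
    intro g hg h hh
    rw [fnG_of_mem f hg, fnG_of_mem f hh, fnG_of_mem f (mul_mem hg hh), ← map_add, ← ofMul_mul]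
    rfl
  obtain ⟨F, -, hF2⟩ := exists_sec (C := ⊥) (Γ := Γ') (φ := fnG f) hmul (by
    intro y c hc hm
    rw [Subgroup.mem_bot] at hc
    subst hc
    have h1 := hmul 1 (one_mem _) 1 (one_mem _)
    rw [mul_one] at h1 ⊢
    simpa using h1)
  have hconj : ∀ g ∈ Γ, ∀ h ∈ Γ', fnG f (g⁻¹ * h * g) = fnG f h := by
    intro g hg h hh
    rw [fnG_of_mem f hh, fnG_of_mem f (hn.conj' hg hh)]
    refine (hf g hg ⟨g⁻¹ * h * g, hn.conj' hg hh⟩ ⟨h, hh⟩ ?_).symm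
    simp only [mul_assoc, mul_inv_cancel_left, mul_inv_cancel, mul_one]
  have hleft : ∀ g ∈ Γ, ∀ h ∈ Γ', F (h * g) = F g + fnG f h := by
    intro g hg h hh
    have e1 : h * g = g * (g⁻¹ * h * g) := by group
    rw [e1, hF2 _ _ (hn.conj' hg hh), hconj g hg h hh]
  -- the cocycle
  have hc : ∀ g ∈ Γ, ∀ h ∈ Γ, ∀ a ∈ Γ', ∀ b ∈ Γ',
      F (a * g * (b * h)) - F (a * g) - F (b * h) = F (g * h) - F g - F h := by
    intro g hg h hh a ha b hb
    have e1 : a * g * (b * h) = a * (g * b * g⁻¹) * (g * h) := by group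
    have hb' := hn.conj g hg b hb
    have e2 : fnG f (g * b * g⁻¹) = fnG f b := by
      have := hconj g⁻¹ (inv_mem hg) b hb
      rwa [inv_inv] at this
    rw [e1, hleft _ (mul_mem hg hh) _ (mul_mem ha hb'), hleft _ hg _ ha, hleft _ hh _ hb,
      hmul _ ha _ hb', e2]
    abel
  let n := Fintype.card ι
  let E : Γ → A := fun γ => ∑ x, F (hF.fam.elt γ x : SL(2, ℤ)) - n • F γ
  have hE : ∀ γ δ : Γ, E (γ * δ) = E γ + E δ := by
    intro γ δ
    have t1 := hF.fam.tr_elt γ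
    have t2 := hF.fam.tr_elt δ
    have t3 := hF.fam.tr_elt (γ * δ)
    have t4 := Tr.mul t1 t2
    have e1 : ∀ x, (hF.fam.elt (γ * δ) x : SL(2, ℤ)) =
        (hF.fam.elt γ x : SL(2, ℤ)) * (hF.fam.elt δ (hF.fam.perm γ x) : SL(2, ℤ)) := by
      intro x
      exact (hF.unique (hF.fam.elt (γ * δ) x).2
        (mul_mem (hF.fam.elt γ x).2 (hF.fam.elt δ (hF.fam.perm γ x)).2) (t3 x) (t4 x)).2
    have e2 : ∀ x y, F ((hF.fam.elt γ x : SL(2, ℤ)) * (hF.fam.elt δ y : SL(2, ℤ))) =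
        (F (γ * δ) - F γ - F δ) + F (hF.fam.elt γ x : SL(2, ℤ)) +
          F (hF.fam.elt δ y : SL(2, ℤ)) := by
      intro x y
      have c1 := hF.cls γ γ.2 _ (hF.fam.elt γ x).2 _ _ (t1 x)
      have c2 := hF.cls δ δ.2 _ (hF.fam.elt δ y).2 _ _ (t2 y)
      have := hc γ γ.2 δ δ.2 _ c1 _ c2
      rw [inv_mul_cancel_right, inv_mul_cancel_right] at this
      rw [← this]; abel
    simp only [E]
    have e3 : ∑ x, F (hF.fam.elt (γ * δ) x : SL(2, ℤ)) =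
        n • (F (γ * δ) - F γ - F δ) + ∑ x, F (hF.fam.elt γ x : SL(2, ℤ)) +
          ∑ x, F (hF.fam.elt δ x : SL(2, ℤ)) := by
      rw [← Equiv.sum_comp (hF.fam.perm γ) (fun x => F (hF.fam.elt δ x : SL(2, ℤ)))]
      have : n • (F (γ * δ) - F γ - F δ) = ∑ _x : ι, (F (γ * δ) - F γ - F δ) := by
        rw [Finset.sum_const, Finset.card_univ]
      rw [this, ← Finset.sum_add_distrib, ← Finset.sum_add_distrib]
      refine Finset.sum_congr rfl fun x _ => ?_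
      rw [e1, e2]
    rw [e3, Subgroup.coe_mul, smul_sub, smul_sub]
    abel
  refine ⟨AddMonoidHom.mk' (fun γ => E (Additive.toMul γ)) (fun γ δ => hE _ _), fun g h => ?_⟩
  have t1 := hF.fam.tr_elt g
  have t2 := hF.fam'.tr_elt ⟨g, h⟩
  have e1 : ∀ x, (hF.fam.elt g x : SL(2, ℤ)) = (hF.fam'.elt ⟨g, h⟩ x : SL(2, ℤ)) := fun x =>
    (hF.unique (hF.fam.elt g x).2 (hn.le (hF.fam'.elt ⟨g, h⟩ x).2) (t1 x) (t2 x)).2
  change E g = _
  rw [Fam.op_apply_of_tr hF.fam' f ⟨g, h⟩ t2]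
  simp only [E]
  have e2 : ∀ a : SL(2, ℤ), a ∈ Γ' → F a = F 1 + fnG f a := by
    intro a ha
    have := hF2 1 a ha
    rwa [one_mul] at this
  have e3 : ∀ x, F (hF.fam.elt g x : SL(2, ℤ)) = F 1 + f (Additive.ofMul (hF.fam'.elt ⟨g, h⟩ x)) := by
    intro x
    rw [e1, e2 _ (hF.fam'.elt ⟨g, h⟩ x).2, fnG_coe]
  rw [Finset.sum_congr rfl fun x _ => e3 x, Finset.sum_add_distrib, Finset.sum_const,
    Finset.card_univ, e2 _ h, fnG_of_mem f h, smul_add]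
  abel

end

end Fermat.Agent.TW
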