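import Fermat.Agent.TW.Ell
import Fermat.Agent.TW.Quasi

/-!
# The Eisenstein operator `T_ℓ - ℓ - 1` kills the elliptic elements of order three
-/

set_option autoImplicit false

open Matrix.SpecialLinearGroup
open scoped MatrixGroups
open ModularGroup (S T)
open Fermat.Agent.AL Fermat.Agent.ALCoh Fermat.Agent.LevelRaise
open ModularCurve ModularCurve.Period

namespace Fermat.Agent.TW

noncomputable section

variable {N l : ℕ}

lemma trace_eq_of_conj {A : M2} {e g : SL(2, ℤ)} (hA : A.det ≠ 0)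
    (h : A * (e : M2) = (g : M2) * A) : (e : M2).trace = (g : M2).trace := by
  have h1 : (A * (e : M2) * A.adjugate).trace = A.det * (e : M2).trace := by
    rw [Matrix.trace_mul_comm, ← Matrix.mul_assoc, Matrix.adjugate_mul, Matrix.smul_mul,
      Matrix.one_mul, Matrix.trace_smul, smul_eq_mul]
  rw [h, Matrix.mul_assoc, Matrix.mul_adjugate, Matrix.mul_smul, Matrix.mul_one,
    Matrix.trace_smul, smul_eq_mul] at h1
  exact (mul_left_cancel₀ hA h1).symm

/-- conjugation of elliptic elements by matrices of positive determinant -/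
theorem exists_conj_of_ell {A : M2} (hA : 0 < A.det) (hAN : (N : ℤ) ∣ A 1 0)
    (hco : IsCoprime A.det (N : ℤ)) {y g : SL(2, ℤ)} (he : y⁻¹ * U * y ∈ GG N)
    (h : A * ((y⁻¹ * U * y : SL(2, ℤ)) : M2) = (g : M2) * A) :
    ∃ δ ∈ GG N, g = δ * (y⁻¹ * U * y) * δ⁻¹ := by
  set e : SL(2, ℤ) := y⁻¹ * U * y with hedef
  have htr : g 0 0 + g 1 1 = 1 := by
    have h1 := trace_eq_of_conj hA.ne' h
    have h2 : (e : M2).trace = (U : M2).trace := trace_conj_inv y U
    rw [h2, coe_U', Matrix.trace_fin_two, Matrix.trace_fin_two] at h1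
    simp at h1
    exact h1.symm
  obtain ⟨y', hy'⟩ := exists_conj_U g htr
  set A' : M2 := (y' : M2) * A * ((y⁻¹ : SL(2, ℤ)) : M2) with hA'
  have hdet' : A'.det = A.det := by
    rw [hA', Matrix.det_mul, Matrix.det_mul, y'.det_coe, (y⁻¹).det_coe, one_mul, mul_one]
  have key : A' * (U : M2) = ((y' * g * y'⁻¹ : SL(2, ℤ)) : M2) * A' := by
    have e1 : ((y⁻¹ : SL(2, ℤ)) : M2) * (U : M2) = (e : M2) * ((y⁻¹ : SL(2, ℤ)) : M2) := by
      rw [← Matrix.SpecialLinearGroup.coe_mul, ← Matrix.SpecialLinearGroup.coe_mul, hedef]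
      congr 1; group
    rw [hA', Matrix.mul_assoc, e1, ← Matrix.mul_assoc, Matrix.mul_assoc (y' : M2), h]
    simp only [Matrix.SpecialLinearGroup.coe_mul, Matrix.mul_assoc]
    congr 1
    congr 1
    rw [← Matrix.mul_assoc (((y'⁻¹ : SL(2, ℤ))) : M2), ← Matrix.SpecialLinearGroup.coe_mul,
      inv_mul_cancel, Matrix.SpecialLinearGroup.coe_one, Matrix.one_mul]
  rcases hy' with hy' | hy'
  · have e2 : y' * g * y'⁻¹ = U := by rw [hy']; group
    rw [e2, coe_U'] at key
    have k00 := congrFun (congrFun key 0) 0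
    have k01 := congrFun (congrFun key 0) 1
    have k10 := congrFun (congrFun key 1) 0
    have k11 := congrFun (congrFun key 1) 1
    simp [Matrix.mul_apply, Fin.sum_univ_two] at k00 k01 k10 k11
    refine ⟨y'⁻¹ * y, ?_, ?_⟩
    · -- `A = δ E`
      set δ : SL(2, ℤ) := y'⁻¹ * y with hδ
      set E : M2 := (A' 0 0 - A' 1 0) • (1 : M2) + A' 1 0 • (e : M2) with hE
      have hA'U : A' = (A' 0 0 - A' 1 0) • (1 : M2) + A' 1 0 • (U : M2) := by
        rw [coe_U']
        apply mat_ext <;> simp only [Matrix.add_apply, Matrix.smul_apply, smul_eq_mul,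
          Matrix.one_apply, Matrix.of_apply, Matrix.cons_val', Matrix.cons_val_zero,
          Matrix.cons_val_one, Matrix.cons_val_fin_one] <;> simp <;> linarith
      have hAE : A = (δ : M2) * E := by
        have e3 : A = ((y'⁻¹ : SL(2, ℤ)) : M2) * A' * (y : M2) := by
          rw [hA']
          have e4 : ((y'⁻¹ : SL(2, ℤ)) : M2) * ((y' : M2) * A * ((y⁻¹ : SL(2, ℤ)) : M2)) * (y : M2) =
              (((y'⁻¹ * y' : SL(2, ℤ))) : M2) * A * (((y⁻¹ * y : SL(2, ℤ))) : M2) := by
            simp only [Matrix.SpecialLinearGroup.coe_mul, Matrix.mul_assoc]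
          rw [e4, inv_mul_cancel, inv_mul_cancel]; simp
        have e5 : (e : M2) = ((y⁻¹ : SL(2, ℤ)) : M2) * (U : M2) * (y : M2) := by
          rw [hedef, Matrix.SpecialLinearGroup.coe_mul (y⁻¹ * U) y,
            Matrix.SpecialLinearGroup.coe_mul y⁻¹ U]
        have e6 : ((y⁻¹ : SL(2, ℤ)) : M2) * (y : M2) = 1 := by
          rw [← Matrix.SpecialLinearGroup.coe_mul, inv_mul_cancel]; simp
        rw [e3, hE, hδ, e5]
        conv_lhs => rw [hA'U]
        have e7 : (y : M2) * ((y⁻¹ : SL(2, ℤ)) : M2) = 1 := by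
          rw [← Matrix.SpecialLinearGroup.coe_mul, mul_inv_cancel]; simp
        rw [Matrix.SpecialLinearGroup.coe_mul y'⁻¹ y]
        simp only [Matrix.mul_add, Matrix.add_mul, Matrix.mul_smul, Matrix.smul_mul,
          Matrix.mul_one, Matrix.mul_assoc]
        congr 2
        have e8 : (y : M2) * (((y⁻¹ : SL(2, ℤ)) : M2) * ((U : M2) * (y : M2))) = (U : M2) * (y : M2) := by
          rw [← Matrix.mul_assoc (y : M2), e7, Matrix.one_mul]
        rw [e8]
      have hE10 : (N : ℤ) ∣ E 1 0 := by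
        have h3 : E 1 0 = A' 1 0 * (e : M2) 1 0 := by
          rw [hE]
          simp only [Matrix.add_apply, Matrix.smul_apply, smul_eq_mul, Matrix.one_apply]
          simp
        rw [h3]
        exact Dvd.dvd.mul_left (mem_Gamma0_iff.mp he) _
      have hdE : E.det = A.det := by
        rw [hAE, Matrix.det_mul, δ.det_coe, one_mul]
      rw [mem_Gamma0_iff]
      have h4 : (A * E.adjugate) 1 0 = A.det * δ 1 0 := by
        have h4' : A * E.adjugate = A.det • (δ : M2) := by
          conv_lhs => rw [hAE]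
          rw [Matrix.mul_assoc, Matrix.mul_adjugate, hdE, Matrix.mul_smul, Matrix.mul_one]
        rw [h4', Matrix.smul_apply, smul_eq_mul]
      have h5 : (A * E.adjugate) 1 0 = A 1 0 * E 1 1 - A 1 1 * E 1 0 := by
        rw [Matrix.adjugate_fin_two]
        simp [Matrix.mul_apply, Fin.sum_univ_two]
        ring
      have h6 : (N : ℤ) ∣ A.det * δ 1 0 := by
        rw [← h4, h5]
        exact dvd_sub (Dvd.dvd.mul_right hAN _) (Dvd.dvd.mul_left hE10 _)
      exact hco.symm.dvd_of_dvd_mul_left h6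
    · rw [hy', hedef]; group
  · exfalso
    have e2 : y' * g * y'⁻¹ = U⁻¹ := by rw [hy']; group
    rw [e2, coe_U', coe_U_inv] at key
    have k00 := congrFun (congrFun key 0) 0
    have k01 := congrFun (congrFun key 0) 1
    have k10 := congrFun (congrFun key 1) 0
    have k11 := congrFun (congrFun key 1) 1
    simp [Matrix.mul_apply, Fin.sum_univ_two] at k00 k01 k10 k11
    rw [← hdet', Matrix.det_fin_two] at hA
    have h1 : A' 1 1 = - A' 0 0 := by linarith
    have h2 : A' 1 0 = A' 0 0 + A' 0 1 := by linarith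
    rw [h1, h2] at hA
    nlinarith [sq_nonneg (A' 0 0 + A' 0 1), sq_nonneg (A' 0 0), sq_nonneg (A' 0 1)]

lemma conj_U_cube (y : SL(2, ℤ)) : (y⁻¹ * U * y) ^ 3 = -1 := by
  have e : (y⁻¹ * U * y) ^ 3 = y⁻¹ * (U * U * U) * y := by
    rw [pow_succ, pow_two]; group
  rw [e, U_cube]
  simp

section sum

variable {A : Type*} [AddCommGroup A]

lemma map_neg_one (h2 : ∀ a : A, 2 • a = 0 → a = 0) (φ : Additive (GG N) →+ A) {g : GG N}
    (hg : (g : SL(2, ℤ)) = -1) : φ (Additive.ofMul g) = 0 := by
  apply h2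
  rw [← map_nsmul, ← ofMul_pow]
  have : g ^ 2 = 1 := by
    apply Subtype.ext
    rw [Subgroup.coe_pow, hg]
    simp
  rw [this]; simp

lemma famT_inj (hl : l.Prime) {x y : Option (Fin l)} {g g' : SL(2, ℤ)}
    (h : (g : M2) * dl l x = (g' : M2) * dl l y) : x = y ∧ g = g' := by
  have h1 : dl l x = ((g⁻¹ * g' : SL(2, ℤ)) : M2) * dl l y := by
    rw [Matrix.SpecialLinearGroup.coe_mul, Matrix.mul_assoc, ← h, ← Matrix.mul_assoc,
      ← Matrix.SpecialLinearGroup.coe_mul, inv_mul_cancel]
    simp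
  have h2 := dl_eq_of hl h1
  refine ⟨h2, ?_⟩
  subst h2
  apply Subtype.ext
  exact mul_right_cancel_det (det_dl_ne hl.ne_zero x) h

/-- `T_ℓ` on elliptic elements of order three -/
theorem op_ell (h2 : ∀ a : A, 2 • a = 0 → a = 0) (hl : l.Prime) (hlN : ¬ l ∣ N)
    (φ : Additive (GG N) →+ A) {y : SL(2, ℤ)} (he : y⁻¹ * U * y ∈ GG N) :
    (famT hl hlN).op A φ (Additive.ofMul ⟨_, he⟩) = (l + 1) • φ (Additive.ofMul ⟨_, he⟩) := by
  classical
  set e : GG N := ⟨_, he⟩ with hedef
  set hF := famT (N := N) hl hlN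
  have ht := hF.tr_elt e
  set σ := hF.perm e with hσ
  set g := hF.elt e with hg
  have he3 : e ^ 3 = ⟨-1, by rw [mem_Gamma0_iff]; simp⟩ := by
    apply Subtype.ext
    rw [Subgroup.coe_pow]
    exact conj_U_cube y
  have hneg1 : φ (Additive.ofMul (e ^ 3)) = 0 := map_neg_one h2 φ (by rw [he3])
  have h3e : 3 • φ (Additive.ofMul e) = 0 := by rw [← map_nsmul, ← ofMul_pow, hneg1]
  -- the cube
  have ht3 := (ht.mul ht).mul ht
  have hcube : ∀ x, σ (σ (σ x)) = x ∧ g x * g (σ x) * g (σ (σ x)) = e ^ 3 := by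
    intro x
    have h1 := ht3 x
    have h4 : dl l x * ((e : SL(2, ℤ)) * e * e : SL(2, ℤ)) = ((e ^ 3 : GG N) : SL(2, ℤ)) * dl l x := by
      have h5 : ((e : SL(2, ℤ)) * e * e) = -1 := by
        rw [← conj_U_cube y, pow_succ, pow_two]
      rw [h5, he3]
      simp
    rw [h4] at h1
    have h6 := famT_inj hl h1
    exact ⟨h6.1.symm, Subtype.ext h6.2.symm⟩
  -- fixed points
  have hfix : ∀ x, σ x = x → φ (Additive.ofMul (g x)) = φ (Additive.ofMul e) := by
    intro x hx
    have h1 := ht x
    rw [hx] at h1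
    have hco : IsCoprime (dl l x).det (N : ℤ) := by
      rw [det_dl]
      exact Nat.isCoprime_iff_coprime.mpr ((Nat.Prime.coprime_iff_not_dvd hl).mpr hlN)
    obtain ⟨δ, hδ, hδe⟩ := exists_conj_of_ell (N := N) (A := dl l x)
      (by rw [det_dl]; exact_mod_cast hl.pos) (by simp) hco he h1
    have h7 : g x = ⟨δ, hδ⟩ * e * (⟨δ, hδ⟩ : GG N)⁻¹ := Subtype.ext hδe
    rw [h7, ofMul_mul, ofMul_mul, ofMul_inv, map_add, map_add, map_neg]
    abel
  -- the sum
  have hsum : ∑ x, (φ (Additive.ofMul (g x)) - if σ x = x then φ (Additive.ofMul e) else 0) = 0 := by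
    apply HeckeHom.sum_eq_zero_of_cycles σ
    intro x r hr hrx
    have hper : ∀ i, σ ((σ ^ i) x) = (σ ^ i) x ↔ σ x = x := by
      intro i
      rw [← Equiv.Perm.mul_apply, ← pow_succ', pow_succ, Equiv.Perm.mul_apply]
      exact (σ ^ i).injective.eq_iff
    by_cases hx : σ x = x
    · have h8 : ∀ i, (σ ^ i) x = x := by
        intro i
        induction i with
        | zero => simp
        | succ i ih => rw [pow_succ, Equiv.Perm.mul_apply, hx, ih]
      refine Finset.sum_eq_zero fun i _ => ?_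
      rw [h8, if_pos hx, hfix x hx, sub_self]
    · -- `3 ∣ r`
      have h9 : (σ ^ 3) x = x := by
        rw [pow_succ, pow_two, Equiv.Perm.mul_apply, Equiv.Perm.mul_apply]
        exact (hcube x).1
      have h9' : ∀ k, (σ ^ (3 * k)) x = x := by
        intro k
        induction k with
        | zero => simp
        | succ k ih => rw [mul_add, mul_one, pow_add, Equiv.Perm.mul_apply, h9, ih]
      have h10 : r % 3 = 0 := by
        by_contra hne
        have h11 : (σ ^ (r % 3)) x = x := by
          have h12 : r = r % 3 + 3 * (r / 3) := (Nat.mod_add_div r 3).symm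
          rw [h12, pow_add, Equiv.Perm.mul_apply, h9'] at hrx
          exact hrx
        have h13 : r % 3 = 1 ∨ r % 3 = 2 := by omega
        rcases h13 with h13 | h13
        · rw [h13, pow_one] at h11; exact hx h11
        · rw [h13] at h11
          rw [pow_succ', Equiv.Perm.mul_apply, h11] at h9
          exact hx h9
      obtain ⟨k, hk⟩ : ∃ k, r = 3 * k := ⟨r / 3, by omega⟩
      subst hk
      clear hr hrx h10
      induction k with
      | zero => simp
      | succ k ih =>
        rw [mul_add, mul_one, Finset.sum_range_succ, Finset.sum_range_succ, Finset.sum_range_succ,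
          ih, zero_add]
        have e0 : (σ ^ (3 * k)) x = x := h9' k
        have e1 : (σ ^ (3 * k + 1)) x = σ x := by rw [pow_succ', Equiv.Perm.mul_apply, e0]
        have e2 : (σ ^ (3 * k + 2)) x = σ (σ x) := by
          rw [pow_succ', Equiv.Perm.mul_apply, e1]
        have n1 : ¬ σ (σ x) = σ x := fun h => hx (σ.injective h)
        have n2 : ¬ σ (σ (σ x)) = σ (σ x) := fun h => n1 (σ.injective h)
        rw [e0, e1, e2, if_neg hx, if_neg n1, if_neg n2, sub_zero, sub_zero, sub_zero, ← map_add,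
          ← map_add, ← ofMul_mul, ← ofMul_mul, (hcube x).2, hneg1]
  rw [Fam.op_apply_of_tr hF φ e ht]
  rw [Finset.sum_sub_distrib, sub_eq_zero] at hsum
  rw [hsum, ← Finset.sum_filter, Finset.sum_const]
  -- the number of fixed points
  have hcard : Fintype.card (Option (Fin l)) ≡
      (Finset.univ.filter fun x => σ x = x).card [MOD 3] := by
    have hσ3 : (σ : Option (Fin l) → Option (Fin l))^[3 ^ 1] = id := by
      funext x
      exact (hcube x).1
    have h16 := Equiv.Perm.card_fixedPoints_modEq (p := 3) (n := 1)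
      (f := (show Function.End (Option (Fin l)) from (σ : Option (Fin l) → Option (Fin l)))) hσ3
    rw [Fintype.card_subtype] at h16
    exact h16
  rw [Fintype.card_option, Fintype.card_fin] at hcard
  have h14 : ∀ a b : ℕ, a ≡ b [MOD 3] → a • φ (Additive.ofMul e) = b • φ (Additive.ofMul e) := by
    intro a b hab
    have h15 : ∀ a : ℕ, a • φ (Additive.ofMul e) = (a % 3) • φ (Additive.ofMul e) := by
      intro a
      conv_lhs => rw [← Nat.mod_add_div a 3, add_smul, mul_comm, mul_smul, h3e, smul_zero, add_zero]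
    rw [h15 a, h15 b, hab]
  exact (h14 _ _ hcard).symm

end sum

end

end Fermat.Agent.TW
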