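import Fermat.Agent.TW.LocV

/-!
# The element `G_v`
-/

set_option autoImplicit false
set_option linter.unusedSectionVars false
set_option linter.style.haveILetI false

noncomputable section

namespace Fermat.Agent.TW

open Fermat.Agent.Places Fermat.Agent.Flat Fermat.Agent.GalRep IsLocalRing

theorem isUnit_natCast_of_not_dvd {T : Type*} [CommRing T] [IsLocalRing T] {p : ℕ} (hp : p.Prime)
    (hpm : (p : T) ∈ maximalIdeal T) {c : ℕ} (hc : ¬ p ∣ c) : IsUnit (c : T) := by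
  by_contra hnu
  have h1 : (c : T) ∈ maximalIdeal T := (mem_maximalIdeal _).2 hnu
  obtain ⟨u, w, huw⟩ := Nat.isCoprime_iff_coprime.2 ((Nat.Prime.coprime_iff_not_dvd hp).2 hc)
  have h3 : (u : T) * (p : T) + (w : T) * (c : T) = 1 := by
    exact_mod_cast congrArg (Int.cast (R := T)) huw
  exact (Ideal.ne_top_iff_one _).1 (Ideal.IsMaximal.ne_top inferInstance)
    (h3 ▸ Ideal.add_mem _ (Ideal.mul_mem_left _ _ hpm) (Ideal.mul_mem_left _ _ h1))

theorem exists_geom {T : Type*} [CommRing T] (z : T) (N : ℕ) :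
    ∃ q, ∑ i ∈ Finset.range N, z ^ i = N + (z - 1) * q := by
  induction N with
  | zero => exact ⟨0, by simp⟩
  | succ N ih =>
    obtain ⟨q, hq⟩ := ih
    refine ⟨q + ∑ i ∈ Finset.range N, z ^ i, ?_⟩
    rw [Finset.sum_range_succ, mul_add, mul_comm (z - 1) (∑ i ∈ Finset.range N, z ^ i),
      geom_sum_mul, hq]
    push_cast
    ring

/-- roots of unity congruent to one -/
theorem root_eq_one {T : Type*} [CommRing T] [IsLocalRing T] {p : ℕ} (hp : p.Prime)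
    (hpm : (p : T) ∈ maximalIdeal T) (hreg : ∀ x : T, (p : T) * x = 0 → x = 0) {j c : ℕ}
    (hc : ¬ p ∣ c) {z w : T} (hz : z ^ (p ^ j * c) = 1) (h : z - 1 = (p : T) ^ (j + 1) * w) :
    z = 1 := by
  obtain ⟨q, hq⟩ := exists_geom z (p ^ j * c)
  have h1 := geom_sum_mul z (p ^ j * c)
  rw [hz, sub_self, hq, h] at h1
  have h2 : IsUnit ((c : T) + p * (w * q)) := by
    by_contra hnu
    have h3 : (c : T) + p * (w * q) ∈ maximalIdeal T := (mem_maximalIdeal _).2 hnu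
    have h4 := Ideal.sub_mem _ h3 (Ideal.mul_mem_right (w * q) _ hpm)
    rw [add_sub_cancel_right] at h4
    exact (mem_maximalIdeal _).1 h4 (isUnit_natCast_of_not_dvd hp hpm hc)
  have h3 : (p : T) ^ j * ((z - 1) * ((c : T) + p * (w * q))) = 0 := by
    rw [h]
    rw [← h1]
    push_cast
    ring
  have hreg' : ∀ (n : ℕ) (x : T), (p : T) ^ n * x = 0 → x = 0 := by
    intro n
    induction n with
    | zero => intro x hx; rwa [pow_zero, one_mul] at hx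
    | succ n ih =>
      intro x hx
      rw [pow_succ, mul_assoc] at hx
      exact hreg _ (ih _ hx)
  have h4 := hreg' _ _ h3
  have h5 := (h2.mul_left_eq_zero).1 h4
  exact sub_eq_zero.1 h5

section local'

variable {T : Type*} [CommRing T] [IsLocalRing T] [IsNoetherianRing T]
  {R : GQ →* Matrix (Fin 2) (Fin 2) T} {p v : ℕ} [hv : Fact v.Prime] (hp : p.Prime) (hpv : p ≠ v)
  (hpm : (p : T) ∈ maximalIdeal T)
  (hcont : ∀ n : ℕ, ∃ L : IntermediateField ℚ (AlgebraicClosure ℚ), FiniteDimensional ℚ L ∧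
    ∀ σ : GQ, (∀ x ∈ L, σ x = x) → MI (Ideal.span {(p : T) ^ n}) (R σ - 1))
  {A : ValuationSubring (AlgebraicClosure ℚ)} (hA : A.LiesOverPrime v)
  (hres : ∀ σ ∈ A.inertiaSubgroupIn ℚ, MI (maximalIdeal T) (R σ - 1))
  {Φ : GQ} (hΦ : IsFr A v Φ) {α β w : T} (htr : α + β = (R Φ).trace)
  (hdet : α * β = (R Φ).det) (hw : w * (α - β) = 1) (hv1 : (v : T) - 1 ∈ maximalIdeal T)
  (hdI : ∀ σ ∈ A.inertiaSubgroupIn ℚ, (R σ).det = 1)

/-- the character of inertia -/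
def etaV (R : GQ →* Matrix (Fin 2) (Fin 2) T) (Φ : GQ) (β w : T) (σ : GQ) : T :=
  (R σ * PF (R Φ) β w).trace

include hp hpv hpm hcont hA hres hΦ htr hdet hw hv1 hdI

theorem mul_PF_eta {σ : GQ} (hσ : σ ∈ A.inertiaSubgroupIn ℚ) :
    R σ * PF (R Φ) β w = etaV R Φ β w σ • PF (R Φ) β w :=
  mul_PF_eq hp hpv hpm hcont hA hres hΦ htr hdet hw hv1 hdI hσ

theorem mul_PF_eta' {σ : GQ} (hσ : σ ∈ A.inertiaSubgroupIn ℚ) :
    R σ * PF (R Φ) α (-w) = etaV R Φ α (-w) σ • PF (R Φ) α (-w) :=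
  mul_PF_eq hp hpv hpm hcont hA hres hΦ (by rw [add_comm]; exact htr)
    (by rw [mul_comm]; exact hdet) (by rw [← hw]; ring) hv1 hdI hσ

theorem R_eq {σ : GQ} (hσ : σ ∈ A.inertiaSubgroupIn ℚ) :
    R σ = etaV R Φ β w σ • PF (R Φ) β w + etaV R Φ α (-w) σ • PF (R Φ) α (-w) := by
  rw [← mul_PF_eta hp hpv hpm hcont hA hres hΦ htr hdet hw hv1 hdI hσ,
    ← mul_PF_eta' hp hpv hpm hcont hA hres hΦ htr hdet hw hv1 hdI hσ, ← mul_add,
    PF_add hw, mul_one]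

theorem trace_R {σ : GQ} (hσ : σ ∈ A.inertiaSubgroupIn ℚ) :
    (R σ).trace = etaV R Φ β w σ + etaV R Φ α (-w) σ := by
  have h1 := R_eq hp hpv hpm hcont hA hres hΦ htr hdet hw hv1 hdI hσ
  have h2 : (PF (R Φ) α (-w)).trace = 1 :=
    trace_PF (by rw [add_comm]; exact htr) (by rw [← hw]; ring)
  conv_lhs => rw [h1]
  rw [Matrix.trace_add, Matrix.trace_smul, Matrix.trace_smul, trace_PF htr hw, h2, smul_eq_mul,
    smul_eq_mul, mul_one, mul_one]

theorem eta_mul_eta' {σ : GQ} (hσ : σ ∈ A.inertiaSubgroupIn ℚ) :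
    etaV R Φ β w σ * etaV R Φ α (-w) σ = 1 := by
  have h1 := mul_PF_eta hp hpv hpm hcont hA hres hΦ htr hdet hw hv1 hdI hσ
  have h2 := trace_R hp hpv hpm hcont hA hres hΦ htr hdet hw hv1 hdI hσ
  have h3 := congrArg (· * PF (R Φ) β w) (CH (R σ))
  simp only [mul_assoc, sub_mul, smul_mul_assoc, one_mul] at h3
  rw [h1, mul_smul_comm, h1, h2, hdI σ hσ, one_smul] at h3
  have h4 := congrArg Matrix.trace h3
  rw [Matrix.trace_sub, Matrix.trace_smul, Matrix.trace_smul, Matrix.trace_smul,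
    Matrix.trace_smul, trace_PF htr hw] at h4
  simp only [smul_eq_mul, mul_one] at h4
  linear_combination -h4

theorem eta_mul {σ τ : GQ} (hσ : σ ∈ A.inertiaSubgroupIn ℚ) (hτ : τ ∈ A.inertiaSubgroupIn ℚ) :
    etaV R Φ β w (σ * τ) = etaV R Φ β w σ * etaV R Φ β w τ := by
  have h1 := mul_PF_eta hp hpv hpm hcont hA hres hΦ htr hdet hw hv1 hdI hσ
  have h2 := mul_PF_eta hp hpv hpm hcont hA hres hΦ htr hdet hw hv1 hdI hτ
  rw [etaV, map_mul, mul_assoc, h2, mul_smul_comm, h1, Matrix.trace_smul, Matrix.trace_smul,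
    trace_PF htr hw]
  simp only [smul_eq_mul, mul_one]
  rw [mul_comm]

theorem eta_pow {σ : GQ} (hσ : σ ∈ A.inertiaSubgroupIn ℚ) (n : ℕ) :
    etaV R Φ β w (σ ^ n) = etaV R Φ β w σ ^ n := by
  induction n with
  | zero => rw [pow_zero, pow_zero, etaV, map_one, one_mul, trace_PF htr hw]
  | succ n ih =>
    rw [pow_succ, eta_mul hp hpv hpm hcont hA hres hΦ htr hdet hw hv1 hdI (pow_mem hσ n) hσ, ih,
      pow_succ]

theorem eta_pow_v {σ : GQ} (hσ : σ ∈ A.inertiaSubgroupIn ℚ) :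
    etaV R Φ β w σ ^ (v - 1) = 1 := by
  have h1 := frob_rel hp hpv hpm hcont hA hres hΦ hσ
  have h2 := congrArg (· * PF (R Φ) β w) h1
  simp only [mul_assoc] at h2
  rw [mul_PF_eta hp hpv hpm hcont hA hres hΦ htr hdet hw hv1 hdI hσ, mul_PF htr hdet,
    mul_smul_comm, mul_smul_comm, mul_PF htr hdet, ← map_pow,
    mul_PF_eta hp hpv hpm hcont hA hres hΦ htr hdet hw hv1 hdI (pow_mem hσ v),
    eta_pow hp hpv hpm hcont hA hres hΦ htr hdet hw hv1 hdI hσ] at h2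
  have h3 := congrArg Matrix.trace h2
  rw [Matrix.trace_smul, Matrix.trace_smul, Matrix.trace_smul, Matrix.trace_smul,
    trace_PF htr hw] at h3
  simp only [smul_eq_mul, mul_one] at h3
  have hα : IsUnit α := by
    have h4 : IsUnit (R Φ).det := by
      refine IsUnit.of_mul_eq_one (R Φ⁻¹).det ?_
      rw [← Matrix.det_mul, ← map_mul, mul_inv_cancel, map_one, Matrix.det_one]
    rw [← hdet] at h4
    exact isUnit_of_mul_isUnit_left h4
  have hη := eta_mul_eta' hp hpv hpm hcont hA hres hΦ htr hdet hw hv1 hdI hσ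
  obtain ⟨e, he⟩ : ∃ e, e = etaV R Φ β w σ := ⟨_, rfl⟩
  rw [← he] at h3 hη ⊢
  have h5 : e = e ^ v := by
    apply hα.mul_left_cancel
    rw [mul_comm α e]
    exact h3
  have h6 : e * (e ^ (v - 1)) = e * 1 := by
    rw [← pow_succ', Nat.sub_add_cancel hv.out.one_lt.le, ← h5, mul_one]
  exact (IsUnit.of_mul_eq_one _ hη).mul_left_cancel h6

theorem eta_sub_one_mem {σ : GQ} (hσ : σ ∈ A.inertiaSubgroupIn ℚ) :
    etaV R Φ β w σ - 1 ∈ maximalIdeal T := by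
  have h1 : etaV R Φ β w σ - 1 = ((R σ - 1) * PF (R Φ) β w).trace := by
    rw [sub_mul, one_mul, Matrix.trace_sub, trace_PF htr hw]
    rfl
  rw [h1, Matrix.trace_fin_two]
  have h2 := (hres σ hσ).mul_right (PF (R Φ) β w)
  exact Ideal.add_mem _ (h2 0 0) (h2 1 1)

/-- **The character of inertia has cyclic image.** -/
theorem exists_gen_eta (hreg : ∀ x : T, (p : T) * x = 0 → x = 0) :
    ∃ σ₀ ∈ A.inertiaSubgroupIn ℚ, ∀ σ ∈ A.inertiaSubgroupIn ℚ, ∃ n : ℕ,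
      etaV R Φ β w σ = etaV R Φ β w σ₀ ^ n := by
  obtain ⟨j, c, hc, hjc⟩ := Nat.exists_eq_pow_mul_and_not_dvd
    (n := v - 1) (by have := hv.out.one_lt; omega) p hp.ne_one
  have hop : ∃ L : IntermediateField ℚ (AlgebraicClosure ℚ), FiniteDimensional ℚ L ∧
      ∀ σ : GQ, (∀ x ∈ L, σ x = x) → Rq R (Ideal.span {(p : T) ^ (j + 1)}) σ = 1 := by
    obtain ⟨L, hL, h⟩ := hcont (j + 1)
    refine ⟨L, hL, fun σ hσ => ?_⟩
    have := Rq_eq_iff.2 (h σ hσ)
    rw [map_one] at this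
    exact this
  obtain ⟨σ₀, hσ₀, hgen⟩ := exists_gen_tame hp hpv hop (Rq_pp hp hpm hcont hres (j + 1)) hA
  refine ⟨σ₀, hσ₀, fun σ hσ => ?_⟩
  obtain ⟨n, hn⟩ := hgen σ hσ
  refine ⟨n, ?_⟩
  rw [← map_pow] at hn
  have h1 : MI (Ideal.span {(p : T) ^ (j + 1)}) (R σ - R (σ₀ ^ n)) := Rq_eq_iff.1 hn
  have h2 : etaV R Φ β w σ - etaV R Φ β w (σ₀ ^ n) ∈ Ideal.span {(p : T) ^ (j + 1)} := by
    have h3 : etaV R Φ β w σ - etaV R Φ β w (σ₀ ^ n) =
        ((R σ - R (σ₀ ^ n)) * PF (R Φ) β w).trace := by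
      rw [sub_mul, Matrix.trace_sub]
      rfl
    rw [h3, Matrix.trace_fin_two]
    have h4 := h1.mul_right (PF (R Φ) β w)
    exact Ideal.add_mem _ (h4 0 0) (h4 1 1)
  rw [Ideal.mem_span_singleton] at h2
  obtain ⟨d, hd⟩ := h2
  have hη := eta_mul_eta' hp hpv hpm hcont hA hres hΦ htr hdet hw hv1 hdI (pow_mem hσ₀ n)
  have hv1' := eta_pow_v hp hpv hpm hcont hA hres hΦ htr hdet hw hv1 hdI (pow_mem hσ₀ n)
  have hv2' := eta_pow_v hp hpv hpm hcont hA hres hΦ htr hdet hw hv1 hdI hσ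
  rw [← eta_pow hp hpv hpm hcont hA hres hΦ htr hdet hw hv1 hdI hσ₀]
  obtain ⟨x, hx⟩ : ∃ x, x = etaV R Φ β w σ := ⟨_, rfl⟩
  obtain ⟨y, hy⟩ : ∃ y, y = etaV R Φ β w (σ₀ ^ n) := ⟨_, rfl⟩
  obtain ⟨y', hy'⟩ : ∃ y, y = etaV R Φ α (-w) (σ₀ ^ n) := ⟨_, rfl⟩
  rw [← hx] at hd hv2' ⊢
  rw [← hy] at hd hv1' hη ⊢
  rw [← hy'] at hη
  have h5 : x * y' = 1 := by
    refine root_eq_one hp hpm hreg (j := j) hc (z := x * y') (w := d * y') ?_ ?_
    · rw [← hjc, mul_pow, hv2', one_mul]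
      have h6 : (y * y') ^ (v - 1) = 1 := by rw [hη, one_pow]
      rwa [mul_pow, hv1', one_mul] at h6
    · have : x * y' - 1 = (x - y) * y' := by rw [sub_mul, hη]
      rw [this, hd, mul_assoc]
  calc x = x * (y * y') := by rw [hη, mul_one]
    _ = (x * y') * y := by ring
    _ = y := by rw [h5, one_mul]

end local'

end Fermat.Agent.TW
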