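import Fermat.Agent.TW.Tame
import Fermat.Agent.TW.BLR2

/-!
# The local structure of a representation at a Taylor–Wiles prime
-/

set_option autoImplicit false
set_option linter.unusedSectionVars false
set_option linter.style.haveILetI false

noncomputable section

namespace Fermat.Agent.TW

open Fermat.Agent.Places Fermat.Agent.Flat Fermat.Agent.GalRep IsLocalRing

/-! ### matrices with entries in an ideal -/

section mi

variable {T : Type*} [CommRing T]

local notation "M₂" => Matrix (Fin 2) (Fin 2)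

/-- entries in `J` -/
def MI (J : Ideal T) (X : M₂ T) : Prop := ∀ i j, X i j ∈ J

variable {J : Ideal T}

theorem MI.mul_right {X : M₂ T} (h : MI J X) (Z : M₂ T) : MI J (X * Z) := fun i j => by
  rw [Matrix.mul_apply]
  exact Ideal.sum_mem _ fun k _ => Ideal.mul_mem_right _ _ (h i k)

theorem MI.mul_left {X : M₂ T} (h : MI J X) (Z : M₂ T) : MI J (Z * X) := fun i j => by
  rw [Matrix.mul_apply]
  exact Ideal.sum_mem _ fun k _ => Ideal.mul_mem_left _ _ (h k j)

theorem MI.add {X Z : M₂ T} (h : MI J X) (h' : MI J Z) : MI J (X + Z) := fun i j =>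
  Ideal.add_mem _ (h i j) (h' i j)

theorem MI.sub {X Z : M₂ T} (h : MI J X) (h' : MI J Z) : MI J (X - Z) := fun i j =>
  Ideal.sub_mem _ (h i j) (h' i j)

theorem MI.zero : MI J (0 : M₂ T) := fun _ _ => Ideal.zero_mem _

theorem MI.smul {X : M₂ T} (h : MI J X) (a : T) : MI J (a • X) := fun i j =>
  Ideal.mul_mem_left _ _ (h i j)

theorem MI.pow {X : M₂ T} (h : MI J (X - 1)) (n : ℕ) : MI J (X ^ n - 1) := by
  induction n with
  | zero => rw [pow_zero, sub_self]; exact MI.zero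
  | succ n ih =>
    have e : X ^ (n + 1) - 1 = (X ^ n - 1) * X + (X - 1) := by rw [pow_succ]; noncomm_ring
    rw [e]
    exact (ih.mul_right X).add h

theorem MI.sum_pow {X : M₂ T} (h : MI J (X - 1)) (b : ℕ) :
    MI J (∑ i ∈ Finset.range b, X ^ i - (b : M₂ T)) := by
  induction b with
  | zero => simp only [Finset.range_zero, Finset.sum_empty, Nat.cast_zero, sub_zero]; exact MI.zero
  | succ b ih =>
    have e : ∑ i ∈ Finset.range (b + 1), X ^ i - ((b + 1 : ℕ) : M₂ T) =
        (∑ i ∈ Finset.range b, X ^ i - (b : M₂ T)) + (X ^ b - 1) := by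
      rw [Finset.sum_range_succ]; push_cast; abel
    rw [e]
    exact ih.add (h.pow b)

theorem MI.det {S : M₂ T} {b : T} (h : MI J (S - b • 1)) : S.det - b ^ 2 ∈ J := by
  have h00 := h 0 0
  have h01 := h 0 1
  have h10 := h 1 0
  have h11 := h 1 1
  simp only [Matrix.sub_apply, Matrix.smul_apply, Matrix.one_apply, Fin.isValue, if_true,
    zero_ne_one, one_ne_zero, if_false, smul_eq_mul, mul_one, mul_zero, sub_zero] at h00 h01 h10 h11
  rw [Matrix.det_fin_two]
  have e : S 0 0 * S 1 1 - S 0 1 * S 1 0 - b ^ 2 =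
      (S 0 0 - b) * S 1 1 + (S 1 1 - b) * b - S 0 1 * S 1 0 := by ring
  rw [e]
  exact Ideal.sub_mem _ (Ideal.add_mem _ (Ideal.mul_mem_right _ _ h00)
    (Ideal.mul_mem_right _ _ h11)) (Ideal.mul_mem_right _ _ h01)

/-- elements of finite order congruent to the identity have `p`-power order -/
theorem MI.order [IsLocalRing T] {p : ℕ} (hp : p.Prime) (hpm : (p : T) ∈ maximalIdeal T)
    {X : M₂ T} (hX : MI (maximalIdeal T) (X - 1)) {N : ℕ} (hN : N ≠ 0) (hXN : MI J (X ^ N - 1)) :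
    ∃ k, MI J (X ^ p ^ k - 1) := by
  obtain ⟨a, b, hb, rfl⟩ := Nat.exists_eq_pow_mul_and_not_dvd hN p hp.ne_one
  refine ⟨a, ?_⟩
  set Z := X ^ p ^ a with hZ
  have hZ1 : MI (maximalIdeal T) (Z - 1) := hX.pow _
  rw [pow_mul, ← hZ] at hXN
  have hbu : IsUnit (b : T) := by
    by_contra hnu
    have h1 : (b : T) ∈ maximalIdeal T := (mem_maximalIdeal _).2 hnu
    have h2 := Nat.isCoprime_iff_coprime.2 ((Nat.Prime.coprime_iff_not_dvd hp).2 hb)
    obtain ⟨u, w, huw⟩ := h2
    have h3 : (u : T) * (p : T) + (w : T) * (b : T) = 1 := by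
      exact_mod_cast congrArg (Int.cast (R := T)) huw
    exact (Ideal.ne_top_iff_one _).1 (Ideal.IsMaximal.ne_top inferInstance)
      (h3 ▸ Ideal.add_mem _ (Ideal.mul_mem_left _ _ hpm) (Ideal.mul_mem_left _ _ h1))
  obtain ⟨S, hS⟩ : ∃ S, S = ∑ i ∈ Finset.range b, Z ^ i := ⟨_, rfl⟩
  have hS1 : MI (maximalIdeal T) (S - (b : T) • 1) := by
    have := hZ1.sum_pow b
    rw [← hS] at this
    have e : ((b : ℕ) : M₂ T) = (b : T) • (1 : M₂ T) := by
      rw [Nat.cast_smul_eq_nsmul, nsmul_eq_mul, mul_one]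
    rwa [e] at this
  have hdet : IsUnit S.det := by
    have h1 := hS1.det
    by_contra hnu
    have h2 : S.det ∈ maximalIdeal T := (mem_maximalIdeal _).2 hnu
    have h3 := Ideal.sub_mem _ h2 h1
    rw [sub_sub_cancel] at h3
    exact (mem_maximalIdeal _).1 h3 (hbu.pow 2)
  have h1 : (Z - 1) * S = Z ^ b - 1 := by rw [hS]; exact mul_geom_sum Z b
  have h2 : Z - 1 = (Z ^ b - 1) * S⁻¹ := by
    rw [← h1, mul_assoc, Matrix.mul_nonsing_inv _ hdet, mul_one]
  rw [h2]
  exact hXN.mul_right _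

/-- the powers of a `2 × 2` matrix -/
theorem exists_pow_eq (X : M₂ T) (htr : X.trace - 2 ∈ J) (hdet : X.det - 1 ∈ J) (n : ℕ) :
    ∃ s r : T, X ^ n = s • X - r • 1 ∧ s - n ∈ J ∧ r - (n - 1) ∈ J := by
  induction n with
  | zero =>
    refine ⟨0, -1, by rw [pow_zero]; simp, by simp, by simp⟩
  | succ n ih =>
    obtain ⟨s, r, h1, h2, h3⟩ := ih
    have hCH : X * X = X.trace • X - X.det • 1 := by
      ext i j
      fin_cases i <;> fin_cases j <;>
      simp [Matrix.mul_apply, Fin.sum_univ_two, Matrix.trace_fin_two, Matrix.det_fin_two] <;> ring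
    refine ⟨s * X.trace - r, s * X.det, ?_, ?_, ?_⟩
    · rw [pow_succ, h1, sub_mul, smul_mul_assoc, hCH, smul_mul_assoc, one_mul]
      module
    · push_cast
      have e : s * X.trace - r - (n + 1) = s * (X.trace - 2) + 2 * (s - n) - (r - (n - 1)) := by
        ring
      rw [e]
      exact Ideal.sub_mem _ (Ideal.add_mem _ (Ideal.mul_mem_left _ _ htr)
        (Ideal.mul_mem_left _ _ h2)) h3
    · push_cast
      have e : s * X.det - (n + 1 - 1) = s * (X.det - 1) + (s - n) := by ring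
      rw [e]
      exact Ideal.add_mem _ (Ideal.mul_mem_left _ _ hdet) h2

end mi

/-! ### the eigenprojectors -/

section proj

variable {T : Type*} [CommRing T] {Φ : Matrix (Fin 2) (Fin 2) T} {α β : T} {w : T}
  (htr : α + β = Φ.trace) (hdet : α * β = Φ.det) (hw : w * (α - β) = 1)

/-- the projector on the `α`-eigenspace -/
def PF (Φ : Matrix (Fin 2) (Fin 2) T) (β w : T) : Matrix (Fin 2) (Fin 2) T := w • (Φ - β • 1)

theorem CH (Φ : Matrix (Fin 2) (Fin 2) T) : Φ * Φ = Φ.trace • Φ - Φ.det • 1 := by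
  ext i j
  fin_cases i <;> fin_cases j <;>
  simp [Matrix.mul_apply, Fin.sum_univ_two, Matrix.trace_fin_two, Matrix.det_fin_two] <;> ring

include htr hdet in
theorem mul_PF : Φ * PF Φ β w = α • PF Φ β w := by
  rw [PF, mul_smul_comm, mul_sub, CH, mul_smul_comm, mul_one, ← htr, ← hdet]
  module

include htr hdet in
theorem PF_mul : PF Φ β w * Φ = α • PF Φ β w := by
  rw [PF, smul_mul_assoc, sub_mul, CH, smul_mul_assoc, one_mul, ← htr, ← hdet]
  module

include htr hw in
theorem trace_PF : (PF Φ β w).trace = 1 := by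
  rw [PF, Matrix.trace_smul, Matrix.trace_sub, Matrix.trace_smul, Matrix.trace_one, ← htr,
    smul_eq_mul, smul_eq_mul]
  simp only [Fintype.card_fin, Nat.cast_ofNat]
  linear_combination hw

include htr hdet in
theorem det_PF : (PF Φ β w).det = 0 := by
  rw [PF, Matrix.det_smul]
  have : (Φ - β • (1 : Matrix (Fin 2) (Fin 2) T)).det = 0 := by
    rw [Matrix.det_fin_two]
    rw [Matrix.det_fin_two] at hdet
    rw [Matrix.trace_fin_two] at htr
    simp [Matrix.sub_apply, Matrix.smul_apply, Matrix.one_apply]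
    linear_combination β * htr - hdet
  rw [this, mul_zero]

theorem rank_one {F : Matrix (Fin 2) (Fin 2) T} (hF : F.det = 0) (X : Matrix (Fin 2) (Fin 2) T) :
    F * X * F = (X * F).trace • F := by
  rw [Matrix.det_fin_two] at hF
  ext i j
  fin_cases i <;> fin_cases j <;>
  simp [Matrix.mul_apply, Fin.sum_univ_two, Matrix.trace_fin_two]
  · linear_combination (-X 1 1) * hF
  · linear_combination (X 0 1) * hF
  · linear_combination (X 1 0) * hF
  · linear_combination (-X 0 0) * hF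

include hw in
theorem PF_add : PF Φ β w + PF Φ α (-w) = 1 := by
  rw [PF, PF]
  have : w • (Φ - β • (1 : Matrix (Fin 2) (Fin 2) T)) + -w • (Φ - α • 1) = (w * (α - β)) • 1 := by
    module
  rw [this, hw, one_smul]

include htr hdet hw in
theorem PF_idem : PF Φ β w * PF Φ β w = PF Φ β w := by
  have h := rank_one (det_PF (w := w) htr hdet) 1
  rw [mul_one, one_mul, trace_PF htr hw, one_smul] at h
  exact h

include htr hdet in
theorem PF_orth : PF Φ β w * PF Φ α (-w) = 0 := by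
  have h1 : PF Φ β w * PF Φ α (-w) = (-w) • (PF Φ β w * Φ - α • PF Φ β w) := by
    change PF Φ β w * ((-w) • (Φ - α • 1)) = _
    rw [mul_smul_comm, mul_sub, mul_smul_comm, mul_one]
  rw [h1, PF_mul htr hdet, sub_self, smul_zero]

end proj

/-! ### the local structure -/

section local'

variable {T : Type*} [CommRing T] [IsLocalRing T] [IsNoetherianRing T]
  {R : GQ →* Matrix (Fin 2) (Fin 2) T} {p v : ℕ} [hv : Fact v.Prime] (hp : p.Prime) (hpv : p ≠ v)
  (hpm : (p : T) ∈ maximalIdeal T)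
  (hcont : ∀ n : ℕ, ∃ L : IntermediateField ℚ (AlgebraicClosure ℚ), FiniteDimensional ℚ L ∧
    ∀ σ : GQ, (∀ x ∈ L, σ x = x) → MI (Ideal.span {(p : T) ^ n}) (R σ - 1))
  {A : ValuationSubring (AlgebraicClosure ℚ)} (hA : A.LiesOverPrime v)
  (hres : ∀ σ ∈ A.inertiaSubgroupIn ℚ, MI (maximalIdeal T) (R σ - 1))

/-- reduction modulo an ideal -/
def Rq (R : GQ →* Matrix (Fin 2) (Fin 2) T) (J : Ideal T) : GQ →* Matrix (Fin 2) (Fin 2) (T ⧸ J) :=
  ((Ideal.Quotient.mk J).mapMatrix : Matrix (Fin 2) (Fin 2) T →+* _).toMonoidHom.comp R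

theorem Rq_eq_iff {J : Ideal T} {X Z : Matrix (Fin 2) (Fin 2) T} :
    (Ideal.Quotient.mk J).mapMatrix X = (Ideal.Quotient.mk J).mapMatrix Z ↔ MI J (X - Z) := by
  constructor
  · intro h i j
    have := congrFun (congrFun h i) j
    rw [RingHom.mapMatrix_apply, RingHom.mapMatrix_apply, Matrix.map_apply, Matrix.map_apply,
      Ideal.Quotient.eq] at this
    exact this
  · intro h
    ext i j
    rw [RingHom.mapMatrix_apply, RingHom.mapMatrix_apply, Matrix.map_apply, Matrix.map_apply,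
      Ideal.Quotient.eq]
    exact h i j

include hp hpm hcont hres in
theorem Rq_pp (n : ℕ) : ∀ σ ∈ A.inertiaSubgroupIn ℚ, ∃ k : ℕ,
    Rq R (Ideal.span {(p : T) ^ n}) σ ^ p ^ k = 1 := by
  intro σ hσ
  have hop : ∃ L : IntermediateField ℚ (AlgebraicClosure ℚ), FiniteDimensional ℚ L ∧
      ∀ σ : GQ, (∀ x ∈ L, σ x = x) → Rq R (Ideal.span {(p : T) ^ n}) σ = 1 := by
    obtain ⟨L, hL, h⟩ := hcont n
    refine ⟨L, hL, fun σ hσ => ?_⟩
    have := Rq_eq_iff.2 (h σ hσ)
    rw [map_one] at this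
    exact this
  have hfin := finite_image (f := Rq R (Ideal.span {(p : T) ^ n})) hop
  have h1 : ∃ N : ℕ, N ≠ 0 ∧ Rq R (Ideal.span {(p : T) ^ n}) σ ^ N = 1 := by
    have h2 : ¬ Function.Injective fun i : ℕ => Rq R (Ideal.span {(p : T) ^ n}) (σ ^ i) := by
      intro hinj
      exact Set.infinite_range_of_injective hinj (hfin.subset (by
        rintro _ ⟨i, rfl⟩
        exact ⟨σ ^ i, rfl⟩))
    rw [Function.not_injective_iff] at h2
    have key : ∀ i j : ℕ, i < j → Rq R (Ideal.span {(p : T) ^ n}) (σ ^ i) =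
        Rq R (Ideal.span {(p : T) ^ n}) (σ ^ j) → ∃ N : ℕ, N ≠ 0 ∧
        Rq R (Ideal.span {(p : T) ^ n}) σ ^ N = 1 := by
      intro i j hij h
      refine ⟨j - i, by omega, ?_⟩
      rw [← map_pow]
      have e : σ ^ (j - i) = (σ ^ i)⁻¹ * σ ^ j := by
        rw [eq_inv_mul_iff_mul_eq, ← pow_add]
        congr 1
        omega
      rw [e, map_mul, ← h, ← map_mul, inv_mul_cancel, map_one]
    obtain ⟨i, j, h, hij⟩ := h2
    rcases lt_or_gt_of_ne hij with h' | h'
    · exact key i j h' h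
    · exact key j i h' h.symm
  obtain ⟨N, hN, hσN⟩ := h1
  have h3 : MI (Ideal.span {(p : T) ^ n}) (R σ ^ N - 1) := by
    rw [← Rq_eq_iff, map_one, map_pow]
    exact hσN
  obtain ⟨k, hk⟩ := MI.order hp hpm (hres σ hσ) hN h3
  refine ⟨k, ?_⟩
  rw [← Rq_eq_iff, map_one, map_pow] at hk
  exact hk

theorem eq_of_MI (hpm : (p : T) ∈ maximalIdeal T) {X Z : Matrix (Fin 2) (Fin 2) T}
    (h : ∀ n : ℕ, MI (Ideal.span {(p : T) ^ n}) (X - Z)) : X = Z := by
  ext i j
  rw [← sub_eq_zero]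
  refine IsHausdorff.haus' (I := maximalIdeal T) _ fun n => ?_
  rw [SModEq.zero]
  have h1 := h n i j
  rw [Matrix.sub_apply] at h1
  have h2 : Ideal.span {(p : T) ^ n} ≤ maximalIdeal T ^ n := by
    rw [Ideal.span_singleton_le_iff_mem]
    exact Ideal.pow_mem_pow hpm n
  have h3 := h2 h1
  rwa [smul_eq_mul, Ideal.mul_top]

include hp hpv hpm hcont hA hres

/-- the Frobenius relation -/
theorem frob_rel {Φ : GQ} (hΦ : IsFr A v Φ) {σ : GQ} (hσ : σ ∈ A.inertiaSubgroupIn ℚ) :
    R Φ * R σ = R σ ^ v * R Φ := by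
  have h1 : R (Φ * σ * Φ⁻¹) = R σ ^ v := by
    refine eq_of_MI hpm fun n => ?_
    rw [← Rq_eq_iff, map_pow]
    refine frob_tame (f := Rq R (Ideal.span {(p : T) ^ n})) hp hpv ?_
      (Rq_pp hp hpm hcont hres n) hA hΦ hσ
    obtain ⟨L, hL, h⟩ := hcont n
    refine ⟨L, hL, fun σ hσ => ?_⟩
    have := Rq_eq_iff.2 (h σ hσ)
    rw [map_one] at this
    exact this
  rw [← h1, ← map_mul, ← map_mul]
  congr 1
  group

variable {Φ : GQ} (hΦ : IsFr A v Φ) {α β w : T} (htr : α + β = (R Φ).trace)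
  (hdet : α * β = (R Φ).det) (hw : w * (α - β) = 1) (hv1 : (v : T) - 1 ∈ maximalIdeal T)
  (hdI : ∀ σ ∈ A.inertiaSubgroupIn ℚ, (R σ).det = 1)

include hΦ htr hdet hw hv1 hdI in
/-- the off-diagonal part vanishes -/
theorem PF_off {σ : GQ} (hσ : σ ∈ A.inertiaSubgroupIn ℚ) :
    PF (R Φ) β w * R σ * PF (R Φ) α (-w) = 0 := by
  have hres' := hres σ hσ
  have htrσ : (R σ).trace - 2 ∈ maximalIdeal T := by
    have h0 := hres' 0 0
    have h1 := hres' 1 1
    rw [Matrix.sub_apply, Matrix.one_apply_eq] at h0 h1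
    rw [Matrix.trace_fin_two]
    have e : R σ 0 0 + R σ 1 1 - 2 = (R σ 0 0 - 1) + (R σ 1 1 - 1) := by ring
    rw [e]
    exact Ideal.add_mem _ h0 h1
  have hdσ : (R σ).det - 1 ∈ maximalIdeal T := by
    rw [hdI σ hσ, sub_self]; exact Ideal.zero_mem _
  obtain ⟨s, r, h1, h2, -⟩ := exists_pow_eq (R σ) htrσ hdσ v
  have h3 := frob_rel hp hpv hpm hcont hA hres hΦ hσ
  have htr' : β + α = (R Φ).trace := by rw [add_comm]; exact htr
  have hdet' : β * α = (R Φ).det := by rw [mul_comm]; exact hdet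
  have h4 : α • (PF (R Φ) β w * R σ * PF (R Φ) α (-w)) =
      (s * β) • (PF (R Φ) β w * R σ * PF (R Φ) α (-w)) := by
    have e1 : α • (PF (R Φ) β w * R σ * PF (R Φ) α (-w)) =
        PF (R Φ) β w * (R Φ * R σ) * PF (R Φ) α (-w) := by
      rw [← mul_assoc, PF_mul htr hdet, smul_mul_assoc, smul_mul_assoc]
    have e2 : (s * β) • (PF (R Φ) β w * R σ * PF (R Φ) α (-w)) =
        PF (R Φ) β w * ((s • R σ - r • 1) * R Φ) * PF (R Φ) α (-w) := by
      rw [mul_assoc, mul_assoc, mul_assoc, mul_PF htr' hdet', mul_smul_comm, mul_smul_comm,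
        sub_mul, smul_mul_assoc, smul_mul_assoc, one_mul, mul_sub, mul_smul_comm, mul_smul_comm,
        PF_orth htr hdet, smul_zero, sub_zero, smul_smul, mul_comm β s]
    rw [e1, e2, h3, h1]
  have h5 : (α - s * β) • (PF (R Φ) β w * R σ * PF (R Φ) α (-w)) = 0 := by
    rw [sub_smul, h4, sub_self]
  have h6 : IsUnit (α - s * β) := by
    have h7 : IsUnit (α - β) := IsUnit.of_mul_eq_one _ (by rw [mul_comm]; exact hw)
    by_contra hnu
    have h8 : α - s * β ∈ maximalIdeal T := (mem_maximalIdeal _).2 hnu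
    have h9 : α - β ∈ maximalIdeal T := by
      have e : α - β = (α - s * β) + ((s - v) + ((v : T) - 1)) * β := by ring
      rw [e]
      exact Ideal.add_mem _ h8 (Ideal.mul_mem_right _ _ (Ideal.add_mem _ h2 hv1))
    exact (mem_maximalIdeal _).1 h9 h7
  exact h6.smul_eq_zero.1 h5

include hΦ htr hdet hw hv1 hdI in
/-- inertia commutes with the projector -/
theorem mul_PF_eq {σ : GQ} (hσ : σ ∈ A.inertiaSubgroupIn ℚ) :
    R σ * PF (R Φ) β w = (R σ * PF (R Φ) β w).trace • PF (R Φ) β w := by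
  have htr' : β + α = (R Φ).trace := by rw [add_comm]; exact htr
  have hdet' : β * α = (R Φ).det := by rw [mul_comm]; exact hdet
  have hw' : -w * (β - α) = 1 := by rw [← hw]; ring
  have h1 := PF_off hp hpv hpm hcont hA hres hΦ htr' hdet' hw' hv1 hdI hσ
  rw [neg_neg] at h1
  have h2 := PF_add (Φ := R Φ) hw
  have h3 : R σ * PF (R Φ) β w = (PF (R Φ) β w + PF (R Φ) α (-w)) * R σ * PF (R Φ) β w := by
    rw [h2, one_mul]
  conv_lhs => rw [h3]
  rw [add_mul, add_mul, h1, add_zero, rank_one (det_PF htr hdet)]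

end local'

end Fermat.Agent.TW
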