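import Fermat.Agent.TW.Control
import Fermat.Agent.TW.YH

/-!
# The ranks of the localised lattices
-/

set_option autoImplicit false
set_option linter.unusedSectionVars false
set_option linter.style.haveILetI false

open IsLocalRing
open scoped TensorProduct
open Fermat.Agent.KumG Fermat.Agent.GalRep Fermat.Agent.Places Fermat.Agent.Cheb
open Fermat.Agent.AL Fermat.Agent.ALCoh

namespace Fermat.Agent.TW

noncomputable section

theorem charP_res {O : Type} [CommRing O] [IsLocalRing O] {p : ℕ} [hp : Fact p.Prime]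
    (hpO : (p : O) ∈ maximalIdeal O) : CharP (ResidueField O) p := by
  rw [CharP.charP_iff_prime_eq_zero hp.out, ← map_natCast (residue O)]
  exact (IsLocalRing.residue_eq_zero_iff _).2 hpO

variable {O : Type} [CommRing O] [IsLocalRing O] [IsNoetherianRing O] [IsDomain O]
  [IsAdicComplete (maximalIdeal O) O] [Module.Flat ℤ O] {p : ℕ} [hp : Fact p.Prime]
  (hpO : (p : O) ∈ maximalIdeal O) {S : Set ℕ} {θ : TS O S →ₐ[O] ResidueField O} {e : TS O S}
  (hS : S.Finite) (hpS : p ∈ S) (ι : AlgebraicClosure ℚ →+* ℂ)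
  {t D : GQ → ResidueField O} (ht : IsPseudoRep t D) (htc : IsLocConst t)
  (hfrob : ∀ l : IS S, ∀ A : ValuationSubring (AlgebraicClosure ℚ),
    A.LiesOverPrime (l : ℕ) → ∀ τ : GQ, A.IsFrobeniusAt τ (l : ℕ) →
      t τ = θ (MvPolynomial.X l) ∧ D τ = (l : ℕ))

theorem TWp.ne_four {v : ℕ} {A : ValuationSubring (AlgebraicClosure ℚ)} {Φ : GQ}
    (h : TWp p t v A Φ) : t Φ ^ 2 ≠ 4 := by
  obtain ⟨a, b, h1, h2, h3⟩ := h.roots
  intro h4
  apply h3
  have h5 : (a - b) * (a - b) = 0 := by
    rw [← h1] at h4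
    linear_combination h4 - 4 * h2
  exact sub_eq_zero.1 (mul_self_eq_zero.1 h5)

include hpO hS hpS ι ht htc hfrob in
theorem finrank_step {M v N' : ℕ} [NeZero M] [NeZero N'] (hN' : N' = M * v)
    (hvM : ¬ v ∣ M) (hMS : ∀ l, l.Prime → l ∣ M → l ∈ S) (hN'S : ∀ l, l.Prime → l ∣ N' → l ∈ S)
    {A : ValuationSubring (AlgebraicClosure ℚ)} {Φ : GQ} (hv : TWp p t v A Φ)
    (he : IsLoc (phiG O hMS) θ e) (he' : IsLoc (phiG O hN'S) θ e) :
    Module.finrank O (part (phiG O hN'S) e) = 2 * Module.finrank O (part (phiG O hMS) e) := by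
  subst hN'
  haveI := charP_res hpO
  haveI : Module.Free O (part (phiG O hMS) e) := free_part he.idem
  obtain ⟨B, hB⟩ := exists_WS (dvd_mul_left v M) (by
    rw [Nat.mul_div_cancel _ hv.prime.pos]
    exact (Nat.Prime.coprime_iff_not_dvd hv.prime).2 hvM)
  have h1 := bijective_betaV hv.prime hB hvM hMS hN'S (k := ResidueField O)
    (by rw [IsLocalRing.ResidueField.algebraMap_eq]; exact IsLocalRing.residue_surjective)
    hS hpS ι ht htc hfrob hv.one hv.hA hv.hΦ hv.ne_four he he'
  rw [(LinearEquiv.ofBijective _ h1).finrank_eq, Module.finrank_prod, two_mul]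

/-- the intermediate levels -/
def NN (N₀ : ℕ) {r : ℕ} (v : Fin r → ℕ) (s : Finset (Fin r)) : ℕ := N₀ * ∏ i ∈ s, v i

include hpO hS hpS ι ht htc hfrob in
theorem finrank_NN {N₀ r : ℕ} {v : Fin r → ℕ} (hinj : Function.Injective v)
    (hvN : ∀ i, ¬ v i ∣ N₀) {A : Fin r → ValuationSubring (AlgebraicClosure ℚ)} {Φ : Fin r → GQ}
    (hv : ∀ i, TWp p t (v i) (A i) (Φ i)) [∀ s, NeZero (NN N₀ v s)]
    (hNS : ∀ s, ∀ l, l.Prime → l ∣ NN N₀ v s → l ∈ S)
    (he : ∀ s, IsLoc (phiG O (hNS s)) θ e) (s : Finset (Fin r)) :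
    Module.finrank O (part (phiG O (hNS s)) e) =
      2 ^ s.card * Module.finrank O (part (phiG O (hNS ∅)) e) := by
  classical
  induction s using Finset.induction_on with
  | empty => rw [Finset.card_empty, pow_zero, one_mul]
  | insert i s his ih =>
    have h1 : NN N₀ v (insert i s) = NN N₀ v s * v i := by
      rw [NN, NN, Finset.prod_insert his]
      ring
    have h2 : ¬ v i ∣ NN N₀ v s := by
      intro h
      rcases (hv i).prime.dvd_mul.1 h with h | h
      · exact hvN i h
      · obtain ⟨j, hj, hij⟩ := ((hv i).prime.prime.dvd_finset_prod_iff _).1 h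
        rw [Nat.prime_dvd_prime_iff_eq (hv i).prime (hv j).prime] at hij
        rw [hinj hij] at his
        exact his hj
    rw [finrank_step hpO hS hpS ι ht htc hfrob h1 h2 (hNS s) (hNS _) (hv i) (he _) (he _), ih,
      Finset.card_insert_of_notMem his, pow_succ]
    ring

end

end Fermat.Agent.TW
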