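import Fermat.Agent.TW.TQ
import Fermat.Agent.TW.LocG

/-!
# The Galois representation with values in the trace ring
-/

set_option autoImplicit false
set_option linter.unusedSectionVars false
set_option linter.style.haveILetI false

open IsLocalRing
open Fermat.Agent.GalRep Fermat.Agent.Places Fermat.Agent.Cheb

namespace Fermat.Agent.TW

noncomputable section

variable {O T Y : Type} [CommRing O] [IsLocalRing O] [IsNoetherianRing O]
  [IsAdicComplete (maximalIdeal O) O] [CommRing T] [Algebra O T] [AddCommGroup Y] [Module O Y]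
  [Module.Finite O Y] [Module.Free O Y] [Nontrivial Y] {p : ℕ} [hp : Fact p.Prime]
  (hpO : (p : O) ∈ maximalIdeal O)

/-- a Galois module over a Hecke algebra, localised at a maximal ideal with residual trace `t` -/
structure HG (S : Set ℕ) (t : GQ → ResidueField O) (ψ : T →ₐ[O] Module.End O Y)
    (θ : T →ₐ[O] ResidueField O) (ρ : GQ →* Module.End O Y) : Prop where
  fin : S.Finite
  comm : ∀ σ s y, ρ σ (ψ s y) = ψ s (ρ σ y)
  rel : ∀ g, ∃ s, ρ g + cycO hpO g • ρ g⁻¹ = ψ s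
  cont : ∀ n : ℕ, ∃ L : IntermediateField ℚ (AlgebraicClosure ℚ), FiniteDimensional ℚ L ∧
    ∀ σ : GQ, (∀ x ∈ L, σ x = x) → ∃ E : Module.End O Y, ρ σ = 1 + (p ^ n : O) • E
  nil : ∀ s, θ s = 0 → ∃ n : ℕ, ∀ x, ψ (s ^ n) x ∈ (maximalIdeal O) • (⊤ : Submodule O Y)
  unit : ∀ s, θ s ≠ 0 → ∃ s', ψ s' * ψ s = 1
  frob : ∀ l : ℕ, l.Prime → l ∉ S → ∀ A : ValuationSubring (AlgebraicClosure ℚ),
    A.LiesOverPrime l → ∀ τ : GQ, A.IsFrobeniusAt τ l →
      cycO hpO τ = (l : O) ∧ ∃ s, ρ τ + (l : O) • ρ τ⁻¹ = ψ s ∧ θ s = t τ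
  pr : ∃ D : GQ → ResidueField O, IsPseudoRep t D ∧
    ∀ l : ℕ, l.Prime → l ∉ S → ∀ A : ValuationSubring (AlgebraicClosure ℚ),
    A.LiesOverPrime l → ∀ τ : GQ, A.IsFrobeniusAt τ l → D τ = (l : ResidueField O)
  loc : IsLocConst t

variable {hpO} {S : Set ℕ} {t : GQ → ResidueField O} {ψ : T →ₐ[O] Module.End O Y}
  {θ : T →ₐ[O] ResidueField O} {ρ : GQ →* Module.End O Y} (h : HG hpO S t ψ θ ρ)

namespace HG

include h in
theorem ker_le {s : T} (hs : ψ s = 0) : θ s = 0 := BB.ker_le ψ h.unit hs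

/-- the residual character on the traces -/
def thQ : MvPolynomial GQ O →ₐ[O] ResidueField O := θ.comp (MvPolynomial.aeval (trS h.rel))

include h in
theorem unitQ (s : MvPolynomial GQ O) (hs : h.thQ s ≠ 0) :
    ∃ s', psiQ h.rel s' * psiQ h.rel s = 1 := by
  have h1 : IsLoc (psiQ h.rel) h.thQ 1 := by
    refine isLoc_unit (by rw [map_one, mul_one]) fun s hs => ?_
    obtain ⟨n, hn⟩ := h.nil _ hs
    refine ⟨n, fun x => ?_⟩
    rw [mul_one, map_pow]
    have h2 := hn x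
    rw [map_pow] at h2
    exact h2
  obtain ⟨s', hs'⟩ := h1.unit s hs
  refine ⟨s', ?_⟩
  rw [map_one, mul_one] at hs'
  exact hs'

/-- the trace ring -/
def TT : Type := TQ h.rel

instance : CommRing h.TT := inferInstanceAs (CommRing (TQ h.rel))

instance : Algebra O h.TT := inferInstanceAs (Algebra O (TQ h.rel))

instance : Module h.TT Y := inferInstanceAs (Module (TQ h.rel) Y)

instance : IsScalarTower O h.TT Y := inferInstanceAs (IsScalarTower O (TQ h.rel) Y)

instance : SMulCommClass O h.TT Y := inferInstanceAs (SMulCommClass O (TQ h.rel) Y)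

instance : Module.Finite O h.TT := inferInstanceAs (Module.Finite O (TQ h.rel))

instance : IsNoetherianRing h.TT := inferInstanceAs (IsNoetherianRing (TQ h.rel))

instance : IsLocalRing h.TT := BB.isLocalRing (psiQ h.rel) h.unitQ

/-- the action on the module -/
def act : h.TT →ₐ[O] Module.End O Y := BB.act (psiQ h.rel)

theorem act_injective : Function.Injective h.act := BB.act_injective _

theorem smul_def (a : h.TT) (y : Y) : a • y = h.act a y := rfl

/-- the residual character -/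
def theta : h.TT →ₐ[O] ResidueField O := BB.theta (psiQ h.rel) h.unitQ

/-- the traces -/
def tt (g : GQ) : h.TT := tQ h.rel g

theorem adjoin_tt : Algebra.adjoin O (Set.range h.tt) = ⊤ := TQ.adjoin_tQ h.rel

theorem theta_eq_zero {a : h.TT} : h.theta a = 0 ↔ a ∈ maximalIdeal h.TT := by
  haveI : IsLocalRing (BB (psiQ h.rel)) := inferInstanceAs (IsLocalRing h.TT)
  exact (BB.mem_maximalIdeal (psiQ h.rel) h.unitQ).symm

theorem act_tt (g : GQ) : h.act (h.tt g) = ρ g + cycO hpO g • ρ g⁻¹ := act_tQ h.rel g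

theorem tt_smul (g : GQ) (y : Y) : h.tt g • y = ρ g y + cycO hpO g • ρ g⁻¹ y := tQ_smul h.rel g y

theorem faithful {a : h.TT} (ha : ∀ y : Y, a • y = 0) : a = 0 := BB.faithful _ ha

/-- the Galois representation over the trace ring -/
def rho : GQ →* Module.End h.TT Y := rhoQ h.comm h.rel

theorem rho_apply (g : GQ) (y : Y) : h.rho g y = ρ g y := rfl

/-- the determinant -/
def DD : GQ →* h.TT := (algebraMap O h.TT).toMonoidHom.comp (cycO hpO)

theorem DD_apply (g : GQ) : h.DD g = algebraMap O h.TT (cycO hpO g) := rfl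

theorem theta_tt_of {g : GQ} {s : T} (hs : ρ g + cycO hpO g • ρ g⁻¹ = ψ s) :
    h.theta (h.tt g) = θ s := by
  change h.thQ (MvPolynomial.X g) = θ s
  rw [thQ, AlgHom.comp_apply, MvPolynomial.aeval_X, ← sub_eq_zero, ← map_sub]
  refine h.ker_le ?_
  rw [map_sub, trS_spec, hs, sub_self]

theorem algebraMap_mem {a : O} (ha : a ∈ maximalIdeal O) :
    algebraMap O h.TT a ∈ maximalIdeal h.TT := by
  rw [← h.theta_eq_zero, AlgHom.commutes]
  exact (IsLocalRing.residue_eq_zero_iff a).2 ha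

include h in
theorem p_mem : (p : h.TT) ∈ maximalIdeal h.TT := by
  rw [← map_natCast (algebraMap O h.TT)]
  exact h.algebraMap_mem hpO

theorem isQRep : IsQRep h.rho h.DD h.tt :=
  Fermat.Agent.TW.isQRep h.comm h.rel

theorem isPseudoRep : IsPseudoRep h.tt h.DD := h.isQRep.isPseudoRep

include h in
/-- continuity of the traces -/
theorem tt_cont (n : ℕ) : ∃ L : IntermediateField ℚ (AlgebraicClosure ℚ),
    FiniteDimensional ℚ L ∧ ∀ σ : GQ, (∀ x ∈ L, σ x = x) →
      ∀ g, h.tt (g * σ) - h.tt g ∈ Ideal.span {(p : h.TT) ^ n} := by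
  obtain ⟨c, hc⟩ := exists_div_bound h.act.toLinearMap h.act_injective (p : O)
  obtain ⟨L, hL, hL'⟩ := h.cont (n + c)
  obtain ⟨L₂, hL₂, hL₂'⟩ := exists_level_cyc (p ^ (n + c))
  haveI := hL
  haveI := hL₂
  refine ⟨L ⊔ L₂, inferInstance, fun σ hσ g => ?_⟩
  obtain ⟨E, hE⟩ := hL' σ fun x hx => hσ x ((le_sup_left : L ≤ L ⊔ L₂) hx)
  obtain ⟨E', hE'⟩ := hL' σ⁻¹ fun x hx => by
    have h1 := hσ x ((le_sup_left : L ≤ L ⊔ L₂) hx)
    conv_lhs => rw [← h1]
    exact AlgEquiv.symm_apply_apply σ x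
  have hcyc : ∃ w : O, cycO hpO σ = 1 + (p ^ (n + c) : O) * w := by
    obtain ⟨z, hz⟩ := cycO_spec (O := O) hpO σ (n + c)
    have h1 := hL₂' σ fun x hx => hσ x ((le_sup_right : L₂ ≤ L ⊔ L₂) hx)
    obtain ⟨z', hz'⟩ := cycO_spec (O := O) hpO (1 : GQ) (n + c)
    rw [map_one] at hz'
    rw [h1, ← map_one (cyc (p ^ (n + c)))] at hz
    refine ⟨z - z', ?_⟩
    rw [hz, hz']
    ring
  obtain ⟨w, hw⟩ := hcyc
  rw [Ideal.mem_span_singleton]
  have h2 : h.act.toLinearMap (h.tt (g * σ) - h.tt g) =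
      (p : O) ^ (n + c) • (ρ g * E + cycO hpO g • (E' * ρ g⁻¹) +
        (cycO hpO g * w) • (ρ σ⁻¹ * ρ g⁻¹)) := by
    rw [map_sub]
    change h.act (h.tt (g * σ)) - h.act (h.tt g) = _
    rw [act_tt, act_tt, mul_inv_rev, map_mul ρ, map_mul ρ, map_mul (cycO hpO), hE, hw]
    have h3 : ρ σ⁻¹ * ρ g⁻¹ = ρ g⁻¹ + (p : O) ^ (n + c) • (E' * ρ g⁻¹) := by
      rw [hE', add_mul, one_mul, smul_mul_assoc]
    rw [mul_add, mul_one, mul_smul_comm, mul_add, mul_one, add_smul, h3]
    simp only [smul_add, smul_smul]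
    module
  obtain ⟨z, hz⟩ := hc n _ _ h2
  refine ⟨z, ?_⟩
  rw [hz, Algebra.smul_def, map_pow, map_natCast]

theorem isLocConst_theta_tt : IsLocConst fun g => h.theta (h.tt g) := by
  obtain ⟨L, hL, hL'⟩ := h.tt_cont 1
  refine ⟨L, hL, fun σ hσ g => ?_⟩
  rw [← sub_eq_zero, ← map_sub, h.theta_eq_zero]
  have h1 := hL' σ hσ g
  rw [pow_one] at h1
  exact (Ideal.span_singleton_le_iff_mem _).2 h.p_mem h1

include h in
/-- the residual trace -/
theorem theta_tt (g : GQ) : h.theta (h.tt g) = t g := by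
  obtain ⟨D, h1, h2⟩ := h.pr
  have h3 : IsPseudoRep (fun g => h.theta (h.tt g)) (fun g => h.theta (h.DD g)) :=
    h.isPseudoRep.comp h.theta.toRingHom
  refine congrFun (IsPseudoRep.t_eq_of_frobenius h3 h1 h.isLocConst_theta_tt h.loc h.fin ?_) g
  intro l hl hlS A hA τ hτ
  obtain ⟨h4, s, hs, hs'⟩ := h.frob l hl hlS A hA τ hτ
  refine ⟨?_, ?_⟩
  · rw [h.theta_tt_of (s := s) (by rw [h4, hs]), hs']
  · rw [DD_apply, AlgHom.commutes, h4, map_natCast, h2 l hl hlS A hA τ hτ]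

end HG

end

end Fermat.Agent.TW
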