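import Fermat.Agent.TW.TQ2
import Fermat.Prelude.Thm_IsLocalRing_isAdicComplete_of_module_finite

/-!
# The matrix representation over the trace ring
-/

set_option autoImplicit false
set_option linter.unusedSectionVars false
set_option linter.style.haveILetI false

open IsLocalRing
open Fermat.Agent.GalRep Fermat.Agent.Places Fermat.Agent.Cheb

namespace Fermat.Agent.TW

noncomputable section

variable {O T Y : Type} [CommRing O] [IsLocalRing O] [IsNoetherianRing O]
  [IsAdicComplete (maximalIdeal O) O] [CommRing T] [Algebra O T] [AddCommGroup Y] [Module O Y]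
  [Module.Finite O Y] [Module.Free O Y] [Nontrivial Y] {p : ℕ} [hp : Fact p.Prime]
  {hpO : (p : O) ∈ maximalIdeal O}
  {S : Set ℕ} {t : GQ → ResidueField O} {ψ : T →ₐ[O] Module.End O Y}
  {θ : T →ₐ[O] ResidueField O} {ρ : GQ →* Module.End O Y} (h : HG hpO S t ψ θ ρ)

namespace HG

instance inv2 [Invertible (2 : O)] : Invertible (2 : h.TT) :=
  (Invertible.map (algebraMap O h.TT) 2).copy 2 (by rw [map_ofNat])

instance isLocalHom_algebraMap : IsLocalHom (algebraMap O h.TT) where
  map_nonunit a ha := by
    by_contra hna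
    have h1 := h.algebraMap_mem (hna : a ∈ maximalIdeal O)
    exact ((IsLocalRing.mem_maximalIdeal _).1 h1) ha

instance adic : IsAdicComplete (maximalIdeal h.TT) h.TT :=
  IsLocalRing.isAdicComplete_of_module_finite (𝒪 := O)

theorem isUnit_of_theta {a : h.TT} (ha : h.theta a ≠ 0) : IsUnit a := by
  by_contra hna
  exact ha (h.theta_eq_zero.2 hna)

/-- residual irreducibility -/
def IrrAt (t : GQ → ResidueField O) (g₀ k₀ : GQ) : Prop :=
  t (g₀ * k₀) + t (complexConjugation * (g₀ * k₀)) - (t (g₀ * complexConjugation * k₀) +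
    t (complexConjugation * (g₀ * complexConjugation * k₀))) ≠ 0

variable [Invertible (2 : O)] {g₀ k₀ : GQ} (hgk : IrrAt t g₀ k₀)

include hgk in
theorem isUnit_bc : IsUnit (bc h.tt complexConjugation g₀ k₀) := by
  refine h.isUnit_of_theta fun h0 => hgk ?_
  have h1 : (2 * 2 : h.TT) * bc h.tt complexConjugation g₀ k₀ =
      h.tt (g₀ * k₀) + h.tt (complexConjugation * (g₀ * k₀)) -
      (h.tt (g₀ * complexConjugation * k₀) +
        h.tt (complexConjugation * (g₀ * complexConjugation * k₀))) := by
    rw [bc, aa, aa]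
    have h2 := mul_invOf_self (2 : h.TT)
    linear_combination (2 * ⅟2 + 1) * (h.tt (g₀ * k₀) + h.tt (complexConjugation * (g₀ * k₀)) -
      (h.tt (g₀ * complexConjugation * k₀) +
        h.tt (complexConjugation * (g₀ * complexConjugation * k₀)))) * h2
  have h2 := congrArg h.theta h1
  rw [map_mul, h0, mul_zero, map_sub, map_add, map_add, h.theta_tt, h.theta_tt, h.theta_tt,
    h.theta_tt] at h2
  exact h2.symm

/-- the unit -/
def uu : h.TTˣ := (h.isUnit_bc hgk).unit

theorem uu_eq : (h.uu hgk : h.TT) = bc h.tt complexConjugation g₀ k₀ := rfl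

include h in
theorem DD_conj : h.DD complexConjugation = -1 := by
  rw [DD_apply, cycO_conj, map_neg, map_one]

/-- **The Galois representation over the trace ring** -/
def R : GQ →* Matrix (Fin 2) (Fin 2) h.TT where
  toFun := RR h.tt complexConjugation g₀ k₀ (h.uu hgk)
  map_one' := RR_one h.isQRep complexConjugation_mul_self h.DD_conj (h.uu_eq hgk)
  map_mul' := RR_mul h.isQRep complexConjugation_mul_self h.DD_conj (h.uu_eq hgk)

theorem R_apply (g : GQ) : h.R hgk g = RR h.tt complexConjugation g₀ k₀ (h.uu hgk) g := rfl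

theorem R_trace (g : GQ) : (h.R hgk g).trace = h.tt g := RR_trace g

theorem R_det (g : GQ) : (h.R hgk g).det = algebraMap O h.TT (cycO hpO g) :=
  RR_det h.isQRep complexConjugation_mul_self h.DD_conj (h.uu_eq hgk) g

theorem R_conj : h.R hgk complexConjugation = !![1, 0; 0, -1] :=
  RR_c h.isQRep complexConjugation_mul_self h.DD_conj (h.uu_eq hgk)

theorem R_cont (n : ℕ) : ∃ L : IntermediateField ℚ (AlgebraicClosure ℚ),
    FiniteDimensional ℚ L ∧ ∀ σ : GQ, (∀ x ∈ L, σ x = x) →
      MI (Ideal.span {(p : h.TT) ^ n}) (h.R hgk σ - 1) := by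
  obtain ⟨L, hL, hL'⟩ := h.tt_cont n
  refine ⟨L, hL, fun σ hσ i j => ?_⟩
  exact RR_cont h.isQRep complexConjugation_mul_self h.DD_conj (h.uu_eq hgk) _ (hL' σ hσ) i j

/-- residually trivial elements -/
theorem R_res {σ : GQ} (hσ : ∀ g, t (g * σ) = t g) : MI (maximalIdeal h.TT) (h.R hgk σ - 1) := by
  intro i j
  refine RR_cont h.isQRep complexConjugation_mul_self h.DD_conj (h.uu_eq hgk) _ (fun g => ?_) i j
  rw [← h.theta_eq_zero, map_sub, h.theta_tt, h.theta_tt, hσ, sub_self]

/-- the multiplicity module -/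
def MQ : Type := MM h.rho complexConjugation

instance : AddCommGroup h.MQ := inferInstanceAs (AddCommGroup (MM h.rho complexConjugation))

instance : Module h.TT h.MQ := inferInstanceAs (Module h.TT (MM h.rho complexConjugation))

instance : Module O h.MQ := inferInstanceAs (Module O (MM h.rho complexConjugation))

instance : IsScalarTower O h.TT h.MQ :=
  inferInstanceAs (IsScalarTower O h.TT (MM h.rho complexConjugation))

/-- **The decomposition of the module.** -/
theorem exists_EE : ∃ E : Y ≃ₗ[h.TT] h.MQ × h.MQ,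
    ∀ g y, E (ρ g y) = mact (h.R hgk g) (E y) := by
  obtain ⟨E, -, hE⟩ := exists_split h.isQRep complexConjugation_mul_self h.DD_conj (h.uu_eq hgk)
  exact ⟨E, hE⟩

/-- the decomposition of the module -/
def EE : Y ≃ₗ[h.TT] h.MQ × h.MQ := (h.exists_EE hgk).choose

theorem EE_rho (g : GQ) (y : Y) : h.EE hgk (ρ g y) = mact (h.R hgk g) (h.EE hgk y) :=
  (h.exists_EE hgk).choose_spec g y

include hgk in
theorem faithful_MQ {a : h.TT} (ha : ∀ m : h.MQ, a • m = 0) : a = 0 :=
  faithful_MM h.isQRep complexConjugation_mul_self h.DD_conj (h.uu_eq hgk) a ha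

/-- the decomposition of the module, `O`-linearly -/
def EO : Y ≃ₗ[O] h.MQ × h.MQ :=
  { h.EE hgk with
    map_smul' := fun a y => by
      change h.EE hgk (a • y) = a • h.EE hgk y
      rw [← algebraMap_smul h.TT a y, map_smul]
      exact Prod.ext (algebraMap_smul h.TT _ _) (algebraMap_smul h.TT _ _) }

include hgk in
theorem finite_MQ : Module.Finite O h.MQ :=
  Module.Finite.of_surjective ((LinearMap.fst O h.MQ h.MQ) ∘ₗ (h.EO hgk).toLinearMap)
    ((LinearMap.fst_surjective (R := O)).comp (h.EO hgk).surjective)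

include hgk in
theorem free_MQ : Module.Free O h.MQ := by
  haveI := h.finite_MQ hgk
  haveI : Module.Projective O h.MQ := Module.Projective.of_split
    ((h.EO hgk).symm.toLinearMap ∘ₗ LinearMap.inl O h.MQ h.MQ)
    (LinearMap.fst O h.MQ h.MQ ∘ₗ (h.EO hgk).toLinearMap) (LinearMap.ext fun x => by simp)
  exact Module.free_of_flat_of_isLocalRing

include hgk in
theorem nontrivial_MQ : Nontrivial h.MQ := by
  by_contra hne
  rw [not_nontrivial_iff_subsingleton] at hne
  have h1 : Subsingleton Y := (h.EE hgk).injective.subsingleton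
  exact not_subsingleton Y h1

theorem smul_eq_zero_TT {a : O} (ha : ∀ y : Y, a • y = 0 → y = 0) {b : h.TT} (hb : a • b = 0) :
    b = 0 := h.faithful fun y => ha _ (by rw [← smul_assoc, hb, zero_smul])

end HG

end

end Fermat.Agent.TW
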