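import Fermat.Agent.TW.TQ3

/-!
# The local structure of the representation over the trace ring at Taylor–Wiles primes
-/

set_option autoImplicit false
set_option linter.unusedSectionVars false
set_option linter.style.haveILetI false

open IsLocalRing
open Fermat.Agent.GalRep Fermat.Agent.Places Fermat.Agent.Cheb

namespace Fermat.Agent.TW

noncomputable section

/-! ### Hensel's lemma for quadratic polynomials -/

theorem exists_quad_roots {A k : Type*} [CommRing A] [IsLocalRing A]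
    [IsAdicComplete (maximalIdeal A) A] [Field k] (θ : A →+* k)
    (hθ : ∀ a, θ a = 0 ↔ a ∈ maximalIdeal A) (hs : Function.Surjective θ) {s d : A} {a b : k}
    (h1 : a + b = θ s) (h2 : a * b = θ d) (hab : a ≠ b) :
    ∃ α β w : A, α + β = s ∧ α * β = d ∧ w * (α - β) = 1 ∧ θ α = a ∧ θ β = b := by
  haveI : HenselianLocalRing A := {
    is_henselian := fun f hf a₀ h₁ h₂ => by
      obtain ⟨a, h3, h4⟩ := (inferInstance : HenselianRing A (maximalIdeal A)).is_henselian f hf a₀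
        h₁ (h₂.map _)
      exact ⟨a, h3, h4⟩ }
  obtain ⟨a₀, rfl⟩ := hs a
  let f : Polynomial A := Polynomial.X ^ 2 - Polynomial.C s * Polynomial.X + Polynomial.C d
  have hf : f.Monic := by
    have : f = Polynomial.X ^ 2 + (Polynomial.C (-s) * Polynomial.X + Polynomial.C d) := by
      simp only [f, map_neg]
      ring
    rw [this]
    exact Polynomial.monic_X_pow_add (Polynomial.degree_linear_le.trans_lt (by norm_num))
  have he : ∀ x : A, f.eval x = x ^ 2 - s * x + d := fun x => by simp [f]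
  have hd : ∀ x : A, f.derivative.eval x = 2 * x - s := fun x => by
    simp [f, Polynomial.derivative_X_pow]
    ring
  obtain ⟨α, hα, hα'⟩ := HenselianLocalRing.is_henselian f hf a₀ (by
    rw [he, ← hθ, map_add, map_sub, map_pow, map_mul, ← h1, ← h2]
    ring) (by
    rw [hd]
    by_contra hnu
    have h3 := (hθ _).2 ((IsLocalRing.mem_maximalIdeal _).2 hnu)
    rw [map_sub, map_mul, map_ofNat, ← h1] at h3
    apply hab
    linear_combination h3)
  rw [Polynomial.IsRoot, he] at hα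
  have h4 : θ α = θ a₀ := by
    rw [← sub_eq_zero, ← map_sub]
    exact (hθ _).2 hα'
  have h5 : IsUnit (α - (s - α)) := by
    by_contra hnu
    have h3 := (hθ _).2 ((IsLocalRing.mem_maximalIdeal _).2 hnu)
    rw [map_sub, map_sub, h4, ← h1] at h3
    apply hab
    linear_combination h3
  obtain ⟨w, hw⟩ := h5.exists_left_inv
  refine ⟨α, s - α, w, by ring, by linear_combination -hα, hw, h4, ?_⟩
  rw [map_sub, h4, ← h1]
  ring

variable {O T Y : Type} [CommRing O] [IsLocalRing O] [IsNoetherianRing O]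
  [IsAdicComplete (maximalIdeal O) O] [CommRing T] [Algebra O T] [AddCommGroup Y] [Module O Y]
  [Module.Finite O Y] [Module.Free O Y] [Nontrivial Y] {p : ℕ} [hp : Fact p.Prime]
  {hpO : (p : O) ∈ maximalIdeal O}
  {S : Set ℕ} {t : GQ → ResidueField O} {ψ : T →ₐ[O] Module.End O Y}
  {θ : T →ₐ[O] ResidueField O} {ρ : GQ →* Module.End O Y} (h : HG hpO S t ψ θ ρ)

/-- the residual conditions at a Taylor–Wiles prime -/
structure TWp (p : ℕ) (t : GQ → ResidueField O) (v : ℕ)
    (A : ValuationSubring (AlgebraicClosure ℚ)) (Φ : GQ) : Prop where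
  prime : v.Prime
  ne : p ≠ v
  hA : A.LiesOverPrime v
  hΦ : A.IsFrobeniusAt Φ v
  one : (v : ResidueField O) = 1
  unr : ∀ σ ∈ A.inertiaSubgroupIn ℚ, ∀ g, t (g * σ) = t g
  roots : ∃ a b : ResidueField O, a + b = t Φ ∧ a * b = 1 ∧ a ≠ b

/-- the local structure at a Taylor–Wiles prime -/
structure LocW {A' : Type} [CommRing A'] (p v : ℕ) (A : ValuationSubring (AlgebraicClosure ℚ))
    (R : GQ →* Matrix (Fin 2) (Fin 2) A') where
  P₁ : Matrix (Fin 2) (Fin 2) A'
  P₂ : Matrix (Fin 2) (Fin 2) A'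
  add : P₁ + P₂ = 1
  mul : P₁ * P₂ = 0
  trace : P₁.trace = 1
  η : GQ → A'
  η' : GQ → A'
  eq : ∀ σ ∈ A.inertiaSubgroupIn ℚ, R σ = η σ • P₁ + η' σ • P₂
  inv : ∀ σ ∈ A.inertiaSubgroupIn ℚ, η σ * η' σ = 1
  one : η 1 = 1
  hmul : ∀ σ ∈ A.inertiaSubgroupIn ℚ, ∀ τ ∈ A.inertiaSubgroupIn ℚ, η (σ * τ) = η σ * η τ
  σ₀ : GQ
  mem : σ₀ ∈ A.inertiaSubgroupIn ℚ
  gen : ∀ σ ∈ A.inertiaSubgroupIn ℚ, ∃ n : ℕ, η σ = η σ₀ ^ n
  ord : ∀ j c : ℕ, v - 1 = p ^ j * c → ¬ p ∣ c → η σ₀ ^ p ^ j = 1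

namespace HG

theorem theta_surjective : Function.Surjective h.theta := by
  intro x
  obtain ⟨a, rfl⟩ := IsLocalRing.residue_surjective x
  exact ⟨algebraMap O h.TT a, h.theta.commutes a⟩

variable [Invertible (2 : O)] {g₀ k₀ : GQ} (hgk : IrrAt t g₀ k₀)

theorem exists_locW {v : ℕ} {A : ValuationSubring (AlgebraicClosure ℚ)} {Φ : GQ}
    (hv : TWp p t v A Φ) (hreg : ∀ y : Y, (p : O) • y = 0 → y = 0) :
    ∃ L : LocW p v A (h.R hgk), L.η L.σ₀ - 1 ∈ maximalIdeal h.TT := by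
  haveI : Fact v.Prime := ⟨hv.prime⟩
  haveI : IsAdicComplete (maximalIdeal h.TT) h.TT := h.adic
  have hdet1 : ∀ σ ∈ A.inertiaSubgroupIn ℚ, (h.R hgk σ).det = 1 := fun σ hσ => by
    rw [R_det, cycO_inertia hpO hv.prime hv.ne.symm hv.hA hσ, map_one]
  have hdetΦ : (h.R hgk Φ).det = (v : h.TT) := by
    rw [R_det, cycO_frob hpO hv.prime hv.ne.symm hv.hA hv.hΦ, map_natCast]
  obtain ⟨a, b, h1, h2, hab⟩ := hv.roots
  obtain ⟨α, β, w, htr, hdet, hw, -, -⟩ := exists_quad_roots h.theta.toRingHom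
    (fun a => h.theta_eq_zero) h.theta_surjective (s := (h.R hgk Φ).trace)
    (d := (h.R hgk Φ).det) (a := a) (b := b) (by
      rw [h1, R_trace]
      exact (h.theta_tt Φ).symm) (by
      rw [h2, hdetΦ]
      exact ((map_natCast h.theta v).trans hv.one).symm) hab
  have hres : ∀ σ ∈ A.inertiaSubgroupIn ℚ, MI (maximalIdeal h.TT) (h.R hgk σ - 1) :=
    fun σ hσ => h.R_res hgk (hv.unr σ hσ)
  have hΦ := Flat.isFr_of_isFrobeniusAt hv.hΦ
  have hv1 : (v : h.TT) - 1 ∈ maximalIdeal h.TT := by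
    rw [← h.theta_eq_zero, map_sub, map_natCast, map_one, hv.one, sub_self]
  have hpm := h.p_mem
  have hcont := h.R_cont hgk
  have hregT : ∀ x : h.TT, (p : h.TT) * x = 0 → x = 0 := by
    intro x hx
    refine h.smul_eq_zero_TT (a := (p : O)) hreg ?_
    rw [Algebra.smul_def, map_natCast]
    exact hx
  obtain ⟨σ₀, hσ₀, hgen⟩ := exists_gen_eta hp.out hv.ne hpm hcont hv.hA hres hΦ htr hdet hw hv1
    hdet1 hregT
  have h3 := eta_sub_one_mem hp.out hv.ne hpm hcont hv.hA hres hΦ htr hdet hw hv1 hdet1 hσ₀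
  refine ⟨{ P₁ := PF (h.R hgk Φ) β w
            P₂ := PF (h.R hgk Φ) α (-w)
            add := PF_add hw
            mul := PF_orth htr hdet
            trace := trace_PF htr hw
            η := etaV (h.R hgk) Φ β w
            η' := etaV (h.R hgk) Φ α (-w)
            eq := fun σ hσ => R_eq hp.out hv.ne hpm hcont hv.hA hres hΦ htr hdet hw hv1 hdet1 hσ
            inv := fun σ hσ =>
              eta_mul_eta' hp.out hv.ne hpm hcont hv.hA hres hΦ htr hdet hw hv1 hdet1 hσ
            one := by rw [etaV, map_one, one_mul, trace_PF htr hw]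
            hmul := fun σ hσ τ hτ =>
              eta_mul hp.out hv.ne hpm hcont hv.hA hres hΦ htr hdet hw hv1 hdet1 hσ hτ
            σ₀ := σ₀
            mem := hσ₀
            gen := hgen
            ord := fun j c hjc hc => ?_ }, h3⟩
  have h4 := eta_pow_v hp.out hv.ne hpm hcont hv.hA hres hΦ htr hdet hw hv1 hdet1 hσ₀
  rw [hjc, pow_mul] at h4
  set x := etaV (h.R hgk) Φ β w σ₀ with hx
  obtain ⟨q, hq⟩ := exists_geom (x ^ p ^ j) c
  have h5 := geom_sum_mul (x ^ p ^ j) c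
  rw [h4, sub_self, hq] at h5
  have h6 : x ^ p ^ j - 1 ∈ maximalIdeal h.TT := by
    obtain ⟨y, hy⟩ := sub_one_dvd_pow_sub_one x (p ^ j)
    rw [hy]
    exact Ideal.mul_mem_right _ _ h3
  have h7 : IsUnit ((c : h.TT) + (x ^ p ^ j - 1) * q) := by
    by_contra hnu
    have h8 := Ideal.sub_mem _ ((IsLocalRing.mem_maximalIdeal _).2 hnu)
      (Ideal.mul_mem_right q _ h6)
    rw [add_sub_cancel_right] at h8
    exact (IsLocalRing.mem_maximalIdeal _).1 h8 (isUnit_natCast_of_not_dvd hp.out hpm hc)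
  exact sub_eq_zero.1 ((h7.mul_right_eq_zero).1 h5)

end HG

end

end Fermat.Agent.TW
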