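import Fermat.Agent.TW.Res
import Fermat.Agent.TW.HL2
import Fermat.Agent.SSH.KumX
import Fermat.Agent.SSH.Odd

/-!
# Partial transfers
-/

set_option autoImplicit false
set_option linter.unusedSectionVars false
set_option linter.style.haveILetI false

open Matrix.SpecialLinearGroup
open scoped MatrixGroups TensorProduct
open IsLocalRing
open Fermat.Agent.AL Fermat.Agent.ALCoh Fermat.Agent.LevelRaise Fermat.Agent.KumG
  Fermat.Agent.GalRep

namespace Fermat.Agent.TW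

noncomputable section

variable {N : ℕ} {H : Subgroup (ZMod N)ˣ} [NeZero N] [hH : Fact ((-1 : (ZMod N)ˣ) ∈ H)]
  (V : Subgroup (DG N H))

/-- the subgroup of `(ℤ/N)^×` corresponding to a subgroup of the quotient -/
abbrev HV : Subgroup (ZMod N)ˣ := V.comap (QuotientGroup.mk' H)

omit [NeZero N] hH in
theorem le_HV : H ≤ HV V := by
  intro x hx
  rw [Subgroup.mem_comap, QuotientGroup.mk'_apply, (QuotientGroup.eq_one_iff x).2 hx]
  exact one_mem V

instance factHV : Fact ((-1 : (ZMod N)ˣ) ∈ HV V) := ⟨le_HV V hH.out⟩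

omit [NeZero N] hH in
theorem GH_le_GV : GH N H ≤ GH N (HV V) := fun _ h =>
  ⟨h.1, h.2.choose, le_HV V h.2.choose_spec.1, h.2.choose_spec.2⟩

theorem rD_mem_GV (δ : V) : rD δ.1 ∈ GH N (HV V) := by
  refine ⟨rD_mem _, δ.1.out, ?_, (dd_rD δ.1).symm⟩
  rw [Subgroup.mem_comap, QuotientGroup.mk'_apply, QuotientGroup.out_eq']
  exact δ.2

theorem rD_surjV (g : SL(2, ℤ)) (hg : g ∈ GH N (HV V)) : ∃ δ : V, g * (rD δ.1)⁻¹ ∈ GH N H := by
  obtain ⟨u, hu, hu'⟩ := exists_unit_of_mem hg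
  rw [Subgroup.mem_comap, QuotientGroup.mk'_apply] at hu
  refine ⟨⟨QuotientGroup.mk u, hu⟩, ?_⟩
  rw [mem_GH_of_class hg.1 (rD_mem _) hu' (dd_rD _), QuotientGroup.out_eq']

/-- the transfer family -/
theorem famTrV : Fam (GH N H) (GH N (HV V)) (fun δ : V => (rD δ.1 : M2)) :=
  fam_of_choice (fun i => by rw [(rD i.1).det_coe]; exact one_ne_zero) (fun γ hγ i => by
    obtain ⟨j, hj⟩ := rD_surjV V (rD i.1 * γ) (mul_mem (rD_mem_GV V i) hγ)
    refine ⟨j, ⟨_, hj⟩, ?_⟩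
    rw [← Matrix.SpecialLinearGroup.coe_mul, ← Matrix.SpecialLinearGroup.coe_mul,
      inv_mul_cancel_right]) (fun i j g h => Subtype.ext (rD_inj i.1 j.1 (by
    rw [← Matrix.SpecialLinearGroup.coe_mul] at h
    have h1 : rD i.1 = (g : SL(2, ℤ)) * rD j.1 := Subtype.ext h
    rw [h1, mul_inv_cancel_right]
    exact g.2)))

instance : Fintype V := Fintype.ofFinite _

/-- transfer -/
def trV' : KumG.LZ (GH N H) →ₗ[ℤ] KumG.LZ (GH N (HV V)) := opLL (famTrV V)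

theorem coe_sum_LZ {Γ : Subgroup SL(2, ℤ)} {ι : Type*} (s : Finset ι) (f : ι → KumG.LZ Γ) :
    ((∑ i ∈ s, f i : KumG.LZ Γ)).1 = ∑ i ∈ s, (f i).1 := by
  classical
  induction s using Finset.induction_on with
  | empty => rfl
  | insert a s ha ih => rw [Finset.sum_insert ha, Finset.sum_insert ha, ← ih]; rfl

/-- restriction of a transfer -/
theorem resL_trV (x : KumG.LZ (GH N H)) :
    resL (GH_le_GV V) (trV' V x) = ∑ δ : V, DQ N H δ.1 x := by
  apply Subtype.ext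
  refine AddMonoidHom.ext fun g => ?_
  obtain ⟨g, rfl⟩ := Additive.ofMul.surjective g
  rw [resL_apply]
  change (famTrV V).op ℤ x.1 _ = _
  rw [Fam.op_apply_of_tr (famTrV V) x.1 ⟨g, GH_le_GV V g.2⟩ (σ := 1)
    (g := fun δ => ⟨rD δ.1 * g * (rD δ.1)⁻¹, conj_mem_GH (rD_mem δ.1) g g.2⟩) (fun δ => by
      rw [← Matrix.SpecialLinearGroup.coe_mul, ← Matrix.SpecialLinearGroup.coe_mul]
      simp)]
  rw [coe_sum_LZ, AddMonoidHom.finsetSum_apply]
  refine Finset.sum_congr rfl fun δ _ => ?_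
  rw [DQ_eq]
  exact (fam_diaH_op_apply (rD_mem δ.1) x.1 g).symm

section O

variable {O : Type} [CommRing O] [IsLocalRing O] [IsNoetherianRing O]
  [IsAdicComplete (maximalIdeal O) O] {p : ℕ} [hp : Fact p.Prime]
  (hpO : (p : O) ∈ maximalIdeal O) (ι : AlgebraicClosure ℚ →+* ℂ)

/-- the partial norm -/
theorem sum_DO_eq (x : XH O N H) : ∑ δ : V, DO O N H δ.1 x =
    (resL (GH_le_GV V)).baseChange O ((trV' V).baseChange O x) := by
  have h := bc_ext O (f := (resL (GH_le_GV V)).baseChange O ∘ₗ (trV' V).baseChange O)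
    (g := ∑ δ : V, DO O N H δ.1) (fun x => by
    change (1 : O) ⊗ₜ[ℤ] (resL (GH_le_GV V) (trV' V x)) = _
    rw [resL_trV, TensorProduct.tmul_sum, LinearMap.sum_apply]
    rfl) x
  rw [LinearMap.sum_apply] at h
  exact h.symm

/-- unipotency on the invariants -/
theorem unip_sum {σ τ : GQ}
    (hu : ∀ (n : ℕ) (ξ : XL (GH N (HV V)) (p ^ n)),
      rhoF ι (p ^ n) τ (rhoF ι (p ^ n) σ ξ) - rhoF ι (p ^ n) τ ξ - rhoF ι (p ^ n) σ ξ + ξ = 0)
    (x : XH O N H) :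
    rhoN hpO ι N H τ (rhoN hpO ι N H σ (∑ δ : V, DO O N H δ.1 x)) -
      rhoN hpO ι N H τ (∑ δ : V, DO O N H δ.1 x) - rhoN hpO ι N H σ (∑ δ : V, DO O N H δ.1 x) +
      (∑ δ : V, DO O N H δ.1 x) = 0 := by
  rw [sum_DO_eq]
  set y := (trV' V).baseChange O x
  have h1 : ∀ (g : GQ) (z : O ⊗[ℤ] KumG.LZ (GH N (HV V))),
      rhoN hpO ι N H g ((resL (GH_le_GV V)).baseChange O z) =
      (resL (GH_le_GV V)).baseChange O (rhoO ι hpO g z) :=
    fun g z => rhoO_res (GH_le_GV V) ι hpO g z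
  have h2 : rhoO (Γ := GH N (HV V)) (O := O) ι hpO τ ∘ₗ rhoO ι hpO σ - rhoO ι hpO τ -
      rhoO ι hpO σ + LinearMap.id = 0 := by
    refine Apx.ext' hpO (fun n => ((((apx_rhoO ι hpO τ n).comp (apx_rhoO ι hpO σ n)).sub
      (apx_rhoO ι hpO τ n)).sub (apx_rhoO ι hpO σ n)).add Apx.id)
      (g := fun n _ => 0) (fun n φ ψ e => ?_) fun n ξ => hu n ξ
    obtain ⟨χ, hχ⟩ := exists_of_mkX (φ := (0 : KumG.LZ (GH N (HV V)))) (ψ := ψ) (by
      rw [map_zero]; exact e)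
    refine ⟨(1 : O) ⊗ₜ[ℤ] χ, ?_⟩
    rw [← one_tmul_smul, ← TensorProduct.tmul_add, ← hχ, TensorProduct.tmul_zero,
      LinearMap.zero_apply]
  have h3 := LinearMap.congr_fun h2 y
  rw [LinearMap.add_apply, LinearMap.sub_apply, LinearMap.sub_apply, LinearMap.comp_apply,
    LinearMap.id_apply, LinearMap.zero_apply] at h3
  rw [h1, h1, h1, ← map_sub, ← map_sub, ← map_add, h3, map_zero]

end O

end

end Fermat.Agent.TW
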